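import Fermat.Agent.TwoAdic.TSide.Semisimple
import Fermat.Agent.HeckeSemisimple.Bound

/-!
# An integral polynomial separating `(κ T_b)²` from `(b + 1)²`

At a prime `b` outside the level the eigenvalues of `T_b` on forms are smaller than `b + 1`; so some
`r ∈ ℤ[X]` with `r ((b + 1)²) ≠ 0` kills `(κ T_b)²` on classes with characters `∏ ψ_q²`,
`κ² ∏ ψ_q(b)² = 1`.
-/

set_option autoImplicit false

noncomputable section

open Polynomial CongruenceSubgroup

namespace Fermat.Agent.TwoAdic.TSide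

open HeckeJ0 HeckeModule EigenSystems Engine.TRep

/-- Integral polynomials and semilinear intertwiners. -/
theorem map_aeval_smul {R R' X Y : Type} [CommRing R] [CommRing R'] [AddCommGroup X] [Module R X]
    [AddCommGroup Y] [Module R' Y] (Φ : X →+ Y) (P : R) (P' : R')
    (h : ∀ u, Φ (P • u) = P' • Φ u) (g : ℤ[X]) (u : X) :
    Φ (aeval P g • u) = aeval P' g • Φ u := by
  induction g using Polynomial.induction_on' generalizing u with
  | add g g' hg hg' => simp only [map_add, add_smul, hg, hg']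
  | monomial i r =>
    have hpow : ∀ (j : ℕ) (v : X), Φ (P ^ j • v) = P' ^ j • Φ v := by
      intro j
      induction j with
      | zero => intro v; rw [pow_zero, pow_zero, one_smul, one_smul]
      | succ j ih => intro v; rw [pow_succ, pow_succ, mul_smul, mul_smul, ih, h]
    rw [aeval_monomial, aeval_monomial, algebraMap_int_eq, algebraMap_int_eq, eq_intCast,
      eq_intCast, mul_smul, mul_smul, Int.cast_smul_eq_zsmul, Int.cast_smul_eq_zsmul, map_zsmul,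
      hpow]

/-- An integral polynomial killing `T_b²` on forms without the root `(b + 1)²`. -/
theorem exists_poly_sq_forms {N b : ℕ} (hb : b.Prime) (hbN : ¬ b ∣ N) :
    ∃ g : ℤ[X], g.eval (((b : ℤ) + 1) ^ 2) ≠ 0 ∧
      aeval (CuspForm.heckeTLin 2 hb hbN : Module.End ℂ (CuspForm (Gamma0 N) 2))
        (g.comp (X ^ 2)) = 0 := by
  have : NeZero N := ⟨fun h => hbN (h ▸ dvd_zero b)⟩
  have := Fact.mk hb
  set T : Module.End ℂ (CuspForm (Gamma0 N) 2) := CuspForm.heckeTLin 2 hb hbN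
  have hint : IsIntegral ℤ T := by
    have := HeckeFinite.finite_heckeAlgebra N 2 (∅ : Set ℕ)
    exact (Algebra.IsIntegral.isIntegral (R := ℤ)
      (⟨T, CuspForm.heckeTLin_mem_heckeAlgebra hb hbN (by simp)⟩ :
        CuspForm.heckeAlgebra N 2 ∅)).map (CuspForm.heckeAlgebra N 2 ∅).val
  obtain ⟨g₀, hm, hg₀⟩ := hint.pow 2
  set C₀ : ℤ := ((b : ℤ) + 1) ^ 2
  obtain ⟨g, hg, hnd⟩ :=
    Polynomial.exists_eq_pow_rootMultiplicity_mul_and_not_dvd g₀ hm.ne_zero C₀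
  refine ⟨g, fun h => hnd (dvd_iff_isRoot.mpr h), ?_⟩
  have hinj : Function.Injective (aeval (T ^ 2) (X - C C₀) : Module.End ℂ _) := by
    refine (injective_iff_map_eq_zero _).mpr fun f hf => ?_
    have hone : ∀ (c : ℂ), ‖c‖ = (b : ℝ) + 1 → ∀ f' : CuspForm (Gamma0 N) 2,
        T f' = c • f' → f' = 0 := fun c hc f' hf' =>
      HeckeSemisimple.eq_zero_of_heckeT_eigen f' hc.ge
        ((CuspForm.coe_heckeTLin_apply 2 hb hbN f').symm.trans
          ((congrArg DFunLike.coe hf').trans (FunLike.coe_smul c f')))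
    have hnorm : ‖((b : ℂ) + 1)‖ = (b : ℝ) + 1 := by
      rw [show (b : ℂ) + 1 = (((b : ℝ) + 1 : ℝ) : ℂ) by push_cast; rfl, Complex.norm_real,
        Real.norm_of_nonneg (by positivity)]
    rw [map_sub, aeval_X, aeval_C, LinearMap.sub_apply, Module.algebraMap_end_apply, pow_two,
      Module.End.mul_apply, sub_eq_zero, ← Int.cast_smul_eq_zsmul ℂ] at hf
    have h1 : T f + ((b : ℂ) + 1) • f = 0 := by
      refine hone _ hnorm _ ?_
      rw [map_add, map_smul, hf, smul_add, smul_smul]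
      simp only [C₀]
      push_cast
      rw [pow_two]
      abel
    exact hone (-((b : ℂ) + 1)) (by rw [norm_neg, hnorm]) f (by
      rw [neg_smul, eq_neg_iff_add_eq_zero, h1])
  have hpow : Function.Injective
      ((aeval (T ^ 2) (X - C C₀) : Module.End ℂ _) ^ g₀.rootMultiplicity C₀) := by
    rw [Module.End.coe_pow]
    exact hinj.iterate _
  have hzero : aeval (T ^ 2) g = 0 := by
    refine LinearMap.ext fun f => hpow ?_
    rw [LinearMap.zero_apply, map_zero, ← Module.End.mul_apply, ← map_pow, ← map_mul, ← hg]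
    exact LinearMap.congr_fun hg₀ f
  rw [aeval_comp, map_pow, aeval_X]
  exact hzero

/-- One polynomial for all the levels `N ∏ Q'`, `Q' ⊆ Q`. -/
theorem exists_poly_sq_levels {b : ℕ} (hb : b.Prime) (N : ℕ) (Q : Finset ℕ) :
    ∃ g : ℤ[X], g.eval (((b : ℤ) + 1) ^ 2) ≠ 0 ∧ ∀ Q' ⊆ Q, ∀ h : ¬ b ∣ N * ∏ q ∈ Q', q,
      aeval (CuspForm.heckeTLin 2 hb h : Module.End ℂ (CuspForm (Gamma0 (N * ∏ q ∈ Q', q)) 2))
        (g.comp (X ^ 2)) = 0 := by
  classical
  have hex : ∀ Q' : Finset ℕ, ∃ g : ℤ[X], g.eval (((b : ℤ) + 1) ^ 2) ≠ 0 ∧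
      ∀ h : ¬ b ∣ N * ∏ q ∈ Q', q,
        aeval (CuspForm.heckeTLin 2 hb h : Module.End ℂ (CuspForm (Gamma0 (N * ∏ q ∈ Q', q)) 2))
          (g.comp (X ^ 2)) = 0 := fun Q' => by
    by_cases h : b ∣ N * ∏ q ∈ Q', q
    · exact ⟨1, by simp, fun h' => absurd h h'⟩
    · obtain ⟨g, hg, hg'⟩ := exists_poly_sq_forms hb h
      exact ⟨g, hg, fun _ => hg'⟩
  choose g hg hg' using hex
  refine ⟨∏ Q' ∈ Q.powerset, g Q', ?_, fun Q' hQ' h => ?_⟩
  · rw [eval_prod]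
    exact Finset.prod_ne_zero_iff.mpr fun Q' _ => hg Q'
  · rw [← Finset.prod_erase_mul _ _ (Finset.mem_powerset.mpr hQ'), mul_comp, map_mul, hg' Q' h,
      mul_zero]

/-- `(κ T_b)²`. -/
def scaledSq {R : Type} [CommRing R] (κ : R) (b : ℕ) [hb : Fact b.Prime] : HeckePoly R :=
  (MvPolynomial.C κ * MvPolynomial.X (⟨b, hb.out⟩ : Nat.Primes)) ^ 2

theorem scaledSq_map {R R' : Type} [CommRing R] [CommRing R'] (θ : R →+* R') (κ : R) (b : ℕ)
    [hb : Fact b.Prime] : MvPolynomial.map θ (scaledSq κ b) = scaledSq (θ κ) b := by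
  unfold scaledSq
  exact (map_pow (MvPolynomial.map θ) _ 2).trans (congrArg (· ^ 2)
    ((map_mul (MvPolynomial.map θ) _ _).trans
      (congrArg₂ HMul.hMul (MvPolynomial.map_C θ κ) (MvPolynomial.map_X θ _))))

theorem scaledSq_smul {R : Type} [CommRing R] {N : ℕ} {A : Type} [AddCommGroup A] [Module R A]
    {ρ : Representation R (ZMod N)ˣ A} (κ : R) (b : ℕ) [hb : Fact b.Prime] (u : Coh1 ρ) :
    scaledSq κ b • u = (κ * κ) • heckeOp ρ b (heckeOp ρ b u) := by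
  have h1 : ∀ v : Coh1 ρ, (MvPolynomial.C κ * MvPolynomial.X (⟨b, hb.out⟩ : Nat.Primes) :
      HeckePoly R) • v = κ • heckeOp ρ b v := fun v =>
    (mul_smul _ _ v).trans ((congrArg _ (X_smul ρ b v)).trans
      (algebraMap_smul (HeckePoly R) κ (heckeOp ρ b v)))
  unfold scaledSq
  refine (congrArg (· • u) (pow_two _)).trans ((mul_smul _ _ u).trans ((h1 _).trans ?_))
  exact (congrArg (κ • heckeOp ρ b ·) (h1 u)).trans (by rw [map_smul, smul_smul])

variable {N : ℕ} [NeZero N] {b r : ℕ} [hb : Fact b.Prime] [hr : Fact r.Prime]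

section Field

variable {K : Type} [Field K] [CharZero K] (ψ : ∀ q : ℕ, (ZMod q)ˣ →* K)

/-- The polynomial kills Eisenstein multiples over a field. -/
theorem eisen_mul_aeval_smul_eq_zero_field (Q : Finset ℕ)
    (hQ : ∀ q ∈ Q, q.Prime ∧ q ∣ N ∧ ¬ q * q ∣ N) (hbN : ¬ b ∣ N)
    (hr1 : (r : ZMod (N * ∏ q ∈ Q, q)) = 1) (hrN : ¬ r ∣ N) {κ : K}
    (hκ : κ ^ 2 * charProd ψ Q b ^ 2 = 1) {g : ℤ[X]}
    (hg : ∀ Q' ⊆ Q, ∀ h : ¬ b ∣ N * ∏ q ∈ Q', q,
      aeval (CuspForm.heckeTLin 2 hb.out h :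
        Module.End ℂ (CuspForm (Gamma0 (N * ∏ q ∈ Q', q)) 2)) (g.comp (X ^ 2)) = 0)
    (u : Coh1 (scalarRep (charSq ψ Q N) K)) :
    (eisen K r * aeval ((MvPolynomial.C κ * MvPolynomial.X ((⟨b, hb.out⟩ : Nat.Primes)) : HeckePoly K) ^ 2) g) • u
      = 0 := by
  set Q' := sqSupport ψ Q
  have hQ' : ∀ q ∈ Q', q.Prime ∧ q ∣ N ∧ ¬ q * q ∣ N := fun q h => hQ q (sqSupport_subset ψ Q h)
  have hnd : ∀ ℓ : ℕ, ℓ.Prime → ¬ ℓ ∣ N → ¬ ℓ ∣ N * ∏ q ∈ Q', q := fun ℓ hℓ hℓN h => by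
    rcases hℓ.dvd_mul.mp h with h | h
    · exact hℓN h
    · obtain ⟨q, hq, hlq⟩ := (Prime.dvd_finsetProd_iff hℓ.prime _).mp h
      exact hℓN ((Nat.prime_dvd_prime_iff_eq hℓ (hQ' q hq).1).mp hlq ▸ (hQ' q hq).2.1)
  have : NeZero (N * ∏ q ∈ Q', q) := ⟨mul_ne_zero (NeZero.ne N)
    (Finset.prod_ne_zero_iff.mpr fun q hq => (hQ' q hq).1.ne_zero)⟩
  have hex := exists_twistChain_ne ψ Q' N _ rfl hQ' fun q hq => sq_ne_one_of_mem_sqSupport ψ hq
  rw [charSq_sqSupport] at hex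
  obtain ⟨Φ, hinj, hΦ⟩ := hex
  have hsq : charProd ψ Q' b ^ 2 = charProd ψ Q b ^ 2 := by
    rw [charProd, charProd, ← Finset.prod_pow, ← Finset.prod_pow]
    refine Finset.prod_subset (sqSupport_subset ψ Q) fun q hq h => ?_
    unfold charAt
    split
    · exact DFunLike.congr_fun (sq_eq_one_of_notMem_sqSupport ψ hq h) _
    · rw [one_pow]
  have hX : ∀ u, Φ (scaledSq κ b • u) = scaledSq (1 : K) b • Φ u := fun u => by
    rw [scaledSq_smul, scaledSq_smul, map_smul, hΦ b (hnd b hb.out hbN), hΦ b (hnd b hb.out hbN),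
      map_smul, smul_smul, smul_smul,
      show κ * κ * charProd ψ Q' b * charProd ψ Q' b = κ ^ 2 * charProd ψ Q' b ^ 2 by ring,
      hsq, hκ, mul_one]
  have hE : ∀ v, Φ (eisen K r • v) = eisen K r • Φ v := fun v => by
    have : NeZero r := ⟨hr.out.ne_zero⟩
    rw [eisen_smul, eisen_smul, map_sub, map_smul, hΦ r (hnd r hr.out hrN),
      charProd_eq_one ψ fun q hq => ?_, one_smul]
    have := congrArg (ZMod.castHom
      ((hQ q (sqSupport_subset ψ Q hq)).2.1.mul_right _) (ZMod q)) hr1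
    rwa [map_natCast, map_one] at this
  have hr1' : (r : ZMod (N * ∏ q ∈ Q', q)) = 1 := by
    have h := congrArg (ZMod.castHom (mul_dvd_mul_left N
      (Finset.prod_dvd_prod_of_subset _ _ _ (sqSupport_subset ψ Q))) (ZMod (N * ∏ q ∈ Q', q))) hr1
    rwa [map_natCast, map_one] at h
  refine hinj ?_
  have hmap : Φ (aeval (scaledSq κ b) g • u) = aeval (scaledSq (1 : K) b) g • Φ u :=
    map_aeval_smul Φ.toAddMonoidHom _ _ hX g u
  refine (congrArg Φ (mul_smul _ _ u)).trans ((hE _).trans ((congrArg _ hmap).trans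
    ((smul_comm _ _ _).trans ?_)))
  rw [map_zero, show scaledSq (1 : K) b =
    aeval (MvPolynomial.X (⟨b, hb.out⟩ : Nat.Primes) : HeckePoly K) (X ^ 2 : ℤ[X]) by
      rw [scaledSq, map_one, one_mul, map_pow, aeval_X]; rfl,
    ← aeval_comp]
  have h := HeckeSemisimple.aeval_eisen_smul_eq_zero (ρ := trivRep (N * ∏ q ∈ Q', q) K K)
    (fun _ => rfl) (hnd b hb.out hbN) (hg Q' (sqSupport_subset ψ Q) _) hr1' (Φ u)
  have e := Polynomial.aeval_algHom_apply
    ((heckeHom (trivRep (N * ∏ q ∈ Q', q) K K)).restrictScalars ℤ)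
    (MvPolynomial.X (⟨b, hb.out⟩ : Nat.Primes)) (g.comp (X ^ 2))
  have hX' : ((heckeHom (trivRep (N * ∏ q ∈ Q', q) K K)).restrictScalars ℤ)
      (MvPolynomial.X (⟨b, hb.out⟩ : Nat.Primes)) = heckeOp _ b := heckeHom_X _ ((⟨b, hb.out⟩ : Nat.Primes))
  exact (DFunLike.congr_fun (e.symm.trans (congrArg
    (fun T : Module.End K (Coh1 (trivRep (N * ∏ q ∈ Q', q) K K)) => aeval T (g.comp (X ^ 2)))
      hX')) _).trans h

end Field

section Ring

variable {Λ : Type} [CommRing Λ] [IsReduced Λ] [Module.IsTorsionFree ℤ Λ]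
  (ψ : ∀ q : ℕ, (ZMod q)ˣ →* Λ) (Q : Finset ℕ)

/-- The polynomial kills Eisenstein multiples over a reduced ring without torsion. -/
theorem eisen_sq_mul_aeval_smul_eq_zero (hQ : ∀ q ∈ Q, q.Prime ∧ q ∣ N ∧ ¬ q * q ∣ N)
    (hbN : ¬ b ∣ N) (hr1 : (r : ZMod (N * ∏ q ∈ Q, q)) = 1) (hrN : ¬ r ∣ N) {κ : Λ}
    (hκ : κ ^ 2 * charProd ψ Q b ^ 2 = 1) {g : ℤ[X]}
    (hg : ∀ Q' ⊆ Q, ∀ h : ¬ b ∣ N * ∏ q ∈ Q', q,
      aeval (CuspForm.heckeTLin 2 hb.out h :
        Module.End ℂ (CuspForm (Gamma0 (N * ∏ q ∈ Q', q)) 2)) (g.comp (X ^ 2)) = 0)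
    (u : Coh1 (scalarRep (charSq ψ Q N) Λ)) :
    (eisen Λ r *
      (eisen Λ r * aeval (scaledSq κ b) g)) • u
      = 0 := by
  rw [mul_smul]
  obtain ⟨c₀, rfl⟩ := toCoh_surjective _ u
  obtain ⟨c', hc'⟩ := toCoh_surjective (scalarRep (charSq ψ Q N) Λ)
    ((eisen Λ r * aeval (scaledSq κ b) g) • toCoh (scalarRep (charSq ψ Q N) Λ) c₀)
  have hr1' : (r : ZMod N) = 1 := by
    have h := congrArg (ZMod.castHom (dvd_mul_right N (∏ q ∈ Q, q)) (ZMod N)) hr1
    rwa [map_natCast, map_one] at h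
  rw [← hc']
  refine eisen_smul_eq_zero_of_fields _ hr1' c' fun K _ _ θ => ?_
  have key : ∀ χ : (ZMod N)ˣ →* K, χ = charSq (fun q => θ.toMonoidHom.comp (ψ q)) Q N →
      ∀ v : Coh1 (scalarRep χ K), MvPolynomial.map θ (eisen Λ r * aeval (scaledSq κ b) g) • v = 0 := by
    rintro χ rfl v
    have hmap : MvPolynomial.map θ (aeval (scaledSq κ b) g) = aeval (scaledSq (θ κ) b : HeckePoly K) g := by
      refine ((Polynomial.aeval_algHom_apply ((MvPolynomial.map θ).toIntAlgHom) (scaledSq κ b) g).symm).trans ?_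
      exact congrArg (fun z => aeval z g) (scaledSq_map θ κ b)
    rw [map_mul, eisen_map, hmap]
    refine eisen_mul_aeval_smul_eq_zero_field _ Q hQ hbN hr1 hrN ?_ hg v
    have h := congrArg θ hκ
    rw [map_mul, map_pow, map_pow, map_one,
      ← MonoidHom.coe_coe θ, ← charProd_map ψ (θ : Λ →* K)] at h
    exact h
  have hz := (push_smul (charSq ψ Q N) θ _ c₀ c' hc'.symm).trans
    (key _ (charSq_map ψ θ.toMonoidHom Q N).symm _)
  obtain ⟨e, he⟩ := (toCoh_eq_zero_iff _).mp hz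
  exact ⟨e, he⟩

/-- **The polynomial kills localised classes.** -/
theorem aeval_smul_eq_zero_loc (hQ : ∀ q ∈ Q, q.Prime ∧ q ∣ N ∧ ¬ q * q ∣ N)
    (hbN : ¬ b ∣ N) (hr1 : (r : ZMod (N * ∏ q ∈ Q, q)) = 1) (hrN : ¬ r ∣ N)
    {χ : (ZMod N)ˣ →* Λ} (hχ : χ = charSq ψ Q N) {P : Submonoid (HeckePoly Λ)}
    (hP : eisen Λ r ∈ P) {κ : Λ} (hκ : κ ^ 2 * charProd ψ Q b ^ 2 = 1) {g : ℤ[X]}
    (hg : ∀ Q' ⊆ Q, ∀ h : ¬ b ∣ N * ∏ q ∈ Q', q,
      aeval (CuspForm.heckeTLin 2 hb.out h :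
        Module.End ℂ (CuspForm (Gamma0 (N * ∏ q ∈ Q', q)) 2)) (g.comp (X ^ 2)) = 0)
    (x : CohLoc P (scalarRep χ Λ)) :
    aeval (scaledSq κ b) g • x = 0 := by
  subst hχ
  induction x using LocalizedModule.induction_on with
  | _ u s =>
    rw [LocalizedModule.smul'_mk, ← LocalizedModule.zero_mk s, LocalizedModule.mk_eq]
    refine ⟨⟨_, P.mul_mem hP hP⟩, ?_⟩
    simp only [Submonoid.smul_def, smul_zero]
    rw [← smul_zero (s : HeckePoly Λ), ← eisen_sq_mul_aeval_smul_eq_zero ψ Q hQ hbN hr1 hrN hκ hg u]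
    simp only [smul_smul]
    congr 1
    ring

end Ring

end Fermat.Agent.TwoAdic.TSide
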