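import Fermat.Agent.TwoAdic.TSide.PointPair
import Fermat.Agent.TwoAdic.Route.Setup
import Fermat.Agent.TwoAdic.TopPrimes
import Fermat.Agent.TwoAdic.TopData

/-!
# The hypotheses of pairs at base setups and their Taylor–Wiles levels

A setup with core `∏ Qs · ℓ₀ · ∏ Rc`, the auxiliary modulus `∏ Qs`, level primes `(D ∖ ℓ₀) ∪ aux`
and the signs of the problem scaled by the characters satisfies `PairHyp`.
-/

set_option autoImplicit false

noncomputable section

open IsLocalRing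

namespace Fermat.Agent.TwoAdic.TSide

open HeckeModule EigenSystems Engine.TRep HeckeJ0 LevelRaising Fermat.Agent.DefRing
  Fermat.Agent.Deform

attribute [local instance] ALSetup.isPrime

local notation "Ω" => AlgebraicClosure ℚ
local notation "GQ" => (AlgebraicClosure ℚ) ≃ₐ[ℚ] (AlgebraicClosure ℚ)

/-- A product of distinct primes is squarefree. -/
theorem squarefree_prodOf {s : Finset ℕ} (hs : ∀ q ∈ s, q.Prime) : Squarefree (prodOf s) := by
  classical
  induction s using Finset.induction_on with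
  | empty => simp
  | insert q s hq ih =>
    have hs' : ∀ r ∈ s, r.Prime := fun r hr => hs r (Finset.mem_insert_of_mem hr)
    have hqp := hs q (Finset.mem_insert_self q s)
    show Squarefree ((insert q s).prod id)
    rw [Finset.prod_insert hq, Nat.squarefree_mul_iff]
    refine ⟨(Nat.Prime.coprime_iff_not_dvd hqp).mpr fun h => hq ?_, hqp.squarefree, ih hs'⟩
    obtain ⟨r, hr, hqr⟩ := (hqp.prime.dvd_finsetProd_iff _).mp h
    exact (Nat.prime_dvd_prime_iff_eq hqp (hs' r hr)).mp hqr ▸ hr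

variable {E : LiftData} {Qs Rc V : Finset ℕ}

/-- The primes of the levels in question. -/
def shapePrimes (E : LiftData) (Qs Rc V : Finset ℕ) : Finset ℕ :=
  Qs ∪ insert E.ℓ₀ (Rc ∪ V)

/-- The level shape: the primes are distinct. -/
structure LevelShape (E : LiftData) (Qs Rc V : Finset ℕ) : Prop where
  q_spec : ∀ x ∈ Qs, x.Prime ∧ ¬ x ∣ E.D ∧ x ∉ E.aux ∧ x ∉ Rc
  r_spec : ∀ x ∈ Rc, x.Prime ∧ ¬ x ∣ E.D ∧ x ∉ E.aux
  v_eq : V = E.D.primeFactors.erase E.ℓ₀ ∪ E.aux

theorem LevelShape.v_spec (h : LevelShape E Qs Rc V) {x : ℕ} (hx : x ∈ V) :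
    x.Prime ∧ (x ∣ E.D ∨ x ∈ E.aux) ∧ x ≠ E.ℓ₀ := by
  rw [h.v_eq, Finset.mem_union] at hx
  rcases hx with hx | hx
  · exact ⟨Nat.prime_of_mem_primeFactors (Finset.mem_of_mem_erase hx),
      Or.inl (Nat.dvd_of_mem_primeFactors (Finset.mem_of_mem_erase hx)), Finset.ne_of_mem_erase hx⟩
  · exact ⟨(E.aux_spec x hx).1, Or.inr hx, fun e => (E.aux_spec x hx).2.2 (e ▸ E.dvd_ℓ₀)⟩

theorem LevelShape.prime (h : LevelShape E Qs Rc V) :
    ∀ x ∈ shapePrimes E Qs Rc V, x.Prime := by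
  intro x hx
  simp only [shapePrimes, Finset.mem_union, Finset.mem_insert] at hx
  rcases hx with hx | rfl | hx | hx
  · exact (h.q_spec x hx).1
  · exact E.prime_ℓ₀
  · exact (h.r_spec x hx).1
  · exact (h.v_spec hx).1

theorem LevelShape.prod_eq (h : LevelShape E Qs Rc V) :
    prodOf Qs * (E.ℓ₀ * prodOf Rc) * prodOf V = prodOf (shapePrimes E Qs Rc V) := by
  classical
  have h1 : Disjoint Rc V := Finset.disjoint_left.mpr fun x hx hv => by
    obtain ⟨-, hd | ha, -⟩ := h.v_spec hv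
    · exact (h.r_spec x hx).2.1 hd
    · exact (h.r_spec x hx).2.2 ha
  have h2 : E.ℓ₀ ∉ Rc ∪ V := fun hm => by
    rcases Finset.mem_union.mp hm with hm | hm
    · exact (h.r_spec _ hm).2.1 E.dvd_ℓ₀
    · exact (h.v_spec hm).2.2 rfl
  have h3 : Disjoint Qs (insert E.ℓ₀ (Rc ∪ V)) := Finset.disjoint_left.mpr fun x hx hm => by
    rcases Finset.mem_insert.mp hm with rfl | hm
    · exact (h.q_spec _ hx).2.1 E.dvd_ℓ₀
    rcases Finset.mem_union.mp hm with hm | hm
    · exact (h.q_spec x hx).2.2.2 hm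
    obtain ⟨-, hd | ha, -⟩ := h.v_spec hm
    · exact (h.q_spec x hx).2.1 hd
    · exact (h.q_spec x hx).2.2.1 ha
  simp only [prodOf, shapePrimes, Finset.prod_union h3, Finset.prod_insert h2,
    Finset.prod_union h1, id]
  ring

variable {R : Type} [CommRing R] [IsLocalRing R] {T : ALSetup R} {S : Finset ℕ}
  {ψ : ∀ q : ℕ, (ZMod q)ˣ →* R}

theorem LevelShape.level_eq (h : LevelShape E Qs Rc V)
    (hcore : T.core = prodOf Qs * (E.ℓ₀ * prodOf Rc)) :
    T.level V = prodOf (shapePrimes E Qs Rc V) := by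
  rw [← h.prod_eq, ← hcore]

theorem LevelShape.not_sq_dvd (h : LevelShape E Qs Rc V)
    (hcore : T.core = prodOf Qs * (E.ℓ₀ * prodOf Rc)) {q : ℕ} (hq : q.Prime) :
    ¬ q * q ∣ T.level V := fun hd =>
  hq.not_isUnit ((squarefree_prodOf h.prime) q (h.level_eq hcore ▸ hd))

theorem LevelShape.mem_of_dvd (h : LevelShape E Qs Rc V)
    (hcore : T.core = prodOf Qs * (E.ℓ₀ * prodOf Rc)) {q : ℕ} (hq : q.Prime)
    (hd : q ∣ T.level V) : q ∈ shapePrimes E Qs Rc V := by
  rw [h.level_eq hcore] at hd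
  obtain ⟨r, hr, hqr⟩ := (hq.prime.dvd_finsetProd_iff _).mp hd
  exact (Nat.prime_dvd_prime_iff_eq hq (h.prime r hr)).mp hqr ▸ hr

variable {O : Type} [CommRing O] [IsLocalRing O] [CharP (ResidueField O) 2] {D : NormalData O}

/-- **`PairHyp` at a level of the shape.** -/
theorem pairHyp_of_shape {C : Set (GQ × GQ)} (hdih : IsDihedralResidual E.D D.rbar)
    (hcont : IsCont D.rbar) (hC : ∀ x ∈ C, ∃ K : Pair.KummerPair, x = (K.s, K.t))
    (hRtr : ∀ q ∈ Rc, ∀ P : ValuationSubring Ω, P.LiesOverPrime q →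
      ∀ φ : GQ, P.IsFrobeniusAt φ q → (D.rbar φ).trace = 1)
    (h : LevelShape E Qs Rc V) (hcore : T.core = prodOf Qs * (E.ℓ₀ * prodOf Rc))
    (hM : T.M = prodOf Qs) {B : Finset ℕ} (hB : E.aux ⊆ B) (h2S : 2 ∉ S)
    (hc : ∀ e ∈ V, T.c e = -(E.sgn e : R) * charProd ψ Qs e) :
    PairHyp D E C T ψ S Qs V B := by
  have hnew : ∀ q : ℕ, q.Prime → ((q ∣ E.D ∧ q ≠ E.ℓ₀) ∨ q ∈ E.aux) → q ∈ V := fun q hq hd => by
    rw [h.v_eq, Finset.mem_union]
    exact hd.imp (fun hd => Finset.mem_erase.mpr ⟨hd.2, Nat.mem_primeFactors.mpr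
      ⟨hq, hd.1, by have := E.mod_eight; omega⟩⟩) id
  refine
    { dihedral := hdih
      cont := hcont
      kummer := hC
      new_mem := hnew
      aux_mem := fun q hq => hB hq
      sign := fun q hq hd => hc q (hnew q hq hd)
      dvd_M := fun q hq => hM ▸ Finset.dvd_prod_of_mem id hq
      two_notMem := h2S
      ell_exact := h.not_sq_dvd hcore E.prime_ℓ₀
      ell_notMem := fun hl => (h.q_spec _ hl).2.1 E.dvd_ℓ₀
      core := fun q hq hd hqD hqa hqQ => ⟨h.not_sq_dvd hcore hq, fun A hA f hf => ?_⟩ }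
  have hm := h.mem_of_dvd hcore hq hd
  simp only [shapePrimes, Finset.mem_union, Finset.mem_insert] at hm
  rcases hm with hm | hm | hm | hm
  · exact absurd hm hqQ
  · exact absurd (hm ▸ E.dvd_ℓ₀) hqD
  · rw [hRtr q hm A hA f hf]
    exact one_ne_zero
  · exact absurd (h.v_spec hm).2.1 (by tauto)

omit [CharP (ResidueField O) 2] in
/-- The level shape of a base setup with the auxiliary primes `E'.aux ⊇ E.aux` and a tuple. -/
theorem levelShape_of_corePrimes {E' : LiftData} {X : Finset ℕ} {k : Type} [Field k] {r : MRep k}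
    (hR : TopDown.CorePrimes E' r Rc X) (hD : E'.D = E.D) (haux : E.aux ⊆ E'.aux)
    (hQ : ∀ x ∈ Qs, x.Prime ∧ ¬ x ∣ E.D ∧ x ∉ E.aux ∧ x ∉ Rc) :
    LevelShape E Qs Rc (E.D.primeFactors.erase E.ℓ₀ ∪ E.aux) where
  q_spec := hQ
  r_spec x hx := ⟨hR.prime x hx, fun hd => (hR.fresh x hx).2.1 ((hD ▸ hd).mul_left 2),
    fun ha => (hR.fresh x hx).2.2 (haux ha)⟩
  v_eq := rfl

section Base

variable {O : Type} [CommRing O] [IsLocalRing O] [CharP (ResidueField O) 2] {D : NormalData O}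

/-- `PairHyp` at a stage of a base setup, any excluded set without `2`. -/
theorem pairHyp_of_base {E' : LiftData} {X : Finset ℕ} {C : Set (GQ × GQ)}
    (hdih : IsDihedralResidual E.D D.rbar) (hcont : IsCont D.rbar)
    (hC : ∀ x ∈ C, ∃ K : Pair.KummerPair, x = (K.s, K.t))
    (hR : TopDown.CorePrimes E' D.rbar Rc X) (hD : E'.D = E.D) (haux : E.aux ⊆ E'.aux)
    (hsgn : ∀ e ∈ E.D.primeFactors.erase E.ℓ₀ ∪ E.aux, E'.sgn e = E.sgn e)
    (T : ALSetup O) (hcore : T.core = E.ℓ₀ * prodOf Rc) (hM : T.M = 1)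
    (hc : ∀ e, T.c e = -(E'.sgn e : O)) {B : Finset ℕ} (hB : E.aux ⊆ B) {S : Finset ℕ}
    (h2S : 2 ∉ S) :
    PairHyp D E C T (fun _ => (1 : _ →* O)) S ∅ (E.D.primeFactors.erase E.ℓ₀ ∪ E.aux) B :=
  pairHyp_of_shape hdih hcont hC hR.trace
    (levelShape_of_corePrimes hR hD haux fun x hx => absurd hx (Finset.notMem_empty x))
    (by rw [prodOf_empty, one_mul, hcore]) (by rw [prodOf_empty, hM]) hB h2S
    fun e he => by rw [hc, hsgn e he, charProd, Finset.prod_empty, mul_one]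

end Base

section Levels

variable {O : Type} [CommRing O] [IsLocalRing O] [CharP (ResidueField O) 2] {D : NormalData O}

/-- `PairHyp` and the level shape at a Taylor–Wiles level of a base setup, in the terms of
`TSideAction`. -/
theorem pairHyp_of_twLevel {R : Type} [CommRing R] [IsLocalRing R] {E' : LiftData} {X : Finset ℕ}
    {C : Set (GQ × GQ)}
    (hdih : IsDihedralResidual E.D D.rbar) (hcont : IsCont D.rbar)
    (hC : ∀ x ∈ C, ∃ K : Pair.KummerPair, x = (K.s, K.t))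
    (hR : TopDown.CorePrimes E' D.rbar Rc X) (hD : E'.D = E.D) (haux : E.aux ⊆ E'.aux)
    (hsgn : ∀ e ∈ E.D.primeFactors.erase E.ℓ₀ ∪ E.aux, E'.sgn e = E.sgn e)
    (hQ : ∀ x ∈ Qs, x.Prime ∧ ¬ x ∣ E.D ∧ x ∉ E.aux ∧ x ∉ Rc)
    (T : ALSetup O) (hcore : T.core = E.ℓ₀ * prodOf Rc) (hc : ∀ e, T.c e = -(E'.sgn e : O))
    (hV : E.D.primeFactors.erase E.ℓ₀ ∪ E.aux ⊆ T.W) (κ : O →+* R)
    (T' : ALSetup R) (hcore' : T'.core = prodOf Qs * T.core) (hM' : T'.M = prodOf Qs)
    (hW' : T'.W = T.W) {ψ : ∀ q : ℕ, (ZMod q)ˣ →* R}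
    (hc' : ∀ e ∈ T'.W, T'.c e = κ (T.c e) * charProd ψ Qs e)
    {B : Finset ℕ} (hB : E.aux ⊆ B) {S : Finset ℕ} (h2S : 2 ∉ S) :
    PairHyp D E C T' ψ S Qs (E.D.primeFactors.erase E.ℓ₀ ∪ E.aux) B :=
  pairHyp_of_shape hdih hcont hC hR.trace (levelShape_of_corePrimes hR hD haux hQ)
    (by rw [hcore', hcore]) hM' hB h2S
    fun e he => by rw [hc' e (hW' ▸ hV he), hc, hsgn e he, map_neg, map_intCast]

open scoped Classical in
omit [CharP (ResidueField O) 2] in
/-- The primes of the levels lie in the set used by the action. -/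
theorem shapePrimes_subset {E' : LiftData} {X : Finset ℕ} {k : Type} [Field k] {r : MRep k}
    (hR : TopDown.CorePrimes E' r Rc X) (T : ALSetup O) (hcore : T.core = E.ℓ₀ * prodOf Rc)
    (hV : E.D.primeFactors.erase E.ℓ₀ ∪ E.aux ⊆ T.W) (S₀ : Finset ℕ)
    (hlev : (T.level T.W).primeFactors ⊆ S₀) :
    shapePrimes E Qs Rc (E.D.primeFactors.erase E.ℓ₀ ∪ E.aux) ⊆ S₀.erase 2 ∪ Qs := by
  have h0 := T.level_ne_zero (subset_refl T.W)
  have key : ∀ x : ℕ, x.Prime → x ∣ T.core * prodOf T.W → x ≠ 2 → x ∈ S₀.erase 2 ∪ Qs :=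
    fun x hx hd h2 => Finset.mem_union_left _ (Finset.mem_erase.mpr
      ⟨h2, hlev (Nat.mem_primeFactors.mpr ⟨hx, hd, h0⟩)⟩)
  intro x hx
  simp only [shapePrimes, Finset.mem_union, Finset.mem_insert] at hx
  rcases hx with hx | hx | hx | hx
  · exact Finset.mem_union_right _ hx
  · subst hx
    refine key _ E.prime_ℓ₀ ((hcore ▸ dvd_mul_right _ _).mul_right _) fun h => ?_
    have := E.mod_eight; have := E.dvd_ℓ₀; rw [h] at this; omega
  · refine key x (hR.prime x hx) ((hcore ▸ (Finset.dvd_prod_of_mem id hx).mul_left _).mul_right _)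
      fun h => ?_
    have := hR.mod_four x hx
    omega
  · have hxW : x ∈ T.W := hV (Finset.mem_union.mpr hx)
    refine key x (T.prime x hxW) ((Finset.dvd_prod_of_mem id hxW).mul_left _) fun h => ?_
    rcases hx with hx | hx
    · have h1 := Nat.dvd_of_mem_primeFactors (Finset.mem_of_mem_erase hx)
      have := E.mod_eight
      subst h; omega
    · exact (E.aux_spec x hx).2.1 h

end Levels

end Fermat.Agent.TwoAdic.TSide

end
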