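import Fermat.Agent.TwoAdic.TSide.Semisimple
import Fermat.Agent.Engine.TRep.NilPoint

/-!
# The Hecke rings of new quotients are local

With squares of characters at the auxiliary primes (`PointHyp`), the ring generated by the operators
away from `S` on a new quotient is local; the operators outside the prime are units.
-/

set_option autoImplicit false

noncomputable section

open IsLocalRing

namespace Fermat.Agent.TwoAdic.TSide

open HeckeModule EigenSystems Engine.TRep HeckeJ0 LevelRaising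

attribute [local instance] ALSetup.isPrime

/-- The hypotheses on the primes and the character at the level of `V`. -/
structure PointHyp {R : Type} [CommRing R] [IsLocalRing R] (T : ALSetup R) (S : Finset ℕ)
    (ψ : ∀ q : ℕ, (ZMod q)ˣ →* R) (Q V : Finset ℕ) : Prop where
  subset : V ⊆ T.W
  S_eq : T.S = ↑S
  mem_S : ∀ ℓ : ℕ, ℓ.Prime → ℓ ∣ T.level V → ℓ ∈ S
  aux : ∀ q ∈ Q, q.Prime ∧ q ∣ T.core ∧ ¬ q * q ∣ T.level V
  char_eq : T.char V = charSq ψ Q (T.level V)
  eisenstein : ∃ (r : ℕ) (hr : r.Prime) (hrS : r ∉ T.S),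
    (r : ZMod (T.level V * ∏ q ∈ Q, q)) = 1 ∧
      awayX R hr hrS - MvPolynomial.C ((r : R) + 1) ∉ T.m

theorem PointHyp.exact_dvd {R : Type} [CommRing R] [IsLocalRing R] {T : ALSetup R} {S : Finset ℕ}
    {ψ : ∀ q : ℕ, (ZMod q)ˣ →* R} {Q V : Finset ℕ} (H : PointHyp T S ψ Q V) :
    ∀ q ∈ Q, q.Prime ∧ q ∣ T.level V ∧ ¬ q * q ∣ T.level V := fun q hq =>
  ⟨(H.aux q hq).1, (H.aux q hq).2.1.mul_right _, (H.aux q hq).2.2⟩

theorem PointHyp.core_mem_S {R : Type} [CommRing R] [IsLocalRing R] {T : ALSetup R} {S : Finset ℕ}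
    {ψ : ∀ q : ℕ, (ZMod q)ˣ →* R} {Q V : Finset ℕ} (H : PointHyp T S ψ Q V) {ℓ : ℕ} (hℓ : ℓ.Prime)
    (h : ℓ ∣ T.core) : ℓ ∈ T.S :=
  H.S_eq.symm ▸ H.mem_S ℓ hℓ (h.mul_right _)

/-- The hypotheses pass to faces. -/
theorem PointHyp.face {R : Type} [CommRing R] [IsLocalRing R] {T : ALSetup R} {S : Finset ℕ}
    {ψ : ∀ q : ℕ, (ZMod q)ˣ →* R} {Q V U : Finset ℕ} (H : PointHyp T S ψ Q V) (hUV : U ⊆ V) :
    PointHyp T S ψ Q U where
  subset := hUV.trans H.subset
  S_eq := H.S_eq
  mem_S ℓ hℓ h := H.mem_S ℓ hℓ (h.trans (T.level_dvd hUV))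
  aux q hq := ⟨(H.aux q hq).1, (H.aux q hq).2.1,
    fun h => (H.aux q hq).2.2 (h.trans (T.level_dvd hUV))⟩
  char_eq := by
    have : NeZero (T.level V) := ⟨T.level_ne_zero H.subset⟩
    refine MonoidHom.ext fun u => ?_
    obtain ⟨v, rfl⟩ := ZMod.unitsMap_surjective (T.level_dvd hUV) u
    rw [charSq_unitsMap ψ (fun q hq => (H.aux q hq).2.1.mul_right _) (T.level_dvd hUV),
      ← DFunLike.congr_fun H.char_eq v]
    exact congrArg T.χ (DFunLike.congr_fun
      (ZMod.unitsMap_comp (T.dvd_level U) (T.level_dvd hUV)) v)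
  eisenstein := by
    obtain ⟨r, hr, hrS, hr1, hre⟩ := H.eisenstein
    refine ⟨r, hr, hrS, ?_, hre⟩
    have := congrArg (ZMod.castHom (mul_dvd_mul_right (T.level_dvd hUV) _)
      (ZMod (T.level U * ∏ q ∈ Q, q))) hr1
    rwa [map_natCast, map_one] at this

variable {R : Type} [CommRing R] [IsLocalRing R] (T : ALSetup R) {S : Finset ℕ}
  {ψ : ∀ q : ℕ, (ZMod q)ˣ →* R} {Q V : Finset ℕ} {B : Finset ℕ}

/-- Nothing is old at no prime. -/
theorem oldSpace_empty (hV : V ⊆ T.W) : T.oldSpace R hV ∅ = ⊥ :=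
  le_bot_iff.mp (iSup_le fun b => iSup_le fun _ => iSup_le fun h => absurd h (Finset.notMem_empty b))

/-- The projection of the signed part to a new quotient. -/
def toNewQuot (hV : V ⊆ T.W) (B : Finset ℕ) : T.NewQuot R hV ∅ →ₗ[R] T.NewQuot R hV B :=
  Submodule.mapQ _ _ LinearMap.id (by rw [oldSpace_empty]; exact bot_le)

theorem toNewQuot_surjective (hV : V ⊆ T.W) (B : Finset ℕ) :
    Function.Surjective (toNewQuot T hV B) := fun y => by
  obtain ⟨y, rfl⟩ := Submodule.mkQ_surjective _ y
  exact ⟨Submodule.mkQ _ y, rfl⟩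

theorem toNewQuot_newAct (hV : V ⊆ T.W) (B : Finset ℕ) (a : AwayPoly R T.S)
    (x : T.NewQuot R hV ∅) :
    T.newAct R hV B a (toNewQuot T hV B x) = toNewQuot T hV B (T.newAct R hV ∅ a x) := by
  obtain ⟨x, rfl⟩ := Submodule.mkQ_surjective _ x
  rw [toNewQuot, Submodule.mkQ_apply, Submodule.mapQ_apply, T.newAct_mk, T.newAct_mk,
    Submodule.mapQ_apply]
  rfl

section Nilpotent

variable [IsNoetherianRing R] [IsAdicComplete (maximalIdeal R) R] [IsReduced R]
  [Module.IsTorsionFree ℤ R]

end Nilpotent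

/-- An operator outside the prime of the setup is bijective on new quotients. -/
theorem bijective_newAct (hV : V ⊆ T.W) [Module.Finite R (T.NewQuot R hV B)] {a : AwayPoly R T.S}
    (ha : a ∉ T.m) : Function.Bijective (T.newAct R hV B a) := by
  refine OrzechProperty.bijective_of_surjective_endomorphism _ fun y => ?_
  obtain ⟨y, rfl⟩ := Submodule.mkQ_surjective _ y
  have hu := IsLocalizedModule.map_units
    (LocalizedModule.mkLinearMap (awayMonoid T.m) (Coh1 (scalarRep (T.char V) R)))
    ⟨_, mem_awayMonoid ha⟩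
  rw [Module.End.isUnit_iff] at hu
  obtain ⟨z, hz⟩ := hu.2 (y : T.H V R)
  have hz' : awayIncl R T.S a • z = (y : T.H V R) := hz
  have hzs : z ∈ T.signed R hV := T.mem_signed.mpr fun e he => by
    refine hu.1 ?_
    show awayIncl R T.S a • T.w R hV e z = awayIncl R T.S a • z
    rw [show awayIncl R T.S a • T.w R hV e z = T.w R hV e (awayIncl R T.S a • z) from
      ((T.awayOp R hV a).w_op V subset_rfl e he z).symm, hz', T.mem_signed.mp y.2 e he]
  exact ⟨Submodule.mkQ _ ⟨z, hzs⟩, congrArg Submodule.Quotient.mk (Subtype.ext hz')⟩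

/-- The ring generated by the operators away from `S` on a new quotient. -/
abbrev NewRing (hV : V ⊆ T.W) (B : Finset ℕ) : Type :=
  AwayPoly R T.S ⧸ RingHom.ker (T.newAct R hV B)

/-- Its action. -/
def newRingAct (hV : V ⊆ T.W) (B : Finset ℕ) :
    NewRing T hV B →ₐ[R] Module.End R (T.NewQuot R hV B) :=
  Ideal.kerLiftAlg (T.newAct R hV B)

theorem newRingAct_injective (hV : V ⊆ T.W) (B : Finset ℕ) :
    Function.Injective (newRingAct T hV B) :=
  Ideal.kerLiftAlg_injective _

omit [IsLocalRing R] in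
/-- Invertible endomorphisms of free modules have polynomial inverses. -/
theorem exists_aeval_inverse {M : Type} [AddCommGroup M] [Module R M] [Module.Finite R M]
    [Module.Free R M] (f : Module.End R M) (hb : IsUnit f) :
    ∃ q : Polynomial R, f * Polynomial.aeval f q = 1 := by
  obtain ⟨u, hu⟩ : IsUnit (f.charpoly.coeff 0) := by
    have hd := LinearMap.det_eq_sign_charpoly_coeff f
    have h1 : f.charpoly.coeff 0 = (-1 : R) ^ Module.finrank R M * LinearMap.det f := by
      rw [hd, ← mul_assoc, ← mul_pow, neg_one_mul, neg_neg, one_pow, one_mul]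
    rw [h1]
    exact (isUnit_one.neg.pow _).mul (hb.map LinearMap.det)
  refine ⟨Polynomial.C (-(↑u⁻¹ : R)) * f.charpoly.divX, ?_⟩
  have h := f.aeval_self_charpoly
  rw [← Polynomial.X_mul_divX_add f.charpoly, map_add, map_mul, Polynomial.aeval_X,
    Polynomial.aeval_C, ← hu] at h
  rw [map_mul, Polynomial.aeval_C, ← mul_assoc, ← Algebra.commutes, mul_assoc,
    eq_neg_of_add_eq_zero_left h, mul_neg, ← map_mul, neg_mul, Units.inv_mul, map_neg, map_one,
    neg_neg]

omit [IsLocalRing R] in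
/-- Surjective endomorphisms of finite modules have polynomial inverses. -/
theorem exists_aeval_inverse_of_surjective {M : Type} [AddCommGroup M] [Module R M]
    [Module.Finite R M] (f : Module.End R M) (hs : Function.Surjective f) :
    ∃ q : Polynomial R, f * Polynomial.aeval f q = 1 := by
  have : Module.Finite (Polynomial R) (Module.AEval' f) :=
    Module.Finite.of_restrictScalars_finite R _ _
  obtain ⟨r, hr1, hr0⟩ := Submodule.exists_sub_one_mem_and_smul_eq_zero_of_fg_of_le_smul
    (Ideal.span {(Polynomial.X : Polynomial R)}) (⊤ : Submodule (Polynomial R) (Module.AEval' f))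
    Module.Finite.fg_top fun y _ => by
      obtain ⟨x, rfl⟩ := (Module.AEval'.of f).surjective y
      obtain ⟨z, rfl⟩ := hs x
      rw [← Module.AEval'.X_smul_of f z]
      exact Submodule.smul_mem_smul (Ideal.mem_span_singleton_self _) Submodule.mem_top
  obtain ⟨q, hq⟩ := Ideal.mem_span_singleton.mp hr1
  refine ⟨-q, LinearMap.ext fun x => ?_⟩
  have h := hr0 (Module.AEval'.of f x) Submodule.mem_top
  rw [show r = 1 + Polynomial.X * q by rw [← hq]; ring] at h
  have h' : Polynomial.aeval f (1 + Polynomial.X * q) x = 0 :=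
    (Module.AEval'.of f).injective (by
      rw [map_zero, ← h]
      exact Module.AEval.of_aeval_smul _ _ _)
  rw [map_add, map_one, map_mul, Polynomial.aeval_X] at h'
  rw [map_neg, mul_neg, LinearMap.neg_apply]
  exact neg_eq_of_add_eq_zero_left h'

/-- Outside the prime of the setup the operators are units of the ring. -/
theorem isUnit_mk_newRing (hV : V ⊆ T.W) [Module.Finite R (T.NewQuot R hV B)] {a : AwayPoly R T.S} (ha : a ∉ T.m) :
    IsUnit (Ideal.Quotient.mk (RingHom.ker (T.newAct R hV B)) a) := by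
  obtain ⟨q, hq⟩ := exists_aeval_inverse_of_surjective (T.newAct R hV B a)
    (bijective_newAct T hV ha).2
  rw [← map_one (T.newAct R hV B)] at hq
  refine IsUnit.of_mul_eq_one (Ideal.Quotient.mk _ (Polynomial.aeval a q)) ?_
  rw [← map_mul, ← map_one (Ideal.Quotient.mk _), Ideal.Quotient.eq, RingHom.mem_ker, map_sub,
    map_mul, ← Polynomial.aeval_algHom_apply, hq, sub_self]

/-- **The ring is local**, with residue map that of the setup. -/
theorem isLocalRing_newRing (hV : V ⊆ T.W) [Module.Finite R (T.NewQuot R hV B)]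
    [Nontrivial (T.NewQuot R hV B)] :
    IsLocalRing (NewRing T hV B) ∧ ∀ a : AwayPoly R T.S,
      IsUnit (Ideal.Quotient.mk (RingHom.ker (T.newAct R hV B)) a) ↔ a ∉ T.m := by
  have hle : RingHom.ker (T.newAct R hV B) ≤ T.m := fun a ha => by
    by_contra h
    obtain ⟨y, hy⟩ := exists_ne (0 : T.NewQuot R hV B)
    refine hy ((bijective_newAct T hV h).1 ?_)
    rw [RingHom.mem_ker.mp ha, LinearMap.zero_apply, LinearMap.zero_apply]
  have hne : RingHom.ker (T.newAct R hV B) ≠ ⊤ := fun h =>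
    T.isPrime.ne_top (top_le_iff.mp (h.ge.trans hle))
  have : Nontrivial (NewRing T hV B) := Ideal.Quotient.nontrivial_iff.mpr hne
  have hiff : ∀ a : AwayPoly R T.S,
      IsUnit (Ideal.Quotient.mk (RingHom.ker (T.newAct R hV B)) a) ↔ a ∉ T.m := fun a => by
    refine ⟨fun hu ha => T.isPrime.ne_top ?_, isUnit_mk_newRing T hV⟩
    obtain ⟨b, hb⟩ := hu.exists_right_inv
    obtain ⟨b, rfl⟩ := Ideal.Quotient.mk_surjective b
    rw [← map_mul, ← map_one (Ideal.Quotient.mk _), Ideal.Quotient.eq] at hb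
    refine (Ideal.eq_top_iff_one _).mpr ?_
    have := T.m.sub_mem (T.m.mul_mem_right b ha) (hle hb)
    simpa using this
  refine ⟨IsLocalRing.of_nonunits_add fun x y hx hy => ?_, hiff⟩
  obtain ⟨x, rfl⟩ := Ideal.Quotient.mk_surjective x
  obtain ⟨y, rfl⟩ := Ideal.Quotient.mk_surjective y
  rw [mem_nonunits_iff, hiff, not_not] at hx hy
  rw [← map_add, mem_nonunits_iff, hiff, not_not]
  exact T.m.add_mem hx hy

section Points

variable [IsNoetherianRing R] [IsAdicComplete (maximalIdeal R) R] [IsReduced R]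
  [Module.IsTorsionFree ℤ R] {O : Type} [CommRing O] [IsDomain O] [IsDiscreteValuationRing O]
  [IsAdicComplete (maximalIdeal O) O] [Finite (ResidueField O)] [CharZero O] [Algebra O R]
  [Module.Finite O R]

end Points

end Fermat.Agent.TwoAdic.TSide
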