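import Fermat.Agent.TwoAdic.Pair.Cond
import Fermat.Agent.Deform.Descent

/-!
# A pair with larger residue field descends to a pair with residue field `k`

The conditions of pairs, read in matrices, descend along `𝒪 + m_A ⊆ A`; so a representation over a
finite local `𝒪`-algebra with the conditions, the ordinary equations and the residual representation
gives a pair over the subalgebra of elements with residue in `k`.
-/

set_option autoImplicit false

open IsLocalRing GaloisRep Fermat.Agent.DefRing Fermat.Agent.Deform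

namespace Fermat.Agent.TwoAdic.TSide

open Pair

variable {B A : Type} [CommRing B] [IsLocalRing B] [CommRing A] [IsLocalRing A]

theorem toMatrix_toAdic {A : Type} [CommRing A] [IsLocalRing A] (M : MRep A) (hc : IsCont M)
    (σ : GQ) : LinearMap.toMatrix (toAdicBasis M hc) (toAdicBasis M hc) ((toAdic M hc).ρ σ) = M σ :=
  DFunLike.congr_fun (matrixRep_toAdic M hc) σ

theorem trace_toAdic_eq {A : Type} [CommRing A] [IsLocalRing A] (M : MRep A) (hc : IsCont M)
    (σ : GQ) : (toAdic M hc).trace σ = (M σ).trace :=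
  Matrix.trace_toLin'_eq (M σ)

theorem det_toAdic_eq {A : Type} [CommRing A] [IsLocalRing A] (M : MRep A) (hc : IsCont M)
    (σ : GQ) : LinearMap.det ((toAdic M hc).ρ σ) = (M σ).det := by
  rw [← LinearMap.det_toMatrix (toAdicBasis M hc), toMatrix_toAdic]

/-- Cyclotomic determinant descends along an injection whose image contains `p A`. -/
theorem detIsCyclotomic_of_map {p : ℕ} (hp : p.Prime) (f : B →+* A) (hf : IsLocalHom f)
    (hinj : Function.Injective f) (himg : ∀ x : A, (p : A) * x ∈ Set.range f) (M : MRep B)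
    (hc : IsCont M) (h : (toAdic (mapRep f M) (hc.map f hf)).DetIsCyclotomic p) :
    (toAdic M hc).DetIsCyclotomic p := by
  refine ⟨fun hu => h.1 (by simpa using hu.map f), fun n σ a ha => ?_⟩
  obtain ⟨b, hb⟩ := exists_exponent_level hp σ (n + 1)
  have hbn : ∀ μ : AlgebraicClosure ℚ, μ ^ p ^ n = 1 → σ μ = μ ^ b := fun μ hμ => hb μ (by
    rw [pow_succ, pow_mul, hμ, one_pow])
  obtain ⟨x, hx⟩ := Ideal.mem_span_singleton.mp (h.2 (n + 1) σ b hb)
  obtain ⟨y, hy⟩ := himg x
  obtain ⟨k, hk⟩ := (modEq_of_exponents hp ha hbn).dvd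
  rw [det_toAdic_eq] at hx ⊢
  rw [mapRep_apply, ← RingHom.mapMatrix_apply, ← RingHom.map_det] at hx
  have h1 : (M σ).det - (b : B) = (p : B) ^ n * y := hinj (by
    rw [map_sub, map_natCast, hx, map_mul, map_pow, map_natCast, hy, Nat.cast_pow, pow_succ,
      mul_assoc])
  have h2 := congrArg (Int.cast : ℤ → B) hk
  push_cast at h2
  rw [Ideal.mem_span_singleton, Nat.cast_pow]
  exact ⟨y + (k : B), by rw [mul_add, ← h1, ← h2]; ring⟩

variable {𝒪 : Type} [CommRing 𝒪] [Algebra 𝒪 B] [Algebra 𝒪 A]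

/-- The conditions of pairs only see the isomorphism class, over any local ring. -/
theorem pairCond_congr {R : Type} [CommRing R] [IsLocalRing R] [Algebra 𝒪 R] {E : LiftData}
    {Q : Finset ℕ} {C : Set (GQ × GQ)} {ρ₁ ρ₂ : GaloisRepAdic R} (h : ρ₁.IsEquiv ρ₂)
    (hρ : E.pairCond Q C 𝒪 ρ₁) : E.pairCond Q C 𝒪 ρ₂ := by
  obtain ⟨hdet, hcris, huni, hnew, hunr⟩ := hρ
  obtain ⟨e⟩ := h
  let L := e.toLinearEquiv.conjAlgEquiv R
  have hL : ∀ σ, L (ρ₁.ρ σ) = ρ₂.ρ σ := fun σ => by
    ext x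
    show e.toLinearEquiv (ρ₁.ρ σ (e.toLinearEquiv.symm x)) = _
    rw [e.map_apply, LinearEquiv.apply_symm_apply]
  have htr : ∀ σ, ρ₂.trace σ = ρ₁.trace σ := fun σ => by
    rw [GaloisRepAdic.trace, GaloisRepAdic.trace, ← hL σ]
    exact LinearMap.trace_conj' _ e.toLinearEquiv
  refine ⟨⟨hdet.1, fun n σ a ha => ?_⟩, fun x hx => ?_, fun P hP σ hσ => ?_,
    fun q hq hqN P hP φ hφ => ?_, fun q hq h1 h2 h3 h4 P hP σ hσ => ?_⟩
  · rw [det_eq_of_isEquiv ⟨e⟩ σ]
    exact hdet.2 n σ a ha
  · simp only [← hL, ← map_smul, ← map_add, hcris x hx]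
    simp
  · rw [← hL]
    exact (LinearEquiv.charpoly_conj e.toLinearEquiv _).trans (huni P hP σ hσ)
  · obtain ⟨ht, hτ⟩ := hnew q hq hqN P hP φ hφ
    refine ⟨by rw [htr, ht], fun τ hτm => ?_⟩
    obtain ⟨e1, e2, e3⟩ := hτ τ hτm
    refine ⟨by rw [htr, e1], ?_, ?_⟩
    · simpa only [map_mul, map_sub, map_smul, map_one, map_zero, hL] using congrArg L e2
    · simpa only [map_mul, map_sub, map_smul, map_one, map_zero, hL] using congrArg L e3
  · rw [← hL, hunr q hq h1 h2 h3 h4 P hP σ hσ, map_one]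

/-- The conditions of pairs descend. -/
theorem pairCond_of_map (f : B →+* A) (hf : IsLocalHom f) (hinj : Function.Injective f)
    (himg : ∀ x : A, (2 : A) * x ∈ Set.range f) (E : LiftData) (Q : Finset ℕ) (C : Set (GQ × GQ))
    (M : MRep B) (hc : IsCont M)
    (h : E.pairCond Q C 𝒪 (toAdic (mapRep f M) (hc.map f hf))) :
    E.pairCond Q C 𝒪 (toAdic M hc) := by
  obtain ⟨hdet, hcris, huni, hnew, hunr⟩ := h
  let L := LinearMap.toMatrixAlgEquiv (toAdicBasis M hc)
  let L' := LinearMap.toMatrixAlgEquiv (toAdicBasis (mapRep f M) (hc.map f hf))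
  have hρ : ∀ σ, L ((toAdic M hc).ρ σ) = M σ := fun σ => toMatrix_toAdic M hc σ
  have hρ' : ∀ σ, L' ((toAdic (mapRep f M) (hc.map f hf)).ρ σ) = f.mapMatrix (M σ) := fun σ =>
    toMatrix_toAdic _ (hc.map f hf) σ
  have hs : ∀ (c : B) (X : Matrix (Fin 2) (Fin 2) B),
      f.mapMatrix (c • X) = f c • f.mapMatrix X := fun c X => Matrix.map_smul' f c X (map_mul f)
  have hmi : Function.Injective (f.mapMatrix : Matrix (Fin 2) (Fin 2) B →+* _) :=
    Matrix.map_injective hinj
  refine ⟨detIsCyclotomic_of_map Nat.prime_two f hf hinj himg M hc hdet, fun x hx => ?_,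
    fun P hP σ hσ => ?_, fun q hq hqN P hP φ hφ => ?_, fun q hq h1 h2 h3 h4 P hP σ hσ => ?_⟩
  · have e := congrArg L' (hcris x hx)
    simp only [map_add, map_smul, map_one, hρ'] at e
    refine L.injective (hmi ?_)
    simpa only [map_add, map_smul, map_one, hρ, hs, map_ofNat] using e
  · have e := huni P hP σ hσ
    rw [← LinearMap.charpoly_toMatrix _ (toAdicBasis (mapRep f M) (hc.map f hf)),
      toMatrix_toAdic, mapRep_apply, Matrix.charpoly_map] at e
    rw [← LinearMap.charpoly_toMatrix _ (toAdicBasis M hc), toMatrix_toAdic]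
    exact Polynomial.map_injective f hinj (by simpa using e)
  · obtain ⟨ht, hτ⟩ := hnew q hq hqN P hP φ hφ
    refine ⟨hinj ?_, fun τ hτm => ?_⟩
    · rw [trace_toAdic_eq]
      rw [trace_toAdic_eq, mapRep_apply] at ht
      simpa [AddMonoidHom.map_trace] using ht
    obtain ⟨e1, e2, e3⟩ := hτ τ hτm
    refine ⟨hinj ?_, L.injective (hmi ?_), L.injective (hmi ?_)⟩
    · rw [trace_toAdic_eq]
      rw [trace_toAdic_eq, mapRep_apply] at e1
      simpa [AddMonoidHom.map_trace, map_ofNat] using e1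
    · have e := congrArg L' e2
      simp only [map_mul, map_sub, map_smul, map_one, hρ', map_zero] at e
      simpa only [map_mul, map_sub, map_smul, map_one, hρ, map_zero, hs, map_intCast,
        map_natCast] using e
    · have e := congrArg L' e3
      simp only [map_mul, map_sub, map_smul, map_one, hρ', map_zero] at e
      simpa only [map_mul, map_sub, map_smul, map_one, hρ, map_zero, hs, map_intCast] using e
  · have e := congrArg L' (hunr q hq h1 h2 h3 h4 P hP σ hσ)
    rw [hρ', map_one] at e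
    refine L.injective (hmi ?_)
    rw [hρ, map_one, map_one]
    exact e

theorem isOrdinaryMat_of_map {B A : Type} [CommRing B] [CommRing A] (f : B →+* A)
    (hinj : Function.Injective f) {M : GQ → Matrix (Fin 2) (Fin 2) B} {α : B}
    (h : IsOrdinaryMat (fun σ => (M σ).map f) (f α)) : IsOrdinaryMat M α := by
  intro P hP φ hφ n n' τ hτ τ' hτ'
  refine Matrix.map_injective hinj ?_
  show f.mapMatrix _ = f.mapMatrix 0
  rw [map_mul, map_sub, map_sub, map_zero]
  simpa [RingHom.mapMatrix_apply, RingHom.map_det, Matrix.map_smul' f] using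
    h P hP φ hφ n n' τ hτ τ' hτ'

/-- Reducing to the residual representation in matrices gives the residual equivalence. -/
theorem residual_isEquiv_of_reduces [IsLocalRing 𝒪] {D : NormalData 𝒪}
    {ρbar : ResidualGaloisRep (ResidueField 𝒪)}
    (b : Module.Basis (Fin 2) (ResidueField 𝒪) ρbar.V)
    (hD : ∀ σ, D.rbar σ = LinearMap.toMatrix b b (ρbar.ρ σ))
    {R : Type} [CommRing R] [IsLocalRing R] [Algebra 𝒪 R] [IsLocalHom (algebraMap 𝒪 R)]
    (hs : Function.Surjective (residue R ∘ algebraMap 𝒪 R)) (M : MRep R) (hc : IsCont M)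
    (hred : D.Reduces inferInstance hs M) :
    (toAdic M hc).residual.IsEquiv
      (ρbar.baseChangeAlong (ResidueField.map (algebraMap 𝒪 R))) := by
  rw [residual_isEquiv_baseChangeAlong_iff (toAdic M hc) (toAdicBasis M hc) ρbar b]
  refine ⟨1, fun σ => ?_⟩
  rw [matrixRep_toAdic, Units.val_one, one_mul, mul_one, ← hD]
  ext i j
  rw [Matrix.map_apply, Matrix.map_apply, ← residueField_map_toResidue hs (M σ i j),
    show D.rbar = _ from hred.symm]
  rfl

/-- **A pair with larger residue field descends.** -/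
theorem exists_pair_of_point [IsLocalRing 𝒪] [Finite (ResidueField 𝒪)] [IsNoetherianRing 𝒪]
    [IsAdicComplete (maximalIdeal 𝒪) 𝒪] {D : NormalData 𝒪} {E : LiftData} {Q : Finset ℕ}
    {C : Set (GQ × GQ)} {ρbar : ResidualGaloisRep (ResidueField 𝒪)}
    (b : Module.Basis (Fin 2) (ResidueField 𝒪) ρbar.V)
    (hD : ∀ σ, D.rbar σ = LinearMap.toMatrix b b (ρbar.ρ σ))
    (h2 : (2 : 𝒪) ∈ maximalIdeal 𝒪)
    {A : Type} [CommRing A] [IsLocalRing A] [Algebra 𝒪 A] [IsLocalHom (algebraMap 𝒪 A)]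
    [Module.Finite 𝒪 A] (ρ : GaloisRepAdic A) (α : A)
    (hres : ρ.residual.IsEquiv (ρbar.baseChangeAlong (ResidueField.map (algebraMap 𝒪 A))))
    (hα : residue A α = 1) (hρ : E.pairCond Q C 𝒪 ρ) (hord : Pair.IsOrdinary ρ α) :
    ∃ (N : MRep (smallResidue 𝒪 A)) (α₀ : smallResidue 𝒪 A), (α₀ : A) = α ∧
      IsPair D E Q C inferInstance (residue_surjective_smallResidue (𝒪 := 𝒪) (A := A)) N α₀ ∧
      ∀ σ, ((N σ).trace : A) = ρ.trace σ := by
  let ι : smallResidue 𝒪 A →+* A := (smallResidue 𝒪 A).val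
  have hι : IsLocalHom ι := inferInstanceAs (IsLocalHom
    ((smallResidue 𝒪 A).val : smallResidue 𝒪 A →+* A))
  obtain ⟨M, hc, hred, heq⟩ := exists_descent b hD ρ hres
  have hres' := residual_isEquiv_of_reduces b hD (residue_surjective_smallResidue (𝒪 := 𝒪) (A := A)) M hc hred
  obtain ⟨N, hNc, hnorm, hNred, heq'⟩ :=
    exists_normal_of_residual (hl := inferInstance) b hD (residue_surjective_smallResidue (𝒪 := 𝒪) (A := A)) _ hres'
  let α₀ : smallResidue 𝒪 A := ⟨α, 1, by rw [hα, map_one]⟩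
  have hequiv : ρ.IsEquiv (toAdic (mapRep ι N) (hNc.map ι hι)) :=
    isEquiv_trans (isEquiv_symm heq) (isEquiv_trans (isEquiv_baseChangeAlong ι hι heq')
      (baseChangeAlong_toAdic_isEquiv N hNc ι hι))
  have h2A : ∀ x : A, (2 : A) * x ∈ Set.range ι := fun x =>
    ⟨⟨_, mem_smallResidue_of_mem_maximalIdeal (Ideal.mul_mem_right x _ (fun hu => by
      refine h2 (isUnit_of_map_unit (algebraMap 𝒪 A) 2 ?_)
      rwa [map_ofNat]))⟩, rfl⟩
  have hP : E.pairCond Q C 𝒪 (toAdic N hNc) :=
    pairCond_of_map ι hι Subtype.val_injective h2A E Q C N hNc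
      (pairCond_congr hequiv hρ)
  have hordN : IsOrdinaryMat N α₀ :=
    isOrdinaryMat_of_map ι Subtype.val_injective
      ((isOrdinary_toAdic_iff (hNc.map ι hι) α).mp ((isOrdinary_congr hequiv α).mp hord))
  refine ⟨N, α₀, rfl, ⟨⟨hnorm, hNred, hNc, hP⟩, ?_, hordN⟩, fun σ => ?_⟩
  · refine (ResidueField.map (algebraMap 𝒪 A)).injective ?_
    rw [map_toResidue_smallResidue, map_one]
    exact hα
  · rw [trace_eq_of_isEquiv_toAdic ρ hequiv σ, mapRep_apply]
    exact (AddMonoidHom.map_trace ι.toAddMonoidHom (N σ)).symm ▸ rfl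

end Fermat.Agent.TwoAdic.TSide
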