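import Fermat.Agent.Engine.Lifting.LatticeClasses

/-!
# Eisenstein multiples of torsion free classes live on the lattice, at every prime

With values in a group without additive torsion nothing has to be lifted, so no condition on `p`
is needed for the comparison of `H¹(Γ₀(N), A)` with the lattice.
-/

set_option autoImplicit false

noncomputable section

open CongruenceSubgroup ModularCurve.Period Matrix

namespace Fermat.Agent.TwoAdic.TSide

open HeckeJ0 HeckeModule EigenSystems Engine.TRep EigenRep Engine.Lifting

variable {N : ℕ} [NeZero N] {O : Type} [CommRing O] {r : ℕ} [hr : Fact r.Prime]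

/-- `T_r - r - 1` maps classes without torsion in their values onto the lattice. -/
theorem onLattice_eisen_torsionFree {A : Type} [AddCommGroup A] [Module O A]
    [Module.IsTorsionFree ℤ A] (hr1 : (r : ZMod N) = 1) (u : Coh1 (trivRep N O A)) :
    OnLattice (eisen O r • u) := by
  have : NeZero r := ⟨hr.out.ne_zero⟩
  obtain ⟨c, rfl⟩ := toCoh_surjective _ u
  rw [eisen_smul, heckeOp_toCoh, ← map_smul, ← map_sub]
  unfold OnLattice
  show HeckeJ0.ofCoords N (HeckeJ0.coords N (classHom _)) = _
  rw [classHom_toCoh]
  set d := (heckeData (trivRep N O A) r).onCocycles toGL_injective c - ((r : O) + 1) • c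
  have hpar : IsParabolicHom (Gamma0 N) (homOf (fun _ => rfl) d) := by
    refine isParabolicHom_homOf (fun _ => rfl) (c := d) fun x y hxy => ?_
    have hd : (r : ℤ) • d.1 (parElt N x y 1) = 0 := by
      refine Eq.trans ?_ (boundary_hecke hr1 c hxy)
      show (r : ℤ) • ((heckeData _ r).raw c.1 _ - ((r : O) + 1) • c.1 _) = _
      rw [← Int.cast_smul_eq_zsmul O ((r : ℤ) + 1)]
      simp
    exact (smul_eq_zero.mp hd).resolve_left (by exact_mod_cast hr.out.ne_zero)
  exact ofCoords_coords_torsionFree fun g hg => apply_eq_zero_of_trace_sq_le hpar hg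

section Field

variable {K : Type} [Field K] [CharZero K] {p : ℕ} [Fact p.Prime]
  (hes : EichlerShimuraRelations N p) (ι : ℤ_[p] →+* K) (S : Finset ℕ)

/-- A polynomial acts on the coordinates of Eisenstein multiples through the lattice algebra. -/
theorem classCoords_smul_field (hr1 : (r : ZMod N) = 1) (P : AwayPoly K (↑S : Set ℕ))
    (u : Coh1 (trivRep N K K)) :
    classCoords (awayIncl K (↑S : Set ℕ) P • eisen K r • u) =
      (latHom (stdInputs hes) ι S P : Module.End K (Lat (stdInputs hes) K))
        (classCoords (eisen K r • u)) := by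
  have h : awayIncl K (↑S : Set ℕ) P • eisen K r • u = awayIncl K (↑S : Set ℕ) P •
      toClass (N := N) (classCoords (eisen K r • u)) := by
    refine congrArg (awayIncl K (↑S : Set ℕ) P • ·) (classHom_injective ?_)
    rw [classHom_toClass]
    exact (onLattice_eisen_torsionFree hr1 u : HeckeJ0.ofCoords N _ = _).symm
  rw [h]
  exact (congrArg classCoords (smul_toClass (p := p) hes ι S P _)).trans (classCoords_toClass _)

/-- An Eisenstein multiple with vanishing coordinates vanishes. -/
theorem eisen_smul_eq_zero_field (hr1 : (r : ZMod N) = 1) {u : Coh1 (trivRep N K K)}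
    (h : classCoords (eisen K r • u) = 0) : eisen K r • u = 0 := by
  refine classHom_injective ?_
  rw [← (onLattice_eisen_torsionFree hr1 u : HeckeJ0.ofCoords N _ = _), h,
    show (0 : Coh1 (trivRep N K K)) = toClass (N := N) 0 from (map_zero _).symm, classHom_toClass]

/-- Killing the lattice kills the Eisenstein multiples of every class. -/
theorem smul_eq_zero_of_latHom_field (hr1 : (r : ZMod N) = 1) {P : AwayPoly K (↑S : Set ℕ)}
    (hP : latHom (stdInputs hes) ι S P = 0) (u : Coh1 (trivRep N K K)) :
    (eisen K r * awayIncl K (↑S : Set ℕ) P) • u = 0 := by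
  rw [mul_smul]
  refine eisen_smul_eq_zero_field hr1 ?_
  rw [smul_comm, classCoords_smul_field hes ι S hr1, hP]
  rfl

end Field

/-- A non-zero integral eigenvector of the Hecke matrices from an eigen class, at any prime. -/
theorem exists_eigenSub_of_class {p : ℕ} [Fact p.Prime] (hes : EichlerShimuraRelations N p)
    {O : Type} [CommRing O] [IsDomain O] [CharZero O] {L : Type} [Field L] [Algebra O L]
    [IsFractionRing O L] {S : Finset ℕ} {a : Nat.Primes → O}
    (hr1 : (r : ZMod N) = 1) (hrS : r ∉ S)
    (hne : a ⟨r, hr.out⟩ ≠ (r : O) + 1) {c : Coh1 (trivRep N L L)} (hc0 : c ≠ 0)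
    (hc : ∀ l : Nat.Primes, (l : ℕ) ∉ S →
      heckeGen (trivRep N L L) l c = algebraMap O L (a l) • c) :
    ∃ (b : L) (v : Fin (stdInputs hes).model.d → O), b ≠ 0 ∧ v ≠ 0 ∧
      (⇑(algebraMap O L) ∘ v = b • classCoords c) ∧
      v ∈ eigenSub (stdInputs hes).model (↑S : Set ℕ) a := by
  classical
  have : CharZero L := charZero_of_injective_algebraMap (IsFractionRing.injective O L)
  have : NeZero r := ⟨hr.out.ne_zero⟩
  set e := algebraMap O L (a ⟨r, hr.out⟩) - ((r : L) + 1)
  have he : eisen L r • c = e • c := by
    show eisen L r • c = _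
    rw [eisen_smul, show heckeOp (trivRep N L L) r c = heckeGen _ ⟨r, hr.out⟩ c from rfl,
      hc ⟨r, hr.out⟩ hrS, ← sub_smul]
  have he0 : e ≠ 0 := fun h0 => hne (IsFractionRing.injective O L
    (by rw [map_add, map_natCast, map_one]; exact sub_eq_zero.1 h0))
  have hlat : OnLattice c := by
    have h := onLattice_eisen_torsionFree hr1 (e⁻¹ • c)
    rwa [smul_comm, he, smul_smul, inv_mul_cancel₀ he0, one_smul] at h
  let w : Fin (stdInputs hes).model.d → L := classCoords c
  have hw0 : w ≠ 0 := fun h0 => hc0 (classHom_injective (by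
    rw [← hlat, show classCoords c = 0 from h0,
      show (0 : Coh1 (trivRep N L L)) = toClass (N := N) 0 from (map_zero _).symm,
      classHom_toClass]))
  obtain ⟨b, hb⟩ := IsLocalization.exist_integer_multiples_of_finite (nonZeroDivisors O) w
  choose v hv using hb
  have hcv : ⇑(algebraMap O L) ∘ v = algebraMap O L (b : O) • w := funext fun i => by
    rw [Function.comp_apply, hv i, Algebra.smul_def]
    rfl
  have hb0 : algebraMap O L (b : O) ≠ 0 :=
    (map_ne_zero_iff _ (IsFractionRing.injective O L)).mpr (nonZeroDivisors.coe_ne_zero b)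
  refine ⟨_, v, hb0, fun h0 => hw0 ?_, hcv, ?_⟩
  · refine (smul_eq_zero.mp (hcv.symm.trans ?_)).resolve_left hb0
    funext i
    rw [h0, Function.comp_apply, Pi.zero_apply, map_zero, Pi.zero_apply]
  refine (mem_eigenSub _).mpr fun l hl => funext fun i => IsFractionRing.injective O L ?_
  show algebraMap O L ((((stdInputs hes).model.T l).map (Int.cast : ℤ → O) *ᵥ v) i) =
    algebraMap O L (a l * v i)
  rw [RingHom.map_mulVec, Matrix.map_map,
    show ⇑(algebraMap O L) ∘ (Int.cast : ℤ → O) = (Int.cast : ℤ → L) from
      funext fun z => map_intCast _ z, hcv, Matrix.mulVec_smul, map_mul,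
    show algebraMap O L (v i) = (algebraMap O L (b : O) • w) i from congrFun hcv i]
  have h2 := (classCoords_heckeOp l hlat).symm
  rw [hc l (by simpa using hl), map_smul] at h2
  have h3 : ((stdInputs hes).model.T l).map (Int.cast : ℤ → L) *ᵥ w = algebraMap O L (a l) • w := by
    refine Eq.trans ?_ h2
    funext k
    show ∑ j : Fin (HeckeJ0.rk N), ((HeckeJ0.heckeMatAt N l k j : ℤ) : L) * w j =
      ∑ j, HeckeJ0.heckeMatAt N l k j • classCoords c j
    exact Finset.sum_congr rfl fun j _ => (zsmul_eq_mul _ _).symm
  rw [h3, Pi.smul_apply, Pi.smul_apply, Pi.smul_apply, smul_eq_mul, smul_eq_mul, smul_eq_mul,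
    mul_left_comm]

end Fermat.Agent.TwoAdic.TSide
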