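import Fermat.Agent.TwoAdic.TSide.Reduced
import Fermat.Agent.TwoAdic.TopEnlarge

/-!
# The operators away from a larger finite set on a new quotient

At a level with auxiliary primes outside `T.S` the operators away from a finite `S ⊇ T.S`
containing the primes of the level act on `T.NewQuot` through a reduced local ring, which is a
quotient of the ring of the new quotient of the enlarged setup.
-/

set_option autoImplicit false

noncomputable section

open IsLocalRing

namespace Fermat.Agent.TwoAdic.TSide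

open HeckeModule EigenSystems Engine.TRep HeckeJ0 LevelRaising

attribute [local instance] ALSetup.isPrime

variable {R : Type} [CommRing R] [IsLocalRing R] (T : ALSetup R) {S : Finset ℕ}
  {ψ : ∀ q : ℕ, (ZMod q)ˣ →* R} {Q V B : Finset ℕ}

/-- The hypotheses on a set `S` containing the primes of the level. -/
structure SubHyp (T : ALSetup R) (S : Finset ℕ) (ψ : ∀ q : ℕ, (ZMod q)ˣ →* R) (Q V : Finset ℕ) :
    Prop where
  subset : V ⊆ T.W
  S_sub : T.S ⊆ ↑S
  mem_S : ∀ ℓ : ℕ, ℓ.Prime → ℓ ∣ T.level V → ℓ ∈ S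
  aux : ∀ q ∈ Q, q.Prime ∧ q ∣ T.core ∧ ¬ q * q ∣ T.level V
  char_eq : T.char V = charSq ψ Q (T.level V)
  eisenstein : ∃ (r : ℕ) (hr : r.Prime) (hrS : r ∉ (↑S : Set ℕ)),
    (r : ZMod (T.level T.W * ∏ q ∈ Q, q)) = 1 ∧
      awayX R hr (fun h => hrS (S_sub h)) - MvPolynomial.C ((r : R) + 1) ∉ T.m

theorem SubHyp.eisenstein' {T : ALSetup R} (H : SubHyp T S ψ Q V) :
    ∃ (ℓ : ℕ) (hℓ : ℓ.Prime) (hS : ℓ ∉ (↑S : Set ℕ)), (ℓ : ZMod (T.core * prodOf T.W)) = 1 ∧
      awayX R hℓ (fun hm => hS (H.S_sub hm)) - MvPolynomial.C ((ℓ : R) + 1) ∉ T.m := by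
  obtain ⟨r, hr, hrS, hr1, hre⟩ := H.eisenstein
  refine ⟨r, hr, hrS, ?_, hre⟩
  have := congrArg (ZMod.castHom (dvd_mul_right (T.level T.W) (∏ q ∈ Q, q))
    (ZMod (T.core * prodOf T.W))) hr1
  rwa [map_natCast, map_one] at this

/-- The setup with `S` excluded. -/
abbrev SubHyp.big {T : ALSetup R} (H : SubHyp T S ψ Q V) : ALSetup R :=
  T.enlarge (↑S : Set ℕ) H.S_sub H.eisenstein'

theorem SubHyp.awayX_big {T : ALSetup R} (H : SubHyp T S ψ Q V) {r : ℕ} (hr : r.Prime)
    (hrS : r ∉ (↑S : Set ℕ)) :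
    restrictAway R H.S_sub (awayX R hr hrS) = awayX R hr (fun h => hrS (H.S_sub h)) := by
  rw [awayX, restrictAway, MvPolynomial.rename_X]
  rfl

/-- The enlarged setup satisfies the hypotheses of points. -/
theorem SubHyp.pointHyp {T : ALSetup R} (H : SubHyp T S ψ Q V) :
    PointHyp H.big S ψ Q V where
  subset := H.subset
  S_eq := rfl
  mem_S := H.mem_S
  aux := H.aux
  char_eq := H.char_eq
  eisenstein := by
    obtain ⟨r, hr, hrS, hr1, hre⟩ := H.eisenstein
    refine ⟨r, hr, hrS, ?_, fun h => hre ?_⟩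
    · have := congrArg (ZMod.castHom (mul_dvd_mul_right (T.level_dvd H.subset) _)
        (ZMod (T.level V * ∏ q ∈ Q, q))) hr1
      rwa [map_natCast, map_one] at this
    · change restrictAway R H.S_sub _ ∈ T.m at h
      rwa [map_sub, H.awayX_big, ← MvPolynomial.algebraMap_eq, AlgHom.commutes,
        MvPolynomial.algebraMap_eq] at h

/-- The action of the operators away from `S` on a new quotient. -/
def subAct (hS : T.S ⊆ ↑S) (hV : V ⊆ T.W) (B : Finset ℕ) :
    AwayPoly R (↑S : Set ℕ) →ₐ[R] Module.End R (T.NewQuot R hV B) :=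
  (T.newAct R hV B).comp (restrictAway R hS)

theorem subAct_apply (hS : T.S ⊆ ↑S) (hV : V ⊆ T.W) (B : Finset ℕ)
    (a : AwayPoly R (↑S : Set ℕ)) :
    subAct T hS hV B a = T.newAct R hV B (restrictAway R hS a) := rfl

/-- The ring generated by the operators away from `S`. -/
abbrev SubRing (hS : T.S ⊆ ↑S) (hV : V ⊆ T.W) (B : Finset ℕ) : Type :=
  AwayPoly R (↑S : Set ℕ) ⧸ RingHom.ker (subAct T hS hV B)

/-- Its action. -/
def subRingAct (hS : T.S ⊆ ↑S) (hV : V ⊆ T.W) (B : Finset ℕ) :
    SubRing T hS hV B →ₐ[R] Module.End R (T.NewQuot R hV B) :=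
  Ideal.kerLiftAlg (subAct T hS hV B)

theorem subRingAct_injective (hS : T.S ⊆ ↑S) (hV : V ⊆ T.W) (B : Finset ℕ) :
    Function.Injective (subRingAct T hS hV B) :=
  Ideal.kerLiftAlg_injective _

/-- Outside the prime the operators are units of the ring. -/
theorem isUnit_mk_subRing (hS : T.S ⊆ ↑S) (hV : V ⊆ T.W) [Module.Finite R (T.NewQuot R hV B)]
    {a : AwayPoly R (↑S : Set ℕ)} (ha : restrictAway R hS a ∉ T.m) :
    IsUnit (Ideal.Quotient.mk (RingHom.ker (subAct T hS hV B)) a) := by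
  obtain ⟨q, hq⟩ := exists_aeval_inverse_of_surjective (subAct T hS hV B a)
    (bijective_newAct T hV ha).2
  refine IsUnit.of_mul_eq_one (Ideal.Quotient.mk _ (Polynomial.aeval a q)) ?_
  rw [← map_mul, ← map_one (Ideal.Quotient.mk _), Ideal.Quotient.eq, RingHom.mem_ker, map_sub,
    map_mul, ← Polynomial.aeval_algHom_apply, hq, map_one, sub_self]

/-- **The ring is local.** -/
theorem isLocalRing_subRing (hS : T.S ⊆ ↑S) (hV : V ⊆ T.W) [Module.Finite R (T.NewQuot R hV B)]
    [Nontrivial (T.NewQuot R hV B)] :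
    IsLocalRing (SubRing T hS hV B) ∧ ∀ a : AwayPoly R (↑S : Set ℕ),
      IsUnit (Ideal.Quotient.mk (RingHom.ker (subAct T hS hV B)) a) ↔
        restrictAway R hS a ∉ T.m := by
  have hle : ∀ a ∈ RingHom.ker (subAct T hS hV B), restrictAway R hS a ∈ T.m := fun a ha => by
    by_contra h
    obtain ⟨y, hy⟩ := exists_ne (0 : T.NewQuot R hV B)
    refine hy ((bijective_newAct T hV h).1 ?_)
    rw [← subAct_apply, RingHom.mem_ker.mp ha, LinearMap.zero_apply, LinearMap.zero_apply]
  have : Nontrivial (SubRing T hS hV B) := Ideal.Quotient.nontrivial_iff.mpr fun h =>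
    T.isPrime.ne_top ((Ideal.eq_top_iff_one _).mpr (by
      simpa using hle 1 (h ▸ Submodule.mem_top)))
  have hiff : ∀ a : AwayPoly R (↑S : Set ℕ),
      IsUnit (Ideal.Quotient.mk (RingHom.ker (subAct T hS hV B)) a) ↔
        restrictAway R hS a ∉ T.m := fun a => by
    refine ⟨fun hu ha => T.isPrime.ne_top ?_, isUnit_mk_subRing T hS hV⟩
    obtain ⟨b, hb⟩ := hu.exists_right_inv
    obtain ⟨b, rfl⟩ := Ideal.Quotient.mk_surjective b
    rw [← map_mul, ← map_one (Ideal.Quotient.mk _), Ideal.Quotient.eq] at hb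
    refine (Ideal.eq_top_iff_one _).mpr ?_
    have h1 := hle _ hb
    rw [map_sub, map_mul, map_one] at h1
    simpa using T.m.sub_mem (T.m.mul_mem_right (restrictAway R hS b) ha) h1
  refine ⟨IsLocalRing.of_nonunits_add fun x y hx hy => ?_, hiff⟩
  obtain ⟨x, rfl⟩ := Ideal.Quotient.mk_surjective x
  obtain ⟨y, rfl⟩ := Ideal.Quotient.mk_surjective y
  rw [mem_nonunits_iff, hiff, not_not] at hx hy
  rw [← map_add, mem_nonunits_iff, hiff, not_not, map_add]
  exact T.m.add_mem hx hy

/-- `ker a^k = ker a` on localised classes, for operators away from `S`. -/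
theorem SubHyp.smul_eq_zero [IsReduced R] [Module.IsTorsionFree ℤ R]
    (H : SubHyp T S ψ Q V) (a : AwayPoly R (↑S : Set ℕ)) {k : ℕ} {x : T.H V R}
    (hx : awayIncl R (↑S : Set ℕ) a ^ k • x = 0) : awayIncl R (↑S : Set ℕ) a • x = 0 := by
  have : NeZero (T.level V) := ⟨T.level_ne_zero H.subset⟩
  obtain ⟨r, hr, hrS, hr1, hre⟩ := H.eisenstein
  have := Fact.mk hr
  have hr1' : (r : ZMod (T.level V * ∏ q ∈ Q, q)) = 1 := by
    have := congrArg (ZMod.castHom (mul_dvd_mul_right (T.level_dvd H.subset) _)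
      (ZMod (T.level V * ∏ q ∈ Q, q))) hr1
    rwa [map_natCast, map_one] at this
  exact smul_eq_zero_of_pow ψ Q
    (fun q hq => ⟨(H.aux q hq).1, (H.aux q hq).2.1.mul_right _, (H.aux q hq).2.2⟩) H.mem_S hr1'
    (fun h => hrS (Finset.mem_coe.mpr h)) H.char_eq
    (eisen_mem_awayMonoid (fun h => hrS (H.S_sub h)) hre) a hx

section Nilpotent

variable [IsNoetherianRing R] [IsAdicComplete (maximalIdeal R) R] [IsReduced R]
  [Module.IsTorsionFree ℤ R]

omit [IsNoetherianRing R] [IsAdicComplete (maximalIdeal R) R] in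
/-- On the signed part an operator away from `S` with vanishing square vanishes. -/
theorem subAct_empty_eq_zero_of_sq (H : SubHyp T S ψ Q V) (a : AwayPoly R (↑S : Set ℕ))
    (h : subAct T H.S_sub H.subset ∅ a ^ 2 = 0) : subAct T H.S_sub H.subset ∅ a = 0 := by
  rw [subAct_apply] at h ⊢
  have hz : ∀ y : T.signed R H.subset,
      Submodule.Quotient.mk (p := T.oldSpace R H.subset ∅) y = 0 → y = 0 := fun y hy => by
    have h1 := (Submodule.Quotient.mk_eq_zero _).mp hy
    rwa [oldSpace_empty, Submodule.mem_bot] at h1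
  refine Submodule.linearMap_qext _ (LinearMap.ext fun x => ?_)
  have h2 := LinearMap.congr_fun h (Submodule.Quotient.mk x)
  rw [pow_two, Module.End.mul_apply, T.newAct_mk, T.newAct_mk, LinearMap.zero_apply] at h2
  have h3 : awayIncl R (↑S : Set ℕ) a ^ 2 • (x : T.H V R) = 0 := by
    rw [← awayIncl_restrictAway H.S_sub, pow_two, mul_smul]
    exact congrArg Subtype.val (hz _ h2)
  show T.newAct R H.subset ∅ (restrictAway R H.S_sub a) (Submodule.Quotient.mk x) = 0
  rw [T.newAct_mk, Submodule.Quotient.mk_eq_zero]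
  convert Submodule.zero_mem _
  refine Subtype.ext ?_
  show awayIncl R T.S (restrictAway R H.S_sub a) • (x : T.H V R) = 0
  rw [awayIncl_restrictAway]
  exact H.smul_eq_zero T a h3

/-- **Nilpotent operators away from `S` vanish on torsion free new quotients.** -/
theorem subAct_eq_zero_of_pow {O : Type} [CommRing O] [IsDomain O] [Algebra O R]
    [Module.Finite O R] (H : SubHyp T S ψ Q V)
    (htf : ∀ o : O, o ≠ 0 → ∀ y : T.NewQuot R H.subset B, algebraMap O R o • y = 0 → y = 0)
    (a : AwayPoly R (↑S : Set ℕ)) (k : ℕ) (h : subAct T H.S_sub H.subset B a ^ k = 0) :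
    subAct T H.S_sub H.subset B a = 0 := by
  have := (T.free_signed H.subset).1
  exact isReduced_quot_action (subAct T H.S_sub H.subset ∅) (subAct T H.S_sub H.subset B)
    (toNewQuot T H.subset B) (toNewQuot_surjective T H.subset B)
    (fun a x => toNewQuot_newAct T H.subset B _ x) (subAct_empty_eq_zero_of_sq T H) htf a k h

end Nilpotent

/-- A signed class is, up to an operator outside the prime, the image of an exactly signed one. -/
theorem exists_signed_representative (hV : V ⊆ T.W) {x : T.H V R} (hx : x ∈ T.signed R hV) :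
    ∃ (v : Coh1 (scalarRep (T.char V) R)) (c : AwayPoly R T.S), c ∉ T.m ∧
      awayIncl R T.S c • x = LocalizedModule.mk v 1 ∧
      ∀ e (he : e ∈ V), alOp R (T.isAL hV) he (T.dvd_level V) T.χ (T.coprime_M (hV he)) (T.c e) v
        = v := by
  classical
  obtain ⟨⟨u₀, s₀⟩, hxrep⟩ : ∃ p : Coh1 (scalarRep (T.char V) R) × awayMonoid T.m,
      x = LocalizedModule.mk p.1 p.2 := by
    induction x using LocalizedModule.induction_on with
    | _ u s => exact ⟨(u, s), rfl⟩
  have halR : ∀ e (he : e ∈ V) (a : AwayPoly R T.S) (v : Coh1 (scalarRep (T.char V) R)),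
      alOp R (T.isAL hV) he (T.dvd_level V) T.χ (T.coprime_M (hV he)) (T.c e)
        (awayIncl R T.S a • v) = awayIncl R T.S a •
      alOp R (T.isAL hV) he (T.dvd_level V) T.χ (T.coprime_M (hV he)) (T.c e) v :=
    fun e he a v => map_awayIncl_smul (S := T.S) _ (fun ℓ _ hℓ w => alOp_heckeOp_ne
      (T.isAL hV) he _ T.χ _ _ (ne_of_notMem hℓ (T.mem_S e (hV he))) w) a v
  have hw : ∀ e ∈ V, ∃ a : AwayPoly R T.S, a ∉ T.m ∧ ∀ he : e ∈ V,
      awayIncl R T.S a • alOp R (T.isAL hV) he (T.dvd_level V) T.χ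
        (T.coprime_M (hV he)) (T.c e) u₀ = awayIncl R T.S a • u₀ := fun e he => by
    have h := T.mem_signed.mp hx e he
    rw [hxrep, T.w_mk hV he, LocalizedModule.mk_eq] at h
    obtain ⟨⟨_, a, ha, rfl⟩, h⟩ := h
    obtain ⟨_, s, hs, hs'⟩ := s₀
    refine ⟨a * s, fun hm => (T.isPrime.mem_or_mem hm).elim ha hs, fun _ => ?_⟩
    rw [map_mul, mul_smul, mul_smul,
      show awayIncl R T.S s = (awayIncl R T.S : AwayPoly R T.S →+* HeckePoly R) s from rfl, hs']
    simp only [Submonoid.smul_def] at h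
    exact h
  choose aw haw haw' using hw
  set c₀ := ∏ e ∈ V.attach, aw e.1 e.2
  have hc₀ : c₀ ∉ T.m := fun h => by
    obtain ⟨e, -, he⟩ := (Ideal.IsPrime.prod_mem_iff).mp h
    exact haw e.1 e.2 he
  obtain ⟨_, s, hs, hs'⟩ := s₀
  refine ⟨awayIncl R T.S c₀ • u₀, c₀ * s, fun hm => (T.isPrime.mem_or_mem hm).elim hc₀ hs, ?_,
    fun e he => ?_⟩
  · rw [hxrep, LocalizedModule.smul'_mk, LocalizedModule.mk_eq]
    refine ⟨1, ?_⟩
    simp only [one_smul, Submonoid.smul_def]
    rw [map_mul, mul_smul, smul_comm,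
      show awayIncl R T.S s = (awayIncl R T.S : AwayPoly R T.S →+* HeckePoly R) s from rfl, hs']
  · rw [halR e he, show c₀ = _ from (Finset.mul_prod_erase _ _ (Finset.mem_attach V ⟨e, he⟩)).symm,
      mul_comm, map_mul, mul_smul, mul_smul, haw' e he he]

/-- **The ring of the enlarged setup maps onto the ring.** -/
theorem ker_newAct_big_le (H : SubHyp T S ψ Q V) [Module.Finite R (T.NewQuot R H.subset B)] :
    RingHom.ker (H.big.newAct R H.subset B) ≤ RingHom.ker (subAct T H.S_sub H.subset B) := by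
  intro a ha
  have hle : awayMonoid H.big.m ≤ awayMonoid T.m := by
    rintro _ ⟨b, hb, rfl⟩
    exact ⟨restrictAway R H.S_sub b, hb, awayIncl_restrictAway H.S_sub b⟩
  let Φ : ∀ U : Finset ℕ, H.big.H U R →ₗ[R] T.H U R := fun U =>
    (locMono hle).restrictScalars R
  have hΦ : ∀ U u s, Φ U (LocalizedModule.mk u s) = LocalizedModule.mk u
      (⟨(s : HeckePoly R), hle s.2⟩ : awayMonoid T.m) := fun U u s => locMono_mk hle u s
  have hΦw : ∀ {U : Finset ℕ} (hU : U ⊆ T.W) {e : ℕ}, e ∈ U → ∀ z,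
      Φ U (H.big.w R hU e z) = T.w R hU e (Φ U z) := fun {U} hU {e} he z => by
    induction z using LocalizedModule.induction_on with
    | _ u s =>
      rw [H.big.w_mk hU he, hΦ, hΦ, T.w_mk hU he]
  have hΦr : ∀ {U U' : Finset ℕ} (hU : U ⊆ T.W) (h : U' ⊆ U) z,
      Φ U (H.big.res R hU h z) = T.res R hU h (Φ U' z) := fun {U U'} hU h z => by
    induction z using LocalizedModule.induction_on with
    | _ u s =>
      rw [H.big.res_mk hU h, hΦ, hΦ, T.res_mk hU h]
  have hΦs : ∀ {U : Finset ℕ} (hU : U ⊆ T.W) z, z ∈ H.big.signed R hU → Φ U z ∈ T.signed R hU :=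
    fun {U} hU z hz => T.mem_signed.mpr fun e he => by
      rw [← hΦw hU he, H.big.mem_signed.mp hz e he]
  let Φs : H.big.signed R H.subset →ₗ[R] T.signed R H.subset :=
    (Φ V).restrict fun z hz => hΦs H.subset z hz
  have hold : H.big.oldSpace R H.subset B ≤ (T.oldSpace R H.subset B).comap Φs := by
    refine iSup_le fun b => iSup_le fun hb => iSup_le fun hbB => ?_
    rintro _ ⟨z, rfl⟩
    have he : Φs (H.big.oldSigned R H.subset hb z) = T.oldSigned R H.subset hb
        ⟨Φ _ (z : H.big.H (V.erase b) R),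
          hΦs ((V.erase_subset b).trans H.subset) _ z.2⟩ := Subtype.ext (by
      show Φ V (H.big.oldMap R H.subset (V.erase_subset b) b (z : H.big.H (V.erase b) R)) =
        T.oldMap R H.subset (V.erase_subset b) b _
      rw [H.big.oldMap_apply, T.oldMap_apply, map_add, hΦr, hΦw H.subset hb, hΦr]
      rfl)
    rw [Submodule.mem_comap, he]
    exact T.oldSigned_mem_oldSpace R H.subset hb hbB _
  rw [RingHom.mem_ker] at ha ⊢
  refine Submodule.linearMap_qext _ (LinearMap.ext fun x => ?_)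
  obtain ⟨v, c, hc, hcx, hv⟩ := exists_signed_representative T H.subset x.2
  have hv'' : (LocalizedModule.mk v 1 : H.big.H V R) ∈ H.big.signed R H.subset :=
    H.big.mem_signed.mpr fun e he => by
      rw [H.big.w_mk H.subset he]
      exact congrArg (fun w => LocalizedModule.mk w 1) (hv e he)
  have h1 := LinearMap.congr_fun ha (Submodule.Quotient.mk ⟨_, hv''⟩)
  rw [H.big.newAct_mk, LinearMap.zero_apply, Submodule.Quotient.mk_eq_zero] at h1
  have h2 := hold h1
  rw [Submodule.mem_comap] at h2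
  refine (bijective_newAct T H.subset hc).1 ?_
  rw [LinearMap.comp_apply, LinearMap.comp_apply, LinearMap.zero_apply, map_zero,
    Submodule.mkQ_apply, subAct_apply, ← Module.End.mul_apply, ← map_mul, T.newAct_mk,
    Submodule.Quotient.mk_eq_zero]
  convert h2 using 1
  refine Subtype.ext ?_
  show awayIncl R T.S (c * restrictAway R H.S_sub a) • (x : T.H V R) =
    Φ V (awayIncl R (↑S : Set ℕ) a • LocalizedModule.mk v 1)
  rw [show Φ V (awayIncl R (↑S : Set ℕ) a • LocalizedModule.mk v 1) =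
      awayIncl R (↑S : Set ℕ) a • Φ V (LocalizedModule.mk v 1) from (locMono hle).map_smul _ _,
    hΦ, map_mul, mul_comm, mul_smul, hcx, awayIncl_restrictAway]
  rfl

/-- An algebra map out of a quotient gives one out of the quotient by a smaller ideal. -/
private theorem exists_algHom_factor {O P A : Type} [CommRing O] [CommRing P] [CommRing A]
    [Algebra O P] [Algebra O A] {I J : Ideal P} (h : I ≤ J) (θ : P ⧸ J →ₐ[O] A) :
    ∃ θ' : P ⧸ I →ₐ[O] A, ∀ a, θ' (Ideal.Quotient.mk I a) = θ (Ideal.Quotient.mk J a) :=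
  ⟨θ.comp (Ideal.Quotient.factorₐ O h), fun _ => rfl⟩

/-- A point of the ring gives one of the enlarged setup. -/
theorem SubHyp.exists_bigPoint (H : SubHyp T S ψ Q V) [Module.Finite R (T.NewQuot R H.subset B)]
    {O : Type} [CommRing O] [Algebra O R] {A : Type} [CommRing A] [Algebra O A]
    (θ : SubRing T H.S_sub H.subset B →ₐ[O] A) :
    ∃ θ' : NewRing H.big H.subset B →ₐ[O] A,
      ∀ a : AwayPoly R (↑S : Set ℕ),
        θ' (Ideal.Quotient.mk _ a) = θ (Ideal.Quotient.mk _ a) :=
  exists_algHom_factor (ker_newAct_big_le T H) θ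

end Fermat.Agent.TwoAdic.TSide
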