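import Fermat.Agent.Deform.PseudoData

/-!
# Maps into a finite algebra read at jointly injective points
-/

set_option autoImplicit false

open IsLocalRing Fermat.Agent.DefRing Fermat.Agent.Deform

namespace Fermat.Agent.TwoAdic.TSide

variable {𝒪 : Type} [CommRing 𝒪] [IsLocalRing 𝒪] [IsNoetherianRing 𝒪]
  [IsAdicComplete (maximalIdeal 𝒪) 𝒪] [Finite (ResidueField 𝒪)]

/-- A topologically generated ring maps to a finite local algebra as soon as the images of the
generators at jointly injective points come from it. -/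
theorem exists_algHom_of_points {R : Type} [CommRing R] [IsLocalRing R] [Algebra 𝒪 R] (G : Set R)
    (hdense : ∀ (r : R) (n : ℕ), ∃ s ∈ Algebra.adjoin 𝒪 G, r - s ∈ maximalIdeal R ^ n)
    {T : Type} [CommRing T] [IsLocalRing T] [Algebra 𝒪 T] [IsLocalHom (algebraMap 𝒪 T)]
    [Module.Finite 𝒪 T] {J : Type} (A : J → Type) [∀ j, CommRing (A j)] [∀ j, IsLocalRing (A j)]
    [∀ j, IsNoetherianRing (A j)] [∀ j, Algebra 𝒪 (A j)]
    (π : ∀ j, T →ₐ[𝒪] A j) (hπ : ∀ j, IsLocalHom (π j : T →+* A j))
    (hinj : ∀ x, (∀ j, π j x = 0) → x = 0)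
    (f : ∀ j, R →ₐ[𝒪] A j) (hf : ∀ j, IsLocalHom (f j : R →+* A j))
    (hG : ∀ g ∈ G, ∃ x, ∀ j, π j x = f j g) :
    ∃ φ : R →ₐ[𝒪] T, IsLocalHom (φ : R →+* T) ∧ (∀ j, (π j).comp φ = f j) ∧
      ∀ (r : R) (x : T), (∀ j, π j x = f j r) → φ r = x := by
  have : IsNoetherianRing T := IsNoetherianRing.of_finite 𝒪 T
  have : IsAdicComplete (maximalIdeal T) T := IsLocalRing.isAdicComplete_of_module_finite (𝒪 := 𝒪)
  have : Finite (ResidueField T) := by
    have : Module.Finite (ResidueField 𝒪) (ResidueField T) := inferInstance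
    exact Module.finite_of_finite (ResidueField 𝒪)
  have hhaus : ∀ j (x : A j), (∀ n, x ∈ maximalIdeal (A j) ^ n) → x = 0 := fun j x hx => by
    have h := Ideal.iInf_pow_eq_bot_of_isLocalRing (maximalIdeal (A j))
      (maximalIdeal.isMaximal (A j)).ne_top
    rw [← Ideal.mem_bot, ← h]
    exact Ideal.mem_iInf.mpr hx
  have hS : ∀ s ∈ Algebra.adjoin 𝒪 G, ∃ x : T, ∀ j, π j x = f j s := by
    intro s hs
    induction hs using Algebra.adjoin_induction with
    | mem x hx => exact hG x hx
    | algebraMap o => exact ⟨algebraMap 𝒪 T o, fun j => by rw [AlgHom.commutes, AlgHom.commutes]⟩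
    | add x y _ _ hx hy =>
      obtain ⟨a, ha⟩ := hx
      obtain ⟨b, hb⟩ := hy
      exact ⟨a + b, fun j => by rw [map_add, map_add, ha, hb]⟩
    | mul x y _ _ hx hy =>
      obtain ⟨a, ha⟩ := hx
      obtain ⟨b, hb⟩ := hy
      exact ⟨a * b, fun j => by rw [map_mul, map_mul, ha, hb]⟩
  let K : ℕ → Ideal T := fun n => ⨅ j, (maximalIdeal (A j) ^ n).comap (π j)
  have hKanti : Antitone K := fun a b hab => iInf_mono fun j =>
    Ideal.comap_mono (Ideal.pow_le_pow_right hab)
  have hK0 : ∀ x, (∀ n, x ∈ K n) → x = 0 := fun x hx => hinj x fun j => hhaus j _ fun n =>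
    Ideal.mem_comap.mp (Ideal.mem_iInf.mp (hx n) j)
  choose lev hlev using exists_le_pow_maximalIdeal K hKanti hK0
  have hlim : ∀ r : R, ∃ x : T, ∀ j, π j x = f j r := by
    intro r
    choose s hs hsr using fun n => hdense r n
    choose x hx using fun n => hS (s n) (hs n)
    let idx : ℕ → ℕ := fun N => N + ∑ i ∈ Finset.range (N + 1), lev i
    have hidx : ∀ M N, M ≤ N → lev M ≤ idx N ∧ N ≤ idx N := fun M N h => by
      refine ⟨le_trans ?_ (Nat.le_add_left _ _), Nat.le_add_right _ _⟩
      exact Finset.single_le_sum (fun i _ => Nat.zero_le (lev i))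
        (Finset.mem_range.mpr (by omega))
    have hxf : ∀ j n, π j (x n) - f j r ∈ maximalIdeal (A j) ^ n := fun j n => by
      rw [hx, ← map_sub, ← neg_mem_iff, ← map_neg, neg_sub]
      exact mem_pow_of_algHom (f j : R →+* A j) (hf j) (hsr n)
    obtain ⟨y, hy⟩ := IsPrecomplete.prec (inferInstance : IsPrecomplete (maximalIdeal T) T)
      (f := fun N => x (idx N)) fun {M N} hMN => by
        rw [SModEq.sub_mem, smul_eq_mul, Ideal.mul_top]
        refine hlev M (Ideal.mem_iInf.mpr fun j => Ideal.mem_comap.mpr ?_)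
        rw [map_sub, show π j (x (idx M)) - π j (x (idx N)) =
          (π j (x (idx M)) - f j r) - (π j (x (idx N)) - f j r) by ring]
        exact sub_mem (Ideal.pow_le_pow_right (hidx M M le_rfl).1 (hxf j _))
          (Ideal.pow_le_pow_right (hidx M N hMN).1 (hxf j _))
    refine ⟨y, fun j => sub_eq_zero.mp (hhaus j _ fun N => ?_)⟩
    have h1 := hy N
    rw [SModEq.sub_mem, smul_eq_mul, Ideal.mul_top] at h1
    have h2 := mem_pow_of_algHom (π j : T →+* A j) (hπ j) h1
    have h3 := Ideal.pow_le_pow_right (hidx N N le_rfl).2 (hxf j (idx N))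
    have h4 := sub_mem h3 h2
    have : π j y - f j r = (π j (x (idx N)) - f j r) - π j (x (idx N) - y) := by
      rw [map_sub]; ring
    rw [this]
    exact h4
  choose F hF using hlim
  have heq : ∀ a b : T, (∀ j, π j a = π j b) → a = b := fun a b h =>
    sub_eq_zero.mp (hinj _ fun j => by rw [map_sub, h, sub_self])
  let φ : R →ₐ[𝒪] T :=
    { toFun := F
      map_one' := heq _ _ fun j => by rw [hF, map_one, map_one]
      map_mul' := fun a b => heq _ _ fun j => by rw [hF, map_mul, map_mul, hF, hF]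
      map_zero' := heq _ _ fun j => by rw [hF, map_zero, map_zero]
      map_add' := fun a b => heq _ _ fun j => by rw [hF, map_add, map_add, hF, hF]
      commutes' := fun o => heq _ _ fun j => by rw [hF, AlgHom.commutes, AlgHom.commutes] }
  refine ⟨φ, ⟨fun r hu => ?_⟩, fun j => AlgHom.ext fun r => hF r j,
    fun r x h => heq _ _ fun j => by rw [h]; exact hF r j⟩
  have : Nonempty J := by
    by_contra h
    exact one_ne_zero (hinj 1 fun j => (h ⟨j⟩).elim)
  obtain ⟨j⟩ := this
  refine (hf j).map_nonunit r ?_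
  have h2 := hu.map (π j)
  change IsUnit (π j (F r)) at h2
  rwa [hF r j] at h2

end Fermat.Agent.TwoAdic.TSide
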