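import Fermat.Agent.TwoAdic.TSide.Generation
import Fermat.Agent.TwoAdic.TSide.PointMap
import Fermat.Agent.TwoAdic.Pair.Cond

/-!
# The universal pair maps onto Hecke algebras

`adjoin_root_trace_sub_mem`: the universal ring of pairs is topologically generated by the unit root
and the traces at Frobenius elements outside any finite set.  `exists_surjective_of_pairs`: a pair
at each of jointly injective points of a finite local algebra `T`, with unit roots and Frobenius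
traces coming from generators of `T`, gives the map of the universal ring onto `T`.
-/

set_option autoImplicit false

open IsLocalRing GaloisRep Fermat.Agent.DefRing Fermat.Agent.Deform

namespace Fermat.Agent.TwoAdic.TSide

open Pair

variable {𝒪 : Type} [CommRing 𝒪] [IsLocalRing 𝒪] [Finite (ResidueField 𝒪)] {D : NormalData 𝒪}
  {E : LiftData} {Q : Finset ℕ} {C : Set (GQ × GQ)} {h : IsResidualPair D E Q C}
  (U : (pairFunctor h).UniversalPoint)

/-- The unit root and the traces at Frobenius elements generate topologically. -/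
theorem adjoin_root_trace_sub_mem
    (hspan : Submodule.span (ResidueField 𝒪) (Set.range D.rbar) = ⊤) (S : Finset ℕ) (r : U.R)
    (n : ℕ) :
    ∃ s ∈ Algebra.adjoin 𝒪
        ((fun σ => Matrix.trace (uRep U σ)) '' frobeniusSet S ∪ {uRoot U}),
      r - s ∈ maximalIdeal U.R ^ n := by
  have hU := isPair_universal U
  obtain ⟨hcont, -⟩ := hU.isDef.exists_cont
  obtain ⟨m, hm, hm1⟩ : ∃ m, n ≤ m ∧ 1 ≤ m := ⟨n + 1, by omega, by omega⟩
  let I := maximalIdeal U.R ^ m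
  have hI1 : I ≤ maximalIdeal U.R := Ideal.pow_le_self (by omega)
  have : Nontrivial (U.R ⧸ I) := Ideal.Quotient.nontrivial_iff.mpr fun h =>
    (maximalIdeal.isMaximal U.R).ne_top (top_le_iff.mp (h ▸ hI1))
  have : IsLocalRing (U.R ⧸ I) :=
    IsLocalRing.of_surjective' (Ideal.Quotient.mk I) Ideal.Quotient.mk_surjective
  let q : U.R →ₐ[𝒪] U.R ⧸ I := Ideal.Quotient.mkₐ 𝒪 I
  have hq : IsLocalHom (q : U.R →+* U.R ⧸ I) :=
    isLocalHom_of_surjective' _ Ideal.Quotient.mk_surjective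
  have : Finite (U.R ⧸ I) := U.finite_quotient m
  let π : U.R ⧸ I →ₐ[𝒪] ResidueField 𝒪 :=
    Ideal.Quotient.liftₐ I (toResidue U.instIsLocalHom U.residue_surjective)
      fun x hx => (toResidue_eq_zero_iff _ _).mpr (hI1 hx)
  have hA : IsArtinianTestAlgebra 𝒪 (U.R ⧸ I) := by
    refine isArtinianTestAlgebra_of_toField π fun c hc => ⟨m, ?_⟩
    obtain ⟨x, rfl⟩ := Ideal.Quotient.mk_surjective c
    rw [← map_pow, Ideal.Quotient.eq_zero_iff_mem]
    exact Ideal.pow_mem_pow ((toResidue_eq_zero_iff U.instIsLocalHom U.residue_surjective).mp hc) _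
  have := hA.isArtinian
  let M := mapRep (q : U.R →+* U.R ⧸ I) (uRep U)
  have hMc : IsCont M := hcont.map _ hq
  let : Algebra 𝒪 (DualNumber (ResidueField 𝒪)) := dualAlgebra
  have hgen : Algebra.adjoin 𝒪 (q '' insert (uRoot U)
      (Set.range fun x : GQ × Fin 2 × Fin 2 => uRep U x.1 x.2.1 x.2.2)) = ⊤ := by
    rw [eq_top_iff]
    rintro x -
    obtain ⟨y, rfl⟩ := Ideal.Quotient.mk_surjective x
    obtain ⟨s, hs, hys⟩ := universal_topGen U y m
    rw [show Ideal.Quotient.mk I y = q s from Ideal.Quotient.eq.mpr hys,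
      ← AlgHom.map_adjoin]
    exact Subalgebra.mem_map.mpr ⟨s, hs, rfl⟩
  have hsep : ∀ f g : U.R ⧸ I →ₐ[𝒪] DualNumber (ResidueField 𝒪),
      mapRep (f : U.R ⧸ I →+* DualNumber (ResidueField 𝒪)) M =
        mapRep (g : U.R ⧸ I →+* DualNumber (ResidueField 𝒪)) M →
      (∀ e ∈ ({q (uRoot U)} : Set (U.R ⧸ I)), f e = g e) → f = g := by
    intro f g hfg he
    refine AlgHom.ext_of_adjoin_eq_top hgen ?_
    rintro _ ⟨y, rfl | ⟨⟨σ, a, b⟩, rfl⟩, rfl⟩
    · exact he _ rfl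
    · exact congrFun (congrFun (DFunLike.congr_fun hfg σ) a) b
  have htop := adjoin_trace_union_eq_top (hl := hA.isLocalHom) (hs := hA.residue_surjective)
    {q (uRoot U)} hspan hA (hU.isDef.normal.map q) (hU.isDef.reduces.map q hq) hsep
    (frobeniusSet S) fun σ => exists_frobenius_eq hMc S σ
  have himg : (fun σ => Matrix.trace (M σ)) '' frobeniusSet S ∪ {q (uRoot U)} =
      q '' ((fun σ => Matrix.trace (uRep U σ)) '' frobeniusSet S ∪ {uRoot U}) := by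
    rw [Set.image_union, Set.image_singleton, ← Set.image_comp]
    congr 1
  rw [himg, ← AlgHom.map_adjoin] at htop
  obtain ⟨s, hs, hsr⟩ := (Subalgebra.mem_map.mp (htop ▸ (Algebra.mem_top : q r ∈ ⊤)))
  exact ⟨s, hs, Ideal.pow_le_pow_right hm (Ideal.Quotient.eq.mp hsr.symm)⟩

/-- **`R ↠ T` for pairs.** -/
theorem exists_surjective_of_pairs [IsNoetherianRing 𝒪] [IsAdicComplete (maximalIdeal 𝒪) 𝒪]
    (hspan : Submodule.span (ResidueField 𝒪) (Set.range D.rbar) = ⊤)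
    {T : Type} [CommRing T] [IsLocalRing T] [Algebra 𝒪 T] [IsLocalHom (algebraMap 𝒪 T)]
    [Module.Finite 𝒪 T] {J : Type} (A : J → Type) [∀ j, CommRing (A j)] [∀ j, IsLocalRing (A j)]
    [∀ j, IsNoetherianRing (A j)] [∀ j, IsAdicComplete (maximalIdeal (A j)) (A j)]
    [∀ j, Algebra 𝒪 (A j)] [∀ j, IsLocalHom (algebraMap 𝒪 (A j))]
    (hsA : ∀ j, Function.Surjective (residue (A j) ∘ algebraMap 𝒪 (A j)))
    (π : ∀ j, T →ₐ[𝒪] A j) (hπ : ∀ j, IsLocalHom (π j : T →+* A j))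
    (hinj : ∀ x, (∀ j, π j x = 0) → x = 0) (αT : T) (t : ℕ → T) (S : Finset ℕ)
    (N : ∀ j, MRep (A j)) (hN : ∀ j, IsPair D E Q C inferInstance (hsA j) (N j) (π j αT))
    (htr : ∀ ℓ : ℕ, ℓ.Prime → ℓ ∉ S → ∀ P : ValuationSubring (AlgebraicClosure ℚ),
      P.LiesOverPrime ℓ → ∀ σ : GQ, P.IsFrobeniusAt σ ℓ → ∀ j,
        Matrix.trace (N j σ) = π j (t ℓ))
    (hgen : Algebra.adjoin 𝒪 (insert αT (t '' {ℓ | ℓ.Prime ∧ ℓ ∉ S})) = ⊤) :
    ∃ φ : U.R →ₐ[𝒪] T, Function.Surjective φ ∧ IsLocalHom (φ : U.R →+* T) ∧ φ (uRoot U) = αT ∧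
      (∀ j, mapRep ((π j).comp φ : U.R →+* A j) (uRep U) = N j) ∧
      ∀ ℓ : ℕ, ℓ.Prime → ℓ ∉ S → ∀ P : ValuationSubring (AlgebraicClosure ℚ),
        P.LiesOverPrime ℓ → ∀ σ : GQ, P.IsFrobeniusAt σ ℓ →
          φ (Matrix.trace (uRep U σ)) = t ℓ := by
  choose f hf huniq using fun j => existsUnique_map U (hsA j) (hN j)
  have htrf : ∀ j σ, f j (Matrix.trace (uRep U σ)) = Matrix.trace (N j σ) := fun j σ => by
    rw [← (hf j).2.1]
    simp [Matrix.trace, Fin.sum_univ_two]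
  obtain ⟨φ, hφl, hφ, hval⟩ := exists_algHom_of_points
    ((fun σ => Matrix.trace (uRep U σ)) '' frobeniusSet S ∪ {uRoot U})
    (adjoin_root_trace_sub_mem U hspan S) A π hπ hinj f (fun j => (hf j).1) (by
      rintro g (⟨σ, ⟨ℓ, hℓ, hℓS, P, hP, hσ⟩, rfl⟩ | rfl)
      · exact ⟨t ℓ, fun j => by rw [htrf, htr ℓ hℓ hℓS P hP σ hσ j]⟩
      · exact ⟨αT, fun j => (hf j).2.2.symm⟩)
  have hroot : φ (uRoot U) = αT := hval _ _ fun j => (hf j).2.2.symm
  have htrace : ∀ ℓ : ℕ, ℓ.Prime → ℓ ∉ S → ∀ P : ValuationSubring (AlgebraicClosure ℚ),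
      P.LiesOverPrime ℓ → ∀ σ : GQ, P.IsFrobeniusAt σ ℓ →
        φ (Matrix.trace (uRep U σ)) = t ℓ := fun ℓ hℓ hℓS P hP σ hσ =>
    hval _ _ fun j => by rw [htrf, htr ℓ hℓ hℓS P hP σ hσ j]
  refine ⟨φ, ?_, hφl, hroot, fun j => ?_, htrace⟩
  · rw [← AlgHom.range_eq_top, eq_top_iff, ← hgen]
    refine Algebra.adjoin_le (Set.insert_subset_iff.mpr ⟨⟨_, hroot⟩, ?_⟩)
    rintro _ ⟨ℓ, ⟨hℓ, hℓS⟩, rfl⟩
    obtain ⟨P, σ, hP, hσ⟩ := Fermat.Agent.Frobenius.exists_liesOverPrime_and_isFrobeniusAt_qbar hℓ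
    exact ⟨_, htrace ℓ hℓ hℓS P hP σ hσ⟩
  · rw [hφ j]
    exact (hf j).2.1

end Fermat.Agent.TwoAdic.TSide
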