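import Mathlib

/-!
# An irreducible plane inside a space with the same quadratic relations

If `π g + d g π g⁻¹ = t g` on `W`, where `d`, `t` are the determinant and trace of a
two-dimensional `R` having an invertible commutator, then `R` embeds equivariantly in `W` at every
nonzero vector.
-/

set_option autoImplicit false

open Matrix

namespace Fermat.Agent.TwoAdic.TSide

variable {G : Type*} [Group G] {K : Type*} [Field K]

/-- The relation between two elements implied by the quadratic relations. -/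
theorem anticomm {E : Type*} [Ring E] [Algebra K E] (π : G →* E) (d : G →* K) (t : G → K)
    (hq : ∀ g, π g + d g • π g⁻¹ = t g • 1) (g h : G) :
    π g * π h + π h * π g = t h • π g + t g • π h + (t (g * h) - t g * t h) • 1 := by
  have hg : d g • π g⁻¹ = t g • 1 - π g := by rw [← hq g, add_sub_cancel_left]
  have hh : d h • π h⁻¹ = t h • 1 - π h := by rw [← hq h, add_sub_cancel_left]
  have h1 := hq (g * h)
  rw [_root_.mul_inv_rev, map_mul, map_mul, map_mul, show (d g * d h) • (π h⁻¹ * π g⁻¹) =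
    (d h • π h⁻¹) * (d g • π g⁻¹) by rw [smul_mul_smul_comm, mul_comm], hg, hh] at h1
  rw [← sub_eq_zero] at h1 ⊢
  rw [← h1]
  simp only [sub_mul, mul_sub, smul_mul_assoc, mul_smul_comm, one_mul, mul_one, sub_smul]
  module

/-- The square from the relation. -/
theorem sq_of_relation {E : Type*} [Ring E] [Algebra K E] (π : G →* E) (d : G →* K) (t : G → K)
    (hq : ∀ g, π g + d g • π g⁻¹ = t g • 1) (g : G) :
    π g * π g = t g • π g - d g • 1 := by
  have h := congrArg (π g * ·) (hq g)
  simp only [mul_add, mul_smul_comm, mul_one] at h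
  rw [← map_mul π g g⁻¹, mul_inv_cancel, map_one] at h
  rw [← h, add_sub_cancel_right]

theorem rep_relation (R : G →* Matrix (Fin 2) (Fin 2) K) (g : G) :
    R g + (R g).det • R g⁻¹ = (R g).trace • 1 := by
  have h2 : R g * R g + (R g).det • (1 : Matrix (Fin 2) (Fin 2) K) = (R g).trace • R g := by
    ext i j
    fin_cases i <;> fin_cases j <;>
      simp [Matrix.mul_apply, Fin.sum_univ_two, Matrix.det_fin_two, Matrix.trace_fin_two] <;> ring
  have hi : R g * R g⁻¹ = 1 := by rw [← map_mul, mul_inv_cancel, map_one]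
  have h3 := congrArg (· * R g⁻¹) h2
  simp only [add_mul, smul_mul_assoc, mul_assoc, hi, mul_one, one_mul] at h3
  exact h3

/-- The multiplication table of `π g`, `π h`. -/
theorem mult_table {E : Type*} [Ring E] [Algebra K E] (σ : G →* E) (d : G →* K) (t : G → K)
    (hσ : ∀ g, σ g + d g • σ g⁻¹ = t g • 1) (g h : G) :
    σ g * σ g = t g • σ g - d g • 1 ∧
    σ h * σ g = t h • σ g + t g • σ h + (t (g * h) - t g * t h) • 1 - σ g * σ h ∧
    σ g * (σ g * σ h) = t g • (σ g * σ h) - d g • σ h ∧
    σ h * σ h = t h • σ h - d h • 1 ∧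
    σ h * (σ g * σ h) = t (g * h) • σ h + d h • σ g - (t g * d h) • 1 := by
  have h1 := sq_of_relation σ d t hσ g
  have h4 := sq_of_relation σ d t hσ h
  have h2 : σ h * σ g = t h • σ g + t g • σ h + (t (g * h) - t g * t h) • 1 - σ g * σ h := by
    rw [← anticomm σ d t hσ g h, add_sub_cancel_left]
  refine ⟨h1, h2, ?_, h4, ?_⟩
  · rw [← mul_assoc, h1, sub_mul, smul_mul_assoc, smul_mul_assoc, one_mul]
  · rw [← mul_assoc, h2]
    simp only [add_mul, sub_mul, smul_mul_assoc, one_mul, mul_assoc, h4, mul_sub, mul_smul_comm,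
      mul_one, smul_sub, smul_smul]
    module

/-- An invertible commutator makes `1, A, B, A B` independent. -/
theorem linearIndependent_quad {A B : Matrix (Fin 2) (Fin 2) K} (h : (A * B - B * A).det ≠ 0) :
    LinearIndependent K ![1, A, B, A * B] := by
  have hne : ∀ c : K, A ≠ c • 1 := fun c hA => h (by
    rw [hA, smul_mul_assoc, one_mul, mul_smul_comm, mul_one, sub_self, det_zero])
  rw [Fintype.linearIndependent_iff]
  intro c hc
  simp only [Fin.sum_univ_four, Matrix.cons_val] at hc
  have h1 : (c 2 • 1 + c 3 • A) * (A * B - B * A) = 0 := by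
    calc (c 2 • 1 + c 3 • A) * (A * B - B * A)
        = A * (c 0 • 1 + c 1 • A + c 2 • B + c 3 • (A * B)) -
            (c 0 • 1 + c 1 • A + c 2 • B + c 3 • (A * B)) * A := by
          simp only [add_mul, mul_add, mul_sub, smul_mul_assoc, mul_smul_comm, one_mul, mul_one,
            mul_assoc]
          module
      _ = 0 := by rw [hc, mul_zero, zero_mul, sub_self]
  have h2 : c 2 • (1 : Matrix (Fin 2) (Fin 2) K) + c 3 • A = 0 :=
    ((Matrix.isUnit_iff_isUnit_det _).mpr (Ne.isUnit h)).mul_left_eq_zero.mp h1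
  have key : ∀ a b : K, a • (1 : Matrix (Fin 2) (Fin 2) K) + b • A = 0 → a = 0 ∧ b = 0 := by
    intro a b hab
    have hb : b = 0 := by
      by_contra hb
      refine hne (-(b⁻¹ * a)) ?_
      have := congrArg (b⁻¹ • ·) hab
      rw [smul_add, smul_zero, smul_smul, smul_smul, inv_mul_cancel₀ hb, one_smul] at this
      rw [neg_smul]
      exact eq_neg_of_add_eq_zero_right this
    refine ⟨?_, hb⟩
    subst hb
    rw [zero_smul, add_zero] at hab
    simpa using congrFun (congrFun hab 0) 0
  obtain ⟨e2, e3⟩ := key _ _ h2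
  rw [e2, e3, zero_smul, zero_smul, add_zero, add_zero] at hc
  obtain ⟨e0, e1⟩ := key _ _ hc
  intro i
  fin_cases i <;> assumption

/-- An equivariant embedding of `R`. -/
theorem exists_embedding {W : Type*} [AddCommGroup W] [Module K W] (π : G →* Module.End K W)
    (R : G →* Matrix (Fin 2) (Fin 2) K)
    (hq : ∀ g, π g + (R g).det • π g⁻¹ = (R g).trace • 1)
    (hirr : ∃ g h, (R g * R h - R h * R g).det ≠ 0) {u : W} (hu : u ≠ 0) :
    ∃ j : (Fin 2 → K) →ₗ[K] W, Function.Injective j ∧ ∀ g x, j (R g *ᵥ x) = π g (j x) := by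
  obtain ⟨g₀, h₀, hC⟩ := hirr
  let d : G →* K := Matrix.detMonoidHom.comp R
  let t : G → K := fun g => (R g).trace
  have hqR : ∀ g, R g + d g • R g⁻¹ = t g • 1 := rep_relation R
  have hqW : ∀ g, π g + d g • π g⁻¹ = t g • 1 := hq
  set A := R g₀
  set B := R h₀
  let b : Module.Basis (Fin 4) K (Matrix (Fin 2) (Fin 2) K) :=
    basisOfLinearIndependentOfCardEqFinrank (linearIndependent_quad hC)
      (by rw [Module.finrank_matrix]; simp)
  have hb : ∀ i, b i = ![1, A, B, A * B] i := fun i => by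
    simp [b, coe_basisOfLinearIndependentOfCardEqFinrank]
  let Φ : Matrix (Fin 2) (Fin 2) K →ₗ[K] Module.End K W :=
    b.constr K ![1, π g₀, π h₀, π g₀ * π h₀]
  have hΦ : ∀ i, Φ (![1, A, B, A * B] i) = ![1, π g₀, π h₀, π g₀ * π h₀] i := fun i => by
    rw [← hb]; exact b.constr_basis K _ i
  have hΦ1 : Φ 1 = 1 := hΦ 0
  have hΦA : Φ A = π g₀ := hΦ 1
  have hΦB : Φ B = π h₀ := hΦ 2
  have hΦAB : Φ (A * B) = π g₀ * π h₀ := hΦ 3
  -- the multiplication table
  obtain ⟨a1, a2, a3, a4, a5⟩ := mult_table R d t hqR g₀ h₀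
  obtain ⟨b1, b2, b3, b4, b5⟩ := mult_table π d t hqW g₀ h₀
  have hmulA : ∀ x, Φ (A * x) = π g₀ * Φ x := by
    intro x
    refine LinearMap.congr_fun (f := Φ.comp (LinearMap.mulLeft K A))
      (g := (LinearMap.mulLeft K (π g₀)).comp Φ) (b.ext fun i => ?_) x
    simp only [LinearMap.comp_apply, LinearMap.mulLeft_apply, hb, hΦ]
    fin_cases i <;> simp only [Fin.zero_eta, Fin.mk_one, Fin.reduceFinMk, Matrix.cons_val]
    · rw [mul_one, hΦA, mul_one]
    · rw [a1, b1, map_sub, map_smul, map_smul, hΦA, hΦ1]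
    · rw [hΦAB]
    · rw [a3, b3, map_sub, map_smul, map_smul, hΦAB, hΦB]
  have hmulB : ∀ x, Φ (B * x) = π h₀ * Φ x := by
    intro x
    refine LinearMap.congr_fun (f := Φ.comp (LinearMap.mulLeft K B))
      (g := (LinearMap.mulLeft K (π h₀)).comp Φ) (b.ext fun i => ?_) x
    simp only [LinearMap.comp_apply, LinearMap.mulLeft_apply, hb, hΦ]
    fin_cases i <;> simp only [Fin.zero_eta, Fin.mk_one, Fin.reduceFinMk, Matrix.cons_val]
    · rw [mul_one, hΦB, mul_one]
    · rw [a2, b2, map_sub, map_add, map_add, map_smul, map_smul, map_smul, hΦA, hΦB, hΦ1, hΦAB]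
    · rw [a4, b4, map_sub, map_smul, map_smul, hΦB, hΦ1]
    · rw [a5, b5, map_sub, map_add, map_smul, map_smul, map_smul, hΦA, hΦB, hΦ1]
  have hmul : ∀ y x, Φ (y * x) = Φ y * Φ x := by
    intro y x
    refine LinearMap.congr_fun (f := Φ.comp (LinearMap.mulRight K x))
      (g := (LinearMap.mulRight K (Φ x)).comp Φ) (b.ext fun i => ?_) y
    simp only [LinearMap.comp_apply, LinearMap.mulRight_apply, hb, hΦ]
    fin_cases i <;> simp only [Fin.zero_eta, Fin.mk_one, Fin.reduceFinMk, Matrix.cons_val]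
    · rw [one_mul, one_mul]
    · exact hmulA x
    · exact hmulB x
    · rw [mul_assoc, hmulA, hmulB, mul_assoc]
  -- `Φ` interpolates `π`
  have hπ : ∀ g, π g = Φ (R g) := by
    intro g
    set X := π g - Φ (R g)
    have hanti : ∀ k, Φ (R k) = π k → t g • π k + (t (g * k) - t g * t k) • 1 =
        Φ (R g) * π k + π k * Φ (R g) - t k • Φ (R g) := by
      intro k hk
      rw [← hk, ← hmul, ← hmul, ← map_add, anticomm R d t hqR g k, map_add, map_add, map_smul,
        map_smul, map_smul, hΦ1]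
      abel
    have hX : ∀ k, Φ (R k) = π k → X * π k = t k • X - π k * X := by
      intro k hk
      have h1 := anticomm π d t hqW g k
      rw [add_assoc (t k • π g), hanti k hk] at h1
      rw [← sub_eq_zero] at h1 ⊢
      rw [← h1]
      simp only [X, sub_mul, mul_sub, smul_sub]
      abel
    have hA' : X * π g₀ = t g₀ • X - π g₀ * X := hX g₀ hΦA
    have hB' : X * π h₀ = t h₀ • X - π h₀ * X := hX h₀ hΦB
    have hAB' : X * π (g₀ * h₀) = t (g₀ * h₀) • X - π (g₀ * h₀) * X :=
      hX _ (by rw [map_mul R, map_mul π]; exact hΦAB)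
    rw [map_mul π g₀ h₀] at hAB'
    have h2 : X * (π g₀ * π h₀) = t g₀ • (t h₀ • X - π h₀ * X) -
        π g₀ * (t h₀ • X - π h₀ * X) := by
      rw [← mul_assoc, hA', sub_mul, smul_mul_assoc, mul_assoc, hB']
    have hCX : (π g₀ * π h₀ - π h₀ * π g₀) * X = 0 := by
      rw [b2]
      have h3 := h2.symm.trans hAB'
      rw [← sub_eq_zero] at h3
      rw [← h3]
      simp only [sub_mul, add_mul, mul_sub, smul_mul_assoc, mul_smul_comm, smul_sub, smul_smul,
        one_mul, mul_assoc, sub_smul]
      module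
    have hinv : Φ ((A * B - B * A)⁻¹) * (π g₀ * π h₀ - π h₀ * π g₀) = 1 := by
      rw [← hΦA, ← hΦB, ← hmul, ← hmul, ← map_sub, ← hmul,
        Matrix.nonsing_inv_mul _ (Ne.isUnit hC), hΦ1]
    have h4 : X = 0 := by rw [← one_mul X, ← hinv, mul_assoc, hCX, mul_zero]
    exact sub_eq_zero.mp h4
  -- a vector
  obtain ⟨i, hi⟩ : ∃ i : Fin 2, Φ (Matrix.single 0 i 1) u ≠ 0 := by
    by_contra hc
    push Not at hc
    refine hu ?_
    have h1 : (1 : Matrix (Fin 2) (Fin 2) K) = Matrix.single 0 0 1 +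
        Matrix.single 1 0 1 * Matrix.single 0 1 1 := by
      ext a b; fin_cases a <;> fin_cases b <;> simp
    have h2 : Φ 1 u = u := by rw [hΦ1, Module.End.one_apply]
    rw [← h2, h1, map_add, hmul, LinearMap.add_apply, Module.End.mul_apply, hc, hc, map_zero,
      add_zero]
  let col : (Fin 2 → K) →ₗ[K] Matrix (Fin 2) (Fin 2) K :=
    { toFun := fun x => Matrix.vecMulVec x (Pi.single i 1)
      map_add' := fun x y => Matrix.add_vecMulVec x y _
      map_smul' := fun c x => Matrix.smul_vecMulVec c x _ }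
  refine ⟨(LinearMap.applyₗ u).comp (Φ.comp col), ?_, fun g x => ?_⟩
  · refine (injective_iff_map_eq_zero _).mpr fun x hx => funext fun r => ?_
    have h1 : Matrix.single 0 r 1 * col x = x r • Matrix.single 0 i (1 : K) := by
      ext a b
      fin_cases a <;> fin_cases b <;> fin_cases r <;> fin_cases i <;>
        simp [col, Matrix.vecMulVec, Matrix.mul_apply, Fin.sum_univ_two]
    have h2 : Φ (Matrix.single 0 r 1 * col x) u = x r • Φ (Matrix.single 0 i (1 : K)) u := by
      rw [h1, map_smul, LinearMap.smul_apply]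
    rw [hmul, Module.End.mul_apply, show Φ (col x) u = 0 from hx, map_zero] at h2
    exact (smul_eq_zero.mp h2.symm).resolve_right hi
  · show Φ (col (R g *ᵥ x)) u = π g (Φ (col x) u)
    rw [hπ g, ← Module.End.mul_apply, ← hmul]
    congr 2
    exact (Matrix.mul_vecMulVec _ _ _).symm

end Fermat.Agent.TwoAdic.TSide
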