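import Fermat.Agent.EigenRep.AttachedAdic
import Fermat.Agent.Engine.TRep.Tame
import Fermat.Agent.TwoAdic.TSide.QuadEmbed
import Fermat.Agent.Chebotarev.BrauerNesbitt
import Fermat.Agent.DefRing.MatrixRep

/-!
# The representation attached to an eigenvector on the torsion, with given residual representation

No hypothesis on the prime `p` or on the level: squares and `p` may divide `N`.
-/

set_option autoImplicit false

noncomputable section

namespace Fermat.Agent.TwoAdic.TSide

open ModularCurve Matrix Polynomial IsLocalRing Module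
open Fermat.Agent.EigenRep Fermat.Agent.DefRing

local notation "Qbar" => AlgebraicClosure ℚ
local notation "GQ" => (AlgebraicClosure ℚ) ≃ₐ[ℚ] (AlgebraicClosure ℚ)

section Padic

variable {p : ℕ} [Fact p.Prime] {R : Type} [CommRing R] [IsLocalRing R]

/-- At most one map from the `p`-adic integers to a separated local ring with `p` in the maximal
ideal. -/
theorem padic_hom_unique [IsHausdorff (maximalIdeal R) R] (hp : (p : R) ∈ maximalIdeal R)
    (f g : ℤ_[p] →+* R) : f = g := by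
  refine RingHom.ext fun x => sub_eq_zero.mp (IsHausdorff.haus (I := maximalIdeal R) inferInstance _
    fun n => ?_)
  have : NeZero (p ^ n) := ⟨pow_ne_zero n (Fact.out : p.Prime).ne_zero⟩
  have h : PadicInt.toZModPow n x =
      PadicInt.toZModPow n (((PadicInt.toZModPow n x).val : ℕ) : ℤ_[p]) := by
    rw [map_natCast, ZMod.natCast_zmod_val]
  obtain ⟨c, hc⟩ := sub_mem_span_pow f h
  obtain ⟨d, hd⟩ := sub_mem_span_pow g h
  rw [SModEq.zero, smul_eq_mul, Ideal.mul_top, hc, hd, map_natCast, map_natCast,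
    add_sub_add_left_eq_sub, ← mul_sub]
  exact Ideal.mul_mem_right _ _ (Ideal.pow_mem_pow hp n)

end Padic

/-- The lattice representation of a quadratic relation on eigenvectors. -/
theorem exists_galoisRepAdic_of_relation {N p : ℕ} [NeZero N] [Fact p.Prime] (I : RepInputs N p)
    {O : Type} [CommRing O] [IsDomain O] [IsDiscreteValuationRing O]
    [IsAdicComplete (maximalIdeal O) O] [Finite (ResidueField O)] [CharZero O]
    (hp : (p : O) ∈ maximalIdeal O) (S : Finset ℕ) (a : Nat.Primes → O)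
    (hne : ∃ w, w ≠ 0 ∧ w ∈ eigenSub I.model (↑S : Set ℕ) a)
    (t : GQ → O)
    (hrel : ∀ g, ∀ v ∈ eigenSub I.model (↑S : Set ℕ) a,
        galEnd I.model (padicHom p hp) g (galEnd I.model (padicHom p hp) g v) -
          t g • galEnd I.model (padicHom p hp) g v +
          padicHom p hp (epsilonPadic p g : ℤ_[p]) • v = 0) :
    ∃ (O₂ : Type) (_ : CommRing O₂) (_ : IsDomain O₂) (_ : IsDiscreteValuationRing O₂)
      (_ : IsAdicComplete (maximalIdeal O₂) O₂)
      (_ : Finite (ResidueField O₂)) (_ : CharZero O₂)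
      (_ : Algebra O O₂) (_ : Module.Finite O O₂) (_ : IsLocalHom (algebraMap O O₂)),
      Function.Injective (algebraMap O O₂) ∧
      ∃ ρ : GaloisRepAdic O₂,
        (∀ g, ρ.trace g = algebraMap O O₂ (t g)) ∧
        (∀ g, LinearMap.det (ρ.ρ g) =
          algebraMap O O₂ (padicHom p hp (epsilonPadic p g : ℤ_[p]))) ∧
        (∀ q : ℕ, q.Prime → ¬ q ∣ N → q ≠ p → ρ.IsUnramifiedAt q) := by
  classical
  let M := I.model
  let E := FractionRing O
  let ι := padicHom p hp
  -- the representation over an algebraic closure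
  let K := AlgebraicClosure E
  let ιK : ℤ_[p] →+* K := (algebraMap O K).comp ι
  have : FaithfulSMul O K := (faithfulSMul_iff_algebraMap_injective O K).mpr <| by
    rw [IsScalarTower.algebraMap_eq O E K]
    exact (algebraMap E K).injective.comp (IsFractionRing.injective O E)
  let P : Submodule K (Fin M.d → K) :=
    Submodule.span K (embVec M.d O K '' (eigenSub M (↑S : Set ℕ) a : Set (Fin M.d → O)))
  have hnat : ∀ g u, galEnd M ιK g (embVec M.d O K u) = embVec M.d O K (galEnd M ι g u) := by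
    intro g u
    rw [galEnd_apply, galEnd_apply, embVec_mulVec, Matrix.map_map]
    rfl
  have hP : ∀ g, ∀ w ∈ P, galEnd M ιK g w ∈ P := by
    intro g w hw
    induction hw using Submodule.span_induction with
    | mem w hw =>
        obtain ⟨u, hu, rfl⟩ := hw
        rw [hnat]
        exact Submodule.subset_span ⟨_, galEnd_mem_eigenSub M ι I.equivariant g hu, rfl⟩
    | zero => rw [map_zero]; exact P.zero_mem
    | add x y _ _ hx hy => rw [map_add]; exact P.add_mem hx hy
    | smul r x _ hx => rw [map_smul]; exact P.smul_mem r hx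
  let εO : (Qbar ≃ₐ[ℚ] Qbar) →* Oˣ := (Units.map ι.toMonoidHom).comp (epsilonPadic p)
  let εK : (Qbar ≃ₐ[ℚ] Qbar) →* Kˣ := (Units.map (algebraMap O K).toMonoidHom).comp εO
  have hPrel : ∀ g, ∀ w ∈ P, galEnd M ιK g (galEnd M ιK g w) -
      algebraMap O K (t g) • galEnd M ιK g w + algebraMap O K (εO g : O) • w = 0 := by
    intro g w hw
    induction hw using Submodule.span_induction with
    | mem w hw =>
        obtain ⟨u, hu, rfl⟩ := hw
        have := congrArg (embVec M.d O K) (hrel g u hu)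
        rw [map_add, map_sub, map_smul, map_smul, map_zero] at this
        rw [hnat, hnat, algebraMap_smul, algebraMap_smul]
        exact this
    | zero => simp
    | add x y _ _ hx hy =>
        rw [map_add, map_add, smul_add, smul_add]
        linear_combination (norm := abel) hx + hy
    | smul r x _ hx =>
        rw [map_smul, map_smul, smul_comm (algebraMap O K (t g)), smul_comm (algebraMap O K (εO g : O)),
          ← smul_sub, ← smul_add, hx, smul_zero]
  let ρK : (Qbar ≃ₐ[ℚ] Qbar) →* Module.End K P :=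
    { toFun := fun g => (galEnd M ιK g).restrict (hP g)
      map_one' := by ext w; simp
      map_mul' := fun g k => by ext w; simp }
  have : Nontrivial P := by
    obtain ⟨w, hw0, hw⟩ := hne
    refine ⟨⟨embVec M.d O K w, Submodule.subset_span ⟨w, hw, rfl⟩⟩, 0, fun h => hw0 ?_⟩
    funext i
    apply FaithfulSMul.algebraMap_injective O K
    exact (congrFun (congrArg Subtype.val h) i).trans (map_zero _).symm
  have hρrel : ∀ g, ρK g * ρK g - algebraMap O K (t g) • ρK g + (εK g : K) • 1 = 0 := fun g => by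
    ext w : 2
    exact hPrel g w w.2
  -- a stable line or plane
  have key : ∃ W : Submodule K (Fin M.d → K), ∃ hW : ∀ g, ∀ w ∈ W, galEnd M ιK g w ∈ W,
      (finrank K W = 1 ∧ W ≤ P) ∨ (finrank K W = 2 ∧ ∀ g,
        LinearMap.charpoly ((galEnd M ιK g).restrict (hW g)) =
          X ^ 2 - C (algebraMap O K (t g)) * X + C (algebraMap O K (εO g : O))) := by
    rcases exists_line_or_plane ρK εK (fun g => algebraMap O K (t g)) hρrel with
      ⟨w, hw, hline⟩ | ⟨W, hW2, hW, hcp⟩
    · refine ⟨Submodule.span K {(w : Fin M.d → K)}, fun g x hx => ?_,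
        Or.inl ⟨finrank_span_singleton (fun h => hw (Subtype.ext h)),
          (Submodule.span_singleton_le_iff_mem _ _).mpr w.2⟩⟩
      obtain ⟨r, rfl⟩ := Submodule.mem_span_singleton.mp hx
      obtain ⟨c', hc'⟩ := hline g
      rw [map_smul, show galEnd M ιK g (w : Fin M.d → K) = c' • (w : Fin M.d → K) from
        congrArg Subtype.val hc', smul_smul]
      exact Submodule.smul_mem _ _ (Submodule.mem_span_singleton_self _)
    · have hW' : ∀ g, ∀ x ∈ W.map P.subtype, galEnd M ιK g x ∈ W.map P.subtype := by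
        rintro g _ ⟨x, hx, rfl⟩
        exact ⟨ρK g x, hW g x hx, rfl⟩
      refine ⟨W.map P.subtype, hW', Or.inr ⟨?_, fun g => ?_⟩⟩
      · rw [Submodule.finrank_map_subtype_eq, hW2]
      · exact (charpoly_restrict_map_subtype (galEnd M ιK g) (hP g) W (hW g) (hW' g)).trans (hcp g)
  obtain ⟨W, hW, hcase⟩ := key
  -- the coefficient field and ring
  let b := Module.finBasis K W
  let coords : Set K := Set.range fun ij : Fin (finrank K W) × Fin M.d => (b ij.1 : Fin M.d → K) ij.2
  let E₂ := IntermediateField.adjoin E coords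
  have : FiniteDimensional E E₂ := by
    have : Finite coords := Set.finite_range _
    exact IntermediateField.finiteDimensional_adjoin fun x _ =>
      Algebra.IsIntegral.isIntegral (R := E) x
  obtain ⟨hdvr, hcomp, hres, hchar, hfin, hfr, hinj, hlh⟩ := integralClosure_coeff_props O E E₂
  let O₂ := integralClosure O E₂
  have : IsScalarTower O O₂ K := IsScalarTower.of_algebraMap_eq fun _ => rfl
  have : FaithfulSMul O₂ K := (faithfulSMul_iff_algebraMap_injective O₂ K).mpr <| by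
    intro x y h
    exact Subtype.ext (Subtype.ext h)
  let ι₂ : ℤ_[p] →+* O₂ := (algebraMap O O₂).comp ι
  have hA₂ : ∀ g, ((galMat M g).map ι₂).map (algebraMap O₂ K) = (galMat M g).map ιK := fun g => by
    ext i j
    exact (IsScalarTower.algebraMap_apply O O₂ K _).symm
  have hW₂ : ∀ g, ∀ w ∈ W, ((galMat M g).map ι₂).map (algebraMap O₂ K) *ᵥ w ∈ W := fun g w hw => by
    rw [hA₂]; exact hW g w hw
  have hspan : W ≤ Submodule.span K (embVec M.d O₂ K '' {x | embVec M.d O₂ K x ∈ W}) := by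
    have hWb : W = Submodule.span K (W.subtype '' Set.range b) := by
      rw [← Submodule.map_span, b.span_eq, Submodule.map_subtype_top]
    conv_lhs => rw [hWb]
    rw [Submodule.span_le]
    rintro _ ⟨_, ⟨i, rfl⟩, rfl⟩
    let y : Fin M.d → E₂ := fun k => ⟨(b i : Fin M.d → K) k,
      IntermediateField.subset_adjoin E coords ⟨(i, k), rfl⟩⟩
    obtain ⟨e, he⟩ := IsLocalization.exist_integer_multiples_of_finite (nonZeroDivisors O₂) y
    choose x hx using he
    have hxe : embVec M.d O₂ K x = algebraMap O₂ K e • (b i : Fin M.d → K) := by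
      funext k
      have := congrArg (fun z : E₂ => (z : K)) (hx k)
      simpa [Algebra.smul_def, embVec] using! this
    have he0 : algebraMap O₂ K e ≠ 0 := fun h =>
      nonZeroDivisors.ne_zero e.2 (FaithfulSMul.algebraMap_injective O₂ K (h.trans (map_zero _).symm))
    have hxW : embVec M.d O₂ K x ∈ W := by rw [hxe]; exact W.smul_mem _ (b i).2
    rw [SetLike.mem_coe, show W.subtype (b i) = (algebraMap O₂ K e)⁻¹ • embVec M.d O₂ K x by
      rw [hxe, smul_smul, inv_mul_cancel₀ he0, one_smul]; rfl]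
    exact Submodule.smul_mem _ _ (Submodule.subset_span ⟨x, hxW, rfl⟩)
  have hp₂ : (p : O₂) ∈ maximalIdeal O₂ := by
    rw [← map_natCast (algebraMap O O₂)]
    exact map_nonunit (algebraMap O O₂) _ hp
  have htow : ∀ x : O, algebraMap O₂ K (algebraMap O O₂ x) = algebraMap O K x := fun x =>
    (IsScalarTower.algebraMap_apply O O₂ K x).symm
  obtain ⟨ρ, hρ, hunr⟩ := exists_galoisRepAdic_of_subspace I hp₂ ι₂
      (fun g => algebraMap O O₂ (t g)) W hW₂ hspan <| by
    rcases hcase with ⟨h1, hle⟩ | ⟨h2, hcp⟩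
    · refine Or.inl ⟨h1, fun g w hw => ?_⟩
      rw [hA₂, htow, show algebraMap O₂ K (ι₂ (epsilonPadic p g : ℤ_[p])) =
        algebraMap O K (εO g : O) from htow _]
      exact hPrel g w (hle hw)
    · refine Or.inr ⟨h2, fun g => ?_⟩
      have hfg : (((galMat M g).map ι₂).map (algebraMap O₂ K)).mulVecLin.restrict (hW₂ g) =
          (galEnd M ιK g).restrict (hW g) := by
        ext w : 2
        show ((galMat M g).map ι₂).map (algebraMap O₂ K) *ᵥ (w : Fin M.d → K) = _
        rw [hA₂]; rfl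
      rw [hfg, hcp g, htow, show algebraMap O₂ K (ι₂ (epsilonPadic p g : ℤ_[p])) =
        algebraMap O K (εO g : O) from htow _]
  refine ⟨O₂, inferInstance, inferInstance, hdvr, hcomp, hres, hchar, inferInstance, hfin, hlh,
    hinj, ρ, fun g => ?_, fun g => ?_, hunr⟩
  · exact Chebotarev.trace_eq_of_charpoly ρ.finrank_eq (hρ g)
  · rw [LinearMap.det_eq_sign_charpoly_coeff, hρ g, ρ.finrank_eq]
    simp [ι₂, ι]

/-- Where inertia is unipotent on the lattice and the cyclotomic character is trivial, the trace of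
a quadratic relation on a nonzero vector is `2`. -/
theorem trace_two_of_unipotent {O : Type} [CommRing O] [IsDomain O] {d : ℕ}
    {A B : Matrix (Fin d) (Fin d) O} (hBA : B * A = 1) (hA : (A - 1) * (A - 1) = 0) {t : O}
    {v : Fin d → O} (hv : v ≠ 0) (h : A *ᵥ (A *ᵥ v) - t • (A *ᵥ v) + v = 0) : t = 2 := by
  have h2 : A *ᵥ (A *ᵥ v) - (2 : O) • (A *ᵥ v) + v = 0 := by
    have e : A * A - (2 : O) • A + 1 = 0 := by rw [← hA, two_smul]; noncomm_ring
    have := congrArg (· *ᵥ v) e
    simpa [add_mulVec, sub_mulVec, smul_mulVec, ← mulVec_mulVec] using this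
  have h3 : (t - 2) • (A *ᵥ v) = 0 := by
    rw [sub_smul]; linear_combination (norm := module) h2 - h
  rcases smul_eq_zero.mp h3 with h4 | h4
  · exact sub_eq_zero.mp h4
  · exact absurd (by rw [← one_mulVec v, ← hBA, ← mulVec_mulVec, h4, mulVec_zero]) hv

/-- The residual matrices are trivial exactly where the given residual representation is. -/
theorem map_matrixRep_eq_one_iff {A : Type} [CommRing A] [IsLocalRing A] {ρ : GaloisRepAdic A}
    {k : Type} [Field k] {ρbar : ResidualGaloisRep k} {ψ : k →+* ResidueField A}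
    (h : ρ.residual.IsEquiv (ρbar.baseChangeAlong ψ)) (b : Module.Basis (Fin 2) A ρ.V) (σ : GQ) :
    (matrixRep ρ b σ).map (residue A) = 1 ↔ ρbar.ρ σ = 1 := by
  have b₀ : Module.Basis (Fin 2) k ρbar.V := Module.finBasisOfFinrankEq k _ ρbar.finrank_eq
  obtain ⟨g, hg⟩ := (residual_isEquiv_baseChangeAlong_iff ρ b ρbar b₀ ψ).mp h
  have hinj : Function.Injective fun M : Matrix (Fin 2) (Fin 2) k => M.map ψ :=
    Matrix.map_injective ψ.injective
  constructor <;> intro h1
  · refine (LinearMap.toMatrix b₀ b₀).injective (hinj ?_)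
    have := hg σ
    rw [h1, mul_one] at this
    have e := congrArg (· * (↑g⁻¹ : Matrix (Fin 2) (Fin 2) (ResidueField A))) this
    simp only [mul_assoc, Units.mul_inv, mul_one] at e
    show (LinearMap.toMatrix b₀ b₀ (ρbar.ρ σ)).map ψ =
      (LinearMap.toMatrix b₀ b₀ (1 : Module.End k ρbar.V)).map ψ
    rw [← e, LinearMap.toMatrix_one, Matrix.map_one ψ (map_zero ψ) (map_one ψ)]
  · have := hg σ
    rw [h1, LinearMap.toMatrix_one, Matrix.map_one ψ (map_zero ψ) (map_one ψ), one_mul] at this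
    exact g.isUnit.mul_left_cancel (this.trans (mul_one _).symm)

/-- The image of an eigenvector under a map of coefficient rings. -/
theorem map_mem_eigenSub {N p : ℕ} [NeZero N] (M : TorsionHeckeModel N p) {O R : Type} [CommRing O]
    [CommRing R] (f : O →+* R) {T : Set ℕ} {a : Nat.Primes → O} {v : Fin M.d → O}
    (hv : v ∈ eigenSub M T a) : f ∘ v ∈ eigenSub M T fun ℓ => f (a ℓ) := by
  rw [mem_eigenSub] at hv ⊢
  intro ℓ hℓ
  funext i
  have h := congrArg f (congrFun (hv ℓ hℓ) i)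
  rw [RingHom.map_mulVec, show ((M.T ℓ).map (Int.cast : ℤ → O)).map f =
    (M.T ℓ).map (Int.cast : ℤ → R) by ext; simp] at h
  simpa [Function.comp_apply] using h

/-- **The attached representation with its residual representation.** -/
theorem exists_attached {N p : ℕ} [NeZero N] [Fact p.Prime]
    {O : Type} [CommRing O] [IsDomain O] [IsDiscreteValuationRing O]
    [IsAdicComplete (maximalIdeal O) O] [Finite (ResidueField O)] [CharZero O]
    (hp : (p : O) ∈ maximalIdeal O) (hes : EichlerShimuraRelations N p)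
    (S : Finset ℕ) (hpS : p ∈ S) (hNS : ∀ q : ℕ, q.Prime → q ∣ N → q ∈ S)
    (a : Nat.Primes → O)
    (hne : ∃ v, v ≠ 0 ∧ v ∈ eigenSub (Engine.TRep.stdInputs hes).model (↑S : Set ℕ) a)
    (ρbar : ResidualGaloisRep (ResidueField O)) (b : Module.Basis (Fin 2) (ResidueField O) ρbar.V)
    (hbar : ∃ g h, (LinearMap.toMatrix b b (ρbar.ρ g) * LinearMap.toMatrix b b (ρbar.ρ h) -
      LinearMap.toMatrix b b (ρbar.ρ h) * LinearMap.toMatrix b b (ρbar.ρ g)).det ≠ 0)
    (htr : ∀ (ℓ : ℕ) (hℓ : ℓ.Prime), ℓ ∉ S → ∀ A : ValuationSubring Qbar, A.LiesOverPrime ℓ →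
      ∀ σ : GQ, A.IsFrobeniusAt σ ℓ →
        residue O (a ⟨ℓ, hℓ⟩) = LinearMap.trace (ResidueField O) ρbar.V (ρbar.ρ σ)) :
    ∃ (O₂ : Type) (_ : CommRing O₂) (_ : IsDomain O₂) (_ : IsDiscreteValuationRing O₂)
      (_ : IsAdicComplete (maximalIdeal O₂) O₂)
      (_ : Finite (ResidueField O₂)) (_ : CharZero O₂)
      (_ : Algebra O O₂) (_ : Module.Finite O O₂) (_ : IsLocalHom (algebraMap O O₂))
      (hp₂ : (p : O₂) ∈ maximalIdeal O₂),
      Function.Injective (algebraMap O O₂) ∧
      ∃ ρ : GaloisRepAdic O₂,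
        (∀ σ, LinearMap.det (ρ.ρ σ) = padicHom p hp₂ (epsilonPadic p σ : ℤ_[p])) ∧
        (∀ (ℓ : ℕ) (hℓ : ℓ.Prime), ℓ ∉ S → ∀ A : ValuationSubring Qbar, A.LiesOverPrime ℓ →
          ∀ σ : GQ, A.IsFrobeniusAt σ ℓ → ρ.trace σ = algebraMap O O₂ (a ⟨ℓ, hℓ⟩)) ∧
        ρ.residual.IsEquiv (ρbar.baseChangeAlong (ResidueField.map (algebraMap O O₂))) ∧
        (∃ g h, IsUnit (matrixRep ρ (repBasis ρ) g * matrixRep ρ (repBasis ρ) h -
          matrixRep ρ (repBasis ρ) h * matrixRep ρ (repBasis ρ) g).det) ∧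
        (∀ q : ℕ, q.Prime → ¬ q ∣ N → q ≠ p → ρ.IsUnramifiedAt q) ∧
        (∀ M q : ℕ, N = M * q → q.Prime → ¬ q ∣ M → q ≠ p → ∀ A : ValuationSubring Qbar,
          A.LiesOverPrime q → ∀ σ ∈ A.inertiaSubgroupIn ℚ,
            LinearMap.charpoly (ρ.ρ σ) = (X - 1) ^ 2) ∧
        ∃ v, v ≠ 0 ∧ v ∈ eigenSub (Engine.TRep.stdInputs hes).model (↑S : Set ℕ)
          fun ℓ => algebraMap O O₂ (a ℓ) := by
  classical
  let I := Engine.TRep.stdInputs hes
  obtain ⟨t, hrel, htfrob⟩ := exists_adic_relation I hp S a hne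
  obtain ⟨O₂, i₁, i₂, i₃, i₄, i₅, i₆, i₇, i₈, i₉, hinj, ρ, htrace, hdet, hunr⟩ :=
    exists_galoisRepAdic_of_relation I hp S a hne t hrel
  have hp₂ : (p : O₂) ∈ maximalIdeal O₂ := by
    rw [← map_natCast (algebraMap O O₂)]
    exact map_nonunit (algebraMap O O₂) _ hp
  have hdet' : ∀ σ, LinearMap.det (ρ.ρ σ) = padicHom p hp₂ (epsilonPadic p σ : ℤ_[p]) := fun σ => by
    rw [hdet σ, ← padic_hom_unique hp₂ ((algebraMap O O₂).comp (padicHom p hp)) (padicHom p hp₂)]
    rfl
  have hfrob : ∀ (ℓ : ℕ) (hℓ : ℓ.Prime), ℓ ∉ S → ∀ A : ValuationSubring Qbar, A.LiesOverPrime ℓ →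
      ∀ σ : GQ, A.IsFrobeniusAt σ ℓ → ρ.trace σ = algebraMap O O₂ (a ⟨ℓ, hℓ⟩) :=
    fun ℓ hℓ hℓS A hA σ hσ => by
      rw [htrace σ, htfrob ℓ hℓ hℓS (fun h => ?_) A hA σ hσ]
      rcases (Nat.Prime.dvd_mul hℓ).mp h with h | h
      · exact hℓS (hNS ℓ hℓ h)
      · exact hℓS ((Nat.prime_dvd_prime_iff_eq hℓ Fact.out).mp h ▸ hpS)
  let k₂ := ResidueField O₂
  let ψ : ResidueField O →+* k₂ := ResidueField.map (algebraMap O O₂)
  -- the two residual matrix representations
  let N₁ : GQ →* Matrix (Fin 2) (Fin 2) k₂ :=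
    ψ.mapMatrix.toMonoidHom.comp
      ((LinearMap.toMatrixAlgEquiv b).toAlgHom.toMonoidHom.comp ρbar.ρ)
  let N₂ : GQ →* Matrix (Fin 2) (Fin 2) k₂ :=
    (residue O₂).mapMatrix.toMonoidHom.comp (matrixRep ρ (repBasis ρ))
  have hN₁ : ∀ g, N₁ g = (LinearMap.toMatrix b b (ρbar.ρ g)).map ψ := fun g => rfl
  have hN₂ : ∀ g, N₂ g = (matrixRep ρ (repBasis ρ) g).map (residue O₂) := fun g => rfl
  have htr₁ : ∀ g, Matrix.trace (N₁ g) =
      ψ (LinearMap.trace (ResidueField O) ρbar.V (ρbar.ρ g)) := fun g => by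
    rw [hN₁, LinearMap.trace_eq_matrix_trace _ b]
    exact (AddMonoidHom.map_trace ψ.toAddMonoidHom _).symm
  have htr₂ : ∀ g, Matrix.trace (N₂ g) = residue O₂ (ρ.trace g) := fun g => by
    rw [hN₂]
    simp only [GaloisRepAdic.trace, LinearMap.trace_eq_matrix_trace _ (repBasis ρ), matrixRep_apply]
    exact (AddMonoidHom.map_trace (residue O₂).toAddMonoidHom _).symm
  have htr' : ∀ g, Matrix.trace (N₁ g) = Matrix.trace (N₂ g) := fun g => by
    obtain ⟨L, hL, hc⟩ := Chebotarev.exists_level_trace_congr ρ 1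
    obtain ⟨L', hL', hc'⟩ := ρbar.factorsThroughFiniteLevel
    obtain ⟨ℓ, hℓ, hℓS, P, hP, σ, hσ, hag⟩ := Chebotarev.exists_isFrobeniusAt_eqOn (L ⊔ L') g S
    have h1 := hc g σ fun x hx => hag x ((le_sup_left : L ≤ L ⊔ L') hx)
    rw [pow_one, ← residue_eq_zero_iff, map_sub, sub_eq_zero] at h1
    have h2 : ρbar.ρ σ = ρbar.ρ g := by
      have h3 : ρbar.ρ (g⁻¹ * σ) = 1 := hc' _ fun x hx => by
        rw [AlgEquiv.mul_apply, hag x ((le_sup_right : L' ≤ L ⊔ L') hx)]
        exact g.symm_apply_apply x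
      calc ρbar.ρ σ = ρbar.ρ g * ρbar.ρ (g⁻¹ * σ) := by rw [← map_mul, mul_inv_cancel_left]
        _ = ρbar.ρ g := by rw [h3, mul_one]
    rw [htr₁, htr₂, ← h1, hfrob ℓ hℓ hℓS P hP σ hσ, ← ResidueField.map_residue,
      htr ℓ hℓ hℓS P hP σ hσ, h2]
  obtain ⟨g₀, h₀, hcomm⟩ := hbar
  have hC : (N₁ g₀ * N₁ h₀ - N₁ h₀ * N₁ g₀).det ≠ 0 := by
    rw [show N₁ g₀ * N₁ h₀ - N₁ h₀ * N₁ g₀ = ψ.mapMatrix
        (LinearMap.toMatrix b b (ρbar.ρ g₀) * LinearMap.toMatrix b b (ρbar.ρ h₀) -
          LinearMap.toMatrix b b (ρbar.ρ h₀) * LinearMap.toMatrix b b (ρbar.ρ g₀)) by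
      simp only [map_sub, map_mul]; rfl, ← RingHom.map_det]
    exact (map_ne_zero ψ).mpr hcomm
  have hspan : Submodule.span k₂ (Set.range N₁) = ⊤ := by
    rw [eq_top_iff, ← (linearIndependent_quad hC).span_eq_top_of_card_eq_finrank
      (by rw [Module.finrank_matrix]; simp)]
    refine Submodule.span_mono ?_
    rintro _ ⟨i, rfl⟩
    fin_cases i
    · exact ⟨1, map_one N₁⟩
    · exact ⟨g₀, rfl⟩
    · exact ⟨h₀, rfl⟩
    · exact ⟨g₀ * h₀, map_mul N₁ _ _⟩
  obtain ⟨u, hu⟩ := Chebotarev.exists_conj_of_trace_eq N₁ N₂ htr' hspan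
  have hu' : ∀ g, (↑u⁻¹ : Matrix (Fin 2) (Fin 2) k₂) * N₂ g = N₁ g * (↑u⁻¹ : Matrix (Fin 2) (Fin 2) k₂) := fun g => by
    rw [Units.inv_mul_eq_iff_eq_mul, ← mul_assoc, hu g, mul_assoc, Units.mul_inv, mul_one]
  obtain ⟨v, hv0, hv⟩ := hne
  refine ⟨O₂, i₁, i₂, i₃, i₄, i₅, i₆, i₇, i₈, i₉, hp₂, hinj, ρ, hdet', hfrob, ?_,
    ⟨g₀, h₀, ?_⟩, hunr, ?_, ⟨algebraMap O O₂ ∘ v, ?_, map_mem_eigenSub _ _ hv⟩⟩
  · exact (residual_isEquiv_baseChangeAlong_iff ρ (repBasis ρ) ρbar b ψ).mpr
      ⟨u⁻¹, fun σ => hu' σ⟩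
  · refine notMem_maximalIdeal.mp fun hm => hC ?_
    rw [← residue_eq_zero_iff, RingHom.map_det, map_sub, map_mul, map_mul] at hm
    change (N₂ g₀ * N₂ h₀ - N₂ h₀ * N₂ g₀).det = 0 at hm
    have e : (u : Matrix (Fin 2) (Fin 2) k₂) * (N₁ g₀ * N₁ h₀ - N₁ h₀ * N₁ g₀) =
        (N₂ g₀ * N₂ h₀ - N₂ h₀ * N₂ g₀) * u := by
      rw [mul_sub, sub_mul, ← map_mul N₁, ← map_mul N₁, hu, hu, map_mul, map_mul]
    have := congrArg Matrix.det e
    rw [det_mul, det_mul, hm, zero_mul, mul_eq_zero] at this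
    exact this.resolve_left ((Matrix.isUnit_iff_isUnit_det _).mp u.isUnit).ne_zero
  · intro M q hN hq hqM hqp A hA σ hσ
    subst hN
    have : Fact q.Prime := ⟨hq⟩
    have : NeZero M := ⟨fun h => hqM (h ▸ dvd_zero q)⟩
    have hu1 := Engine.TRep.galMat_unipotent_of_exact_dvd hqM hqp I hA hσ
    have hε : (epsilonPadic p σ : ℤ_[p]) = 1 := by
      rw [epsilon_inertia hq hqp hA hσ, Units.val_one]
    have h2 := hrel σ v hv
    rw [hε, map_one, one_smul] at h2
    let ι := padicHom p hp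
    have hmap : ((galMat I.model σ).map ι - 1) * ((galMat I.model σ).map ι - 1) = 0 := by
      have := congrArg ι.mapMatrix hu1
      simpa only [map_mul, map_sub, map_one, map_zero, RingHom.mapMatrix_apply] using this
    have hinv : (galMat I.model σ⁻¹).map ι * (galMat I.model σ).map ι = 1 := by
      rw [← Matrix.map_mul, ← map_mul, inv_mul_cancel, map_one,
        Matrix.map_one ι (map_zero ι) (map_one ι)]
    have ht := trace_two_of_unipotent hinv hmap hv0 (t := t σ) h2
    have hd : LinearMap.det (ρ.ρ σ) = 1 := by rw [hdet σ, hε, map_one, map_one]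
    have htr2 : ρ.trace σ = 2 := by rw [htrace σ, ht, map_ofNat]
    rw [← LinearMap.charpoly_toMatrix (ρ.ρ σ) (repBasis ρ), Matrix.charpoly_fin_two,
      ← LinearMap.trace_eq_matrix_trace, LinearMap.det_toMatrix, hd]
    rw [GaloisRepAdic.trace] at htr2
    rw [htr2, map_ofNat, map_one]
    ring
  · exact fun h => hv0 (funext fun i => hinj ((congrFun h i).trans (map_zero _).symm))

end Fermat.Agent.TwoAdic.TSide

end
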