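import Fermat.Agent.Engine.TRep.EigenPoint
import Fermat.Agent.TwoAdic.Modules.SemiCoh

/-!
# An eigen class among the multiples of one class

A class over a ring on which a functional of the localised classes sees a point of the Hecke
polynomials has, pushed to the field of the point, an eigen multiple.
-/

set_option autoImplicit false

noncomputable section

namespace Fermat.Agent.TwoAdic.TSide

open HeckeModule EigenSystems Engine.TRep

variable {Λ : Type} [CommRing Λ] {N : ℕ} [NeZero N] {χ : (ZMod N)ˣ →* Λ}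
  {K : Type} [Field K] (θ : Λ →+* K)

/-- A class pushed along a ring map. -/
def pushCoh (χ : (ZMod N)ˣ →* Λ) :
    Coh1 (scalarRep χ Λ) →ₛₗ[θ] Coh1 (scalarRep ((θ : Λ →* K).comp χ) K) :=
  semiCoh θ.toSemilinearMap fun u a => map_mul θ (χ u) a

/-- **An eigen multiple.** -/
theorem exists_eigen_multiple [IsNoetherianRing Λ] {S : Set ℕ} {m : Submonoid (HeckePoly Λ)}
    (h : ExactHyp m χ) (φ : AwayPoly Λ S →+* K) (hφ : ∀ c, φ (MvPolynomial.C c) = θ c)
    (g : CohChar m χ Λ →+ K) (hg : ∀ c v, g (c • v) = θ c * g v) (u : Coh1 (scalarRep χ Λ))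
    (hu : ∀ P : AwayPoly Λ S,
      g (awayIncl Λ S P • toLoc m _ u) = φ P * g (toLoc m _ u))
    (hu0 : g (toLoc m _ u) ≠ 0) :
    ∃ Q₀ : AwayPoly K S, awayIncl K S Q₀ • pushCoh θ χ u ≠ 0 ∧
      ∀ l : AwayIndex S, heckeGen _ (l : Nat.Primes) (awayIncl K S Q₀ • pushCoh θ χ u) =
        φ (MvPolynomial.X l) • (awayIncl K S Q₀ • pushCoh θ χ u) := by
  classical
  let : Algebra Λ K := θ.toAlgebra
  set χK := (θ : Λ →* K).comp χ
  let φL : AwayPoly K S →ₐ[K] K := MvPolynomial.aeval fun l => φ (MvPolynomial.X l)
  let w := pushCoh θ χ u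
  -- a polynomial killing the pushed class vanishes at the point
  have hkey : ∀ P : AwayPoly K S, awayIncl K S P • w = 0 → φL P = 0 := by
    intro P hP
    let e := P.support.equivFin.symm
    let k : Fin P.support.card → K := fun j => P.coeff (e j : (AwayIndex S) →₀ ℕ)
    let Q : Fin P.support.card → AwayPoly Λ S := fun j =>
      MvPolynomial.monomial (e j : (AwayIndex S) →₀ ℕ) 1
    have hdec : P = ∑ j, MvPolynomial.C (k j) * MvPolynomial.map θ (Q j) := by
      simp only [k, Q, MvPolynomial.map_monomial, map_one, MvPolynomial.C_mul_monomial, mul_one]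
      refine Eq.trans ?_ (Equiv.sum_comp e (fun x : P.support =>
        MvPolynomial.monomial (x : (AwayIndex S) →₀ ℕ) (P.coeff x.1))).symm
      refine Eq.trans (MvPolynomial.as_sum P) ?_
      exact (Finset.sum_coe_sort P.support (fun x => MvPolynomial.monomial x (P.coeff x))).symm
    have hφmap : φL.toRingHom.comp (MvPolynomial.map θ) = φ :=
      MvPolynomial.ringHom_ext (fun c => by simp [φL, hφ]) fun l => by simp [φL]
    obtain ⟨c₀, rfl⟩ := toCoh_surjective _ u
    have hex : ∀ j, ∃ cj, awayIncl Λ S (Q j) • toCoh (scalarRep χ Λ) c₀ = toCoh _ cj := fun j => by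
      obtain ⟨cj, hcj⟩ := toCoh_surjective _ (awayIncl Λ S (Q j) • toCoh _ c₀)
      exact ⟨cj, hcj.symm⟩
    choose cj hcj using hex
    have hrel : ∑ j, cohMap (LinearMap.toSpanSingleton Λ K (k j))
        (isIntertwining_scalar χ _) (toCoh (scalarRep χ Λ) (cj j)) = 0 := by
      apply (sameCoh (ρ := scalarRep χK K) (ρ' := scalarRep χ K) fun _ _ => rfl).injective
      rw [map_sum, map_zero]
      refine Eq.trans (Finset.sum_congr rfl fun j _ => sameCoh_cohMap_toSpan θ (k j) (cj j)) ?_
      have h3 : ∀ j, k j • toCoh (scalarRep χK K) (pushCocycle χ θ (cj j)) =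
          awayIncl K S (MvPolynomial.C (k j) * MvPolynomial.map θ (Q j)) • w := fun j => by
        rw [map_mul, mul_smul, ← MvPolynomial.algebraMap_eq, AlgHom.commutes, algebraMap_smul]
        refine congrArg (k j • ·) ((push_smul χ θ _ c₀ (cj j) (hcj j)).trans ?_)
        rw [show MvPolynomial.map θ (awayIncl Λ S (Q j)) = awayIncl K S (MvPolynomial.map θ (Q j))
          from MvPolynomial.map_rename θ Subtype.val (Q j)]
        rfl
      refine (Finset.sum_congr rfl fun j _ => h3 j).trans ?_
      rw [← Finset.sum_smul, ← map_sum, ← hdec]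
      exact hP
    have hloc : ∑ j, charMap m χ (LinearMap.toSpanSingleton Λ K (k j))
        (toLoc m _ (toCoh (scalarRep χ Λ) (cj j))) = 0 := by
      simp only [toLoc, LocalizedModule.mkLinearMap_apply, charMap, locMap_mk]
      simp only [← LocalizedModule.mkLinearMap_apply, ← map_sum]
      rw [hrel, map_zero]
    have h4 := sum_mul_eq_zero_of_charMap h g hg k _ hloc
    simp only [← hcj, LinearMap.map_smul, hu, ← mul_assoc, ← Finset.sum_mul] at h4
    refine Eq.trans ?_ ((mul_eq_zero.1 h4).resolve_right hu0)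
    conv_lhs => rw [hdec]
    rw [map_sum]
    exact Finset.sum_congr rfl fun j _ => by
      rw [map_mul, ← MvPolynomial.algebraMap_eq, AlgHom.commutes, ← RingHom.congr_fun hφmap (Q j)]
      rfl
  -- the multiples of the class
  have : Module.Finite K (Coh1 (scalarRep χK K)) := finite_coh1 _
  let Φ : AwayPoly K S →ₗ[K] Coh1 (scalarRep χK K) :=
    { toFun := fun P => awayIncl K S P • w
      map_add' := fun P P' => by rw [map_add, add_smul]
      map_smul' := fun c P => by rw [map_smul, smul_assoc]; rfl }
  let U := LinearMap.range Φ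
  have hstab : ∀ (P : AwayPoly K S), ∀ x ∈ U, awayIncl K S P • x ∈ U := by
    rintro P _ ⟨P', rfl⟩
    exact ⟨P * P', by show awayIncl K S (P * P') • w = _; rw [map_mul, mul_smul]; rfl⟩
  let act : AwayPoly K S →ₐ[K] Module.End K U :=
    { toFun := fun P =>
        (DistribSMul.toLinearMap K (Coh1 (scalarRep χK K)) (awayIncl K S P)).restrict (hstab P)
      map_one' := LinearMap.ext fun x => Subtype.ext (by
        show awayIncl K S 1 • (x : Coh1 (scalarRep χK K)) = x
        rw [map_one, one_smul])
      map_mul' := fun P P' => LinearMap.ext fun x => Subtype.ext (by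
        show awayIncl K S (P * P') • (x : Coh1 (scalarRep χK K)) =
          awayIncl K S P • awayIncl K S P' • (x : Coh1 (scalarRep χK K))
        rw [map_mul, mul_smul])
      map_zero' := LinearMap.ext fun x => Subtype.ext (by
        show awayIncl K S 0 • (x : Coh1 (scalarRep χK K)) = 0
        rw [map_zero, zero_smul])
      map_add' := fun P P' => LinearMap.ext fun x => Subtype.ext (by
        show awayIncl K S (P + P') • (x : Coh1 (scalarRep χK K)) =
          awayIncl K S P • (x : Coh1 (scalarRep χK K)) + awayIncl K S P' • _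
        rw [map_add, add_smul]; rfl)
      commutes' := fun c => LinearMap.ext fun x => Subtype.ext (by
        show awayIncl K S (algebraMap K _ c) • (x : Coh1 (scalarRep χK K)) = c • (x : Coh1 _)
        rw [AlgHom.commutes, algebraMap_smul]) }
  let b := Module.finBasis K U
  let ev := (LinearEquiv.conjAlgEquiv K b.equivFun).toAlgHom.comp act
  let : CommRing ev.range :=
    { (inferInstance : Ring ev.range) with
      mul_comm := by
        rintro ⟨_, a, rfl⟩ ⟨_, a', rfl⟩
        exact Subtype.ext (show ev a * ev a' = ev a' * ev a by rw [← map_mul, mul_comm, map_mul]) }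
  let f : ev.range →ₐ[K] K :=
    AlgHom.liftOfSurjective ev.rangeRestrict ev.rangeRestrict_surjective φL fun P hP =>
      RingHom.mem_ker.2 (hkey P (by
        have h0 : act P = 0 := (LinearEquiv.conjAlgEquiv K b.equivFun).injective
          ((congrArg Subtype.val (RingHom.mem_ker.1 hP)).trans (map_zero _).symm)
        exact congrArg Subtype.val (LinearMap.congr_fun h0 ⟨w, 1, by
          show awayIncl K S 1 • w = w; rw [map_one, one_smul]⟩)))
  obtain ⟨v, hv0, hv⟩ := EigenSystems.exists_eigenvector_of_character ev.range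
    (fun a ha b hb => congrArg Subtype.val (mul_comm (⟨a, ha⟩ : ev.range) ⟨b, hb⟩)) f.toRingHom
  obtain ⟨Q₀, hQ₀⟩ := (b.equivFun.symm v).2
  refine ⟨Q₀, fun h0 => hv0 ((LinearEquiv.map_eq_zero_iff b.equivFun.symm).1
    (Subtype.ext (hQ₀.symm.trans h0))), fun l => ?_⟩
  have h6 := hv (ev.rangeRestrict (MvPolynomial.X l))
  rw [show f.toRingHom (ev.rangeRestrict (MvPolynomial.X l)) = φ (MvPolynomial.X l) from
    (AlgHom.liftOfSurjective_apply _ _ _ _ _).trans (MvPolynomial.aeval_X _ _)] at h6
  have h7 : (LinearMap.toMatrix' (ev (MvPolynomial.X l))).mulVec v = φ (MvPolynomial.X l) • v := by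
    refine Eq.trans ?_ h6
    congr 1
    ext i j
    rw [Matrix.map_apply, AlgHom.toRingHom_eq_coe, RingHom.coe_coe, AlgHom.commutes,
      Algebra.algebraMap_self, RingHom.id_apply]
    rfl
  rw [LinearMap.toMatrix'_mulVec] at h7
  have h8 := congrArg (fun z => ((b.equivFun.symm z : U) : Coh1 (scalarRep χK K))) h7
  simp only [map_smul, Submodule.coe_smul] at h8
  change ((b.equivFun.symm (b.equivFun (act (MvPolynomial.X l) (b.equivFun.symm v))) : U) :
    Coh1 (scalarRep χK K)) = _ at h8
  rw [LinearEquiv.symm_apply_apply] at h8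
  change awayIncl K S (MvPolynomial.X l) • ((b.equivFun.symm v : U) : Coh1 (scalarRep χK K)) = _
    at h8
  rw [← hQ₀] at h8
  refine Eq.trans ?_ h8
  rw [awayIncl_X]
  have : Fact ((l : Nat.Primes) : ℕ).Prime := ⟨(l : Nat.Primes).2⟩
  exact (X_smul _ ((l : Nat.Primes) : ℕ) _).symm

end Fermat.Agent.TwoAdic.TSide
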