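import Fermat.Agent.OrdinaryT.CoreTwo
import Fermat.Agent.OrdinaryT.Kernel
import Fermat.Agent.TwoAdic.MultOne.Abstract
import Fermat.Agent.EigenRep.AdicRelation

/-!
# The kernels of reduction at two as conditions on `O^d`

`IsRow n r` : the row `r` vanishes modulo `2^n` on the vectors whose point lies in the kernel of
reduction; `InKer n ι x` : all rows vanish modulo `2^n` at `x`.
-/

set_option autoImplicit false

noncomputable section

open IsLocalRing AlgebraicCurve ModularCurve Matrix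
open Fermat.Agent.Reduction Fermat.Agent.SemistableRed Fermat.Agent.OrdinaryT Fermat.Agent.EigenRep

namespace Fermat.Agent.TwoAdic.TSide

local notation "Ω" => AlgebraicClosure ℚ
local notation "GQ" => (AlgebraicClosure ℚ) ≃ₐ[ℚ] (AlgebraicClosure ℚ)

local instance factTwoPowOne : Fact (Nat.Prime (2 ^ 1)) := ⟨by norm_num⟩

/-- The prime two. -/
abbrev twoPrime : Nat.Primes := ⟨2, Nat.prime_two⟩

theorem zmod_two_pow_one : ∀ c : ZMod (2 ^ 1), c = 0 ∨ c = 1 := by decide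

variable [Fact (Nat.Prime 2)] {N : ℕ} [NeZero N] (M : TorsionHeckeModel N 2)

/-- The point of a vector at level `n`. -/
def pt (n : ℕ) : (Fin M.d → ℤ_[2]) →+ JZero N :=
  (AddSubgroup.subtype _).comp ((M.e n).symm.toAddMonoidHom.comp
    (AddMonoidHom.compLeft (PadicInt.toZModPow n : ℤ_[2] →+* ZMod (2 ^ n)).toAddMonoidHom (Fin M.d)))

theorem pt_apply (n : ℕ) (z : Fin M.d → ℤ_[2]) :
    pt M n z = ((M.e n).symm (fun i => PadicInt.toZModPow n (z i)) :
      Pic0.torsion Ω (modularFunctionFieldBar N) (2 ^ n)) := rfl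

theorem pt_torsion (n : ℕ) (z : Fin M.d → ℤ_[2]) : 2 ^ n • pt M n z = 0 := by
  rw [pt_apply, ← natCast_zsmul]
  exact Pic0.mem_torsion.mp (SetLike.coe_mem _)

theorem pt_congr {n : ℕ} {z z' : Fin M.d → ℤ_[2]}
    (h : ∀ i, PadicInt.toZModPow n (z i) = PadicInt.toZModPow n (z' i)) : pt M n z = pt M n z' := by
  simp only [pt_apply, h]

theorem pt_eq_iff {n : ℕ} {z z' : Fin M.d → ℤ_[2]} :
    pt M n z = pt M n z' ↔ ∀ i, PadicInt.toZModPow n (z i) = PadicInt.toZModPow n (z' i) := by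
  refine ⟨fun h i => ?_, pt_congr M⟩
  rw [pt_apply, pt_apply] at h
  exact congrFun ((M.e n).symm.injective (Subtype.ext h)) i

theorem cast_mulVec (n : ℕ) (X : Matrix (Fin M.d) (Fin M.d) ℤ_[2]) (z : Fin M.d → ℤ_[2]) :
    (fun i => PadicInt.toZModPow n ((X *ᵥ z) i)) =
      matMod 2 M.d n X *ᵥ fun i => PadicInt.toZModPow n (z i) := by
  funext i
  rw [RingHom.map_mulVec]; rfl

theorem pt_galMat (n : ℕ) (σ : GQ) (z : Fin M.d → ℤ_[2]) :
    pt M n (galMat M σ *ᵥ z) = σ • pt M n z := by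
  rw [pt_apply, pt_apply, cast_mulVec, matMod_galMat]
  conv_lhs => rw [show (fun i => PadicInt.toZModPow n (z i)) =
    M.e n ((M.e n).symm fun i => PadicInt.toZModPow n (z i)) from ((M.e n).apply_symm_apply _).symm]
  rw [levelMat_mulVec, AddEquiv.symm_apply_apply, JZero.coe_torsionGaloisRep_apply]

theorem pt_heckeMat (n : ℕ) (ℓ : Nat.Primes) (z : Fin M.d → ℤ_[2]) :
    pt M n (EigenRep.heckeMat M ℓ *ᵥ z) = heckeOperatorBar N ℓ (pt M n z) := by
  rw [pt_apply, pt_apply, cast_mulVec]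
  conv_lhs => rw [show (fun i => PadicInt.toZModPow n (z i)) =
    M.e n ((M.e n).symm fun i => PadicInt.toZModPow n (z i)) from ((M.e n).apply_symm_apply _).symm]
  rw [hecke_mulVec, AddEquiv.symm_apply_apply]
  rfl

theorem two_smul_pt (n : ℕ) (z : Fin M.d → ℤ_[2]) : 2 • pt M (n + 1) z = pt M n z := by
  set x := (M.e (n + 1)).symm (fun i => PadicInt.toZModPow (n + 1) (z i))
  have h : M.e n (mulTors n x) = fun i => PadicInt.toZModPow n (z i) := funext fun i => by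
    rw [M.e_compat n x _ rfl i, AddEquiv.apply_symm_apply]
    exact congrArg (fun f : ℤ_[2] →+* ZMod (2 ^ n) => f (z i))
      (PadicInt.zmod_cast_comp_toZModPow n (n + 1) n.le_succ)
  rw [pt_apply M n, ← h, AddEquiv.symm_apply_apply]
  rfl

variable {A : ValuationSubring Ω} [CharP (ResidueField A) 2] [IsAlgClosed (ResidueField A)]
  (S : Setting A N 2)

/-- The row vanishes modulo `2 ^ n` on the kernel of reduction. -/
def IsRow (n : ℕ) (r : Fin M.d → ℤ_[2]) : Prop :=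
  ∀ z, pt M n z ∈ goodKilled S (2 ^ n) → PadicInt.toZModPow n (r ⬝ᵥ z) = 0

variable {O : Type} [CommRing O] (ι : ℤ_[2] →+* O)

/-- All rows vanish modulo `2 ^ n` at `x`. -/
def kerLevel (n : ℕ) : Submodule O (Fin M.d → O) where
  carrier := {x | ∀ r, IsRow M S n r → (2 : O) ^ n ∣ (ι ∘ r) ⬝ᵥ x}
  add_mem' := fun ha hb r hr => by rw [dotProduct_add]; exact dvd_add (ha r hr) (hb r hr)
  zero_mem' := fun r _ => by rw [dotProduct_zero]; exact dvd_zero _
  smul_mem' := fun c x hx r hr => by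
    rw [dotProduct_smul, smul_eq_mul]; exact (hx r hr).mul_left c

theorem dvd_of_toZModPow {n : ℕ} {y : ℤ_[2]} (h : PadicInt.toZModPow n y = 0) :
    (2 : O) ^ n ∣ ι y := by
  rw [← RingHom.mem_ker, PadicInt.ker_toZModPow, Ideal.mem_span_singleton] at h
  obtain ⟨c, rfl⟩ := h
  exact ⟨ι c, by rw [map_mul, map_pow, map_natCast]; norm_num⟩

theorem dot_map (r : Fin M.d → ℤ_[2]) (X : Matrix (Fin M.d) (Fin M.d) ℤ_[2]) (x : Fin M.d → O) :
    (ι ∘ r) ⬝ᵥ (X.map ι *ᵥ x) = (ι ∘ (r ᵥ* X)) ⬝ᵥ x := by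
  rw [dotProduct_mulVec]
  congr 1
  funext i
  exact (RingHom.map_vecMul ι X r i).symm

/-- Matrices sending everything into the kernel. -/
theorem mulVec_mem_of_forall {n : ℕ} {X : Matrix (Fin M.d) (Fin M.d) ℤ_[2]}
    (hX : ∀ z, pt M n (X *ᵥ z) ∈ goodKilled S (2 ^ n)) (x : Fin M.d → O) :
    X.map ι *ᵥ x ∈ kerLevel M S ι n := fun r hr => by
  rw [dot_map]
  refine Finset.dvd_sum fun i _ => Dvd.dvd.mul_right (dvd_of_toZModPow ι ?_) _
  have h := hr _ (hX (Pi.single i 1))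
  rwa [dotProduct_mulVec, dotProduct_single_one] at h

/-- Matrices preserving the kernel. -/
theorem mulVec_mem {n : ℕ} {X : Matrix (Fin M.d) (Fin M.d) ℤ_[2]}
    (hX : ∀ z, pt M n z ∈ goodKilled S (2 ^ n) → pt M n (X *ᵥ z) ∈ goodKilled S (2 ^ n))
    {x : Fin M.d → O} (hx : x ∈ kerLevel M S ι n) : X.map ι *ᵥ x ∈ kerLevel M S ι n := fun r hr => by
  rw [dot_map]
  refine hx _ fun z hz => ?_
  rw [← dotProduct_mulVec]
  exact hr _ (hX z hz)

theorem galMat_mem {n : ℕ} {σ : GQ} (hσ : σ ∈ A.decompositionSubgroup ℚ) {x : Fin M.d → O}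
    (hx : x ∈ kerLevel M S ι n) : galEnd M ι σ x ∈ kerLevel M S ι n :=
  mulVec_mem M S ι (fun z hz => by rw [pt_galMat]; exact smul_mem_goodKilled S hσ hz) hx

theorem inertia_sub_mem {n : ℕ} {σ : GQ} (hσ : σ ∈ A.inertiaSubgroupIn ℚ) (x : Fin M.d → O) :
    galEnd M ι σ x - x ∈ kerLevel M S ι n := by
  have h := mulVec_mem_of_forall M S ι (n := n) (X := galMat M σ - 1) (fun z => by
    rw [sub_mulVec, one_mulVec, map_sub, pt_galMat]
    exact smul_sub_mem_goodKilled S hσ (pt_torsion M n z)) x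
  rwa [Matrix.map_sub _ (map_sub ι), Matrix.map_one _ (map_zero ι) (map_one ι), sub_mulVec,
    one_mulVec] at h

theorem frobenius_rel_mem {n : ℕ} {φ : GQ} (hφ : A.IsFrobeniusAt φ 2) (x : Fin M.d → O) :
    galEnd M ι φ ((EigenRep.heckeMat M twoPrime).map ι *ᵥ x) -
      galEnd M ι φ (galEnd M ι φ x) - (2 : O) • x ∈ kerLevel M S ι n := by
  have h := mulVec_mem_of_forall M S ι (n := n)
    (X := galMat M φ * EigenRep.heckeMat M twoPrime - galMat M φ * galMat M φ -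
      (2 : ℤ_[2]) • 1) (fun z => by
    rw [sub_mulVec, sub_mulVec, ← mulVec_mulVec, ← mulVec_mulVec, smul_mulVec, one_mulVec,
      map_sub, map_sub, pt_galMat, pt_heckeMat, pt_galMat, pt_galMat, two_smul, map_add,
      ← two_nsmul]
    exact frobenius_relation_good S hφ (pt_torsion M n z)) x
  rw [Matrix.map_sub _ (map_sub ι), Matrix.map_sub _ (map_sub ι), Matrix.map_mul, Matrix.map_mul,
    Matrix.map_smul' _ _ _ (map_mul ι), Matrix.map_one _ (map_zero ι) (map_one ι), map_ofNat,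
    sub_mulVec, sub_mulVec, ← mulVec_mulVec, ← mulVec_mulVec, smul_mulVec, one_mulVec] at h
  exact h

/-- Kernels at consecutive levels. -/
theorem pt_mem_of_mem {n : ℕ} {z : Fin M.d → ℤ_[2]}
    (hz : pt M (n + 1) z ∈ goodKilled S (2 ^ (n + 1))) : pt M n z ∈ goodKilled S (2 ^ n) := by
  refine (mem_goodKilled_mul_iff S (pow_ne_zero n two_ne_zero) 1 (pt_torsion M n z)).mp ?_
  rw [← pow_add, ← two_smul_pt]
  exact nsmul_mem hz _

/-- Twice a vector in the next kernel. -/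
theorem mem_of_two_smul_mem [IsDomain O] [CharZero O] {n : ℕ} {x : Fin M.d → O}
    (hx : (2 : O) • x ∈ kerLevel M S ι (n + 1)) : x ∈ kerLevel M S ι n := by
  intro r hr
  let c1 : ℤ_[2] →+* ZMod (2 ^ 1) := PadicInt.toZModPow 1
  have h2z : (2 : ℤ_[2]) ≠ 0 := two_ne_zero
  -- the graph of the residue of `r ⬝ z / 2 ^ n`
  let W : AddSubgroup ((Fin M.d → ZMod (2 ^ 1)) × ZMod (2 ^ 1)) :=
    { carrier := {q | ∃ z e, pt M (n + 1) z ∈ goodKilled S (2 ^ (n + 1)) ∧
        r ⬝ᵥ z = 2 ^ n * e ∧ q = (c1 ∘ z, c1 e)}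
      zero_mem' := ⟨0, 0, by rw [map_zero]; exact zero_mem _, by simp, by ext <;> simp⟩
      add_mem' := by
        rintro _ _ ⟨z, e, hz, he, rfl⟩ ⟨z', e', hz', he', rfl⟩
        exact ⟨z + z', e + e', by rw [map_add]; exact add_mem hz hz',
          by rw [dotProduct_add, he, he', mul_add], by ext <;> simp⟩
      neg_mem' := by
        rintro _ ⟨z, e, hz, he, rfl⟩
        exact ⟨-z, -e, by rw [map_neg]; exact neg_mem hz, by rw [dotProduct_neg, he, mul_neg],
          by ext <;> simp⟩ }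
  let W' := AddSubgroup.toZModSubmodule (2 ^ 1) W
  have hnot : ((0, 1) : (Fin M.d → ZMod (2 ^ 1)) × ZMod (2 ^ 1)) ∉ W' := by
    rintro ⟨z, e, hz, he, heq⟩
    rw [Prod.mk.injEq] at heq
    have hdiv : ∀ i, ∃ w, z i = 2 * w := fun i => by
      have h : z i ∈ RingHom.ker c1 := (congrFun heq.1 i).symm
      rw [PadicInt.ker_toZModPow, Ideal.mem_span_singleton, pow_one] at h
      obtain ⟨w, hw⟩ := h
      exact ⟨w, by simpa using hw⟩
    choose w hw using hdiv
    have hw' : z = (2 : ℕ) • w := funext fun i => by simp [hw i]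
    have hwn : pt M n w ∈ goodKilled S (2 ^ n) := by
      refine (mem_goodKilled_mul_iff S (pow_ne_zero n two_ne_zero) 1 (pt_torsion M n w)).mp ?_
      rw [← pow_add, ← two_smul_pt, ← map_nsmul, ← hw']
      exact hz
    have h := hr w hwn
    rw [← RingHom.mem_ker, PadicInt.ker_toZModPow, Ideal.mem_span_singleton] at h
    obtain ⟨e', he'⟩ := h
    rw [hw', dotProduct_smul, he', nsmul_eq_mul] at he
    have he2 : e = 2 * e' := mul_left_cancel₀ (pow_ne_zero n h2z) (by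
      rw [← he]; push_cast; ring)
    have h1 := heq.2
    rw [he2, map_mul, show c1 2 = 0 by rw [map_ofNat]; rfl, zero_mul] at h1
    exact one_ne_zero h1
  obtain ⟨l, hl, hlW⟩ := Submodule.exists_dual_map_eq_bot_of_notMem hnot inferInstance
  have hl1 : l (0, 1) = 1 := (zmod_two_pow_one _).resolve_left hl
  let s : Fin M.d → ℤ_[2] := fun i => ((l (Pi.single i 1, 0)).val : ℤ_[2])
  have hs : ∀ i, c1 (s i) = l (Pi.single i 1, 0) := fun i => by
    simp [s]
  have hrow : IsRow M S (n + 1) (r + (2 : ℤ_[2]) ^ n • s) := fun z hz => by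
    have h := hr z (pt_mem_of_mem M S hz)
    rw [← RingHom.mem_ker, PadicInt.ker_toZModPow, Ideal.mem_span_singleton] at h
    obtain ⟨e, he⟩ := h
    rw [Nat.cast_ofNat] at he
    have hmem : ((c1 ∘ z, c1 e) : (Fin M.d → ZMod (2 ^ 1)) × ZMod (2 ^ 1)) ∈ W' :=
      ⟨z, e, hz, he, rfl⟩
    have h0 : l (c1 ∘ z, c1 e) = 0 := by
      have := Submodule.mem_map_of_mem (f := l) hmem
      rwa [hlW, Submodule.mem_bot] at this
    have h1 : c1 (e + s ⬝ᵥ z) = 0 := by
      have hdec : ((c1 ∘ z, c1 e) : (Fin M.d → ZMod (2 ^ 1)) × ZMod (2 ^ 1)) =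
          (∑ i, c1 (z i) • (Pi.single i 1, (0 : ZMod (2 ^ 1)))) + c1 e • (0, 1) := by
        refine Prod.ext ?_ ?_
        · rw [Prod.fst_add, Prod.fst_sum]
          simpa using pi_eq_sum_univ' (c1 ∘ z)
        · rw [Prod.snd_add, Prod.snd_sum]; simp
      rw [hdec, map_add, map_sum, map_smul, hl1, smul_eq_mul, mul_one] at h0
      rw [map_add, ← h0, dotProduct, map_sum, add_comm]
      refine congrArg (· + c1 e) (Finset.sum_congr rfl fun i _ => ?_)
      rw [map_smul, smul_eq_mul, map_mul, hs, mul_comm]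
    rw [← RingHom.mem_ker, PadicInt.ker_toZModPow, Ideal.mem_span_singleton] at h1 ⊢
    rw [add_dotProduct, smul_dotProduct, he, smul_eq_mul, ← mul_add, Nat.cast_ofNat, pow_succ]
    exact mul_dvd_mul_left _ (by simpa using h1)
  have h := hx _ hrow
  rw [show ι ∘ (r + (2 : ℤ_[2]) ^ n • s) = ι ∘ r + (2 : O) ^ n • (ι ∘ s) from funext fun i => by
    simp [map_ofNat], dotProduct_smul, add_dotProduct, smul_dotProduct, smul_eq_mul, smul_eq_mul, pow_succ',
    mul_dvd_mul_iff_left two_ne_zero] at h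
  exact (dvd_add_left (Dvd.intro _ rfl)).mp h

/-- The core on a coefficient field: inertia fixed vectors of the first kernel with `T₂ = 1` are
fixed by Frobenius. -/
theorem frobenius_fixed {k : Type} [Field k] [CharP k 2] (f : O →+* k) {x : Fin M.d → O}
    (hx : x ∈ kerLevel M S ι 1)
    (hI : ∀ τ ∈ A.inertiaSubgroupIn ℚ, f ∘ galEnd M ι τ x = f ∘ x)
    (hT : f ∘ ((EigenRep.heckeMat M twoPrime).map ι *ᵥ x) = f ∘ x)
    {φ : GQ} (hφ : A.IsFrobeniusAt φ 2) : f ∘ galEnd M ι φ x = f ∘ x := by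
  have : CharP k (2 ^ 1) := by rwa [pow_one]
  let f₀ : ZMod (2 ^ 1) →+* k := ZMod.castHom (dvd_refl _) k
  have hcomm : ∀ y : ℤ_[2], f (ι y) = f₀ (PadicInt.toZModPow 1 y) := fun y => by
    obtain ⟨c, hc⟩ := EigenRep.sub_mem_span_pow (f.comp ι) (n := 1) (x := y)
      (y := ((PadicInt.toZModPow 1 y).val : ℤ_[2])) (by rw [map_natCast, ZMod.natCast_zmod_val])
    rw [RingHom.comp_apply, show ((2 : ℕ) : k) = 0 from CharP.cast_eq_zero k 2, zero_pow one_ne_zero, zero_mul,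
      add_zero, map_natCast] at hc
    rw [hc, ← map_natCast f₀, ZMod.natCast_zmod_val]
  have hmap : ∀ X : Matrix (Fin M.d) (Fin M.d) ℤ_[2],
      f ∘ (X.map ι *ᵥ x) = (matMod 2 M.d 1 X).map f₀ *ᵥ (f ∘ x) := fun X => by
    funext i
    rw [Function.comp_apply, RingHom.map_mulVec, Matrix.map_map]
    refine congrFun (congrArg (· *ᵥ (f ∘ x)) (Matrix.ext fun a b => ?_)) i
    exact hcomm _
  let T2 := EigenRep.heckeMat M twoPrime
  let Xs : Set (Matrix (Fin M.d) (Fin M.d) ℤ_[2]) :=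
    {X | (∃ τ ∈ A.inertiaSubgroupIn ℚ, X = galMat M τ) ∨ X = T2}
  let R : Set (Fin M.d → ZMod (2 ^ 1)) :=
    {s | (∀ z, pt M 1 z ∈ goodKilled S (2 ^ 1) → s ⬝ᵥ (fun i => PadicInt.toZModPow 1 (z i)) = 0) ∨
      ∃ X ∈ Xs, ∃ i, s = (matMod 2 M.d 1 X - 1) i}
  have hXs : ∀ X ∈ Xs, f ∘ (X.map ι *ᵥ x) = f ∘ x := by
    rintro X (⟨τ, hτ, rfl⟩ | rfl)
    · exact hI τ hτ
    · exact hT
  have hrow : ∀ x₀ : Fin M.d → ZMod (2 ^ 1), (∀ s ∈ R, s ⬝ᵥ x₀ = 0) →
      matMod 2 M.d 1 (galMat M φ) *ᵥ x₀ = x₀ := by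
    intro x₀ h₀
    obtain ⟨z, hz, rfl⟩ : ∃ z, pt M 1 z ∈ goodKilled S (2 ^ 1) ∧
        (fun i => PadicInt.toZModPow 1 (z i)) = x₀ := by
      by_contra hno
      let U : AddSubgroup (Fin M.d → ZMod (2 ^ 1)) :=
        ((goodKilled S (2 ^ 1)).comap (pt M 1)).map
          (AddMonoidHom.compLeft (PadicInt.toZModPow 1 : ℤ_[2] →+* ZMod (2 ^ 1)).toAddMonoidHom
            (Fin M.d))
      have hxU : x₀ ∉ AddSubgroup.toZModSubmodule (2 ^ 1) U := by
        rintro ⟨z, hz, hzx⟩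
        exact hno ⟨z, hz, hzx⟩
      obtain ⟨l, hl, hlU⟩ := Submodule.exists_dual_map_eq_bot_of_notMem hxU inferInstance
      have hl' : ∀ s : Fin M.d → ZMod (2 ^ 1), l s = (fun i => l (Pi.single i 1)) ⬝ᵥ s := fun s => by
        conv_lhs => rw [pi_eq_sum_univ' s, map_sum]
        exact Finset.sum_congr rfl fun i _ => by rw [map_smul, smul_eq_mul, mul_comm]
      refine hl ((hl' x₀).trans (h₀ _ (Or.inl fun z hz => ?_)))
      rw [← hl']
      have := Submodule.mem_map_of_mem (f := l)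
        (show (fun i => PadicInt.toZModPow 1 (z i)) ∈ AddSubgroup.toZModSubmodule (2 ^ 1) U from
          ⟨z, hz, rfl⟩)
      rwa [hlU, Submodule.mem_bot] at this
    have hfix : ∀ X ∈ Xs, pt M 1 (X *ᵥ z) = pt M 1 z := fun X hX => pt_congr M fun i => by
      have h := h₀ ((matMod 2 M.d 1 X - 1) i) (Or.inr ⟨X, hX, i, rfl⟩)
      have h' : ((matMod 2 M.d 1 X - 1) *ᵥ fun i => PadicInt.toZModPow 1 (z i)) i = 0 := h
      rw [sub_mulVec, one_mulVec, ← cast_mulVec, Pi.sub_apply, sub_eq_zero] at h'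
      exact h'
    have h1 : ∀ τ ∈ A.inertiaSubgroupIn ℚ, τ • pt M 1 z = pt M 1 z := fun τ hτ => by
      rw [← pt_galMat]; exact hfix _ (Or.inl ⟨τ, hτ, rfl⟩)
    have h2 : heckeOperatorAlong Ω N 2 (pt M 1 z) = pt M 1 z := by
      have := hfix _ (Or.inr rfl)
      rwa [show T2 = EigenRep.heckeMat M twoPrime from rfl, pt_heckeMat] at this
    have h3 := frobenius_smul_eq_of_mem_goodKilled S (by rwa [pow_one] at hz) h1 h2 hφ
    rw [← pt_galMat, pt_eq_iff] at h3
    funext i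
    rw [← cast_mulVec]
    exact h3 i
  have hv : ∀ s ∈ R, (f₀ ∘ s) ⬝ᵥ (f ∘ x) = 0 := by
    rintro s (hs | ⟨X, hX, i, rfl⟩)
    · let r : Fin M.d → ℤ_[2] := fun i => ((s i).val : ℤ_[2])
      have hr : ∀ i, PadicInt.toZModPow 1 (r i) = s i := fun i => by
        simp [r]
      obtain ⟨c, hc⟩ := hx r fun z hz => by
        rw [dotProduct, map_sum, ← hs z hz]
        exact Finset.sum_congr rfl fun i _ => by rw [map_mul, hr]
      have h := congrArg f hc
      rw [map_mul, map_pow, map_ofNat, show (2 : k) = 0 from CharTwo.two_eq_zero, zero_pow one_ne_zero, zero_mul,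
        RingHom.map_dotProduct] at h
      rw [← h]
      congr 1
      funext i
      simp only [Function.comp_apply, hcomm, hr]
    · have h := hXs X hX
      rw [hmap] at h
      show ((matMod 2 M.d 1 X - 1).map f₀ *ᵥ (f ∘ x)) i = 0
      rw [Matrix.map_sub _ (map_sub f₀), Matrix.map_one _ (map_zero f₀) (map_one f₀), sub_mulVec,
        one_mulVec, h, sub_self, Pi.zero_apply]
  rw [galEnd_apply, hmap]
  funext i
  have key := MultOne.dot_eq_zero_of_rows f₀ R ((matMod 2 M.d 1 (galMat M φ) - 1) i) (fun x₀ h₀ => by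
    show ((matMod 2 M.d 1 (galMat M φ) - 1) *ᵥ x₀) i = 0
    rw [sub_mulVec, one_mulVec, hrow x₀ h₀, sub_self, Pi.zero_apply]) (f ∘ x) hv
  have h : ((matMod 2 M.d 1 (galMat M φ) - 1).map f₀ *ᵥ (f ∘ x)) i = 0 := key
  rwa [Matrix.map_sub _ (map_sub f₀), Matrix.map_one _ (map_zero f₀) (map_one f₀), sub_mulVec,
    one_mulVec, Pi.sub_apply, sub_eq_zero] at h

end Fermat.Agent.TwoAdic.TSide

end
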