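import Fermat.Agent.TwoAdic.TSide.QuadEmbed
import Fermat.Agent.TwoAdic.TSide.KernelTwo
import Fermat.Agent.TwoAdic.TSideTransfer
import Fermat.Agent.TwoAdic.Pair.Cond
import Fermat.Agent.Engine.TRep.Compare
import Fermat.Agent.SemistableRed.AllFacts

/-!
# The ordinary line at two, good level

A representation attached to an eigenvector on the `2`-adic torsion of `J₀(N)`, `N` odd, with
`a₂ ≡ 1` and residual Frobenius at `2` non-trivial, is ordinary at `2` with the unit root of
`X² - a₂ X + 2`.  The representation embeds in the lattice; its vectors reducing into the kernels of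
reduction form a saturated proper submodule containing the images of `ρ(φⁿτ) - αⁿ`.
-/

set_option autoImplicit false

noncomputable section

open IsLocalRing AlgebraicCurve ModularCurve Matrix
open Fermat.Agent.Reduction Fermat.Agent.SemistableRed Fermat.Agent.EigenRep Fermat.Agent.DefRing

namespace Fermat.Agent.TwoAdic.TSide

local notation "Ω" => AlgebraicClosure ℚ
local notation "GQ" => (AlgebraicClosure ℚ) ≃ₐ[ℚ] (AlgebraicClosure ℚ)

/-- **The ordinary line at two, good level, on points.** -/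
def OrdinaryAtTwo : Prop :=
  ∀ [Fact (Nat.Prime 2)] (O : Type) [CommRing O] [IsDomain O] [IsDiscreteValuationRing O]
    [IsAdicComplete (maximalIdeal O) O] [Finite (ResidueField O)] [CharZero O]
    (h2 : ((2 : ℕ) : O) ∈ maximalIdeal O) (N : ℕ) [NeZero N], ¬ 2 ∣ N →
    ∀ (hes : EichlerShimuraRelations N 2) (S : Finset ℕ), 2 ∉ S →
    ∀ a : Nat.Primes → O, residue O (a twoPrime) = 1 →
      (∃ v, v ≠ 0 ∧ v ∈ eigenSub (Engine.TRep.stdInputs hes).model (↑S : Set ℕ) a) →
    ∀ ρ : GaloisRepAdic O,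
      (∀ σ, LinearMap.det (ρ.ρ σ) = padicHom 2 h2 (epsilonPadic 2 σ : ℤ_[2])) →
      (∀ (ℓ : ℕ) (hℓ : ℓ.Prime), ℓ ∉ S → ℓ ≠ 2 → ∀ A : ValuationSubring Ω, A.LiesOverPrime ℓ →
        ∀ σ : GQ, A.IsFrobeniusAt σ ℓ → ρ.trace σ = a ⟨ℓ, hℓ⟩) →
      (∀ A : ValuationSubring Ω, A.LiesOverPrime 2 →
        (∀ τ ∈ A.inertiaSubgroupIn ℚ, (matrixRep ρ (repBasis ρ) τ).map (residue O) = 1) ∧
        ∀ φ : GQ, A.IsFrobeniusAt φ 2 → (matrixRep ρ (repBasis ρ) φ).map (residue O) ≠ 1) →
      (∃ g h, IsUnit (matrixRep ρ (repBasis ρ) g * matrixRep ρ (repBasis ρ) h -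
        matrixRep ρ (repBasis ρ) h * matrixRep ρ (repBasis ρ) g).det) →
      ∃ α : O, IsUnit α ∧ α * α - a twoPrime * α + 2 = 0 ∧ Pair.IsOrdinary ρ α

section Unit

variable {O : Type} [CommRing O] [IsDomain O] [IsDiscreteValuationRing O]

/-- The unit root. -/
theorem exists_unit_root [IsAdicComplete (maximalIdeal O) O] (h2 : (2 : O) ∈ maximalIdeal O)
    {a : O} (ha : IsUnit a) :
    ∃ α : O, IsUnit α ∧ α * α - a * α + 2 = 0 ∧ a - α ∈ maximalIdeal O := by
  obtain ⟨α, hroot, hα⟩ := HenselianRing.is_henselian (I := maximalIdeal O)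
    (Polynomial.X ^ 2 - Polynomial.C a * Polynomial.X + Polynomial.C 2) (by monicity!) a
    (by simpa [sq] using h2)
    (by
      refine IsUnit.map _ ?_
      simp
      convert ha using 1
      ring)
  refine ⟨α, notMem_maximalIdeal.mp fun hm => notMem_maximalIdeal.mpr ha ?_, ?_, ?_⟩
  · have := Ideal.sub_mem _ hm hα
    rwa [sub_sub_cancel] at this
  · simpa [sq] using hroot
  · rw [← neg_sub]; exact neg_mem hα

/-- A nonzero element divides a power of two. -/
theorem exists_dvd_two_pow (h2 : (2 : O) ∈ maximalIdeal O) {c : O} (hc : c ≠ 0) :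
    ∃ k : ℕ, c ∣ 2 ^ k := by
  obtain ⟨ϖ, hϖ⟩ := IsDiscreteValuationRing.exists_irreducible O
  obtain ⟨k, u, rfl⟩ := IsDiscreteValuationRing.eq_unit_mul_pow_irreducible hc hϖ
  rw [hϖ.maximalIdeal_eq, Ideal.mem_span_singleton] at h2
  exact ⟨k, Units.mul_left_dvd.mpr (pow_dvd_pow_of_dvd h2 k)⟩

/-- A high power of a non-unit is divisible by a given power of two. -/
theorem exists_two_pow_dvd [CharZero O] {β : O} (hβ : β ∈ maximalIdeal O) (n : ℕ) :
    ∃ k : ℕ, (2 : O) ^ n ∣ β ^ k := by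
  obtain ⟨ϖ, hϖ⟩ := IsDiscreteValuationRing.exists_irreducible O
  obtain ⟨k, u, hu⟩ :=
    IsDiscreteValuationRing.eq_unit_mul_pow_irreducible (pow_ne_zero n (two_ne_zero (α := O))) hϖ
  rw [hϖ.maximalIdeal_eq, Ideal.mem_span_singleton] at hβ
  exact ⟨k, hu ▸ Units.mul_left_dvd.mpr (pow_dvd_pow_of_dvd hβ k)⟩

/-- Divide a nonzero matrix by the gcd of its entries. -/
theorem exists_primitive_matrix {d : ℕ} (X : Matrix (Fin d) (Fin 2) O) (hX : X ≠ 0) :
    ∃ (c : O) (J : Matrix (Fin d) (Fin 2) O) (i : Fin d) (j : Fin 2), c ≠ 0 ∧ X = c • J ∧ J i j = 1 := by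
  classical
  obtain ⟨i₀, j₀, h₀⟩ : ∃ i j, X i j ≠ 0 := by
    by_contra h
    push Not at h
    exact hX (Matrix.ext h)
  obtain ⟨⟨i, j⟩, hij, hmin⟩ := Finset.exists_min_image
    (Finset.univ.filter fun q : Fin d × Fin 2 => X q.1 q.2 ≠ 0)
    (fun q => IsDiscreteValuationRing.addVal O (X q.1 q.2)) ⟨(i₀, j₀), by simpa using h₀⟩
  rw [Finset.mem_filter] at hij
  have hdvd : ∀ r s, X i j ∣ X r s := fun r s => by
    rcases eq_or_ne (X r s) 0 with h | h
    · rw [h]; exact dvd_zero _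
    · exact IsDiscreteValuationRing.addVal_le_iff_dvd.mp (hmin (r, s) (by simpa using h))
  choose J hJ using hdvd
  exact ⟨X i j, Matrix.of J, i, j, hij.2, Matrix.ext fun r s => hJ r s,
    mul_left_cancel₀ hij.2 ((hJ i j).symm.trans (mul_one _).symm)⟩

/-- A residually injective matrix. -/
theorem mulVec_injective_of_primitive {k : Type*} [Field k] {d : ℕ} {J : Matrix (Fin d) (Fin 2) k}
    (hJ : J ≠ 0) {A B : Matrix (Fin 2) (Fin 2) k} {X Y : Matrix (Fin d) (Fin d) k}
    (hA : X * J = J * A) (hB : Y * J = J * B) (hdet : (A * B - B * A).det ≠ 0) :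
    Function.Injective J.mulVec := by
  intro u v huv
  by_contra hne
  set w := u - v with hw
  have hw0 : w ≠ 0 := sub_ne_zero.mpr hne
  have hJw : J *ᵥ w = 0 := by rw [hw, mulVec_sub, huv, sub_self]
  have hdep : ∀ {C : Matrix (Fin 2) (Fin 2) k} {Z : Matrix (Fin d) (Fin d) k}, Z * J = J * C →
      ∃ c : k, C *ᵥ w = c • w := by
    intro C Z hZ
    have h0 : J *ᵥ (C *ᵥ w) = 0 := by rw [mulVec_mulVec, ← hZ, ← mulVec_mulVec, hJw, mulVec_zero]
    by_contra hc
    push Not at hc
    have hli : LinearIndependent k ![w, C *ᵥ w] :=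
      (LinearIndependent.pair_iff' hw0).mpr fun c h => hc c h.symm
    have hsp : Submodule.span k (Set.range ![w, C *ᵥ w]) = ⊤ :=
      hli.span_eq_top_of_card_eq_finrank (by simp)
    refine hJ (Matrix.ext_of_mulVec_single fun i => ?_)
    rw [zero_mulVec]
    have hmem : (Pi.single i 1 : Fin 2 → k) ∈ LinearMap.ker J.mulVecLin := by
      refine (hsp.ge.trans (Submodule.span_le.mpr ?_)) Submodule.mem_top
      rintro _ ⟨j, rfl⟩
      fin_cases j
      · simpa using hJw
      · simpa using h0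
    exact hmem
  obtain ⟨c, hc⟩ := hdep hA
  obtain ⟨c', hc'⟩ := hdep hB
  refine hdet (Matrix.exists_mulVec_eq_zero_iff.mp ⟨w, hw0, ?_⟩)
  rw [sub_mulVec, ← mulVec_mulVec, ← mulVec_mulVec, hc, hc', mulVec_smul, mulVec_smul, hc, hc',
    smul_smul, smul_smul, mul_comm, sub_self]

end Unit

section Embedding

variable [Fact (Nat.Prime 2)] {O : Type} [CommRing O] [IsDomain O] [IsDiscreteValuationRing O]
  [IsAdicComplete (maximalIdeal O) O] {N : ℕ} [NeZero N]

/-- The representation embeds in the lattice, on the eigenvalue of `T₂`, with a unit entry. -/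
theorem exists_lattice_embedding (I : RepInputs N 2) (h2 : ((2 : ℕ) : O) ∈ maximalIdeal O)
    (S : Finset ℕ) (hS : 2 ∉ S) (a : Nat.Primes → O)
    (hne : ∃ v, v ≠ 0 ∧ v ∈ eigenSub I.model (↑S : Set ℕ) a) (ρ : GaloisRepAdic O)
    (hdet : ∀ σ, LinearMap.det (ρ.ρ σ) = padicHom 2 h2 (epsilonPadic 2 σ : ℤ_[2]))
    (hfrob : ∀ (ℓ : ℕ) (hℓ : ℓ.Prime), ℓ ∉ S → ℓ ≠ 2 → ∀ A : ValuationSubring Ω,
      A.LiesOverPrime ℓ → ∀ σ : GQ, A.IsFrobeniusAt σ ℓ → ρ.trace σ = a ⟨ℓ, hℓ⟩)
    (hirr : ∃ g h, (matrixRep ρ (repBasis ρ) g * matrixRep ρ (repBasis ρ) h -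
      matrixRep ρ (repBasis ρ) h * matrixRep ρ (repBasis ρ) g).det ≠ 0) :
    ∃ J : Matrix (Fin I.model.d) (Fin 2) O, (∃ i j, J i j = 1) ∧
      (∀ g, (galMat I.model g).map (padicHom 2 h2) * J = J * matrixRep ρ (repBasis ρ) g) ∧
      (EigenRep.heckeMat I.model twoPrime).map (padicHom 2 h2) * J = a twoPrime • J := by
  classical
  obtain ⟨v, hv0, hv⟩ := hne
  let ι := padicHom 2 h2
  let d := I.model.d
  let F := FractionRing O
  let e := algebraMap O F
  have hinj : Function.Injective e := IsFractionRing.injective O F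
  let R : GQ →* Matrix (Fin 2) (Fin 2) F :=
    e.mapMatrix.toMonoidHom.comp (matrixRep ρ (repBasis ρ))
  let π : GQ →* Module.End F (Fin d → F) := galEnd I.model (e.comp ι)
  let T2 : Module.End F (Fin d → F) :=
    Matrix.toLin' ((EigenRep.heckeMat I.model twoPrime).map (e.comp ι))
  let W : Submodule F (Fin d → F) := ⨅ h : GQ,
    (⨅ g : GQ, LinearMap.ker ((π g + (R g).det • π g⁻¹ - (R g).trace • 1) * π h)) ⊓
      LinearMap.ker ((T2 - e (a twoPrime) • 1) * π h)
  have hW : ∀ k, ∀ w ∈ W, π k w ∈ W := fun k w hw => by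
    simp only [W, Submodule.mem_iInf, Submodule.mem_inf, LinearMap.mem_ker,
      Module.End.mul_apply] at hw ⊢
    intro h
    have := hw (h * k)
    simp only [map_mul, Module.End.mul_apply] at this
    exact this
  have hemb : ∀ (X : Matrix (Fin d) (Fin d) ℤ_[2]) (u : Fin d → O),
      X.map (e.comp ι) *ᵥ (e ∘ u) = e ∘ (X.map ι *ᵥ u) := fun X u => by
    funext i
    rw [Function.comp_apply, RingHom.map_mulVec, Matrix.map_map]; rfl
  have hπ : ∀ g u, π g (e ∘ u) = e ∘ galEnd I.model ι g u := fun g u => hemb _ u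
  have hsm : ∀ (c : O) (u : Fin d → O), e ∘ (c • u) = e c • (e ∘ u) := fun c u => by
    funext i; simp
  have hRtr : ∀ g, (R g).trace = e (ρ.trace g) := fun g => by
    show ((matrixRep ρ (repBasis ρ) g).map e).trace = _
    rw [show ρ.trace g = (matrixRep ρ (repBasis ρ) g).trace from
      LinearMap.trace_eq_matrix_trace O (repBasis ρ) _]
    exact (AddMonoidHom.map_trace e.toAddMonoidHom _).symm
  have hRdet : ∀ g, (R g).det = e (ι (epsilonPadic 2 g : ℤ_[2])) := fun g => by
    show (e.mapMatrix (matrixRep ρ (repBasis ρ) g)).det = _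
    rw [← RingHom.map_det, matrixRep_apply, LinearMap.det_toMatrix, hdet]
  have hv' : v ∈ eigenSub I.model (↑(insert 2 S) : Set ℕ) a := by
    rw [mem_eigenSub] at hv ⊢
    exact fun ℓ hℓ => hv ℓ fun h => hℓ (by simp [Finset.mem_coe.mp h])
  have hvW : e ∘ v ∈ W := by
    simp only [W, Submodule.mem_iInf, Submodule.mem_inf, LinearMap.mem_ker, Module.End.mul_apply,
      LinearMap.sub_apply, LinearMap.add_apply, LinearMap.smul_apply, Module.End.one_apply]
    refine fun h => ⟨fun g => ?_, ?_⟩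
    · rw [hπ h, hπ g, hπ g⁻¹, hRdet, hRtr, ← hsm, ← hsm, sub_eq_zero,
        ← quadratic_of_trace I h2 (insert 2 S) a ρ (fun ℓ hℓ hℓS A hA σ hσ => by
          rw [Finset.mem_insert, not_or] at hℓS
          exact hfrob ℓ hℓ hℓS.2 hℓS.1 A hA σ hσ) g
          (galEnd_mem_eigenSub I.model ι I.equivariant h hv')]
      funext i; simp [ι]
    · rw [hπ h, Matrix.toLin'_apply, hemb, ← hsm, EigenRep.map_heckeMat,
        (mem_eigenSub I.model).mp (galEnd_mem_eigenSub I.model ι I.equivariant h hv) twoPrime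
          (by simpa using hS), sub_self]
  have hu : (⟨e ∘ v, hvW⟩ : W) ≠ 0 := fun h => hv0 (funext fun i => hinj (by
    simpa using congrFun (congrArg Subtype.val h) i))
  let πW : GQ →* Module.End F W :=
    { toFun := fun g => (π g).restrict (hW g)
      map_one' := by ext w : 2; simp
      map_mul' := fun g k => by ext w : 2; simp }
  have hWrel : ∀ (w : W) (h : GQ), (∀ g, (π g + (R g).det • π g⁻¹ - (R g).trace • 1) (π h w) = 0) ∧
      (T2 - e (a twoPrime) • 1) (π h w) = 0 := fun w h => by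
    have := w.2
    simp only [W, Submodule.mem_iInf, Submodule.mem_inf, LinearMap.mem_ker,
      Module.End.mul_apply] at this
    exact this h
  obtain ⟨g₀, h₀, hgh⟩ := hirr
  obtain ⟨j, hj, hjg⟩ := exists_embedding πW R (fun g => by
      ext w : 2
      have h := (hWrel w 1).1 g
      rw [map_one π] at h
      simp only [LinearMap.sub_apply, LinearMap.add_apply, LinearMap.smul_apply,
        Module.End.one_apply, sub_eq_zero] at h
      exact h)
    ⟨g₀, h₀, fun h0 => hgh (hinj (by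
      rw [map_zero, RingHom.map_det, ← h0]
      simp only [R, MonoidHom.comp_apply, RingHom.toMonoidHom_eq_coe, MonoidHom.coe_coe, map_sub,
        map_mul]))⟩ hu
  -- integral matrix
  let Xf : Fin d × Fin 2 → F := fun q => (j (Pi.single q.2 1) : Fin d → F) q.1
  obtain ⟨b, hb⟩ := IsLocalization.exist_integer_multiples_of_finite (nonZeroDivisors O) Xf
  choose X hX using hb
  have hb0 : e b ≠ 0 := IsFractionRing.to_map_ne_zero_of_mem_nonZeroDivisors b.2
  let Xm : Matrix (Fin d) (Fin 2) O := Matrix.of fun i r => X (i, r)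
  have hXm : ∀ y : Fin 2 → F, Xm.map e *ᵥ y = e b • (j y : Fin d → F) := by
    intro y
    conv_rhs => rw [pi_eq_sum_univ' y, map_sum, AddSubmonoidClass.coe_finsetSum, Finset.smul_sum]
    funext i
    rw [Finset.sum_apply, Matrix.mulVec, dotProduct]
    refine Finset.sum_congr rfl fun r _ => ?_
    show e (X (i, r)) * y r = e b * ((j (y r • (Pi.single r (1 : F) : Fin 2 → F)) : Fin d → F) i)
    rw [j.map_smul, SetLike.val_smul, Pi.smul_apply, smul_eq_mul,
      show e (X (i, r)) = _ from hX (i, r), Algebra.smul_def]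
    show e b * (j (Pi.single r 1) : Fin d → F) i * y r = _
    ring
  have hXne : Xm ≠ 0 := fun h0 => by
    have h1 := hXm (Pi.single 0 1)
    rw [h0, Matrix.map_zero _ (map_zero e), zero_mulVec] at h1
    have h2 : j (Pi.single 0 1) = 0 := Subtype.ext ((smul_eq_zero.mp h1.symm).resolve_left hb0)
    have h3 : (Pi.single 0 1 : Fin 2 → F) = 0 := (injective_iff_map_eq_zero j).mp hj _ h2
    simpa using congrFun h3 0
  obtain ⟨c, J, i₁, j₁, hc, hXJ, hJ1⟩ := exists_primitive_matrix Xm hXne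
  have hec : e c ≠ 0 := (map_ne_zero_iff e hinj).mpr hc
  have hms : ∀ (r : O) (Z : Matrix (Fin d) (Fin 2) O), (r • Z).map e = e r • Z.map e := fun r Z => by
    ext; simp
  have hJm : ∀ y, J.map e *ᵥ y = ((e c)⁻¹ * e b) • (j y : Fin d → F) := fun y => by
    rw [mul_smul, ← hXm, hXJ, hms, smul_mulVec, smul_smul,
      inv_mul_cancel₀ hec, one_smul]
  refine ⟨J, ⟨i₁, j₁, hJ1⟩, fun g => ?_, ?_⟩
  · refine Matrix.map_injective hinj (Matrix.ext_of_mulVec_single fun r => ?_)
    beta_reduce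
    rw [Matrix.map_mul, Matrix.map_mul, Matrix.map_map, ← mulVec_mulVec, ← mulVec_mulVec, hJm, hJm,
      mulVec_smul]
    congr 1
    exact (congrArg Subtype.val (hjg g (Pi.single r 1))).symm
  · refine Matrix.map_injective hinj (Matrix.ext_of_mulVec_single fun r => ?_)
    beta_reduce
    rw [Matrix.map_mul, hms, Matrix.map_map,
      ← mulVec_mulVec, smul_mulVec, hJm, mulVec_smul, smul_comm]
    congr 1
    have h := (hWrel (j (Pi.single r 1)) 1).2
    rw [map_one π, Module.End.one_apply, LinearMap.sub_apply, LinearMap.smul_apply,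
      Module.End.one_apply, Matrix.toLin'_apply, sub_eq_zero] at h
    exact h

end Embedding

/-- **Ordinarity at two on points.** -/
theorem ordinaryAtTwo : OrdinaryAtTwo := by
  intro _ O _ _ _ _ _ _ h2 N _ hN hes S hS a ha hne ρ hdet hfrob hres hirr
  classical
  have h2' : (2 : O) ∈ maximalIdeal O := by simpa using h2
  have : CharP (ResidueField O) 2 := (CharP.charP_iff_prime_eq_zero Nat.prime_two).mpr (by
    rw [← map_natCast (residue O), residue_eq_zero_iff]; exact h2)
  set a₂ := a twoPrime with ha₂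
  have haU : IsUnit a₂ := notMem_maximalIdeal.mp fun hm => one_ne_zero
    (ha.symm.trans ((residue_eq_zero_iff _).mpr hm))
  obtain ⟨α, hα, hαeq, hβ⟩ := exists_unit_root h2' haU
  refine ⟨α, hα, hαeq, ?_⟩
  set β := a₂ - α with hβdef
  obtain ⟨g₀, h₀, hgh⟩ := hirr
  let I := Engine.TRep.stdInputs hes
  obtain ⟨J, ⟨i₁, j₁, hJ1⟩, hJg, hJT⟩ := exists_lattice_embedding I h2 S hS a hne ρ hdet hfrob
    ⟨g₀, h₀, hgh.ne_zero⟩
  set b := repBasis ρ
  set R := matrixRep ρ b with hR
  rw [Pair.isOrdinary_iff ρ b]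
  intro P hP φ hφ n n' τ hτ τ' hτ'
  have : NeZero (2 : ℕ) := ⟨two_ne_zero⟩
  have := charP_residueField hP
  have : IsAlgClosed (ResidueField P) := isAlgClosed_residueField
  let T : Setting P N 2 := ⟨hN, hP, goodReductionFacts N 2 hN P hP⟩
  let ι := padicHom 2 h2
  -- vectors reducing into the kernels
  let Kl : Submodule O (Fin 2 → O) :=
    ⨅ m : ℕ, (kerLevel I.model T ι m).comap J.mulVecLin
  have hmem : ∀ {x : Fin 2 → O}, x ∈ Kl ↔ ∀ m, J *ᵥ x ∈ kerLevel I.model T ι m := fun {x} => by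
    simp [Kl]
  have hgal : ∀ (g : GQ) (x : Fin 2 → O), galEnd I.model ι g (J *ᵥ x) = J *ᵥ (R g *ᵥ x) :=
    fun g x => by rw [galEnd_apply, mulVec_mulVec, hJg, ← mulVec_mulVec]
  have hD : φ ∈ P.decompositionSubgroup ℚ := hφ.choose
  have hstab : ∀ g ∈ P.decompositionSubgroup ℚ, ∀ x ∈ Kl, R g *ᵥ x ∈ Kl := fun g hg x hx =>
    hmem.mpr fun m => by
      rw [← hgal]; exact galMat_mem I.model T ι hg (hmem.mp hx m)
  have hinertia : ∀ σ ∈ P.inertiaSubgroupIn ℚ, ∀ x, R σ *ᵥ x - x ∈ Kl := fun σ hσ x =>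
    hmem.mpr fun m => by
      rw [mulVec_sub, ← hgal]; exact inertia_sub_mem I.model T ι hσ _
  -- the unit root on the quotient
  have hφα : ∀ x, R φ *ᵥ x - α • x ∈ Kl := by
    intro x
    set z := R φ *ᵥ x - α • x with hz
    have hz1 : R φ *ᵥ z - β • z ∈ Kl := hmem.mpr fun m => by
      have h := frobenius_rel_mem I.model T ι (n := m) hφ (J *ᵥ x)
      rw [mulVec_mulVec, hJT, smul_mulVec, map_smul, hgal, hgal] at h
      have hab : α * β = 2 := by rw [hβdef]; linear_combination (-1 : O) * hαeq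
      have e : J *ᵥ (R φ *ᵥ z - β • z) = -(a₂ • (J *ᵥ (R φ *ᵥ x)) -
          J *ᵥ (R φ *ᵥ (R φ *ᵥ x)) - (2 : O) • (J *ᵥ x)) := by
        rw [hz]
        simp only [mulVec_sub, mulVec_smul, smul_sub, smul_smul]
        rw [mul_comm β α, hab, hβdef, sub_smul]
        module
      rw [e]
      exact neg_mem h
    have hinv : φ⁻¹ ∈ P.decompositionSubgroup ℚ := inv_mem hD
    set z' := R φ⁻¹ *ᵥ z
    have hz2 : z - β • z' ∈ Kl := by
      have h := hstab _ hinv _ hz1
      rwa [mulVec_sub, mulVec_smul, mulVec_mulVec, ← map_mul, inv_mul_cancel, map_one,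
        one_mulVec] at h
    have hiter : ∀ k : ℕ, z - β ^ k • (R (φ⁻¹ ^ k) *ᵥ z) ∈ Kl := by
      intro k
      induction k with
      | zero => simp
      | succ k ih =>
        have h := Kl.smul_mem (β ^ k) (hstab _ (pow_mem hinv k) _ hz2)
        rw [mulVec_sub, mulVec_smul, mulVec_mulVec, ← map_mul, ← pow_succ, smul_sub, smul_smul,
          ← pow_succ] at h
        have := add_mem ih h
        rwa [sub_add_sub_cancel] at this
    refine hmem.mpr fun m => ?_
    obtain ⟨k, c, hc⟩ := exists_two_pow_dvd (β := β) hβ m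
    have h1 := hmem.mp (hiter k) m
    have h3 : J *ᵥ (β ^ k • (R (φ⁻¹ ^ k) *ᵥ z)) ∈ kerLevel I.model T ι m := by
      rw [mulVec_smul, hc]
      intro r _
      rw [dotProduct_smul, smul_eq_mul, mul_assoc]
      exact dvd_mul_right _ _
    have := add_mem h1 h3
    rwa [← mulVec_add, sub_add_cancel] at this
  have hpow : ∀ (k : ℕ) x, R (φ ^ k) *ᵥ x - α ^ k • x ∈ Kl := by
    intro k
    induction k with
    | zero => simp
    | succ k ih =>
      intro x
      have h := add_mem (hstab _ hD _ (ih x)) (Kl.smul_mem (α ^ k) (hφα x))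
      rw [mulVec_sub, mulVec_smul, mulVec_mulVec, ← map_mul, ← pow_succ', smul_sub, smul_smul,
        ← pow_succ, sub_add_sub_cancel] at h
      exact h
  have hX : ∀ (k : ℕ), ∀ σ ∈ P.inertiaSubgroupIn ℚ, ∀ x,
      R (φ ^ k * σ) *ᵥ x - α ^ k • x ∈ Kl := fun k σ hσ x => by
    have h := add_mem (hstab _ (pow_mem hD k) _ (hinertia σ hσ x)) (hpow k x)
    rwa [mulVec_sub, mulVec_mulVec, ← map_mul, sub_add_sub_cancel] at h
  -- saturated
  have hhalf : ∀ x : Fin 2 → O, (2 : O) • x ∈ Kl → x ∈ Kl := fun x hx => hmem.mpr fun m =>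
    mem_of_two_smul_mem I.model T ι (by rw [← mulVec_smul]; exact hmem.mp hx (m + 1))
  have hsat : ∀ (c : O) (x : Fin 2 → O), c ≠ 0 → c • x ∈ Kl → x ∈ Kl := by
    intro c x hc hx
    obtain ⟨k, w, hw⟩ := exists_dvd_two_pow h2' hc
    have h : (2 : O) ^ k • x ∈ Kl := by
      rw [hw, mul_comm, mul_smul]; exact Kl.smul_mem w hx
    clear hw hx hc
    induction k with
    | zero => simpa using h
    | succ k ih => exact ih (hhalf _ (by rw [smul_smul, ← pow_succ']; exact h))
  -- proper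
  let f := residue O
  obtain ⟨hI1, hF1⟩ := hres P hP
  have htop : Kl ≠ ⊤ := by
    intro htop
    have hJ0 : J.map f ≠ 0 := fun h => by
      have := congrFun (congrFun h i₁) j₁
      rw [Matrix.map_apply, hJ1, map_one] at this
      exact one_ne_zero this
    have hmul : ∀ g, ((galMat I.model g).map ι).map f * J.map f = J.map f * (R g).map f :=
      fun g => by rw [← Matrix.map_mul, hJg, Matrix.map_mul]
    have hinj : Function.Injective (J.map f).mulVec :=
      mulVec_injective_of_primitive hJ0 (hmul g₀) (hmul h₀) (by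
        have h := hgh.map f
        rw [RingHom.map_det, map_sub, map_mul, map_mul] at h
        exact h.ne_zero)
    have hres' : ∀ (g : GQ) (x : Fin 2 → O),
        f ∘ galEnd I.model ι g (J *ᵥ x) = J.map f *ᵥ ((R g).map f *ᵥ (f ∘ x)) := fun g x => by
      funext i
      rw [hgal, Function.comp_apply, RingHom.map_mulVec]
      congr 2
    have hid : ∀ x : Fin 2 → O, f ∘ (J *ᵥ x) = J.map f *ᵥ (f ∘ x) := fun x => by
      funext i; rw [Function.comp_apply, RingHom.map_mulVec]
    refine hF1 φ hφ (Matrix.ext_of_mulVec_single fun r => hinj ?_)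
    rw [one_mulVec]
    have hs : (Pi.single r 1 : Fin 2 → ResidueField O) = f ∘ (Pi.single r 1) := funext fun i => by
      rcases eq_or_ne i r with rfl | h <;> simp [*]
    have h := frobenius_fixed I.model T ι f (x := J *ᵥ (Pi.single r 1))
      (hmem.mp (htop.symm ▸ Submodule.mem_top : (Pi.single r 1 : Fin 2 → O) ∈ Kl) 1)
      (fun σ hσ => by rw [hres', hI1 σ hσ, one_mulVec, hid])
      (by
        rw [mulVec_mulVec, hJT, smul_mulVec]
        funext i
        rw [Function.comp_apply, Pi.smul_apply, smul_eq_mul, map_mul, ha, one_mul,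
          Function.comp_apply]) hφ
    rw [hres', hid, ← hs] at h
    exact h
  have hline : ∀ x ∈ Kl, ∀ y ∈ Kl, x 0 * y 1 = x 1 * y 0 := by
    intro x hx y hy
    by_contra hne'
    refine htop (eq_top_iff.mpr fun z _ => hsat (x 0 * y 1 - x 1 * y 0) z (sub_ne_zero.mpr hne') ?_)
    have : (x 0 * y 1 - x 1 * y 0) • z =
        (z 0 * y 1 - z 1 * y 0) • x + (x 0 * z 1 - x 1 * z 0) • y := by
      funext i; fin_cases i <;> simp <;> ring
    rw [this]
    exact add_mem (Kl.smul_mem _ hx) (Kl.smul_mem _ hy)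
  -- the identity
  set Q := R (φ ^ n * τ) - α ^ n • (1 : Matrix (Fin 2) (Fin 2) O) with hQ
  set U := R (φ ^ n' * τ') - α ^ n' • (1 : Matrix (Fin 2) (Fin 2) O) with hU
  have hcolQ : ∀ x, Q *ᵥ x ∈ Kl := fun x => by
    rw [hQ, sub_mulVec, smul_mulVec, one_mulVec]; exact hX n τ hτ x
  have hcolU : ∀ x, U *ᵥ x ∈ Kl := fun x => by
    rw [hU, sub_mulVec, smul_mulVec, one_mulVec]; exact hX n' τ' hτ' x
  have hRU : R (φ ^ n' * τ') = U + α ^ n' • 1 := by rw [hU, sub_add_cancel]
  rw [hRU]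
  refine Matrix.ext_of_mulVec_single fun r => ?_
  rw [← mulVec_mulVec, zero_mulVec]
  obtain ⟨x, hx⟩ : ∃ x, Q *ᵥ Pi.single r 1 = x := ⟨_, rfl⟩
  rw [hx]
  have hxK : x ∈ Kl := hx ▸ hcolQ _
  have e0 := hline _ (hcolU (Pi.single 0 1)) x hxK
  have e1 := hline _ (hcolU (Pi.single 1 1)) x hxK
  have e2 := hline _ (hcolU (Pi.single 0 1)) _ (hcolU (Pi.single 1 1))
  simp only [mulVec_single_one, Matrix.col_apply] at e0 e1 e2
  funext i
  fin_cases i <;>
    simp [Matrix.mulVec, dotProduct, Fin.sum_univ_two, Matrix.det_fin_two] <;>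
    grind

end Fermat.Agent.TwoAdic.TSide

end
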