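import Fermat.Agent.SemistableRed.Signed
import Fermat.Agent.EigenRep.AdicRelation
import Mathlib.Algebra.Module.CharacterModule
import Mathlib.Algebra.Module.LinearMap.Basic

/-!
# Torsion points of vectors over a coefficient ring

Torsion points of `J₀(N)` attached to vectors over a coefficient ring and additive characters of
the ring with values in `ℤ/pⁿ`.
-/

set_option autoImplicit false

noncomputable section

namespace Fermat.Agent.TwoAdic.TSide

open ModularCurve AlgebraicCurve Matrix EigenRep SemistableRed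

local notation "Jtors" N:max n:max =>
  Pic0.torsion (AlgebraicClosure ℚ) (modularFunctionFieldBar N) n

section Chars

variable {O : Type} [CommRing O]

/-- Characters killed by `k` take values in `ℤ/k`. -/
theorem exists_zmod_hom (k : ℕ) [NeZero k] (χ : O →+ AddCircle (1 : ℚ))
    (hk : ∀ z, k • χ z = 0) :
    ∃ (μ : O →+ ZMod k) (j : ZMod k →+ AddCircle (1 : ℚ)),
      Function.Injective j ∧ (∀ i : ℤ, j i = ((i / k : ℚ) : AddCircle (1 : ℚ))) ∧
        ∀ z, j (μ z) = χ z := by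
  have hk0 : (k : ℚ) ≠ 0 := Nat.cast_ne_zero.mpr (NeZero.ne k)
  let f : ℤ →+ AddCircle (1 : ℚ) := zmultiplesHom _ ((1 / k : ℚ) : AddCircle (1 : ℚ))
  have hf : f (k : ℤ) = 0 := by
    show (k : ℤ) • ((1 / k : ℚ) : AddCircle (1 : ℚ)) = 0
    rw [← AddCircle.coe_zsmul, zsmul_eq_mul, Int.cast_natCast, mul_one_div, div_self hk0,
      AddCircle.coe_period]
  let j : ZMod k →+ AddCircle (1 : ℚ) := ZMod.lift k ⟨f, hf⟩
  have hj : ∀ i : ℤ, j i = ((i / k : ℚ) : AddCircle (1 : ℚ)) := fun i => by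
    rw [show j i = f i from ZMod.lift_coe k ⟨f, hf⟩ i]
    show i • ((1 / k : ℚ) : AddCircle (1 : ℚ)) = _
    rw [← AddCircle.coe_zsmul, zsmul_eq_mul, mul_one_div]
  have hinj : Function.Injective j := by
    refine (injective_iff_map_eq_zero j).mpr fun x hx => ?_
    obtain ⟨i, rfl⟩ := ZMod.intCast_surjective x
    rw [hj, AddCircle.coe_eq_zero_iff] at hx
    obtain ⟨m, hm⟩ := hx
    rw [zsmul_eq_mul, mul_one, eq_div_iff hk0] at hm
    rw [ZMod.intCast_zmod_eq_zero_iff_dvd]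
    exact ⟨m, by exact_mod_cast hm.symm.trans (mul_comm _ _)⟩
  have hmem : ∀ z, ∃ x : ZMod k, j x = χ z := fun z => by
    obtain ⟨q, hq⟩ := QuotientAddGroup.mk_surjective (χ z)
    have h := hk z
    rw [← hq, ← AddCircle.coe_nsmul, AddCircle.coe_eq_zero_iff] at h
    obtain ⟨m, hm⟩ := h
    refine ⟨(m : ZMod k), ?_⟩
    rw [hj, ← hq]
    congr 1
    rw [zsmul_eq_mul, mul_one, nsmul_eq_mul] at hm
    rw [hm, mul_div_cancel_left₀ _ hk0]
  choose μ hμ using hmem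
  exact ⟨AddMonoidHom.mk' μ fun a b => hinj (by rw [map_add, hμ, hμ, hμ, map_add]), j, hinj, hj, hμ⟩

/-- Characters modulo `k` separate the points of `O/k`. -/
theorem exists_smul_of_forall_hom (k : ℕ) [NeZero k] {x : O}
    (h : ∀ μ : O →+ ZMod k, μ x = 0) : ∃ y : O, x = (k : O) * y := by
  have hmk : Submodule.Quotient.mk x = (0 : O ⧸ Ideal.span {(k : O)}) := by
    refine CharacterModule.eq_zero_of_character_apply fun c => ?_
    let χ : O →+ AddCircle (1 : ℚ) := c.comp (Submodule.mkQ (Ideal.span {(k : O)})).toAddMonoidHom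
    obtain ⟨μ, j, -, -, hμ⟩ := exists_zmod_hom k χ fun z => by
      rw [← map_nsmul]
      show c (Submodule.Quotient.mk (k • z)) = 0
      rw [(Submodule.Quotient.mk_eq_zero _).mpr
        (Ideal.mem_span_singleton.mpr ⟨z, by rw [nsmul_eq_mul]⟩), map_zero]
    show χ x = 0
    rw [← hμ, h μ, map_zero]
  obtain ⟨y, hy⟩ := Ideal.mem_span_singleton.mp ((Submodule.Quotient.mk_eq_zero _).mp hmk)
  exact ⟨y, hy⟩

/-- On a ring without torsion a character modulo `k` lifts modulo `p k`. -/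
theorem exists_lift_hom [IsDomain O] [CharZero O] {p k : ℕ} [NeZero p] [NeZero k]
    (μ : O →+ ZMod k) :
    ∃ ν : O →+ ZMod (p * k), ∀ z, ZMod.castHom (dvd_mul_left k p) (ZMod k) (ν z) = μ z := by
  have hk0 : (k : ℚ) ≠ 0 := Nat.cast_ne_zero.mpr (NeZero.ne k)
  have hp0 : (p : ℚ) ≠ 0 := Nat.cast_ne_zero.mpr (NeZero.ne p)
  let f₀ : ℤ →+ AddCircle (1 : ℚ) := zmultiplesHom _ ((1 / k : ℚ) : AddCircle (1 : ℚ))
  have hf₀ : f₀ (k : ℤ) = 0 := by
    show (k : ℤ) • ((1 / k : ℚ) : AddCircle (1 : ℚ)) = 0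
    rw [← AddCircle.coe_zsmul, zsmul_eq_mul, Int.cast_natCast, mul_one_div, div_self hk0,
      AddCircle.coe_period]
  let i₀ : ZMod k →+ AddCircle (1 : ℚ) := ZMod.lift k ⟨f₀, hf₀⟩
  let χ : CharacterModule O := i₀.comp μ
  have hinj : Function.Injective (LinearMap.lsmul ℤ O (p : ℤ)) := fun a b hab => by
    simp only [LinearMap.lsmul_apply, zsmul_eq_mul, Int.cast_natCast] at hab
    exact mul_left_cancel₀ (Nat.cast_ne_zero.mpr (NeZero.ne p)) hab
  obtain ⟨χ₁, hχ'⟩ := CharacterModule.dual_surjective_of_injective _ hinj χ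
  let χ' : O →+ AddCircle (1 : ℚ) := χ₁
  have hχz : ∀ z, p • χ' z = i₀ (μ z) := fun z => by
    have h : χ' ((p : ℤ) • z) = i₀ (μ z) := DFunLike.congr_fun hχ' z
    rw [← h, ← map_nsmul, natCast_zsmul]
  obtain ⟨ν, j, -, hj, hν⟩ := exists_zmod_hom (p * k) χ' fun z => by
    rw [mul_comm p k, mul_smul, hχz]
    rw [← map_nsmul, nsmul_eq_mul, ZMod.natCast_self, zero_mul, map_zero]
  refine ⟨ν, fun z => ?_⟩
  obtain ⟨i, hi⟩ := ZMod.intCast_surjective (ν z)
  obtain ⟨i', hi'⟩ := ZMod.intCast_surjective (μ z)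
  have h := hχz z
  rw [← hν, ← hi, hj] at h
  have h' : i₀ (i' : ZMod k) = ((i' / k : ℚ) : AddCircle (1 : ℚ)) := by
    rw [show i₀ (i' : ZMod k) = f₀ i' from ZMod.lift_coe k ⟨f₀, hf₀⟩ i']
    show i' • ((1 / k : ℚ) : AddCircle (1 : ℚ)) = _
    rw [← AddCircle.coe_zsmul, zsmul_eq_mul, mul_one_div]
  rw [← hi', h', ← AddCircle.coe_nsmul, ← sub_eq_zero,
    ← AddCircle.coe_sub, AddCircle.coe_eq_zero_iff] at h
  obtain ⟨m, hm⟩ := h
  rw [zsmul_eq_mul, mul_one, nsmul_eq_mul] at hm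
  push_cast at hm
  field_simp at hm
  rw [← hi, ← hi', map_intCast, ← sub_eq_zero, ← Int.cast_sub,
    ZMod.intCast_zmod_eq_zero_iff_dvd]
  refine ⟨m, ?_⟩
  exact_mod_cast (by push_cast; linear_combination -hm :
    ((i - i' : ℤ) : ℚ) = ((k : ℤ) : ℚ) * (m : ℚ))

end Chars

section Points

variable {O : Type} [CommRing O] {p : ℕ} [Fact p.Prime]

/-- A character modulo `pⁿ` turns `p`-adic scalars into their residues. -/
theorem hom_map_mul (ι : ℤ_[p] →+* O) {n : ℕ} (μ : O →+ ZMod (p ^ n)) (z : ℤ_[p]) (x : O) :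
    μ (ι z * x) = PadicInt.toZModPow n z * μ x := by
  have : NeZero (p ^ n) := ⟨pow_ne_zero n (Fact.out : p.Prime).ne_zero⟩
  obtain ⟨c, hc⟩ := sub_mem_span_pow ι (n := n) (x := z)
    (y := ((PadicInt.toZModPow n z).val : ℤ_[p])) (by rw [map_natCast, ZMod.natCast_zmod_val])
  rw [hc, add_mul, map_add, mul_assoc, map_natCast, ← nsmul_eq_mul, map_nsmul, ← Nat.cast_pow,
    ← nsmul_eq_mul, map_nsmul, nsmul_eq_mul, nsmul_eq_mul, ZMod.natCast_self, zero_mul, add_zero,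
    ZMod.natCast_zmod_val]

theorem comp_mulVec (ι : ℤ_[p] →+* O) {n : ℕ} (μ : O →+ ZMod (p ^ n)) {r c : Type*} [Fintype c]
    (A : Matrix r c ℤ_[p]) (v : c → O) :
    ⇑μ ∘ (A.map ι *ᵥ v) = A.map (PadicInt.toZModPow n) *ᵥ (⇑μ ∘ v) := funext fun i => by
  show μ (∑ j, ι (A i j) * v j) = ∑ j, PadicInt.toZModPow n (A i j) * μ (v j)
  rw [map_sum]
  exact Finset.sum_congr rfl fun j _ => hom_map_mul ι μ _ _

variable {N : ℕ} [NeZero N] (T : TorsionHeckeModel N p)

/-- The point with coordinates `μ ∘ v`. -/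
def charPoint {n : ℕ} (μ : O →+ ZMod (p ^ n)) (v : Fin T.d → O) : JZero N :=
  (((T.e n).symm (⇑μ ∘ v) : Jtors N (p ^ n)) : JZero N)

omit [Fact (Nat.Prime p)] in
theorem pow_smul_charPoint {n : ℕ} (μ : O →+ ZMod (p ^ n)) (v : Fin T.d → O) :
    p ^ n • charPoint T μ v = 0 := by
  rw [← natCast_zsmul]
  exact Pic0.mem_torsion.mp ((T.e n).symm (⇑μ ∘ v)).2

omit [Fact (Nat.Prime p)] in
theorem charPoint_add {n : ℕ} (μ : O →+ ZMod (p ^ n)) (v w : Fin T.d → O) :
    charPoint T μ (v + w) = charPoint T μ v + charPoint T μ w := by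
  rw [charPoint, show ⇑μ ∘ (v + w) = ⇑μ ∘ v + ⇑μ ∘ w from funext fun i => map_add μ _ _, map_add]
  rfl

omit [Fact (Nat.Prime p)] in
theorem charPoint_sub {n : ℕ} (μ : O →+ ZMod (p ^ n)) (v w : Fin T.d → O) :
    charPoint T μ (v - w) = charPoint T μ v - charPoint T μ w :=
  eq_sub_of_add_eq (by rw [← charPoint_add, sub_add_cancel])

omit [Fact (Nat.Prime p)] in
theorem charPoint_zero {n : ℕ} (μ : O →+ ZMod (p ^ n)) : charPoint T μ (0 : Fin T.d → O) = 0 := by
  rw [charPoint, show ⇑μ ∘ (0 : Fin T.d → O) = 0 from funext fun i => map_zero μ, map_zero]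
  rfl

omit [Fact (Nat.Prime p)] in
theorem charPoint_smul {n : ℕ} (μ : O →+ ZMod (p ^ n)) (c : O) (v : Fin T.d → O) :
    charPoint T μ (c • v) = charPoint T (μ.comp (AddMonoidHom.mulLeft c)) v := rfl

omit [Fact (Nat.Prime p)] in
/-- A vanishing point has vanishing coordinates. -/
theorem eq_zero_of_charPoint {n : ℕ} {μ : O →+ ZMod (p ^ n)} {v : Fin T.d → O}
    (h : charPoint T μ v = 0) (i : Fin T.d) : μ (v i) = 0 := by
  have h0 : (T.e n).symm (⇑μ ∘ v) = 0 := Subtype.ext h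
  exact congrFun ((AddEquiv.map_eq_zero_iff _).mp h0) i

omit [Fact (Nat.Prime p)] in
/-- Points in the next layer. -/
theorem nsmul_charPoint_succ {n : ℕ} (ν : O →+ ZMod (p ^ (n + 1))) (μ : O →+ ZMod (p ^ n))
    (h : ∀ z, ZMod.castHom (pow_dvd_pow p n.le_succ) (ZMod (p ^ n)) (ν z) = μ z)
    (v : Fin T.d → O) : p • charPoint T ν v = charPoint T μ v := by
  have hy : mulTors n ((T.e (n + 1)).symm (⇑ν ∘ v)) = (T.e n).symm (⇑μ ∘ v) :=
    (T.e n).injective (funext fun i => by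
      rw [T.e_compat n ((T.e (n + 1)).symm (⇑ν ∘ v)) _ rfl i, AddEquiv.apply_symm_apply,
        AddEquiv.apply_symm_apply]
      exact h (v i))
  exact congrArg Subtype.val hy

/-- A point in terms of the next layer, on an integral domain of characteristic zero. -/
theorem exists_charPoint_succ [IsDomain O] [CharZero O] {n : ℕ} (μ : O →+ ZMod (p ^ n))
    (v : Fin T.d → O) :
    ∃ ν : O →+ ZMod (p ^ (n + 1)), charPoint T ν ((p : O) • v) = charPoint T μ v ∧
      ∃ ν' : O →+ ZMod (p ^ (n + 1)), charPoint T ν' v = charPoint T μ v := by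
  have : NeZero p := ⟨(Fact.out : p.Prime).ne_zero⟩
  have : NeZero (p ^ n) := ⟨pow_ne_zero n (NeZero.ne p)⟩
  obtain ⟨ν, hν⟩ := exists_lift_hom (p := p) μ
  let e : ZMod (p * p ^ n) →+ ZMod (p ^ (n + 1)) :=
    (ZMod.castHom (pow_succ' p n).dvd (ZMod (p ^ (n + 1)))).toAddMonoidHom
  let ν₁ : O →+ ZMod (p ^ (n + 1)) := e.comp ν
  have h1 : p • charPoint T ν₁ v = charPoint T μ v := nsmul_charPoint_succ T ν₁ μ (fun z => by
    obtain ⟨i, hi⟩ := ZMod.intCast_surjective (ν z)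
    show ZMod.castHom (pow_dvd_pow p n.le_succ) (ZMod (p ^ n)) (e (ν z)) = _
    rw [← hν z, ← hi]
    show ZMod.castHom (pow_dvd_pow p n.le_succ) (ZMod (p ^ n)) (ZMod.castHom (pow_succ' p n).dvd (ZMod (p ^ (n + 1))) (i : ZMod _)) = _
    rw [map_intCast, map_intCast, map_intCast]) v
  have h2 : charPoint T ν₁ ((p : O) • v) = p • charPoint T ν₁ v := by
    rw [charPoint, show ⇑ν₁ ∘ ((p : O) • v) = p • (⇑ν₁ ∘ v) from funext fun i => by
      show ν₁ ((p : O) * v i) = p • ν₁ (v i)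
      rw [← nsmul_eq_mul, map_nsmul], map_nsmul]
    rfl
  exact ⟨ν₁, h2.trans h1, ν₁.comp (AddMonoidHom.mulLeft (p : O)), h2.trans h1⟩

/-- Galois on the points. -/
theorem charPoint_galEnd (ι : ℤ_[p] →+* O) {n : ℕ} (μ : O →+ ZMod (p ^ n))
    (σ : AlgebraicClosure ℚ ≃ₐ[ℚ] AlgebraicClosure ℚ) (v : Fin T.d → O) :
    charPoint T μ (galEnd T ι σ v) = σ • charPoint T μ v := by
  rw [galEnd_apply, charPoint, comp_mulVec ι μ (galMat T σ) v]
  have h : levelMat T n σ *ᵥ T.e n ((T.e n).symm (⇑μ ∘ v)) =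
      T.e n (JZero.torsionGaloisRep N (p ^ n) σ ((T.e n).symm (⇑μ ∘ v))) := levelMat_mulVec T n σ _
  rw [AddEquiv.apply_symm_apply] at h
  rw [show (galMat T σ).map (PadicInt.toZModPow n) = levelMat T n σ from matMod_galMat T n σ, h,
    AddEquiv.symm_apply_apply]
  rfl

omit [Fact (Nat.Prime p)] in
/-- Hecke operators on the points. -/
theorem charPoint_hecke {n : ℕ} (μ : O →+ ZMod (p ^ n)) (l : Nat.Primes) (v : Fin T.d → O) :
    charPoint T μ ((T.T l).map (Int.cast : ℤ → O) *ᵥ v) =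
      heckeOperatorBar N l (charPoint T μ v) := by
  set x := (T.e n).symm (⇑μ ∘ v)
  have hy : p ^ n • heckeOperatorBar N l (x : JZero N) = 0 := by
    rw [← map_nsmul, ← natCast_zsmul, Pic0.mem_torsion.mp x.2, map_zero]
  have h := T.e_hecke n l x ⟨_, Pic0.mem_torsion.mpr (by rw [natCast_zsmul]; exact hy)⟩ rfl
  have he : ⇑μ ∘ ((T.T l).map (Int.cast : ℤ → O) *ᵥ v) =
      (T.T l).map (Int.cast : ℤ → ZMod (p ^ n)) *ᵥ (⇑μ ∘ v) := funext fun i => by
    show μ (∑ j, (T.T l i j : O) * v j) = ∑ j, ((T.T l i j : ℤ) : ZMod (p ^ n)) * μ (v j)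
    rw [map_sum]
    exact Finset.sum_congr rfl fun j _ => by rw [← zsmul_eq_mul, map_zsmul, zsmul_eq_mul]
  rw [AddEquiv.apply_symm_apply, ← he] at h
  rw [charPoint, ← h, AddEquiv.symm_apply_apply]
  rfl

end Points

end Fermat.Agent.TwoAdic.TSide
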