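import Mathlib.RingTheory.DiscreteValuationRing.Basic
import Mathlib.RingTheory.Filtration
import Mathlib.RingTheory.Nakayama

/-!
# The unit line

Linear algebra of the ordinary line at `2` on a lattice with quadratic relations, from a decreasing
family of submodules (the kernels of reduction) behaving like the unit-root filtration.
-/

set_option autoImplicit false

namespace Fermat.Agent.TwoAdic.TSide

open IsLocalRing

/-- **The unit line.** With `β = π φ - a`: `β V` is the whole kernel filtration, inertia and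
Frobenius act on it by `e` and `a e`, and as `1` and `a` modulo it; so the trace function satisfies
the ordinary relation. -/
theorem ordinary_trace_eq_zero {R : Type*} [CommRing R] [IsDomain R] [IsDiscreteValuationRing R]
    {V : Type*} [AddCommGroup V] [Module R V] [Module.Finite R V] [Module.IsTorsionFree R V]
    [Nontrivial V] {G : Type*} [Group G] (π : G →* Module.End R V) (t : G → R) (e : G →* R)
    (hquad : ∀ g v, π g v + e g • π g⁻¹ v = t g • v) (φ : G) (I : Subgroup G) {a : R}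
    (ha : a * a = 1) (h2 : (2 : R) ∈ maximalIdeal R) (h20 : (2 : R) ≠ 0)
    (he : ∀ g, e g - 1 ∈ maximalIdeal R) (hns : ∃ g, t (φ * g) - a * t g ∉ maximalIdeal R)
    (F : ℕ → Submodule R V) (hτF : ∀ τ ∈ I, ∀ n v, π τ v - v ∈ F n)
    (hφF : ∀ n v, π φ v - a • v ∈ F n)
    (hF1 : ∀ v ∈ F 1, ∃ w, π φ v - a • v = (2 : R) • w)
    (hmono : ∀ n, 1 ≤ n → F (n + 1) ≤ F n)
    (hhalf : ∀ n v, 1 ≤ n → (2 : R) • v ∈ F (n + 1) → v ∈ F n)
    (n n' : ℕ) {τ τ' : G} (hτ : τ ∈ I) (hτ' : τ' ∈ I) (g₀ : G) :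
    a ^ n' * t (φ ^ n' * τ' * (φ ^ n * τ) * g₀) - a ^ n' * a ^ n * t (φ ^ n' * τ' * g₀) -
      e (φ ^ n' * τ') * (t (φ ^ n * τ * g₀) - a ^ n * t g₀) = 0 := by
  classical
  let β : Module.End R V := π φ - a • 1
  have hβ : ∀ v, β v = π φ v - a • v := fun v => rfl
  set tb := t φ - 2 * a with htb
  set d := 1 - a * t φ + e φ with hd
  let c : G → R := fun g => t (φ * g) - a * t g - tb * t g
  -- relations
  have hinv : ∀ g v, π g (π g⁻¹ v) = v := fun g v => by
    rw [← Module.End.mul_apply, ← map_mul, mul_inv_cancel, map_one, Module.End.one_apply]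
  have hinv' : ∀ g v, π g⁻¹ (π g v) = v := fun g v => by
    rw [← Module.End.mul_apply, ← map_mul, inv_mul_cancel, map_one, Module.End.one_apply]
  have hgh : ∀ g h v, π g (π h v) + π h (π g v) =
      t g • π h v + t h • π g v + (t (g * h) - t g * t h) • v := fun g h v => by
    have h1 := hquad (g * h) v
    rw [map_mul, map_mul, mul_inv_rev, map_mul, Module.End.mul_apply, Module.End.mul_apply] at h1
    have h2' := hquad h (π g⁻¹ v)
    have h3 := hquad g v
    have h4 := congrArg (π h) h3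
    simp only [map_add, map_smul] at h4
    linear_combination (norm := module) h1 - e g • h2' + h4 - t h • h3
  have hanti : ∀ g v, β (π g v) + π g (β v) = t g • β v + tb • π g v + c g • v := fun g v => by
    have h := hgh φ g v
    simp only [hβ, map_sub, map_smul, htb, c]
    linear_combination (norm := module) h
  have hsq : ∀ v, β (β v) = tb • β v - d • v := fun v => by
    have h := hquad φ (π φ v)
    rw [hinv'] at h
    simp only [hβ, map_sub, map_smul, htb, hd]
    linear_combination (norm := module) h - ha • v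
  have hβF : ∀ n v, β v ∈ F n := hφF
  have hsq2 : ∀ v, ∃ w, β (β v) = (2 : R) • w := fun v => hF1 _ (hβF 1 v)
  -- modulo the maximal ideal
  obtain ⟨ϖ, hϖ⟩ := IsDiscreteValuationRing.exists_irreducible R
  have hm : ∀ s : R, s ∈ maximalIdeal R ↔ ϖ ∣ s := fun s => by
    rw [hϖ.maximalIdeal_eq, Ideal.mem_span_singleton]
  obtain ⟨v₀, hv₀⟩ : ∃ v₀ : V, ∀ w, v₀ ≠ ϖ • w := by
    by_contra hcon
    push Not at hcon
    refine absurd (Submodule.eq_bot_of_le_smul_of_le_jacobson_bot (maximalIdeal R) (⊤ : Submodule R V)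
      Module.Finite.fg_top (fun v _ => ?_) (maximalIdeal_le_jacobson ⊥)) top_ne_bot
    obtain ⟨w, rfl⟩ := hcon v
    exact Submodule.smul_mem_smul ((hm ϖ).mpr dvd_rfl) Submodule.mem_top
  have hv₀m : ∀ {s : R} {w : V}, s • v₀ = ϖ • w → s ∈ maximalIdeal R := fun {s w} h => by
    by_contra hs
    obtain ⟨u, rfl⟩ := (IsLocalRing.notMem_maximalIdeal.mp hs)
    exact hv₀ ((↑u⁻¹ : R) • w) (by rw [smul_comm, ← h, smul_smul, Units.inv_mul, one_smul])
  obtain ⟨k₂, hk₂⟩ := (hm 2).mp h2
  have hnot : ¬ ∀ v, ∃ w, β v = ϖ • w := fun hall => by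
    obtain ⟨g, hg⟩ := hns
    refine hg ?_
    obtain ⟨w₁, h₁⟩ := hall v₀
    obtain ⟨w₂, h₂⟩ := hall (β v₀)
    have hdm : d ∈ maximalIdeal R := hv₀m (w := tb • w₁ - w₂) (by
      linear_combination (norm := module) hsq v₀ - h₂ + tb • h₁)
    have htφ : t φ ∈ maximalIdeal R := by
      rw [show t φ = a * ((e φ - 1) + 2 - d) by rw [hd]; linear_combination -(t φ) * ha]
      exact Ideal.mul_mem_left _ _ (sub_mem (add_mem (he φ) h2) hdm)
    have htbm : tb ∈ maximalIdeal R := sub_mem htφ (Ideal.mul_mem_right _ _ h2)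
    obtain ⟨s, hs⟩ := (hm tb).mp htbm
    obtain ⟨w₃, h₃⟩ := hall (π g v₀)
    have hcm : c g ∈ maximalIdeal R := hv₀m
      (w := w₃ + π g w₁ - t g • w₁ - s • π g v₀) (by
      have h := hanti g v₀
      rw [h₃, h₁, map_smul, hs] at h
      linear_combination (norm := module) -h)
    rw [show t (φ * g) - a * t g = c g + tb * t g by simp only [c]; ring]
    exact add_mem hcm (Ideal.mul_mem_right _ _ htbm)
  -- both coefficients are even
  obtain ⟨⟨tb', htb'⟩, ⟨d', hd'⟩⟩ : (2 : R) ∣ tb ∧ (2 : R) ∣ d := by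
    have hnu : ∀ {x : R}, ¬ IsUnit x → x ∈ maximalIdeal R := fun {x} hx =>
      (mem_maximalIdeal x).mpr hx
    by_cases htwo : (2 : R) ∣ tb
    · refine ⟨htwo, ?_⟩
      obtain ⟨s, hs⟩ := htwo
      obtain ⟨w, hw⟩ := hsq2 v₀
      rcases ValuationRing.dvd_total (2 : R) d with hdd | ⟨r, hr⟩
      · exact hdd
      by_contra hnd
      have hr' : r ∈ maximalIdeal R := hnu fun hu => hnd ((hr ▸ (hu.mul_right_dvd).mpr dvd_rfl))
      have hd0 : d ≠ 0 := fun h0 => hnd (h0 ▸ dvd_zero _)
      obtain ⟨r₁, rfl⟩ := (hm r).mp hr'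
      refine hv₀ (r₁ • (s • β v₀ - w)) (smul_right_injective V hd0 ?_)
      have h := hsq v₀
      rw [hw, hs] at h
      simp only [hr] at h ⊢
      linear_combination (norm := module) h
    · exfalso
      rcases ValuationRing.dvd_total (2 : R) tb with h' | ⟨r, hr⟩
      · exact htwo h'
      have htb0 : tb ≠ 0 := fun h0 => h20 (by rw [hr, h0, zero_mul])
      have hr' : r ∈ maximalIdeal R := hnu fun hu => htwo (hr ▸ (hu.mul_right_dvd).mpr dvd_rfl)
      obtain ⟨r₁, rfl⟩ := (hm r).mp hr'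
      by_cases hdv : tb ∣ d
      · obtain ⟨s, hs⟩ := hdv
        have hmod : ∀ v, ∃ w, β v = s • v + ϖ • w := fun v => by
          obtain ⟨w, hw⟩ := hsq2 v
          refine ⟨r₁ • w, smul_right_injective V htb0 ?_⟩
          have h := hsq v
          rw [hw, hs, hr] at h
          linear_combination (norm := module) -h
        obtain ⟨w₁, h₁⟩ := hmod v₀
        obtain ⟨w, hw⟩ := hsq2 v₀
        have hss : s * s ∈ maximalIdeal R := hv₀m (w := k₂ • w - β w₁ - s • w₁) (by
          have h := hw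
          rw [h₁, map_add, map_smul, map_smul, h₁, hk₂] at h
          linear_combination (norm := module) h)
        obtain ⟨s', hs'⟩ := (hm s).mp
          (((maximalIdeal.isMaximal R).isPrime.mem_or_mem hss).elim id id)
        exact hnot fun v => by
          obtain ⟨w, hw⟩ := hmod v
          exact ⟨s' • v + w, by rw [hw, hs', smul_add, smul_smul]⟩
      · obtain ⟨r', hr''⟩ := (ValuationRing.dvd_total tb d).resolve_left hdv
        have hr''m : r' ∈ maximalIdeal R := hnu fun hu => hdv (hr'' ▸ (hu.mul_right_dvd).mpr dvd_rfl)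
        obtain ⟨r₂, rfl⟩ := (hm r').mp hr''m
        have hd0 : d ≠ 0 := fun h0 => htb0 (by rw [hr'', h0, zero_mul])
        obtain ⟨w, hw⟩ := hsq2 v₀
        refine hv₀ (r₂ • (β v₀ - (ϖ * r₁) • w)) (smul_right_injective V hd0 ?_)
        have h := hsq v₀
        rw [hw, hr, hr''] at h
        linear_combination (norm := module) h
  obtain ⟨g₁, hg₁⟩ : ∃ g, IsUnit (c g) := by
    obtain ⟨g, hg⟩ := hns
    refine ⟨g, IsLocalRing.notMem_maximalIdeal.mp fun hc => hg ?_⟩
    rw [show t (φ * g) - a * t g = c g + tb * t g by simp only [c]; ring]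
    exact add_mem hc (Ideal.mul_mem_right _ _ (htb' ▸ Ideal.mul_mem_right _ _ h2))
  -- the kernel filtration is `β V`
  have hone : ∀ v ∈ F 1, ∃ x y, v = β x + (2 : R) • y := fun v hv => by
    obtain ⟨u, hu⟩ := hg₁
    obtain ⟨w, hw⟩ := hF1 v hv
    rw [← hβ] at hw
    refine ⟨(↑u⁻¹ : R) • π g₁ v,
      (↑u⁻¹ : R) • (π g₁ w - t g₁ • w - tb' • π g₁ v), ?_⟩
    have h := hanti g₁ v
    rw [hw, map_smul, ← hu, htb'] at h
    rw [map_smul]
    linear_combination (norm := module) -(↑u⁻¹ : R) • h - (Units.inv_mul u) • v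
  have hiter : ∀ k n v, 1 ≤ n → (2 : R) ^ k • v ∈ F (n + k) → v ∈ F n := by
    intro k
    induction k with
    | zero => intro n v _ h; simpa using h
    | succ k ih =>
      intro n v hn h
      refine ih n v hn (hhalf (n + k) _ (by omega) ?_)
      rw [smul_smul, ← pow_succ']
      exact h
  have hall : ∀ m v, v ∈ F (m + 1) → ∃ x y, v = β x + (2 : R) ^ (m + 1) • y := by
    intro m
    induction m with
    | zero => intro v hv; simpa using hone v hv
    | succ m ih =>
      intro v hv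
      obtain ⟨x, y, rfl⟩ := ih v (hmono (m + 1) (by omega) hv)
      have hy : (2 : R) ^ (m + 1) • y ∈ F (m + 1 + 1) := by
        simpa using sub_mem hv (hβF (m + 1 + 1) x)
      obtain ⟨x', y', hy'⟩ := hone y (hiter (m + 1) 1 y le_rfl (by rwa [add_comm 1 (m + 1)]))
      exact ⟨x + (2 : R) ^ (m + 1) • x', y', by rw [hy', map_add, map_smul]; module⟩
  have hrange : ∀ v, (∀ n, 1 ≤ n → v ∈ F n) → v ∈ LinearMap.range β := fun v hv => by
    rw [← Submodule.Quotient.mk_eq_zero, ← Submodule.mem_bot R,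
      ← Ideal.iInf_pow_smul_eq_bot_of_isLocalRing (M := V ⧸ LinearMap.range β) (Ideal.span {(2 : R)})
        (fun h => (maximalIdeal.isMaximal R).ne_top (top_unique (h ▸ (Ideal.span_singleton_le_iff_mem _).mpr h2))),
      Submodule.mem_iInf]
    intro m
    rcases Nat.eq_zero_or_pos m with rfl | hm0
    · simp
    obtain ⟨m, rfl⟩ : ∃ k, m = k + 1 := ⟨m - 1, by omega⟩
    obtain ⟨x, y, hxy⟩ := hall m v (hv _ hm0)
    rw [hxy, Submodule.Quotient.mk_add, (Submodule.Quotient.mk_eq_zero _).mpr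
      (LinearMap.mem_range_self β x), zero_add, Submodule.Quotient.mk_smul]
    exact Submodule.smul_mem_smul (Ideal.pow_mem_pow (Ideal.mem_span_singleton_self _) _)
      Submodule.mem_top
  have hnear : ∀ {σ : G}, σ ∈ I → ∀ v, π σ v - v ∈ LinearMap.range β := fun hσ v =>
    hrange _ fun m _ => hτF _ hσ m v
  have hscal : ∀ s : R, (∀ v, s • v ∈ LinearMap.range β) → s = 0 := fun s hs => by
    by_contra h0
    obtain ⟨j, u, hu⟩ := IsDiscreteValuationRing.eq_unit_mul_pow_irreducible h0 hϖ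
    have hsat : ∀ v, (2 : R) • v ∈ LinearMap.range β → v ∈ LinearMap.range β := fun v h =>
      hrange v fun m hm0 => hhalf m v hm0 (by obtain ⟨z, hz⟩ := h; rw [← hz]; exact hβF _ z)
    have hsat' : ∀ k v, (2 : R) ^ k • v ∈ LinearMap.range β → v ∈ LinearMap.range β := by
      intro k
      induction k with
      | zero => intro v h; simpa using h
      | succ k ih => intro v h; exact ih v (hsat _ (by rwa [smul_smul, ← pow_succ']))
    have hsurj : ∀ v, v ∈ LinearMap.range β := fun v => hsat' j v (by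
      have h := hs ((k₂ ^ j * ↑u⁻¹) • v)
      rwa [hu, smul_smul, show ↑u * ϖ ^ j * (k₂ ^ j * ↑u⁻¹) = (2 : R) ^ j by
        rw [hk₂, mul_pow]; linear_combination (ϖ ^ j * k₂ ^ j) * (Units.mul_inv u)] at h)
    obtain ⟨z, hz⟩ := hsurj v₀
    obtain ⟨z', hz'⟩ := hsurj z
    obtain ⟨w, hw⟩ := hsq2 z'
    exact hv₀ (k₂ • w) (by rw [← hz, ← hz', hw, hk₂, smul_smul])
  -- the determinant relation
  have hd0 : d = 0 := hscal d fun v => ⟨tb • v - β v, by
    rw [map_sub, map_smul, hsq]; abel⟩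
  have hφβ : ∀ v, π φ (β v) = (a * e φ) • β v := fun v => by
    have h := hsq v
    rw [hd0, zero_smul, sub_zero] at h
    conv_lhs => rw [show π φ (β v) = β (β v) + a • β v by rw [hβ (β v)]; abel, h]
    rw [← add_smul, show tb + a = a * e φ by
      rw [htb]; linear_combination -a * hd0 - t φ * ha]
  have hIβ : ∀ {σ : G}, σ ∈ I → ∀ v, π σ (β v) = e σ • β v := fun {σ} hσ v => by
    have h1 := hanti σ v
    have h2' := hquad σ (β v)
    obtain ⟨z, hz⟩ := hnear hσ v
    have h3 := hsq z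
    rw [hd0, zero_smul, sub_zero, hz, map_sub] at h3
    have hC : ∀ w, (tb + c σ) • w ∈ LinearMap.range β := fun w => by
      obtain ⟨z, hz⟩ := hnear hσ w
      have h1 := hanti σ w
      have h2' := hquad σ (β w)
      have h3 := hsq z
      rw [hd0, zero_smul, sub_zero, hz, map_sub] at h3
      obtain ⟨z', hz'⟩ := hnear (inv_mem hσ) (β w)
      refine ⟨w - e σ • (z' + w), ?_⟩
      rw [map_sub, map_smul, map_add, hz']
      linear_combination (norm := module) h1 - h2' - h3
    have hC0 := hscal _ hC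
    have h4 : e σ • π σ⁻¹ (β v) = β v := by
      linear_combination (norm := module) h2' - h1 + h3 - hC0 • v
    have h5 := congrArg (π σ) h4
    rwa [map_smul, hinv, eq_comm] at h5
  have hpowβ : ∀ m v, π (φ ^ m) (β v) = (a * e φ) ^ m • β v := fun m => by
    induction m with
    | zero => intro v; simp
    | succ m ih => intro v; rw [pow_succ, map_mul, Module.End.mul_apply, hφβ, map_smul, ih,
        smul_smul, ← pow_succ']
  have hσβ : ∀ (m : ℕ) {σ : G}, σ ∈ I → ∀ v,
      π (φ ^ m * σ) (β v) = (a ^ m * e (φ ^ m * σ)) • β v := fun m σ hσ v => by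
    rw [map_mul, Module.End.mul_apply, hIβ hσ, map_smul, hpowβ, smul_smul, map_mul, map_pow, mul_pow]
    congr 1
    ring
  have hpow1 : ∀ m v, π (φ ^ m) v - a ^ m • v ∈ LinearMap.range β := by
    intro m
    induction m with
    | zero => intro v; simp
    | succ m ih =>
      intro v
      obtain ⟨z, hz⟩ := ih v
      refine ⟨(a * e φ) • z + a ^ m • v, ?_⟩
      rw [map_add, map_smul, map_smul, ← hφβ, hz, map_sub, map_smul, hβ, pow_succ', map_mul,
        Module.End.mul_apply]
      module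
  have hσ1 : ∀ (m : ℕ) {σ : G}, σ ∈ I → ∀ v,
      π (φ ^ m * σ) v - a ^ m • v ∈ LinearMap.range β := fun m σ hσ v => by
    obtain ⟨z, hz⟩ := hnear hσ v
    have := add_mem (hpow1 m v) (⟨(a * e φ) ^ m • z, by rw [map_smul, ← hpowβ, hz]⟩ :
      π (φ ^ m) (π σ v - v) ∈ LinearMap.range β)
    rw [map_mul, Module.End.mul_apply]
    rw [map_sub] at this
    convert this using 1
    abel
  -- the relation
  set σ' := φ ^ n' * τ'
  set σ := φ ^ n * τ
  have hA : ∀ v, a ^ n' • π σ' (π σ v) - (a ^ n' * a ^ n) • π σ' v -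
      e σ' • (π σ v - a ^ n • v) = 0 := fun v => by
    obtain ⟨z, hz⟩ := hσ1 n hτ v
    have h := hσβ n' hτ' z
    rw [hz, map_sub, map_smul] at h
    have ha' : a ^ n' * a ^ n' = 1 := by rw [← mul_pow, ha, one_pow]
    linear_combination (norm := module) a ^ n' • h + ha' • (e σ' • (π σ v - a ^ n • v))
  have hB : ∀ v, e σ • (a ^ n' • π σ⁻¹ (π σ'⁻¹ v) - π σ⁻¹ v) - a ^ n • (a ^ n' • π σ'⁻¹ v - v) = 0 :=
    fun v => by
    obtain ⟨z, hz⟩ := hσ1 n' hτ' (π σ'⁻¹ v)
    rw [hinv] at hz
    have h := congrArg (π σ⁻¹) (hσβ n hτ z)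
    rw [hinv', map_smul, hz, map_sub, map_smul] at h
    have han : a ^ n * a ^ n = 1 := by rw [← mul_pow, ha, one_pow]
    linear_combination (norm := module)
      a ^ n • h + han • (e σ • (π σ⁻¹ v - a ^ n' • π σ⁻¹ (π σ'⁻¹ v)))
  set S := a ^ n' * t (σ' * σ * g₀) - a ^ n' * a ^ n * t (σ' * g₀) -
    e σ' * (t (σ * g₀) - a ^ n * t g₀)
  refine (smul_eq_zero.mp (show S • v₀ = 0 from ?_)).resolve_right fun h => hv₀ 0 (by rw [h, smul_zero])
  have q1 := hquad (σ' * σ * g₀) v₀
  have q2 := hquad (σ' * g₀) v₀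
  have q3 := hquad (σ * g₀) v₀
  have q4 := hquad g₀ v₀
  simp only [map_mul, mul_inv_rev, Module.End.mul_apply] at q1 q2 q3 q4
  have hB' := congrArg (π g₀⁻¹) (hB v₀)
  simp only [map_zero, map_sub, map_smul] at hB'
  simp only [S]
  linear_combination (norm := module) -(a ^ n' • q1) + (a ^ n' * a ^ n) • q2 + e σ' • q3 -
    (e σ' * a ^ n) • q4 + hA (π g₀ v₀) + (e σ' * e g₀) • hB'

end Fermat.Agent.TwoAdic.TSide
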