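import Fermat.Agent.TwoAdic.TSide.TwoNewVectors
import Fermat.Agent.TwoAdic.TSide.UnitLine
import Fermat.Agent.TwoAdic.TSide.CharPoints
import Fermat.Agent.TwoAdic.TSideTransfer
import Fermat.Agent.TwoAdic.Pair.Cond
import Fermat.Agent.SquareOld.NonEisenstein
import Fermat.Agent.OrdinaryT.CoreTwoNew
import Fermat.Agent.OrdinaryT.Parts
import Fermat.Agent.Engine.TRep.NonEis
import Fermat.Agent.IgusaGenus.Main
import Fermat.Agent.EllFrobenius.Reduction
import Fermat.Agent.EigenRep.Main

/-!
# The ordinary line at two, level exactly divisible by two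

A representation carried by an eigensystem of level `2 M` with
`U_2² = 1` is ordinary at `2` with unit root the eigenvalue of `U_2`.
-/

set_option autoImplicit false

noncomputable section

open IsLocalRing ModularCurve AlgebraicCurve Matrix GaloisRep
open Fermat.Agent.EigenRep Fermat.Agent.SemistableRed

namespace Fermat.Agent.TwoAdic.TSide

local notation "Ω" => AlgebraicClosure ℚ
local notation "GQ" => (AlgebraicClosure ℚ) ≃ₐ[ℚ] (AlgebraicClosure ℚ)

variable {O : Type} [CommRing O] [IsDomain O] [IsDiscreteValuationRing O]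
  [IsAdicComplete (maximalIdeal O) O] [CharZero O]

/-- Galois on the eigenvectors. -/
def eigenEnd {N p : ℕ} [NeZero N] [Fact p.Prime] (I : RepInputs N p) (ι : ℤ_[p] →+* O) (S : Set ℕ)
    (a : Nat.Primes → O) : GQ →* Module.End O (eigenSub I.model S a) where
  toFun g := (galEnd I.model ι g).restrict fun _ hv => galEnd_mem_eigenSub I.model ι I.equivariant g hv
  map_one' := by ext v; simp
  map_mul' g h := by ext v; simp

theorem eq_one_of_isUnit_zmod_two (x : ZMod (2 ^ 1)) (hx : IsUnit x) : x = 1 :=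
  ((show ∀ x : ZMod (2 ^ 1), x = 1 ∨ x = 0 by decide) x).resolve_right fun h0 => by
    rw [h0, isUnit_zero_iff] at hx
    exact absurd hx (by decide)

variable {M : ℕ} [NeZero M]

/-- The theorem at level `M · 2`. -/
theorem isOrdinary_twoNew_aux (hM : ¬ 2 ∣ M) (hes : EichlerShimuraRelations (M * 2) 2)
    (h2 : (2 : O) ∈ maximalIdeal O) (S : Finset ℕ) (h2S : 2 ∉ S)
    (a : Nat.Primes → O)
    (ha : a ⟨2, Nat.prime_two⟩ * a ⟨2, Nat.prime_two⟩ = 1)
    (hne : ∃ v, v ≠ 0 ∧ v ∈ eigenSub (Engine.TRep.stdInputs hes).model (↑S : Set ℕ) a)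
    (ρ : GaloisRepAdic O) (hdet : ρ.DetIsCyclotomic 2)
    (hfrob : ∀ (ℓ : ℕ) (hℓ : ℓ.Prime), ℓ ∉ S → ℓ ≠ 2 → ∀ A : ValuationSubring Ω,
      A.LiesOverPrime ℓ → ∀ σ : GQ, A.IsFrobeniusAt σ ℓ → ρ.trace σ = a ⟨ℓ, hℓ⟩)
    (hirr : ρ.residual.IsAbsolutelyIrreducible)
    (hfr : ∀ P : ValuationSubring Ω, P.LiesOverPrime 2 → ∀ φ : GQ, P.IsFrobeniusAt φ 2 →
      ∀ s : ResidueField O, ρ.residual.ρ φ ≠ s • 1) :
    Pair.IsOrdinary ρ (a ⟨2, Nat.prime_two⟩) := by
  classical
  intro P hP φ hφ n n' τ hτ τ' hτ'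
  have : Fact (2 : ℕ).Prime := ⟨Nat.prime_two⟩
  have := Frobenius.residueField_charP Nat.prime_two hP
  have : IsAlgClosed (ResidueField P) := EllFrobenius.Reduction.isAlgClosed_residueField P
  have Sg : SemistableRed.Setting P M 2 := ⟨hM, hP, _, IgusaGenus.reductionFacts hM hP⟩
  have hp : ((2 : ℕ) : O) ∈ maximalIdeal O := by exact_mod_cast h2
  set a₂ := a ⟨2, Nat.prime_two⟩ with ha₂
  set I := Engine.TRep.stdInputs hes with hI
  set ι := padicHom 2 hp with hι
  set V := eigenSub I.model (↑S : Set ℕ) a with hV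
  obtain ⟨v₀, hv₀, hv₀V⟩ := hne
  have : Nontrivial V := ⟨⟨⟨v₀, hv₀V⟩, 0, fun h => hv₀ (congrArg Subtype.val h)⟩⟩
  have : Module.Finite O V := Module.Finite.iff_fg.mpr (IsNoetherian.noetherian V)
  -- the residual representation in matrices
  let k := ResidueField O
  let b := DefRing.repBasis ρ
  let bk : Module.Basis (Fin 2) k ρ.residual.V := Algebra.TensorProduct.basis k b
  let R := DefRing.matrixRep ρ b
  let Pb : GQ →* Matrix (Fin 2) (Fin 2) k := (residue O).mapMatrix.toMonoidHom.comp R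
  have hPb : ∀ g, LinearMap.toMatrix bk bk (ρ.residual.ρ g) = Pb g := fun g =>
    LinearMap.toMatrix_baseChange k (ρ.ρ g) b b
  have htr : ∀ g, ρ.trace g = (R g).trace := fun g => by
    rw [GaloisRepAdic.trace, LinearMap.trace_eq_matrix_trace O b]; rfl
  have hspan : Submodule.span k (Set.range Pb) = ⊤ := by
    rw [← DefRing.span_range_eq_top_of_isAbsolutelyIrreducible ρ.residual hirr bk]
    simp only [hPb]
    rfl
  have hdet' : ∀ g, LinearMap.det (ρ.ρ g) = ι (epsilonPadic 2 g : ℤ_[2]) :=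
    fun g => SquareOld.det_eq_padicHom hdet g
  -- an auxiliary prime
  obtain ⟨r, hr, hrS, hr1, Q, hQ, ψ, hψ, hne'⟩ := Engine.TRep.exists_prime_trace_ne
    (Field.toIsField k) Pb (by
      obtain ⟨L, hL, hfix⟩ := ρ.residual.factorsThroughFiniteLevel
      exact ⟨L, hL, fun g hg => by rw [← hPb, hfix g hg, LinearMap.toMatrix_one]⟩) hspan
    (S ∪ {2})
    (fun ℓ hℓ hℓS A hA σ hσ => by
      rw [Finset.mem_union, Finset.mem_singleton, not_or] at hℓS
      show ((R σ).map (residue O)).det = _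
      rw [← RingHom.mapMatrix_apply, ← RingHom.map_det,
        show (R σ).det = LinearMap.det (ρ.ρ σ) from LinearMap.det_toMatrix b _, hdet',
        epsilon_frobenius hℓ hℓS.2 hA hσ, map_natCast, map_natCast])
    (M * 2) (Nat.pos_of_ne_zero (NeZero.ne _))
  rw [Finset.mem_union, Finset.mem_singleton, not_or] at hrS
  have : Fact r.Prime := ⟨hr⟩
  have hunit : IsUnit (a ⟨r, hr⟩ - ((r : O) + 1)) := by
    refine (residue_ne_zero_iff_isUnit _).mp fun h0 => hne' ?_
    rw [map_sub, sub_eq_zero, map_add, map_natCast, map_one] at h0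
    rw [← h0, ← hfrob r hr hrS.1 hrS.2 Q hQ ψ hψ, htr, AddMonoidHom.map_trace]
    rfl
  have hrN : ¬ r ∣ M * 2 := fun hd => by
    have h1 := congrArg (ZMod.castHom hd (ZMod r)) hr1
    rw [map_natCast, map_one, ZMod.natCast_self] at h1
    exact zero_ne_one h1
  -- the vectors are new at `2`
  let K := FractionRing O
  let f : O →+* K := algebraMap O K
  have hfinj : Function.Injective f := IsFractionRing.injective O K
  have : CharZero K := charZero_of_injective_algebraMap (IsFractionRing.injective O K)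
  have hW : IsALPrimes (M * 2) {2} := fun e he => by
    rw [Finset.mem_singleton] at he
    subst he
    exact ⟨Nat.prime_two, dvd_mul_left 2 M,
      fun h => hM (Nat.dvd_of_mul_dvd_mul_right two_pos h)⟩
  have hTm : ∀ v : Fin I.model.d → O, v ∈ V → ∀ l : Nat.Primes, (l : ℕ) ∉ S →
      Engine.TRep.intAct (HeckeJ0.heckeMatAt (M * 2) l) (⇑f ∘ v) = f (a l) • (⇑f ∘ v) :=
    fun v hv l hl => funext fun i => by
    have h := congrArg f (congrFun ((mem_eigenSub I.model).mp hv l (by simpa using hl)) i)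
    rw [Pi.smul_apply, smul_eq_mul, map_mul] at h
    rw [Pi.smul_apply, smul_eq_mul, Function.comp_apply, ← h]
    show ∑ j, HeckeJ0.heckeMatAt (M * 2) l i j • f (v j) =
      f (∑ j, ((HeckeJ0.heckeMatAt (M * 2) l i j : ℤ) : O) * v j)
    rw [map_sum]
    exact Finset.sum_congr rfl fun j _ => by rw [map_mul, map_intCast, zsmul_eq_mul]
  have hnew : ∀ v ∈ V, (wMatPadic hM I.model).map ι *ᵥ v = -(a₂ • v) ∧
      ∀ hes' : EichlerShimuraRelations M 2,
        (Engine.Lifting.normPadic I (Engine.TRep.stdInputs hes') false).map ι *ᵥ v = 0 := by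
    intro v hv
    obtain ⟨h1, h2'⟩ := twoNew_vectors (K := K) hM (mul_comm M 2) hW (Finset.mem_singleton_self 2)
      (⇑f ∘ v) (a := f a₂) (by rw [← map_mul, ha, map_one]) (hTm v hv ⟨2, Nat.prime_two⟩ h2S)
      (r := r) (e := f (a ⟨r, hr⟩))
      (fun h => hunit.ne_zero (sub_eq_zero.mpr (hfinj (by rw [h, map_add, map_natCast, map_one]))))
      hr1 (hTm v hv ⟨r, hr⟩ hrS.1)
    refine ⟨funext fun i => hfinj ?_, fun hes' => funext fun i => hfinj ?_⟩
    · rw [wMatPadic_stdInputs hM hW (Finset.mem_singleton_self 2) hes]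
      have h := congrFun h1 i
      simp only [Pi.neg_apply, Pi.smul_apply, smul_eq_mul, Function.comp_apply, ← map_mul,
        ← map_neg] at h ⊢
      rw [← h]
      show f (∑ j, ι ((alMatZ hW (Finset.mem_singleton_self 2) i j : ℤ) : ℤ_[2]) * v j) =
        ∑ j, alMatZ hW (Finset.mem_singleton_self 2) i j • f (v j)
      rw [map_sum]
      exact Finset.sum_congr rfl fun j _ => by rw [map_mul, map_intCast, map_intCast, zsmul_eq_mul]
    · rw [normPadic_stdInputs hM hes hes', Pi.zero_apply, map_zero, ← h2' i]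
      show f (∑ j, ι ((normMatZ hM (mul_comm M 2) i j : ℤ) : ℤ_[2]) * v j) =
        ∑ j, normMatZ hM (mul_comm M 2) i j • f (v j)
      rw [map_sum]
      exact Finset.sum_congr rfl fun j _ => by rw [map_mul, map_intCast, map_intCast, zsmul_eq_mul]
  have hes' : EichlerShimuraRelations M 2 := EigenRep.eichlerShimuraRelations M 2
  -- the points
  have hwpt : ∀ {m : ℕ} (μ : O →+ ZMod (2 ^ m)), ∀ v ∈ V,
      SemilinearAut.ofAlgAut Sg.w • charPoint I.model μ v = - charPoint I.model μ (a₂ • v) := by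
    intro m μ v hv
    have h := congrArg (charPoint I.model μ) (hnew v hv).1
    rw [← neg_smul] at h
    have e1 : charPoint I.model μ ((wMatPadic hM I.model).map ι *ᵥ v) =
        SemilinearAut.ofAlgAut Sg.w • charPoint I.model μ v := by
      rw [charPoint, comp_mulVec ι μ (wMatPadic hM I.model) v]
      have h' := matMod_wMatPadic_mulVec hM I.model m ((I.model.e m).symm (⇑μ ∘ v))
      rw [AddEquiv.apply_symm_apply] at h'
      rw [show (wMatPadic hM I.model).map (PadicInt.toZModPow m) =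
        matMod 2 I.model.d m (wMatPadic hM I.model) from rfl, h', AddEquiv.symm_apply_apply]
      rfl
    rw [← e1, h, show (-a₂) • v = (0 : Fin I.model.d → O) - a₂ • v by rw [zero_sub, neg_smul],
      charPoint_sub, charPoint_zero, zero_sub]
  have hnorm : ∀ {m : ℕ} (μ : O →+ ZMod (2 ^ m)), ∀ v ∈ V, ∀ b,
      normMaps M 2 b (charPoint I.model μ v) = 0 := by
    have h0 : ∀ {m : ℕ} (μ : O →+ ZMod (2 ^ m)), ∀ v ∈ V,
        normMaps M 2 false (charPoint I.model μ v) = 0 := by
      intro m μ v hv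
      have h := congrArg (⇑μ ∘ ·) ((hnew v hv).2 hes')
      rw [comp_mulVec ι μ, show Engine.Lifting.normPadic I (Engine.TRep.stdInputs hes') false =
          Engine.Lifting.mapPadic I.model (Engine.TRep.stdInputs hes').model (normMaps M 2 false)
          from rfl, Engine.Lifting.mapPadic_mod,
        show ⇑μ ∘ v = I.model.e m ((I.model.e m).symm (⇑μ ∘ v)) from
          (AddEquiv.apply_symm_apply _ _).symm, mapMat_mulVec,
        show ⇑μ ∘ (0 : Fin (Engine.TRep.stdInputs hes').model.d → O) = 0 from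
          funext fun i => map_zero μ] at h
      exact congrArg Subtype.val ((AddEquiv.map_eq_zero_iff _).mp h)
    intro m μ v hv b'
    cases b'
    · exact h0 μ v hv
    · have h1 := OrdinaryT.normMaps_wMap Sg (pow_ne_zero m two_ne_zero)
        (pow_smul_charPoint I.model μ v) false
      rw [show OrdinaryT.wMap Sg (charPoint I.model μ v) = _ from hwpt μ v hv, map_neg,
        h0 μ (a₂ • v) (V.smul_mem _ hv), neg_zero] at h1
      exact h1.symm
  have hgal : ∀ {m : ℕ} (μ : O →+ ZMod (2 ^ m)) (g : GQ) (v : V),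
      charPoint I.model μ (eigenEnd I ι (↑S : Set ℕ) a g v : Fin I.model.d → O) =
        g • charPoint I.model μ (v : Fin I.model.d → O) := fun μ g v =>
    charPoint_galEnd I.model ι μ g v
  -- the kernels of reduction
  let F : ℕ → Submodule O V := fun m =>
    { carrier := {v | ∀ μ : O →+ ZMod (2 ^ m),
        charPoint I.model μ (v : Fin I.model.d → O) ∈ OrdinaryT.newKilled Sg (2 ^ m)}
      zero_mem' := fun μ => by rw [ZeroMemClass.coe_zero, charPoint_zero]; exact zero_mem _
      add_mem' := fun {x y} hx hy μ => by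
        rw [Submodule.coe_add, charPoint_add]; exact add_mem (hx μ) (hy μ)
      smul_mem' := fun c x hx μ => by
        rw [Submodule.coe_smul, charPoint_smul]; exact hx _ }
  have hβpt : ∀ {m : ℕ} (μ : O →+ ZMod (2 ^ m)) (v : V),
      charPoint I.model μ ((eigenEnd I ι (↑S : Set ℕ) a φ v - a₂ • v : V) : Fin I.model.d → O) =
        φ • charPoint I.model μ (v : Fin I.model.d → O) +
          SemilinearAut.ofAlgAut Sg.w • charPoint I.model μ (v : Fin I.model.d → O) := fun μ v => by
    rw [Submodule.coe_sub, charPoint_sub, hgal, hwpt μ _ v.2, Submodule.coe_smul, sub_eq_add_neg]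
  have hτF : ∀ g ∈ P.inertiaSubgroupIn ℚ, ∀ m v, eigenEnd I ι (↑S : Set ℕ) a g v - v ∈ F m :=
    fun g hg m v μ => by
    rw [Submodule.coe_sub, charPoint_sub, hgal]
    exact OrdinaryT.smul_sub_mem_newKilled Sg hg (pow_smul_charPoint I.model μ _)
  have hφF : ∀ m v, eigenEnd I ι (↑S : Set ℕ) a φ v - a₂ • v ∈ F m := fun m v μ => by
    rw [hβpt]
    exact OrdinaryT.frobenius_add_w_mem_newKilled Sg hφ (pow_ne_zero m two_ne_zero)
      (pow_smul_charPoint I.model μ _) (hnorm μ _ v.2)
  have hF1 : ∀ v ∈ F 1, ∃ w, eigenEnd I ι (↑S : Set ℕ) a φ v - a₂ • v = (2 : O) • w := by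
    intro v hv
    set z := eigenEnd I ι (↑S : Set ℕ) a φ v - a₂ • v with hz
    set c := a ⟨r, hr⟩ - ((r : O) + 1) with hc
    have key : ∀ μ : O →+ ZMod (2 ^ 1), charPoint I.model μ (z : Fin I.model.d → O) = 0 := by
      intro μ
      let op : JZero (M * 2) → JZero (M * 2) :=
        fun y => heckeOperatorAlong Ω (M * 2) r y - (r + 1) • y
      let X : Set (JZero (M * 2)) := Set.range fun ν : O →+ ZMod (2 ^ 1) =>
        charPoint I.model ν (v : Fin I.model.d → O)
      have hop : ∀ ν : O →+ ZMod (2 ^ 1), op (charPoint I.model ν (v : Fin I.model.d → O)) =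
          charPoint I.model ν (c • (v : Fin I.model.d → O)) := fun ν => by
        have h := charPoint_hecke I.model ν ⟨r, hr⟩ (v : Fin I.model.d → O)
        rw [(mem_eigenSub I.model).mp v.2 ⟨r, hr⟩ (by simpa using hrS.1),
          heckeOperatorBar_apply] at h
        show heckeOperatorAlong Ω (M * 2) r _ - (r + 1) • _ = _
        rw [← h, hc, sub_smul, charPoint_sub]
        congr 1
        rw [← natCast_zsmul, Nat.cast_add, Nat.cast_one, show ((r : O) + 1) • (v : Fin I.model.d → O)
          = (r + 1 : ℕ) • (v : Fin I.model.d → O) by rw [← Nat.cast_smul_eq_nsmul O, Nat.cast_add,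
            Nat.cast_one], ← natCast_zsmul, Nat.cast_add, Nat.cast_one]
        exact (map_zsmul (AddMonoidHom.mk' (fun y => charPoint I.model ν y)
          fun y y' => charPoint_add I.model ν y y') _ _).symm
      have hmaps : ∀ x ∈ X, op x ∈ X := by
        rintro _ ⟨ν, rfl⟩
        exact ⟨ν.comp (AddMonoidHom.mulLeft c), by rw [hop, charPoint_smul]⟩
      have : Finite (Pic0.torsion Ω (modularFunctionFieldBar (M * 2)) (2 ^ 1)) :=
        haveI : NeZero (2 ^ 1) := ⟨by norm_num⟩
        Finite.of_equiv _ (I.model.e 1).toEquiv.symm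
      have hfin : X.Finite := (Set.finite_range (fun y : Pic0.torsion Ω
        (modularFunctionFieldBar (M * 2)) (2 ^ 1) => (y : JZero (M * 2)))).subset (by
          rintro _ ⟨ν, rfl⟩
          exact ⟨_, rfl⟩)
      have := hfin.to_subtype
      have hinj : Set.InjOn op X := hfin.injOn_of_encard_image_eq (by
        refine congrArg Set.encard (Set.Subset.antisymm (by rintro _ ⟨x, hx, rfl⟩; exact hmaps x hx) ?_)
        rintro _ ⟨ν, rfl⟩
        obtain ⟨u, hu⟩ := hunit
        refine ⟨_, ⟨ν.comp (AddMonoidHom.mulLeft (↑u⁻¹ : O)), rfl⟩, ?_⟩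
        show op (charPoint I.model _ _) = _
        rw [hop, ← charPoint_smul, smul_smul, ← hu, Units.inv_mul, one_smul])
      obtain ⟨m, hm, hper⟩ := OrdinaryT.exists_iterate_eq X op hmaps hinj
        (v := charPoint I.model μ (v : Fin I.model.d → O)) ⟨μ, rfl⟩
      rw [hz, hβpt]
      exact OrdinaryT.frobenius_add_w_eq_zero_of_mem_newKilled Sg (hv μ) (hnorm μ _ v.2) hrN hm
        hper hφ
    choose y hy using fun i : Fin I.model.d =>
      exists_smul_of_forall_hom (2 ^ 1) (x := (z : Fin I.model.d → O) i)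
        fun μ => eq_zero_of_charPoint I.model (key μ) i
    have hzy : (z : Fin I.model.d → O) = (2 : O) • y := funext fun i => by
      rw [Pi.smul_apply, smul_eq_mul, hy i]; norm_num
    refine ⟨⟨y, (mem_eigenSub I.model).mpr fun l hl => ?_⟩, Subtype.ext hzy⟩
    have h := (mem_eigenSub I.model).mp z.2 l hl
    rw [hzy, mulVec_smul, smul_comm] at h
    exact smul_right_injective _ two_ne_zero h
  have hmono : ∀ m, 1 ≤ m → F (m + 1) ≤ F m := fun m hm v hv μ => by
    obtain ⟨-, -, ν', hν'⟩ := exists_charPoint_succ I.model μ (v : Fin I.model.d → O)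
    rw [← hν']
    refine (OrdinaryT.mem_newKilled_mul_iff Sg (pow_ne_zero m two_ne_zero) 1 ?_).mp ?_
    · rw [hν']; exact pow_smul_charPoint I.model μ _
    · rw [pow_one, ← pow_succ]; exact hv ν'
  have hhalf : ∀ m v, 1 ≤ m → (2 : O) • v ∈ F (m + 1) → v ∈ F m := fun m v hm hv μ => by
    obtain ⟨ν, hν, -⟩ := exists_charPoint_succ I.model μ (v : Fin I.model.d → O)
    rw [Nat.cast_ofNat] at hν
    rw [← hν]
    refine (OrdinaryT.mem_newKilled_mul_iff Sg (pow_ne_zero m two_ne_zero) 1 ?_).mp ?_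
    · rw [hν]; exact pow_smul_charPoint I.model μ _
    · rw [pow_one, ← pow_succ]; exact hv ν
  -- the relations on the vectors
  have hquad : ∀ (g : GQ) (v : V), eigenEnd I ι (↑S : Set ℕ) a g v +
      ι (epsilonPadic 2 g : ℤ_[2]) • eigenEnd I ι (↑S : Set ℕ) a g⁻¹ v = ρ.trace g • v := by
    intro g v
    refine Subtype.ext ?_
    refine quadratic_of_trace I hp (insert 2 S) a ρ (fun ℓ hℓ hℓS => ?_) g ?_
    · rw [Finset.mem_insert, not_or] at hℓS
      exact hfrob ℓ hℓ hℓS.2 hℓS.1
    · refine (mem_eigenSub I.model).mpr fun l hl => (mem_eigenSub I.model).mp v.2 l fun h => hl ?_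
      rw [Finset.coe_insert]; exact Set.mem_insert_of_mem _ h
  have hε : ∀ g : GQ, ι (epsilonPadic 2 g : ℤ_[2]) - 1 ∈ maximalIdeal O := fun g => by
    have h1 : PadicInt.toZModPow 1 (epsilonPadic 2 g : ℤ_[2]) = PadicInt.toZModPow 1 1 := by
      rw [map_one]
      exact eq_one_of_isUnit_zmod_two _ ((epsilonPadic 2 g).isUnit.map _)
    obtain ⟨c, hc⟩ := sub_mem_span_pow ι h1
    rw [hc, map_one, add_sub_cancel_left]
    exact Ideal.mul_mem_right _ _ (Ideal.pow_mem_of_mem _ hp 1 one_pos)
  have hns : ∃ g, ρ.trace (φ * g) - a₂ * ρ.trace g ∉ maximalIdeal O := by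
    by_contra hcon
    push Not at hcon
    refine hfr P hP φ hφ (residue O a₂) ((LinearMap.toMatrix bk bk).injective ?_)
    rw [map_smul, LinearMap.toMatrix_one, hPb]
    have key : ∀ Z : Matrix (Fin 2) (Fin 2) k, ((Pb φ - residue O a₂ • 1) * Z).trace = 0 :=
      fun Z => by
      have hZ : Z ∈ Submodule.span k (Set.range Pb) := hspan ▸ Submodule.mem_top
      induction hZ using Submodule.span_induction with
      | mem x hx =>
        obtain ⟨g, rfl⟩ := hx
        have h := (residue_eq_zero_iff _).mpr (hcon g)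
        rw [htr, htr, map_mul, map_sub, map_mul, AddMonoidHom.map_trace,
          AddMonoidHom.map_trace] at h
        rw [sub_mul, smul_mul_assoc, one_mul, Matrix.trace_sub, Matrix.trace_smul, smul_eq_mul]
        rw [show Pb φ * Pb g = (R φ * R g).map (residue O) by rw [← map_mul, ← map_mul]; rfl]
        exact h
      | zero => simp
      | add x y _ _ hx hy => rw [mul_add, Matrix.trace_add, hx, hy, add_zero]
      | smul c x _ hx => rw [mul_smul_comm, Matrix.trace_smul, hx, smul_zero]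
    refine sub_eq_zero.mp (Matrix.ext fun i j => ?_)
    simpa [Matrix.trace_mul_single] using key (Matrix.single j i 1)
  let e : GQ →* O := ι.toMonoidHom.comp ((Units.coeHom ℤ_[2]).comp (epsilonPadic 2))
  have hX := fun g => ordinary_trace_eq_zero (eigenEnd I ι (↑S : Set ℕ) a) ρ.trace e hquad φ
    (P.inertiaSubgroupIn ℚ) ha h2 two_ne_zero hε hns F hτF hφF hF1 hmono hhalf n n' hτ hτ' g
  -- back to the representation
  apply (LinearMap.toMatrix b b).injective
  rw [LinearMap.toMatrix_mul, map_sub, map_sub, map_smul, map_smul, map_smul,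
    LinearMap.toMatrix_one, map_zero, hdet']
  show (a₂ ^ n' • R (φ ^ n' * τ') - e (φ ^ n' * τ') • 1) * (R (φ ^ n * τ) - a₂ ^ n • 1) = 0
  ext i j
  have key : ∀ Z ∈ Submodule.span O (Set.range R),
      ((a₂ ^ n' • R (φ ^ n' * τ') - e (φ ^ n' * τ') • 1) * (R (φ ^ n * τ) - a₂ ^ n • 1) * Z).trace
        = 0 := fun Z hZ => by
    induction hZ using Submodule.span_induction with
    | mem x hx =>
      obtain ⟨g, rfl⟩ := hx
      have h := hX g
      simp only [htr, map_mul R] at h
      simp only [map_mul R]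
      simp only [sub_mul, mul_sub, Matrix.smul_mul, Matrix.mul_smul, one_mul, mul_one, smul_smul,
        Matrix.trace_sub, Matrix.trace_smul, smul_eq_mul, mul_assoc] at h ⊢
      linear_combination h
    | zero => simp
    | add x y _ _ hx hy => rw [mul_add, Matrix.trace_add, hx, hy, add_zero]
    | smul c x _ hx => rw [mul_smul_comm, Matrix.trace_smul, hx, smul_zero]
  have hmem : Matrix.single j i (1 : O) ∈ Submodule.span O (Set.range R) :=
    Chebotarev.span_matrixRep_eq_top ρ hirr b ▸ Submodule.mem_top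
  simpa [Matrix.trace_mul_single] using key _ hmem

/-- **Ordinary at `2` for eigensystems new at `2`** of level `2 M`. -/
theorem isOrdinary_twoNew {L : ℕ} [NeZero L] (hL : L = 2 * M) (hM : ¬ 2 ∣ M)
    (hes : EichlerShimuraRelations L 2)
    (h2 : (2 : O) ∈ maximalIdeal O) (S : Finset ℕ) (h2S : 2 ∉ S)
    (a : Nat.Primes → O)
    (ha : a ⟨2, Nat.prime_two⟩ * a ⟨2, Nat.prime_two⟩ = 1)
    (hne : ∃ v, v ≠ 0 ∧ v ∈ eigenSub (Engine.TRep.stdInputs hes).model (↑S : Set ℕ) a)
    (ρ : GaloisRepAdic O) (hdet : ρ.DetIsCyclotomic 2)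
    (hfrob : ∀ (ℓ : ℕ) (hℓ : ℓ.Prime), ℓ ∉ S → ℓ ≠ 2 → ∀ A : ValuationSubring Ω,
      A.LiesOverPrime ℓ → ∀ σ : GQ, A.IsFrobeniusAt σ ℓ → ρ.trace σ = a ⟨ℓ, hℓ⟩)
    (hirr : ρ.residual.IsAbsolutelyIrreducible)
    (hfr : ∀ P : ValuationSubring Ω, P.LiesOverPrime 2 → ∀ φ : GQ, P.IsFrobeniusAt φ 2 →
      ∀ s : ResidueField O, ρ.residual.ρ φ ≠ s • 1) :
    Pair.IsOrdinary ρ (a ⟨2, Nat.prime_two⟩) := by
  obtain rfl : L = M * 2 := hL.trans (mul_comm 2 M)
  exact isOrdinary_twoNew_aux hM hes h2 S h2S a ha hne ρ hdet hfrob hirr hfr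

end Fermat.Agent.TwoAdic.TSide

end
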