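import Fermat.Agent.TwoAdic.TSide.SignMatrix
import Fermat.Agent.TwoAdic.Modules.AtkinLevel
import Fermat.Agent.XHLite.TwistClass.Fricke

/-!
# Atkin–Lehner operators on classes with trivial character

Atkin–Lehner operators with trivial character on the coordinates of classes.
-/

set_option autoImplicit false

noncomputable section

open Matrix CongruenceSubgroup
open scoped MatrixGroups

namespace Fermat.Agent.TwoAdic.TSide

open HeckeJ0 HeckeModule Engine.TRep EigenSystems

variable {N : ℕ} [NeZero N] {O : Type} [CommRing O] {A : Type} [AddCommGroup A] [Module O A]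

omit [NeZero N] in
lemma scalarRep_eq_trivRep {χ : (ZMod N)ˣ →* O} (hχ : χ = 1) :
    scalarRep χ A = trivRep N O A := by
  subst hχ
  exact MonoidHom.ext fun u => scalarRep_one u

lemma classHom_castCoh {τ : Representation O (ZMod N)ˣ A} (h : τ = trivRep N O A)
    (hτ : ∀ u, τ u = 1) (c : Cocycle τ) :
    classHom (castCoh h (toCoh τ c)) = homOf hτ c := by
  subst h
  exact classHom_toCoh c

section Op

variable {M : ℕ} (hM : M ∣ N) {W : Finset ℕ} (hW : IsALPrimes N W) {e : ℕ} (he : e ∈ W)
  (heM : e.Coprime M) (χ : (ZMod M)ˣ →* O) (hχ : χ = 1) (c : O)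

omit [NeZero N] in
include hχ in
lemma levelChar_eq_one : levelChar hM χ = 1 := by
  subst hχ
  exact MonoidHom.one_comp _

omit [NeZero N] in
include hχ in
/-- The identification of the coefficients. -/
lemma levelRep_eq : scalarRep (levelChar hM χ) A = trivRep N O A :=
  scalarRep_eq_trivRep (levelChar_eq_one hM χ hχ)

/-- **The Atkin–Lehner operator on homomorphisms.** -/
theorem classHom_alOp (u : Coh1 (scalarRep (levelChar hM χ) A)) :
    classHom (castCoh (levelRep_eq hM χ hχ) (alOp A hW he hM χ heM c u))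
      = c • alPull hW he (classHom (castCoh (levelRep_eq hM χ hχ) u)) := by
  obtain ⟨z, rfl⟩ := toCoh_surjective _ u
  have hτ : ∀ u, scalarRep (levelChar hM χ) A u = 1 := fun u => by
    rw [levelChar_eq_one hM χ hχ]; exact scalarRep_one u
  rw [alOp_toCoh, classHom_castCoh _ hτ, classHom_castCoh _ hτ]
  refine AddMonoidHom.ext fun g => ?_
  obtain ⟨γ, rfl⟩ := Additive.ofMul.surjective g
  exact alData_raw hW he hM χ heM c z.1 γ

/-- **The Atkin–Lehner operator on coordinates.** -/
theorem classCoords_alOp {u : Coh1 (scalarRep (levelChar hM χ) A)}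
    (hu : OnLattice (castCoh (levelRep_eq hM χ hχ) u)) :
    classCoords (castCoh (levelRep_eq hM χ hχ) (alOp A hW he hM χ heM c u))
      = c • intAct (alMatZ hW he) (classCoords (castCoh (levelRep_eq hM χ hχ) u)) := by
  show HeckeJ0.coords N (classHom _) = _
  rw [classHom_alOp hM hW he heM χ hχ c u, ← coords_alPull_ofCoords hW he, hu]
  rfl

/-- Lattice classes are stable. -/
theorem onLattice_alOp {u : Coh1 (scalarRep (levelChar hM χ) A)}
    (hu : OnLattice (castCoh (levelRep_eq hM χ hχ) u)) :
    OnLattice (castCoh (levelRep_eq hM χ hχ) (alOp A hW he hM χ heM c u)) := by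
  unfold OnLattice
  rw [classCoords_alOp hM hW he heM χ hχ c hu, classHom_alOp hM hW he heM χ hχ c u]
  conv_rhs => rw [← hu, alPull_ofCoords]
  refine AddMonoidHom.ext fun g => ?_
  rw [AddMonoidHom.smul_apply, HeckeJ0.ofCoords_apply, HeckeJ0.ofCoords_apply, Finset.smul_sum]
  refine Finset.sum_congr rfl fun k _ => ?_
  exact (smul_comm _ _ _).symm

end Op

section Field

variable {K : Type} [Field K] [CharZero K]

end Field

section Matrix

open ModularCurve AlgebraicCurve EigenRep SemistableRed

variable {M q p : ℕ} [NeZero M] [NeZero q] [Fact p.Prime] [hq : Fact q.Prime] (hqM : ¬ q ∣ M)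
  (hes : EichlerShimuraRelations (M * q) p) {W : Finset ℕ} (hW : IsALPrimes (M * q) W) (he : q ∈ W)
  {R : Type} [CommRing R] (ι : ℤ_[p] →+* R)

/-- The matrix of `w_q` over a `ℤ_p`-algebra. -/
theorem wMatPadic_map_mulVec (a : Fin (rk (M * q)) → R) :
    (wMatPadic hqM (stdInputs hes).model).map ι *ᵥ a = intAct (alMatZ hW he) a := by
  rw [wMatPadic_stdInputs hqM hW he hes]
  funext i
  show ∑ k : Fin (rk (M * q)), ι ((alMatZ hW he i k : ℤ) : ℤ_[p]) * a k
    = ∑ k : Fin (rk (M * q)), alMatZ hW he i k • a k
  exact Finset.sum_congr rfl fun k _ => by rw [map_intCast, zsmul_eq_mul]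

variable {M' : ℕ} (hM : M' ∣ M * q) (heM : q.Coprime M') (χ : (ZMod M')ˣ →* R) (hχ : χ = 1)

/-- **`w_q` on coordinates is the Atkin–Lehner operator.** -/
theorem wMatPadic_classCoords {u : Coh1 (scalarRep (levelChar hM χ) R)}
    (hu : OnLattice (castCoh (levelRep_eq hM χ hχ) u)) :
    (wMatPadic hqM (stdInputs hes).model).map ι *ᵥ
        classCoords (castCoh (levelRep_eq hM χ hχ) u)
      = classCoords (castCoh (levelRep_eq hM χ hχ) (alOp R hW he hM χ heM 1 u)) := by
  rw [classCoords_alOp hM hW he heM χ hχ 1 hu, one_smul]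
  exact wMatPadic_map_mulVec hqM hes hW he ι _

/-- A class on which the operator is `- s` gives coordinates on which `w_q` is `- s`. -/
theorem wMatPadic_classCoords_of_eq {u : Coh1 (scalarRep (levelChar hM χ) R)} {s : R}
    (hu : OnLattice (castCoh (levelRep_eq hM χ hχ) u))
    (hs : alOp R hW he hM χ heM 1 u = -(s • u)) :
    (wMatPadic hqM (stdInputs hes).model).map ι *ᵥ
        classCoords (castCoh (levelRep_eq hM χ hχ) u)
      = -(s • classCoords (castCoh (levelRep_eq hM χ hχ) u)) := by
  rw [wMatPadic_classCoords hqM hes hW he ι hM heM χ hχ hu, hs, map_neg, map_smul]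
  exact (map_neg classCoords _).trans (congrArg Neg.neg (map_smul classCoords _ _))

end Matrix

end Fermat.Agent.TwoAdic.TSide
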