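import Fermat.Agent.TwoAdic.TSide.TrivialKernelField
import Fermat.Agent.TwoAdic.TSide.SignClass
import Fermat.Agent.TwoAdic.TSide.BoundPoly
import Fermat.Agent.TwoAdic.TSide.QuadEmbed
import Fermat.Agent.TwoAdic.TSideTransfer
import Fermat.Agent.Engine.Lifting.CommonPoly
import Fermat.Agent.EigenSystems.Points
import Fermat.Agent.EigenRep.Main

/-!
# Signed new at one prime

Signed new at one prime: an eigen class with sign whose trace to the lower level vanishes, or with
residually ramified inertia, gives `IsSignedNewAt` for the attached representation.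
-/

set_option autoImplicit false

noncomputable section

open IsLocalRing Matrix

namespace Fermat.Agent.TwoAdic.TSide

open EigenRep HeckeModule Engine.TRep Engine.Lifting SemistableRed DefRing
open HeckeJ0 LevelRaising

local notation "Qbar" => AlgebraicClosure ℚ
local notation "GQ" => (AlgebraicClosure ℚ) ≃ₐ[ℚ] (AlgebraicClosure ℚ)

variable [Fact (Nat.Prime 2)] {O : Type} [CommRing O] [IsDomain O] [IsDiscreteValuationRing O]
  [IsAdicComplete (maximalIdeal O) O] [CharZero O]

section Separate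

variable {N : ℕ} [NeZero N]

omit [Fact (Nat.Prime 2)] [IsAdicComplete (maximalIdeal O) O] [CharZero O] in
/-- A system which has no eigenvector is separated by an integral polynomial. -/
theorem exists_poly_or_eigenSub (M : TorsionHeckeModel N 2) (S : Set ℕ) (a : Nat.Primes → O) :
    (∃ P : MvPolynomial {ℓ : Nat.Primes // (ℓ : ℕ) ∉ S} ℤ, evalT M S P = 0 ∧
        MvPolynomial.eval₂ (Int.castRingHom O) (fun ℓ => a ℓ.1) P ≠ 0) ∨
      ∃ v, v ≠ 0 ∧ v ∈ eigenSub M S a := by
  classical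
  refine or_iff_not_imp_left.mpr fun h => ?_
  push Not at h
  let : CommRing (matAlg (matFamily M S)) :=
    matAlgCommRing (T := matFamily M S) fun i j => M.comm i.1 j.1
  let π : MvPolynomial {ℓ : Nat.Primes // (ℓ : ℕ) ∉ S} ℤ →+* matAlg (matFamily M S) :=
    (MvPolynomial.aeval fun ℓ => matGen (matFamily M S) ℓ).toRingHom
  have hπ : Function.Surjective π := by
    rintro ⟨x, hx⟩
    induction hx using Algebra.adjoin_induction with
    | mem x hx =>
      obtain ⟨ℓ, rfl⟩ := hx
      exact ⟨MvPolynomial.X ℓ, MvPolynomial.aeval_X _ ℓ⟩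
    | algebraMap z => exact ⟨MvPolynomial.C z, MvPolynomial.aeval_C _ z⟩
    | add x y _ _ hx hy =>
      obtain ⟨P, hP⟩ := hx
      obtain ⟨Q, hQ⟩ := hy
      exact ⟨P + Q, by rw [map_add, hP, hQ]; rfl⟩
    | mul x y _ _ hx hy =>
      obtain ⟨P, hP⟩ := hx
      obtain ⟨Q, hQ⟩ := hy
      exact ⟨P * Q, by rw [map_mul, hP, hQ]; rfl⟩
  let K := FractionRing O
  let g : MvPolynomial {ℓ : Nat.Primes // (ℓ : ℕ) ∉ S} ℤ →+* K :=
    (algebraMap O K).comp (MvPolynomial.eval₂Hom (Int.castRingHom O) fun ℓ => a ℓ.1)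
  let f : matAlg (matFamily M S) →+* K := π.liftOfSurjective hπ ⟨g, fun P hP => by
    rw [RingHom.mem_ker]
    show algebraMap O K _ = 0
    rw [← map_zero (algebraMap O K)]
    exact congrArg _ (h P (RingHom.mem_ker.mp hP))⟩
  have hf : ∀ ℓ, f (matGen (matFamily M S) ℓ) = algebraMap O K (a ℓ.1) := fun ℓ => by
    rw [show matGen (matFamily M S) ℓ = π (MvPolynomial.X ℓ) from (MvPolynomial.aeval_X _ ℓ).symm]
    refine (RingHom.liftOfRightInverse_comp_apply _ _ _ _ _).trans ?_
    show algebraMap O K _ = _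
    exact congrArg _ (MvPolynomial.eval₂_X _ _ ℓ)
  obtain ⟨w, hw0, hw⟩ := exists_common_eigenvector (fun i j => M.comm i.1 j.1) f
  obtain ⟨b, hb⟩ := IsLocalization.exist_integer_multiples_of_finite (nonZeroDivisors O) w
  choose v hv using hb
  have hcv : ⇑(algebraMap O K) ∘ v = algebraMap O K b • w := funext fun i => by
    rw [Function.comp_apply, hv i, Algebra.smul_def]
    rfl
  refine ⟨v, fun h0 => hw0 ?_, (mem_eigenSub M).mpr fun ℓ hℓ => funext fun i =>
    IsFractionRing.injective O K ?_⟩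
  · have hb0 : algebraMap O K (b : O) ≠ 0 :=
      IsFractionRing.to_map_ne_zero_of_mem_nonZeroDivisors b.2
    refine (smul_eq_zero.mp (hcv.symm.trans ?_)).resolve_left hb0
    funext i
    simp [h0]
  · show algebraMap O K (((M.T ℓ).map (Int.cast : ℤ → O) *ᵥ v) i) = algebraMap O K (a ℓ * v i)
    rw [RingHom.map_mulVec, Matrix.map_map,
      show ⇑(algebraMap O K) ∘ (Int.cast : ℤ → O) = (Int.cast : ℤ → K) from
        funext fun z => map_intCast _ z, hcv, Matrix.mulVec_smul, map_mul,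
      show (M.T ℓ).map (Int.cast : ℤ → K) *ᵥ w = algebraMap O K (a ℓ) • w by
        refine (hw ⟨ℓ, hℓ⟩).trans ?_
        rw [hf],
      show algebraMap O K (v i) = (algebraMap O K (b : O) • w) i from congrFun hcv i]
    simp only [Pi.smul_apply, smul_eq_mul]
    ring

end Separate

omit [Fact (Nat.Prime 2)] in
/-- The span of a representation with non-zero commutator. -/
theorem eq_zero_of_trace_mul {L : Type} [Field L] (R : GQ →* Matrix (Fin 2) (Fin 2) L)
    (hirr : ∃ g h, (R g * R h - R h * R g).det ≠ 0) {X : Matrix (Fin 2) (Fin 2) L}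
    (h : ∀ g, (X * R g).trace = 0) : X = 0 := by
  obtain ⟨g, k, hgk⟩ := hirr
  have hspan := (linearIndependent_quad hgk).span_eq_top_of_card_eq_finrank
    (by rw [Module.finrank_matrix]; simp)
  have key : ∀ Y, (X * Y).trace = 0 := fun Y => by
    have hY : Y ∈ Submodule.span L (Set.range ![1, R g, R k, R g * R k]) :=
      hspan ▸ Submodule.mem_top
    induction hY using Submodule.span_induction with
    | mem Y hY =>
      obtain ⟨i, rfl⟩ := hY
      fin_cases i
      · simpa using h 1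
      · exact h g
      · exact h k
      · simpa using h (g * k)
    | zero => simp
    | add Y Z _ _ hY hZ => rw [mul_add, trace_add, hY, hZ, add_zero]
    | smul c Y _ hY => rw [mul_smul_comm, trace_smul, hY, smul_zero]
  exact Matrix.ext fun i j => by simpa [trace_mul_single] using key (Matrix.single j i 1)

variable {K : Type} [Field K] [CharZero K] [Algebra O K] [IsFractionRing O K]

section Class

variable {L M b : ℕ} [NeZero M] [hb : Fact b.Prime] {M₀ : ℕ}

omit [IsDiscreteValuationRing O] [IsAdicComplete (maximalIdeal O) O] in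
/-- The eigenvector of an eigen class with sign, at the level written `M b`. -/
theorem exists_signed_eigenvector [NeZero L] [NeZero (M * b)] (hL : L = M * b) (hbM : ¬ b ∣ M)
    (hes : EichlerShimuraRelations (M * b) 2) (ι : ℤ_[2] →+* O) (S : Finset ℕ)
    (a : Nat.Primes → O) {r : ℕ} [hr : Fact r.Prime] (hr1 : (r : ZMod L) = 1) (hrS : r ∉ S)
    (hne : a ⟨r, hr.out⟩ ≠ (r : O) + 1) (hM₀ : M₀ ∣ L) {W : Finset ℕ} (hW : IsALPrimes L W)
    (hbW : b ∈ W) (hbM₀ : b.Coprime M₀)
    (c : Coh1 (scalarRep (levelChar hM₀ (1 : (ZMod M₀)ˣ →* K)) K)) (hc0 : c ≠ 0)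
    (hc : ∀ l : Nat.Primes, (l : ℕ) ∉ S → heckeGen _ l c = algebraMap O K (a l) • c) (s : ℤ)
    (hw : alOp K hW hbW hM₀ 1 hbM₀ 1 c = -((s : K) • c)) :
    ∃ v : Fin (stdInputs hes).model.d → O, v ≠ 0 ∧
      v ∈ eigenSub (stdInputs hes).model (↑S : Set ℕ) a ∧
      (wMatPadic hbM (stdInputs hes).model).map ι *ᵥ v = -((s : O) • v) := by
  subst hL
  have : NeZero b := ⟨hb.out.ne_zero⟩
  have : NeZero r := ⟨hr.out.ne_zero⟩
  let e := levelRep_eq (A := K) hM₀ (1 : (ZMod M₀)ˣ →* K) rfl
  have hc' : ∀ l : Nat.Primes, (l : ℕ) ∉ S →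
      heckeGen (trivRep (M * b) K K) l (castCoh e c) = algebraMap O K (a l) • castCoh e c :=
    fun l hl => by
      have : Fact (l : ℕ).Prime := ⟨l.2⟩
      show heckeOp _ (l : ℕ) _ = _
      rw [← castCoh_heckeOp e (l : ℕ) c]
      exact (congrArg (castCoh e) (hc l hl)).trans (map_smul _ _ _)
  obtain ⟨d, v, hd, hv0, hvd, hv⟩ := exists_eigenSub_of_class hes hr1 hrS hne
    (fun h => hc0 ((castCoh e).injective (h.trans (map_zero _).symm))) hc'
  refine ⟨v, hv0, hv, ?_⟩
  have hlat : OnLattice (castCoh e c) := by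
    have hk : algebraMap O K (a ⟨r, hr.out⟩) - ((r : K) + 1) ≠ 0 := fun h0 => hne
      (IsFractionRing.injective O K (by rw [map_add, map_natCast, map_one]; exact sub_eq_zero.1 h0))
    have h := onLattice_eisen_torsionFree hr1
      ((algebraMap O K (a ⟨r, hr.out⟩) - ((r : K) + 1))⁻¹ • castCoh e c)
    rwa [smul_comm, eisen_smul, show heckeOp (trivRep (M * b) K K) r (castCoh e c) =
      heckeGen _ ⟨r, hr.out⟩ (castCoh e c) from rfl, hc' ⟨r, hr.out⟩ hrS, ← sub_smul, smul_smul,
      inv_mul_cancel₀ hk, one_smul] at h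
  have hwc := wMatPadic_classCoords_of_eq hbM hes hW hbW ((algebraMap O K).comp ι) hM₀ hbM₀
    (1 : (ZMod M₀)ˣ →* K) rfl hlat (s := (s : K)) hw
  funext i
  refine IsFractionRing.injective O K ?_
  rw [RingHom.map_mulVec, Matrix.map_map]
  show ((wMatPadic hbM (stdInputs hes).model).map ((algebraMap O K).comp ι) *ᵥ
    (⇑(algebraMap O K) ∘ v)) i = _
  rw [hvd]
  refine (congrFun ((mulVec_smul _ d _).trans (congrArg (d • ·) hwc)) i).trans ?_
  have hi : algebraMap O K (v i) = d * classCoords (castCoh e c) i := congrFun hvd i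
  show d * -((s : K) * classCoords (castCoh e c) i) = algebraMap O K (-((s : O) * v i))
  rw [map_neg, map_mul, map_intCast, hi]
  ring

end Class

section Main

variable {M b : ℕ} [NeZero M] [hb : Fact b.Prime] (S : Finset ℕ) (a : Nat.Primes → O)
  (ρ : GaloisRepAdic O) (h2 : ((2 : ℕ) : O) ∈ maximalIdeal O)
  (hdet : ∀ σ, LinearMap.det (ρ.ρ σ) = padicHom 2 h2 (epsilonPadic 2 σ : ℤ_[2]))
  (hfrob : ∀ (ℓ : ℕ) (hℓ : ℓ.Prime), ℓ ∉ S → ∀ A : ValuationSubring Qbar, A.LiesOverPrime ℓ →
    ∀ σ : GQ, A.IsFrobeniusAt σ ℓ → ρ.trace σ = a ⟨ℓ, hℓ⟩)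
  (hirr : ∃ g h, (matrixRep ρ (repBasis ρ) g * matrixRep ρ (repBasis ρ) h -
    matrixRep ρ (repBasis ρ) h * matrixRep ρ (repBasis ρ) g).det ≠ 0)

include hdet hfrob hirr

set_option linter.unusedSectionVars false in
/-- An eigenvector at a level prime to `b` makes inertia at `b` act trivially. -/
theorem matrixRep_inertia_eq_one (hbM : ¬ b ∣ M) (hb2 : b ≠ 2) (I' : RepInputs M 2)
    {v : Fin I'.model.d → O} (hv0 : v ≠ 0) (hv : v ∈ eigenSub I'.model (↑S : Set ℕ) a)
    {A : ValuationSubring Qbar} (hA : A.LiesOverPrime b) {τ : GQ}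
    (hτ : τ ∈ A.inertiaSubgroupIn ℚ) : matrixRep ρ (repBasis ρ) τ = 1 := by
  classical
  let ι := padicHom 2 h2
  let π := galEnd I'.model ι
  have hd : ¬ b ∣ M * 2 := fun h => (hb.out.dvd_mul.mp h).elim hbM
    fun h => hb2 ((Nat.prime_dvd_prime_iff_eq hb.out Nat.prime_two).mp h)
  have hτ1 : galMat I'.model τ = 1 := galMat_inertia I'.model I'.es hb.out hd hA hτ
  have hτ1' : galMat I'.model τ⁻¹ = 1 :=
    galMat_inertia I'.model I'.es hb.out hd hA (inv_mem hτ)
  have hε : epsilonPadic 2 τ = 1 := epsilon_inertia hb.out hb2 hA hτ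
  have htr : ∀ g, ρ.trace (τ * g) = ρ.trace g := fun g => by
    have h1 := quadratic_of_trace I' h2 S a ρ hfrob (τ * g) hv
    have e1 : π (τ * g) v = π g v := by
      rw [galEnd_apply, galEnd_apply, map_mul, hτ1, one_mul]
    have e2 : π (τ * g)⁻¹ v = π g⁻¹ v := by
      rw [galEnd_apply, galEnd_apply, _root_.mul_inv_rev, map_mul, hτ1', mul_one]
    change π (τ * g) v + _ • π (τ * g)⁻¹ v = _ at h1
    rw [e1, e2, map_mul (epsilonPadic 2), hε, one_mul,
      quadratic_of_trace I' h2 S a ρ hfrob g hv] at h1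
    exact (smul_left_injective O hv0 h1).symm
  let L := FractionRing O
  let e := algebraMap O L
  let R : GQ →* Matrix (Fin 2) (Fin 2) L :=
    e.mapMatrix.toMonoidHom.comp (matrixRep ρ (repBasis ρ))
  have hRtr : ∀ σ, (R σ).trace = e (ρ.trace σ) := fun σ => by
    show ((matrixRep ρ (repBasis ρ) σ).map e).trace = _
    rw [show ρ.trace σ = (matrixRep ρ (repBasis ρ) σ).trace from
      LinearMap.trace_eq_matrix_trace O (repBasis ρ) _]
    exact (AddMonoidHom.map_trace e.toAddMonoidHom _).symm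
  have hinj : Function.Injective e := IsFractionRing.injective O L
  obtain ⟨g₀, h₀, hgh⟩ := hirr
  have h0 : R τ - 1 = 0 := eq_zero_of_trace_mul R ⟨g₀, h₀, fun h => hgh (hinj (by
      rw [map_zero, RingHom.map_det, ← h]
      simp only [R, MonoidHom.comp_apply, RingHom.toMonoidHom_eq_coe, MonoidHom.coe_coe, map_sub,
        map_mul]))⟩ fun g => by
    rw [sub_mul, one_mul, trace_sub, ← map_mul, hRtr, hRtr, htr, sub_self]
  refine Matrix.map_injective hinj ?_
  show R τ = e.mapMatrix 1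
  rw [map_one, ← sub_eq_zero]
  exact h0

set_option linter.unusedSectionVars false in
/-- An eigenvector at a level prime to `b` and an eigen class of the level `b M` killed by both
traces are incompatible. -/
theorem false_of_trace_zero (hbM : ¬ b ∣ M) (hb2 : b ≠ 2)
    (hS : ∀ ℓ : ℕ, ℓ.Prime → ℓ ∣ b * M * 2 → ℓ ∈ S) {r : ℕ} [hr : Fact r.Prime]
    (hr1 : (r : ZMod (b * M)) = 1) (hrS : r ∉ S) (hne : a ⟨r, hr.out⟩ ≠ (r : O) + 1)
    {M₀ : ℕ} (hM : M₀ ∣ M) (c : Coh1 (scalarRep (levelChar (hM.mul_left b) (1 : (ZMod M₀)ˣ →* K)) K))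
    (hc0 : c ≠ 0)
    (hc : ∀ l : Nat.Primes, (l : ℕ) ∉ S → heckeGen _ l c = algebraMap O K (a l) • c)
    (ht : charTrace K hM 1 hbM (hM.mul_left b) c = 0)
    (ht' : charTraceTwist K hM 1 hbM (hM.mul_left b) c = 0)
    (hes' : EichlerShimuraRelations M 2) {v' : Fin (stdInputs hes').model.d → O} (hv0' : v' ≠ 0)
    (hv' : v' ∈ eigenSub (stdInputs hes').model (↑S : Set ℕ) a) : False := by
  classical
  have : NeZero b := ⟨hb.out.ne_zero⟩
  have : NeZero (b * M) := ⟨mul_ne_zero hb.out.ne_zero (NeZero.ne M)⟩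
  have hes : EichlerShimuraRelations (b * M) 2 := eichlerShimuraRelations (b * M) 2
  let ι := padicHom 2 h2
  let ιK : ℤ_[2] →+* K := (algebraMap O K).comp ι
  have hinjK : Function.Injective (algebraMap O K) := IsFractionRing.injective O K
  obtain ⟨A, hA⟩ := Frobenius.exists_liesOverPrime Qbar hb.out
  obtain ⟨φ, hφ⟩ := Frobenius.exists_isFrobeniusAt_qbar hb.out hA
  let Ns : Fin 2 → ℕ := ![M, b * M]
  have : ∀ j, NeZero (Ns j) := fun j => by fin_cases j <;> assumption
  obtain ⟨P₀, hP₀⟩ := exists_poly_tMat (p := 2) Ns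
    (fun j => stdInputs (eichlerShimuraRelations (N := Ns j) (p := 2))) S φ
  have hP := hP₀ 0
  have hP' := hP₀ 1
  -- the class at trivial character
  let e := levelRep_eq (A := K) (hM.mul_left b) (1 : (ZMod M₀)ˣ →* K) rfl
  have hρ0 : scalarRep (levelChar hM (1 : (ZMod M₀)ˣ →* K)) K = trivRep M K K :=
    levelRep_eq hM 1 rfl
  let ρ₀ := scalarRep (levelChar hM (1 : (ZMod M₀)ˣ →* K)) K
  let eq₁ := pullRep_scalarRep K hM (1 : (ZMod M₀)ˣ →* K) (dvd_mul_left M b)
  let u : Coh1 (pullRep ρ₀ (dvd_mul_left M b)) := (castCoh eq₁).symm c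
  have hu0 : u ≠ 0 := fun h => hc0 ((castCoh eq₁).symm.injective (h.trans (map_zero _).symm))
  have hu : ∀ l : Nat.Primes, (l : ℕ) ∉ S → heckeGen _ l u = algebraMap O K (a l) • u := fun l hl => by
    have : Fact (l : ℕ).Prime := ⟨l.2⟩
    show heckeOp _ (l : ℕ) u = _
    rw [← castCoh_symm_heckeOp eq₁ (l : ℕ) c]
    exact (congrArg (castCoh eq₁).symm (hc l hl)).trans (map_smul _ _ _)
  let f : AwayPoly K (↑S : Set ℕ) →ₐ[K] K :=
    MvPolynomial.aeval fun l => algebraMap O K (a (l : Nat.Primes))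
  have hfu : ∀ P, awayIncl K (↑S : Set ℕ) P • u = f P • u := by
    intro P
    induction P using MvPolynomial.induction_on with
    | C z => rw [← MvPolynomial.algebraMap_eq, AlgHom.commutes, algebraMap_smul, AlgHom.commutes]; rfl
    | add P Q hP hQ => rw [map_add, add_smul, hP, hQ, map_add, add_smul]
    | mul_X P l hP =>
      rw [map_mul, mul_smul, awayIncl_X, heckePoly_smul_def _ (MvPolynomial.X (l : Nat.Primes)),
        heckeHom_X, hu l (by simpa using l.2), smul_comm, hP, map_mul, smul_smul,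
        show f (MvPolynomial.X l) = algebraMap O K (a (l : Nat.Primes)) from
          MvPolynomial.aeval_X _ l]
      exact congrArg (· • u) (mul_comm _ _)
  have hbS : ∀ ℓ : ℕ, ℓ.Prime → ℓ ∉ S → ¬ ℓ ∣ b * M * 2 := fun ℓ hℓ h hd => h (hS ℓ hℓ hd)
  have := finite_coh1 (trivRep (b * M) K K)
  have := finite_coh1 (trivRep M K K)
  have hz := pow_smul_eq_zero_trivial_field ιK S goodReductionFacts hbM hb2
    (eichlerShimuraRelations (N := M) (p := 2)) (eichlerShimuraRelations (N := b * M) (p := 2))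
    hbS hrS hr1 hA hφ hP hP' ρ₀ hρ0 le_rfl u
    ((charTrace_eq (A := K) hM 1 hbM (hM.mul_left b) c).symm.trans ht)
    ((charTraceTwist_eq (A := K) hM 1 hbM (hM.mul_left b) c).symm.trans ht')
  rw [← awayIncl_mul_eisen S _ hrS, ← map_pow, hfu] at hz
  have hG := (smul_eq_zero.mp hz).resolve_right hu0
  rw [map_pow, map_mul] at hG
  have hGz := (mul_eq_zero.mp (eq_zero_of_pow_eq_zero hG)).resolve_right (by
    rw [map_sub, awayX, show f (MvPolynomial.X _) = algebraMap O K (a ⟨r, hr.out⟩) from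
      MvPolynomial.aeval_X _ _, show f (MvPolynomial.C ((r : K) + 1)) = (r : K) + 1 from
      MvPolynomial.aeval_C _ _]
    exact fun h0 => hne (hinjK (by rw [map_add, map_natCast, map_one]; exact sub_eq_zero.1 h0)))
  rw [sqPoly, map_sub, map_pow,
    show f (MvPolynomial.C (((b : K) + 1) ^ 2)) = ((b : K) + 1) ^ 2 from MvPolynomial.aeval_C _ _,
    sub_eq_zero] at hGz
  -- the value of the polynomial is the trace at Frobenius
  have : NeZero r := ⟨hr.out.ne_zero⟩
  obtain ⟨d, v, hd, hv0, hvd, hv⟩ := exists_eigenSub_of_class (hr := hr) hes hr1 hrS hne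
    (c := castCoh e c) (fun h => hc0 ((castCoh e).injective (h.trans (map_zero _).symm)))
    (fun l hl => by
      have : Fact (l : ℕ).Prime := ⟨l.2⟩
      show heckeOp _ (l : ℕ) _ = _
      rw [← castCoh_heckeOp e (l : ℕ) c]
      exact (congrArg (castCoh e) (hc l hl)).trans (map_smul _ _ _))
  let fO : AwayPoly O (↑S : Set ℕ) →ₐ[O] O := MvPolynomial.aeval fun l => a (l : Nat.Primes)
  have hval : ∀ {N : ℕ} [NeZero N] (I : RepInputs N 2) {w : Fin I.model.d → O},
      w ∈ eigenSub I.model (↑S : Set ℕ) a → ∀ P : AwayPoly O (↑S : Set ℕ),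
        (latHom I ι S P : Module.End O (Lat I O)) w = fO P • w := by
    intro N _ I w hw P
    induction P using MvPolynomial.induction_on with
    | C z =>
      rw [← MvPolynomial.algebraMap_eq, AlgHom.commutes, AlgHom.commutes]
      rfl
    | add P Q hP hQ =>
      rw [map_add, map_add, Subalgebra.coe_add, LinearMap.add_apply, hP, hQ, add_smul]
    | mul_X P l hP =>
      have hl : latOp I ι S l w = a (l : Nat.Primes) • w := by
        rw [latOp, matEnd_apply, map_heckeMat]
        exact (mem_eigenSub I.model).mp hw _ l.2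
      rw [map_mul, map_mul, Subalgebra.coe_mul, Module.End.mul_apply, latHom_X, hl, LinearMap.map_smul,
        hP, smul_smul, show fO (MvPolynomial.X l) = a (l : Nat.Primes) from MvPolynomial.aeval_X _ l,
        mul_comm]
  have htq : ∀ {N : ℕ} [NeZero N] (I : RepInputs N 2) {w : Fin I.model.d → O},
      w ∈ eigenSub I.model (↑S : Set ℕ) a → matEnd I ι (tMat I φ) w = ρ.trace φ • w := by
    intro N _ I w hw
    rw [← quadratic_of_trace I h2 S a ρ hfrob φ hw, tMat, map_add, LinearMap.add_apply, matEnd_smul,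
      LinearMap.smul_apply]
    rfl
  have htrv : fO (MvPolynomial.map ι P₀) = ρ.trace φ := by
    refine smul_left_injective O hv0 ?_
    show fO _ • v = ρ.trace φ • v
    rw [← hval (stdInputs hes) hv, ← htq (stdInputs hes) hv]
    exact congrArg (fun X : Module.End O (Lat (stdInputs hes) O) => X v)
      (latHom_tMat (stdInputs hes) ι S hP')
  have hfmap : ∀ P : AwayPoly ℤ_[2] (↑S : Set ℕ),
      f (MvPolynomial.map ιK P) = algebraMap O K (fO (MvPolynomial.map ι P)) := by
    intro P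
    induction P using MvPolynomial.induction_on with
    | C z => simp [f, fO, ιK]
    | add P Q hP hQ => simp only [map_add, hP, hQ]
    | mul_X P l hP => simp only [map_mul, hP, MvPolynomial.map_X]; simp [f, fO]
  rw [hfmap, htrv] at hGz
  -- `T_b` on the eigenvector of the lower level
  have hdM : ¬ b ∣ M * 2 := fun h => (hb.out.dvd_mul.mp h).elim hbM
    fun h => hb2 ((Nat.prime_dvd_prime_iff_eq hb.out Nat.prime_two).mp h)
  have hTb := htq (stdInputs hes') hv'
  rw [tMat_frobenius (stdInputs hes') hb.out hdM hA hφ] at hTb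
  set t := algebraMap O K (ρ.trace φ)
  let lam : ℕ → K := fun ℓ => if ℓ = b then t else
    if h : ℓ.Prime then algebraMap O K (a ⟨ℓ, h⟩) else 0
  have hocc : Engine.Occurs K M 1 (S.erase b) lam := by
    refine EigenSystems.occurs_of_mulVec (v := ⇑(algebraMap O K) ∘ v')
      (fun h0 => hv0' (funext fun i => hinjK ((congrFun h0 i).trans (map_zero _).symm)))
      fun ℓ hℓ _ => ?_
    have key : ∀ (x : O), ((stdInputs hes').model.T ℓ).map (Int.cast : ℤ → O) *ᵥ v' = x • v' →
        (HeckeJ0.heckeMatAt M ℓ).map (Int.cast : ℤ → K) *ᵥ (⇑(algebraMap O K) ∘ v') =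
          algebraMap O K x • (⇑(algebraMap O K) ∘ v') := fun x hx => funext fun i => by
      have h := (RingHom.map_mulVec (algebraMap O K)
        (((stdInputs hes').model.T ℓ).map (Int.cast : ℤ → O)) v' i).symm.trans
          (congrArg (algebraMap O K) (congrFun hx i))
      rw [Matrix.map_map,
        show ⇑(algebraMap O K) ∘ (Int.cast : ℤ → O) = (Int.cast : ℤ → K) from
          funext fun z => map_intCast _ z] at h
      exact h.trans (map_mul (algebraMap O K) x (v' i))
    by_cases hlb : (ℓ : ℕ) = b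
    · simp only [lam, if_pos hlb]
      refine key _ ?_
      obtain rfl : ℓ = ⟨b, hb.out⟩ := Subtype.ext hlb
      rw [matEnd_apply] at hTb
      exact Eq.trans (congrArg (· *ᵥ v') (map_heckeMat (stdInputs hes').model ι _).symm) hTb
    · simp only [lam, if_neg hlb, dif_pos ℓ.2]
      exact key _ ((mem_eigenSub _).mp hv' ℓ (by simpa [hlb] using hℓ))
  obtain ⟨c', hc0', hc'⟩ := hocc
  revert hc' hc0' c'
  rw [show scalarRep (1 : (ZMod M)ˣ →* K) K = trivRep M K K from
    Engine.Lifting.scalarRep_one]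
  intro c' hc0' hc'
  obtain ⟨g, hg, hg'⟩ := exists_poly_sq_forms hb.out hbM
  have hr1' : (r : ZMod M) = 1 := by
    have := congrArg (ZMod.castHom (dvd_mul_left M b) (ZMod M)) hr1
    rwa [map_natCast, map_one] at this
  have h0 := HeckeSemisimple.aeval_eisen_smul_eq_zero (ρ := trivRep M K K) (fun _ => rfl) hbM hg'
    hr1' c'
  have hrb : (r : ℕ) ≠ b := fun h => hrS (h ▸ hS b hb.out ((dvd_mul_right b M).mul_right 2))
  have her : eisen K r • c' = (algebraMap O K (a ⟨r, hr.out⟩) - ((r : K) + 1)) • c' := by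
    rw [eisen_smul, hc' r (fun h => hrS (Finset.mem_of_mem_erase h))
      (fun h => hrS (hS r hr.out ((h.mul_left b).mul_right 2))), ← sub_smul]
    simp only [lam, if_neg hrb, dif_pos hr.out]
  have hTc : heckeOp (trivRep M K K) b c' = t • c' := by
    rw [hc' b (Finset.notMem_erase b S) hbM]
    simp only [lam, if_pos rfl]
  have hT : ∀ q : Polynomial ℤ,
      Polynomial.aeval (heckeOp (trivRep M K K) b) q c' = Polynomial.aeval t q • c' := by
    intro q
    induction q using Polynomial.induction_on' with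
    | add p q hp hq => rw [map_add, LinearMap.add_apply, hp, hq, map_add, add_smul]
    | monomial n z =>
      rw [Polynomial.aeval_monomial, Polynomial.aeval_monomial, Module.End.mul_apply,
        Module.algebraMap_end_eq_smul_id, LinearMap.smul_apply, LinearMap.id_apply]
      have hpow : ∀ k : ℕ, (heckeOp (trivRep M K K) b ^ k) c' = t ^ k • c' := fun k => by
        induction k with
        | zero => rw [pow_zero, pow_zero, one_smul, Module.End.one_apply]
        | succ k ih => rw [pow_succ, Module.End.mul_apply, hTc, map_smul, ih, smul_smul,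
            pow_succ, mul_comm]
      rw [hpow, algebraMap_int_eq, eq_intCast, mul_smul, Int.cast_smul_eq_zsmul]
  rw [her, map_smul, hT, smul_smul, smul_eq_zero, or_iff_left hc0', mul_eq_zero] at h0
  refine hg ?_
  have hk : algebraMap O K (a ⟨r, hr.out⟩) - ((r : K) + 1) ≠ 0 := fun h => hne (hinjK (by
    rw [map_add, map_natCast, map_one]; exact sub_eq_zero.1 h))
  have h := h0.resolve_left hk
  rw [Polynomial.aeval_comp, map_pow, Polynomial.aeval_X, hGz,
    show ((b : K) + 1) ^ 2 = algebraMap ℤ K (((b : ℤ) + 1) ^ 2) by simp,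
    Polynomial.aeval_algebraMap_apply_eq_algebraMap_eval] at h
  simpa using h

/-- **Signed new at one prime.** -/
theorem isSignedNewAt_of_class (hbM : ¬ b ∣ M) (hb2 : b ≠ 2) (h2S : 2 ∈ S)
    (hS : ∀ ℓ : ℕ, ℓ.Prime → ℓ ∣ b * M → ℓ ∈ S) {r : ℕ} [hr : Fact r.Prime]
    (hr1 : (r : ZMod (b * M)) = 1) (hrS : r ∉ S) (hne : a ⟨r, hr.out⟩ ≠ (r : O) + 1)
    {M₀ : ℕ} (hM : M₀ ∣ M) (c : Coh1 (scalarRep (levelChar (hM.mul_left b) (1 : (ZMod M₀)ˣ →* K)) K))
    (hc0 : c ≠ 0)
    (hc : ∀ l : Nat.Primes, (l : ℕ) ∉ S → heckeGen _ l c = algebraMap O K (a l) • c)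
    {W : Finset ℕ} (hW : IsALPrimes (b * M) W) (hbW : b ∈ W) (hbM₀ : b.Coprime M₀)
    (s : ℤ) (hs : s = 1 ∨ s = -1)
    (hw : alOp K hW hbW (hM.mul_left b) 1 hbM₀ 1 c = -((s : K) • c))
    (hnew : charTrace K hM 1 hbM (hM.mul_left b) c = 0 ∨
      ∃ A : ValuationSubring Qbar, A.LiesOverPrime b ∧ ∃ τ ∈ A.inertiaSubgroupIn ℚ,
        (matrixRep ρ (repBasis ρ) τ).map (residue O) ≠ 1) :
    IsSignedNewAt ρ b s := by
  classical
  have : NeZero b := ⟨hb.out.ne_zero⟩
  have : NeZero (b * M) := ⟨mul_ne_zero hb.out.ne_zero (NeZero.ne M)⟩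
  have : NeZero (M * b) := ⟨mul_ne_zero (NeZero.ne M) hb.out.ne_zero⟩
  have hes : EichlerShimuraRelations (M * b) 2 := eichlerShimuraRelations (M * b) 2
  have hes' : EichlerShimuraRelations M 2 := eichlerShimuraRelations M 2
  have hS2 : ∀ ℓ : ℕ, ℓ.Prime → ℓ ∣ b * M * 2 → ℓ ∈ S := fun ℓ hℓ h => by
    rcases hℓ.dvd_mul.mp h with h | h
    · exact hS ℓ hℓ h
    · exact (Nat.prime_dvd_prime_iff_eq hℓ Nat.prime_two).mp h ▸ h2S
  obtain ⟨v₀, hv₀, hv₀e, hv₀w⟩ := exists_signed_eigenvector (mul_comm b M) hbM hes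
    (padicHom 2 h2) S a hr1 hrS hne (hM.mul_left b) hW hbW hbM₀ c hc0 hc s hw
  rcases exists_poly_or_eigenSub (stdInputs hes').model (↑S : Set ℕ) a with
    ⟨P, hP, hPa⟩ | ⟨v', hv0', hv'⟩
  · refine isSignedNewAt_of_eigen hbM hb2 (stdInputs hes) (stdInputs hes') h2 S (fun ℓ hℓ h => ?_)
      a ρ hdet hfrob hirr s hs hv₀ hv₀e hv₀w hP hPa
    refine ⟨fun hd => h (hS2 ℓ hℓ (by rwa [mul_comm b M])), fun hd => h (hS2 ℓ hℓ ?_)⟩
    exact hd.trans (by rw [mul_assoc]; exact dvd_mul_left _ _)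
  · exfalso
    rcases hnew with ht | ⟨A, hA, τ, hτ, hτ1⟩
    · refine false_of_trace_zero S a ρ h2 hdet hfrob hirr hbM hb2 hS2 hr1 hrS hne hM c hc0 hc ht
        ?_ hes' hv0' hv'
      have h := charTrace_eq_wSelf hbM hM (hM.mul_left b) (1 : (ZMod M₀)ˣ →* K) rfl c
      rw [show wSelf K hbM hM (hM.mul_left b) 1 c = -((s : K) • c) from hw, map_neg, map_smul,
        ht, neg_eq_zero, smul_eq_zero] at h
      refine h.resolve_left ?_
      rcases hs with rfl | rfl <;> norm_num
    · refine hτ1 ?_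
      rw [matrixRep_inertia_eq_one S a ρ h2 hdet hfrob hirr hbM hb2 (stdInputs hes') hv0' hv' hA hτ]
      exact Matrix.map_one _ (map_zero _) (map_one _)

end Main

end Fermat.Agent.TwoAdic.TSide

end
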