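import Fermat.Agent.TwoAdic.Pair.Cond
import Fermat.Agent.Deform.Twist
import Fermat.Agent.Deform.TWInertia
import Fermat.Agent.EigenRep.Cyclotomic
import Fermat.Agent.Engine.TRep.TwistChain
import Fermat.Agent.EigenRep.CoeffRing

/-!
# Twisting a representation by a character of finite level

The twist of `ρ` by `η : GQ →* Aˣ` of finite level, its determinant, trace, residual representation
and local conditions; the characters built from characters of `(ℤ/q)ˣ` at a finite set of primes.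
-/

set_option autoImplicit false

noncomputable section

namespace Fermat.Agent.TwoAdic.TSide

open IsLocalRing Fermat.Agent.DefRing Fermat.Agent.Deform

local notation "Ω" => AlgebraicClosure ℚ
local notation "GQ" => (AlgebraicClosure ℚ) ≃ₐ[ℚ] (AlgebraicClosure ℚ)

/-- A character trivial on the Galois group of a number field. -/
def HasFiniteLevel {G : Type} [Group G] (η : GQ →* G) : Prop :=
  ∃ L : IntermediateField ℚ Ω, FiniteDimensional ℚ L ∧ ∀ σ : GQ, (∀ x ∈ L, σ x = x) → η σ = 1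

variable {A : Type} [CommRing A] [IsLocalRing A] (ρ : GaloisRepAdic A) {η : GQ →* Aˣ}
  (hη : HasFiniteLevel η)

include hη in
theorem isCont_galTwist : IsCont (twistMat η (matrixRep ρ (repBasis ρ))) := by
  obtain ⟨L, hL, h1⟩ := hη
  refine isCont_twistMat (fun n => ⟨L, hL, fun σ hσ => ?_⟩) ⟨fun _ h => h⟩
    (isCont_matrixRep ρ (repBasis ρ))
  rw [h1 σ hσ, Units.val_one, sub_self]
  exact Submodule.zero_mem _

/-- The twist. -/
def galTwist : GaloisRepAdic A :=
  toAdic (twistMat η (matrixRep ρ (repBasis ρ))) (isCont_galTwist ρ hη)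

/-- The space of the twist is the space of `ρ`. -/
def galTwistEquiv : ρ.V ≃ₗ[A] (galTwist ρ hη).V := (repBasis ρ).equivFun

/-- Transport of endomorphisms. -/
def galTwistConj : Module.End A ρ.V ≃ₐ[A] Module.End A (galTwist ρ hη).V :=
  (galTwistEquiv ρ hη).conjAlgEquiv A

theorem galTwist_apply (σ : GQ) :
    (galTwist ρ hη).ρ σ = (η σ : A) • galTwistConj ρ hη (ρ.ρ σ) := by
  have key : ∀ x : Fin 2 → A,
      Matrix.mulVec ((η σ : A) • LinearMap.toMatrix (repBasis ρ) (repBasis ρ) (ρ.ρ σ)) x =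
      (η σ : A) • (repBasis ρ).equivFun (ρ.ρ σ ((repBasis ρ).equivFun.symm x)) := fun x => by
    rw [Matrix.smul_mulVec]
    congr 1
    conv_lhs => rw [← (repBasis ρ).equivFun.apply_symm_apply x]
    exact LinearMap.toMatrix_mulVec_repr (repBasis ρ) (repBasis ρ) (ρ.ρ σ) _
  exact LinearMap.ext key

theorem det_galTwist (σ : GQ) :
    LinearMap.det ((galTwist ρ hη).ρ σ) = (η σ : A) ^ 2 * LinearMap.det (ρ.ρ σ) := by
  rw [galTwist_apply, LinearMap.det_smul, (galTwist ρ hη).finrank_eq]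
  congr 1
  exact LinearMap.det_conj _ (galTwistEquiv ρ hη)

theorem trace_galTwist (σ : GQ) : (galTwist ρ hη).trace σ = (η σ : A) * ρ.trace σ := by
  show LinearMap.trace A _ ((galTwist ρ hη).ρ σ) = _
  rw [galTwist_apply, map_smul, smul_eq_mul]
  congr 1
  exact LinearMap.trace_conj' _ (galTwistEquiv ρ hη)

theorem charpoly_galTwist {σ : GQ} (h : η σ = 1) :
    LinearMap.charpoly ((galTwist ρ hη).ρ σ) = LinearMap.charpoly (ρ.ρ σ) := by
  rw [galTwist_apply, h, Units.val_one, one_smul]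
  exact LinearEquiv.charpoly_conj (galTwistEquiv ρ hη) _

theorem det_galTwist_of_sq (hsq : ∀ σ, η σ ^ 2 = 1) (σ : GQ) :
    LinearMap.det ((galTwist ρ hη).ρ σ) = LinearMap.det (ρ.ρ σ) := by
  rw [det_galTwist, ← Units.val_pow_eq_pow_val, hsq, Units.val_one, one_mul]

theorem detIsCyclotomic_galTwist (hsq : ∀ σ, η σ ^ 2 = 1) {p : ℕ} (h : ρ.DetIsCyclotomic p) :
    (galTwist ρ hη).DetIsCyclotomic p :=
  ⟨h.1, fun n σ a hμ => det_galTwist_of_sq ρ hη hsq σ ▸ h.2 n σ a hμ⟩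

theorem isUnramifiedAt_galTwist {q : ℕ} (h : ρ.IsUnramifiedAt q)
    (hq : ∀ P : ValuationSubring Ω, P.LiesOverPrime q → ∀ τ ∈ P.inertiaSubgroupIn ℚ, η τ = 1) :
    (galTwist ρ hη).IsUnramifiedAt q := fun P hP τ hτ => by
  rw [galTwist_apply, hq P hP τ hτ, h P hP τ hτ, map_one, Units.val_one, one_smul]

theorem isUnipotentOnInertiaAt_galTwist {q : ℕ} (h : ρ.IsUnipotentOnInertiaAt q)
    (hq : ∀ P : ValuationSubring Ω, P.LiesOverPrime q → ∀ τ ∈ P.inertiaSubgroupIn ℚ, η τ = 1) :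
    (galTwist ρ hη).IsUnipotentOnInertiaAt q := fun P hP τ hτ => by
  rw [charpoly_galTwist ρ hη (hq P hP τ hτ)]
  exact h P hP τ hτ

/-- With residue field of characteristic two a character of square one is residually trivial. -/
theorem residue_eq_one_of_sq (h2 : (2 : A) ∈ maximalIdeal A) {u : Aˣ} (h : u ^ 2 = 1) :
    residue A (u : A) = 1 := by
  have h' : residue A (u : A) ^ 2 = 1 := by
    rw [← map_pow, ← Units.val_pow_eq_pow_val, h, Units.val_one, map_one]
  have h20 : (2 : ResidueField A) = 0 := by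
    rw [← map_ofNat (residue A) 2]; exact (residue_eq_zero_iff _).mpr h2
  have h3 : (residue A (u : A) - 1) ^ 2 = 0 := by
    linear_combination h' + (1 - residue A (u : A)) * h20
  exact sub_eq_zero.mp (pow_eq_zero_iff two_ne_zero |>.mp h3)

theorem residual_isEquiv_galTwist (hres : ∀ σ, residue A (η σ : A) = 1) {k : Type} [Field k]
    {ρbar : ResidualGaloisRep k} {ψ : k →+* ResidueField A}
    (h : ρ.residual.IsEquiv (ρbar.baseChangeAlong ψ)) :
    (galTwist ρ hη).residual.IsEquiv (ρbar.baseChangeAlong ψ) := by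
  have b₀ : Module.Basis (Fin 2) k ρbar.V := Module.finBasisOfFinrankEq k _ ρbar.finrank_eq
  obtain ⟨g, hg⟩ := (residual_isEquiv_baseChangeAlong_iff ρ (repBasis ρ) ρbar b₀ ψ).mp h
  refine (residual_isEquiv_baseChangeAlong_iff _ (toAdicBasis _ (isCont_galTwist ρ hη)) ρbar b₀ ψ).mpr
    ⟨g, fun σ => ?_⟩
  have e : matrixRep (galTwist ρ hη) (toAdicBasis _ (isCont_galTwist ρ hη)) σ =
      twistMat η (matrixRep ρ (repBasis ρ)) σ :=
    DFunLike.congr_fun (matrixRep_toAdic _ (isCont_galTwist ρ hη)) σ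
  simp only [galTwist] at e
  rw [e, twistMat_apply]
  convert hg σ using 2
  ext i j
  simp [hres σ]

/-- Ordinarity at `2`, with the unit root scaled. -/
theorem isOrdinary_galTwist {α : A} (h : Pair.IsOrdinary ρ α)
    (h2 : ∀ P : ValuationSubring Ω, P.LiesOverPrime 2 → ∀ τ ∈ P.inertiaSubgroupIn ℚ, η τ = 1)
    {e : A} (he : ∀ P : ValuationSubring Ω, P.LiesOverPrime 2 →
      ∀ φ : GQ, P.IsFrobeniusAt φ 2 → (η φ : A) = e) :
    Pair.IsOrdinary (galTwist ρ hη) (e * α) := by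
  intro P hP φ hφ n n' τ hτ τ' hτ'
  have hv : ∀ (m : ℕ) {g : GQ}, g ∈ P.inertiaSubgroupIn ℚ → (η (φ ^ m * g) : A) = e ^ m :=
    fun m g hg => by
      rw [map_mul, map_pow, h2 P hP g hg, mul_one, Units.val_pow_eq_pow_val, he P hP φ hφ]
  set c := galTwistConj ρ hη with hc
  rw [galTwist_apply, galTwist_apply, ← galTwist_apply ρ hη (φ ^ n' * τ'), det_galTwist,
    galTwist_apply, hv n hτ, hv n' hτ', ← hc]
  have h' := congrArg c (h P hP φ hφ n n' τ hτ τ' hτ')
  generalize ρ.ρ (φ ^ n' * τ') = R' at h' ⊢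
  generalize ρ.ρ (φ ^ n * τ) = R at h' ⊢
  simp only [map_mul, map_sub, map_smul, map_one, map_zero] at h'
  calc _ = ((e ^ n') ^ 2 * e ^ n) • ((α ^ n' • c R' -
        LinearMap.det R' • 1) * (c R - α ^ n • 1)) := by
        rw [mul_pow, mul_pow]
        simp only [mul_sub, sub_mul, smul_mul_assoc, mul_smul_comm, smul_sub, smul_smul,
          mul_one, one_mul]
        module
    _ = 0 := by rw [h', smul_zero]

/-- The signed new condition, with the sign scaled. -/
theorem isSignedNewAt_galTwist {q : ℕ} {s e : ℤ} (h : IsSignedNewAt ρ q s)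
    (hq : ∀ P : ValuationSubring Ω, P.LiesOverPrime q → ∀ τ ∈ P.inertiaSubgroupIn ℚ, η τ = 1)
    (he : ∀ P : ValuationSubring Ω, P.LiesOverPrime q →
      ∀ φ : GQ, P.IsFrobeniusAt φ q → (η φ : A) = e) :
    IsSignedNewAt (galTwist ρ hη) q (e * s) := by
  intro P hP φ hφ
  obtain ⟨htr, hin⟩ := h P hP φ hφ
  have heφ := he P hP φ hφ
  refine ⟨by rw [trace_galTwist, htr, heφ, Int.cast_mul, mul_assoc], fun τ hτ => ?_⟩
  obtain ⟨h1, h2, h3⟩ := hin τ hτ
  have hητ := hq P hP τ hτ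
  refine ⟨by rw [trace_galTwist, h1, hητ, Units.val_one, one_mul], ?_, ?_⟩
  all_goals rw [galTwist_apply, galTwist_apply, hητ, Units.val_one, one_smul, heφ, Int.cast_mul]
  · have h' := congrArg (galTwistConj ρ hη) h2
    simp only [map_mul, map_sub, map_smul, map_one, map_zero] at h'
    rw [mul_assoc, ← smul_smul, ← smul_sub, smul_mul_assoc, h', smul_zero]
  · have h' := congrArg (galTwistConj ρ hη) h3
    simp only [map_mul, map_sub, map_smul, map_one, map_zero] at h'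
    rw [← smul_smul, ← smul_sub, mul_smul_comm, h', smul_zero]

section Char

variable {R : Type} [CommRing R]

/-- The cyclotomic character modulo `q` at a Frobenius element. -/
theorem cycloMod_frobenius {q : ℕ} (hq : q.Prime) {c : GQ →* (ZMod q)ˣ} (hc : IsCycloMod q c)
    {ℓ : ℕ} (hℓ : ℓ.Prime) (hℓq : ℓ ≠ q) {P : ValuationSubring Ω} (hP : P.LiesOverPrime ℓ)
    {φ : GQ} (hφ : P.IsFrobeniusAt φ ℓ) :
    c φ = ZMod.unitOfCoprime ℓ ((Nat.coprime_primes hℓ hq).mpr hℓq) := by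
  have : Fact q.Prime := ⟨hq⟩
  have : NeZero q := ⟨hq.ne_zero⟩
  have : NeZero (q : Ω) := ⟨Nat.cast_ne_zero.mpr hq.ne_zero⟩
  obtain ⟨ζ, hζ⟩ := HasEnoughRootsOfUnity.exists_primitiveRoot Ω q
  have h1 := EigenRep.toZModPow_epsilon_eq (p := q) (n := 1) (m := ((c φ : ZMod q)).val)
    (by rw [pow_one]; exact hζ) (hc φ ζ hζ.pow_eq_one)
  rw [EigenRep.toZModPow_epsilon_frobenius hℓ hℓq hP hφ 1, ZMod.natCast_eq_natCast_iff,
    pow_one] at h1
  refine Units.ext ?_
  rw [ZMod.coe_unitOfCoprime, ← ZMod.natCast_zmod_val ((c φ : ZMod q)),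
    (ZMod.natCast_eq_natCast_iff _ _ _).mpr h1]

/-- A character built from characters of `(ℤ/q)ˣ` at finitely many primes. -/
theorem exists_galChar (Q : Finset ℕ) (hQ : ∀ q ∈ Q, q.Prime) (ψ : ∀ q : ℕ, (ZMod q)ˣ →* Rˣ) :
    ∃ η : GQ →* Rˣ, HasFiniteLevel η ∧
      (∀ ℓ : ℕ, ℓ.Prime → ℓ ∉ Q → ∀ P : ValuationSubring Ω, P.LiesOverPrime ℓ →
        ∀ τ ∈ P.inertiaSubgroupIn ℚ, η τ = 1) ∧
      (∀ ℓ : ℕ, ℓ.Prime → ℓ ∉ Q → ∀ P : ValuationSubring Ω, P.LiesOverPrime ℓ →
        ∀ φ : GQ, P.IsFrobeniusAt φ ℓ → η φ = Engine.TRep.charProd ψ Q ℓ) ∧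
      ((∀ q ∈ Q, ∀ u, ψ q u ^ 2 = 1) → ∀ σ, η σ ^ 2 = 1) := by
  classical
  induction Q using Finset.induction_on with
  | empty =>
    exact ⟨1, ⟨⊥, inferInstance, fun _ _ => rfl⟩, fun _ _ _ _ _ _ _ => rfl,
      fun _ _ _ _ _ _ _ => by simp [Engine.TRep.charProd], fun _ _ => one_pow _⟩
  | insert q Q hqQ ih =>
    obtain ⟨η, ⟨L, hL, hlev⟩, hin, hfr, hsq⟩ := ih fun x hx => hQ x (Finset.mem_insert_of_mem hx)
    have hq := hQ q (Finset.mem_insert_self q Q)
    have : NeZero q := ⟨hq.ne_zero⟩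
    have : NeZero (q : Ω) := ⟨Nat.cast_ne_zero.mpr hq.ne_zero⟩
    obtain ⟨ζ, hζ⟩ := HasEnoughRootsOfUnity.exists_primitiveRoot Ω q
    obtain ⟨c, hc⟩ := exists_isCycloMod q
    have : Algebra.IsAlgebraic ℚ Ω := AlgebraicClosure.isAlgebraic ℚ
    have : FiniteDimensional ℚ (IntermediateField.adjoin ℚ {ζ}) :=
      IntermediateField.adjoin.finiteDimensional (Algebra.IsIntegral.isIntegral ζ)
    refine ⟨(ψ q).comp c * η, ⟨L ⊔ IntermediateField.adjoin ℚ {ζ},
      IntermediateField.finiteDimensional_sup _ _, fun σ hσ => ?_⟩, fun ℓ hℓ hℓQ P hP τ hτ => ?_,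
      fun ℓ hℓ hℓQ P hP φ hφ => ?_, fun hψ σ => ?_⟩
    · rw [MonoidHom.mul_apply, MonoidHom.comp_apply, (hc.eq_one_iff hζ σ).mpr (hσ ζ
        (le_sup_right (a := L) (IntermediateField.mem_adjoin_simple_self ℚ ζ))), map_one, one_mul]
      exact hlev σ fun x hx => hσ x (le_sup_left (a := L) hx)
    · rw [Finset.mem_insert, not_or] at hℓQ
      rw [MonoidHom.mul_apply, MonoidHom.comp_apply, (hc.eq_one_iff hζ τ).mpr
        (EllLocal.inertia_rootOfUnity hℓ hP
          (fun h => hℓQ.1 ((Nat.prime_dvd_prime_iff_eq hℓ hq).mp h)) hτ hζ.pow_eq_one),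
        map_one, one_mul]
      exact hin ℓ hℓ hℓQ.2 P hP τ hτ
    · rw [Finset.mem_insert, not_or] at hℓQ
      rw [MonoidHom.mul_apply, MonoidHom.comp_apply, cycloMod_frobenius hq hc hℓ hℓQ.1 hP hφ,
        hfr ℓ hℓ hℓQ.2 P hP φ hφ, Engine.TRep.charProd, Engine.TRep.charProd,
        Finset.prod_insert hqQ, Engine.TRep.charAt, dif_pos ((Nat.coprime_primes hℓ hq).mpr hℓQ.1)]
    · rw [MonoidHom.mul_apply, mul_pow, MonoidHom.comp_apply, hψ q (Finset.mem_insert_self q Q),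
        hsq (fun x hx => hψ x (Finset.mem_insert_of_mem hx)) σ, one_mul]

end Char

end Fermat.Agent.TwoAdic.TSide

end
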