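import Fermat.Agent.TwoAdic.TSide.PointSystem
import Fermat.Agent.TwoAdic.TSide.Attached
import Fermat.Agent.TwoAdic.TSide.GalTwist
import Fermat.Agent.TwoAdic.TSide.FieldLattice
import Fermat.Agent.SquareOld.NonEisenstein
import Fermat.Agent.XHLite.Twist.Monodromy

/-!
# The trace of inertia at an auxiliary prime at a point

For a point of the ring of a new quotient and any representation with cyclotomic determinant, a
non-scalar image and the traces of the point, inertia at `q ∈ Q` has trace `ψ_q + ψ_q⁻¹`.  When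
`ψ_q` has trivial square at the point this is the unipotence at a prime exactly dividing the
level; otherwise it is the principal series case, the system keeping the character at `q`.
-/

set_option autoImplicit false

noncomputable section

open IsLocalRing

namespace Fermat.Agent.TwoAdic.TSide

open HeckeModule EigenSystems Engine.TRep HeckeJ0 LevelRaising DefRing Deform EigenRep

local notation "Qbar" => AlgebraicClosure ℚ
local notation "GQ" => (AlgebraicClosure ℚ) ≃ₐ[ℚ] (AlgebraicClosure ℚ)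

attribute [local instance] ALSetup.isPrime

/-- The characters at `Q'` removed, those at `Q₀` kept: only non-trivial squares are needed. -/
theorem exists_twistKeep_ne {K : Type} [Field K] [CharZero K] (ψ : ∀ q : ℕ, (ZMod q)ˣ →* K)
    (Q₀ Q' : Finset ℕ) : ∀ (M M' : ℕ) [NeZero M], M' = M * ∏ q ∈ Q', q →
    (∀ q ∈ Q₀ ∪ Q', q.Prime ∧ q ∣ M ∧ ¬ q * q ∣ M) → Disjoint Q₀ Q' →
    (∀ q ∈ Q', ψ q ^ 2 ≠ 1) →
    ∃ Φ : Coh1 (scalarRep (charSq ψ (Q₀ ∪ Q') M) K) →ₗ[K] Coh1 (scalarRep (charSq ψ Q₀ M') K),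
      Function.Injective Φ ∧ ∀ (ℓ : ℕ) [Fact ℓ.Prime], ¬ ℓ ∣ M' → ∀ u,
        Φ (heckeOp _ ℓ u) = charProd ψ Q' ℓ • heckeOp _ ℓ (Φ u) := by
  classical
  induction Q' using Finset.induction_on with
  | empty =>
    intro M M' _ hM' _ _ _
    obtain rfl : M' = M := by rw [hM', Finset.prod_empty, mul_one]
    rw [Finset.union_empty]
    exact ⟨LinearMap.id, fun _ _ h => h, fun ℓ _ _ u => by
      rw [charProd, Finset.prod_empty, one_smul]; rfl⟩
  | insert q Q hqQ ih =>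
    intro M M' _ hM' hQ hdisj hne
    have hq0 : q ∉ Q₀ := Finset.disjoint_right.mp hdisj (Finset.mem_insert_self q Q)
    obtain ⟨hqp, ⟨N, rfl⟩, hq2⟩ := hQ q (Finset.mem_union_right _ (Finset.mem_insert_self q Q))
    revert hq2 hM'
    rw [mul_comm q N]
    intro hM' hq2
    have := Fact.mk hqp
    have : NeZero q := ⟨hqp.ne_zero⟩
    have : NeZero N := ⟨fun h => NeZero.ne (q * N) (by rw [h, mul_zero])⟩
    have hqN : ¬ q ∣ N := fun h => hq2 (mul_dvd_mul_right h q)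
    have hqU : q ∉ Q₀ ∪ Q := by rw [Finset.mem_union, not_or]; exact ⟨hq0, hqQ⟩
    have hdvd : ∀ q' ∈ Q₀ ∪ Q, q'.Prime ∧ q' ∣ N ∧ ¬ q' * q' ∣ N * q * q := fun q' hq' => by
      obtain ⟨hp', hd', hd2⟩ := hQ q' (by
        rw [Finset.union_insert]; exact Finset.mem_insert_of_mem hq')
      have hne' : ¬ q' ∣ q := fun h => hqU ((Nat.prime_dvd_prime_iff_eq hp' hqp).mp h ▸ hq')
      have hcop : Nat.Coprime q' q := (Nat.Prime.coprime_iff_not_dvd hp').mpr hne'
      rw [mul_comm q N] at hd' hd2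
      refine ⟨hp', hcop.dvd_of_dvd_mul_right hd', fun h => hd2 (dvd_mul_of_dvd_left ?_ q)⟩
      exact (hcop.mul_left hcop).dvd_of_dvd_mul_right ((hcop.mul_left hcop).dvd_of_dvd_mul_right h)
    have hins : ∀ q' ∈ insert q (Q₀ ∪ Q), q' ∣ N * q := fun q' h => by
      rcases Finset.mem_insert.mp h with rfl | h
      · exact dvd_mul_left _ _
      · exact (hdvd q' h).2.1.mul_right q
    have hprod : M' = N * q * q * ∏ x ∈ Q, x := by rw [hM', Finset.prod_insert hqQ]; ring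
    have hχ : TwistChar (charSq ψ (insert q (Q₀ ∪ Q)) (N * q)) (charSq ψ (Q₀ ∪ Q) (N * q * q))
        (ψ q) (dvd_mul_left q N) (dvd_refl (N * q * q)) := fun u => by
      rw [charSq_unitsMap ψ hins, charSq_apply, charSq_apply, Finset.prod_insert hqU, mul_comm]
      congr 2
      rw [charOn, dif_pos (dvd_mul_left q _)]
      rfl
    obtain ⟨Φ, hi, hΦ⟩ := ih (N * q * q) M' hprod
      (fun q' h => ⟨(hdvd q' h).1, ((hdvd q' h).2.1.mul_right q).mul_right q, (hdvd q' h).2.2⟩)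
      (hdisj.mono_right (Finset.subset_insert _ _))
      (fun q' h => hne q' (Finset.mem_insert_of_mem h))
    have hinj : Function.Injective (twist K hχ) :=
      twist_injective hχ hqN (hne q (Finset.mem_insert_self q Q)) fun u hu => by
        rw [← charSq_unitsMap ψ (fun q' h => (hdvd q' h).2.1)
          ((dvd_mul_right N q).trans (dvd_mul_right (N * q) q)), hu, map_one]
    rw [Finset.union_insert]
    refine ⟨Φ.comp (twist K hχ), hi.comp hinj, fun ℓ _ hℓ u => ?_⟩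
    have hℓ' : ¬ ℓ ∣ N * q * q := fun h => hℓ (h.trans ⟨_, hprod⟩)
    have hne' : ℓ ≠ q := fun h => hℓ' (by rw [h]; exact dvd_mul_left q _)
    rw [LinearMap.comp_apply, LinearMap.comp_apply, twist_heckeOp hχ hne' (fun h => absurd h hℓ'),
      map_smul, hΦ ℓ hℓ, smul_smul, charProd, charProd, Finset.prod_insert hqQ,
      Engine.Lifting.charAt_of_coprime ψ hne']

section Trace

variable {p : ℕ} [Fact p.Prime] {O : Type} [CommRing O] [IsDomain O] [IsDiscreteValuationRing O]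
  [IsAdicComplete (maximalIdeal O) O] [Finite (ResidueField O)] [CharZero O]

/-- Trace two on inertia at a prime exactly dividing the level, for any representation with the
traces of an eigenvector. -/
theorem trace_eq_two_of_eigenSub (hp : (p : O) ∈ maximalIdeal O) {N q : ℕ} [NeZero (N * q)]
    (hq : q.Prime) (hqN : ¬ q ∣ N) (hqp : q ≠ p) (hes : EichlerShimuraRelations (N * q) p)
    (S : Finset ℕ) (hpS : p ∈ S) (hS : ∀ r : ℕ, r.Prime → r ∣ N * q → r ∈ S) (a : Nat.Primes → O)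
    (hne : ∃ v, v ≠ 0 ∧ v ∈ eigenSub (Engine.TRep.stdInputs hes).model (↑S : Set ℕ) a)
    (ρ : GaloisRepAdic O)
    (hρ : ∀ (ℓ : ℕ) (hℓ : ℓ.Prime), ℓ ∉ S → ∀ A : ValuationSubring Qbar, A.LiesOverPrime ℓ →
      ∀ σ : GQ, A.IsFrobeniusAt σ ℓ → ρ.trace σ = a ⟨ℓ, hℓ⟩)
    {A : ValuationSubring Qbar} (hA : A.LiesOverPrime q) {σ : GQ}
    (hσ : σ ∈ A.inertiaSubgroupIn ℚ) : ρ.trace σ = 2 := by
  classical
  let I := Engine.TRep.stdInputs hes
  obtain ⟨t, hrel, htfrob⟩ := exists_adic_relation I hp S a hne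
  obtain ⟨O₂, i₁, i₂, i₃, i₄, i₅, i₆, i₇, i₈, i₉, hinj, ρ₂, htrace, -, -⟩ :=
    exists_galoisRepAdic_of_relation I hp S a hne t hrel
  have hbc : ∀ g, (ρ.baseChangeAlong (algebraMap O O₂) i₉).trace g =
      algebraMap O O₂ (ρ.trace g) := fun g => by
    let := (algebraMap O O₂).toAlgebra
    exact LinearMap.trace_baseChange (ρ.ρ g) O₂
  have heq := Chebotarev.trace_eq_of_frobenius ρ₂ (ρ.baseChangeAlong (algebraMap O O₂) i₉) S
    (fun ℓ hℓ hℓS P hP τ hτ => by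
      rw [hbc, hρ ℓ hℓ hℓS P hP τ hτ, htrace, htfrob ℓ hℓ hℓS (fun h => ?_) P hP τ hτ]
      rcases (Nat.Prime.dvd_mul hℓ).mp h with h | h
      · exact hℓS (hS ℓ hℓ h)
      · exact hℓS ((Nat.prime_dvd_prime_iff_eq hℓ Fact.out).mp h ▸ hpS)) σ
  rw [htrace, hbc] at heq
  rw [← hinj heq]
  have : Fact q.Prime := ⟨hq⟩
  have : NeZero N := ⟨fun h => hqN (h ▸ dvd_zero q)⟩
  obtain ⟨v, hv0, hv⟩ := hne
  have h2 := hrel σ v hv
  rw [show (epsilonPadic p σ : ℤ_[p]) = 1 by rw [epsilon_inertia hq hqp hA hσ, Units.val_one],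
    map_one, one_smul] at h2
  let ι := padicHom p hp
  refine trace_two_of_unipotent (A := (galMat I.model σ).map ι)
    (B := (galMat I.model σ⁻¹).map ι) ?_ ?_ hv0 h2
  · rw [← Matrix.map_mul, ← map_mul, inv_mul_cancel, map_one,
      Matrix.map_one ι (map_zero ι) (map_one ι)]
  · have := congrArg ι.mapMatrix (galMat_unipotent_of_exact_dvd hqN hqp I hA hσ)
    simpa only [map_mul, map_sub, map_one, map_zero, RingHom.mapMatrix_apply] using this

omit [IsAdicComplete (maximalIdeal O) O] [Finite (ResidueField O)] [CharZero O] in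
/-- An invertible commutator leaves no stable line. -/
theorem no_line_of_commutator (ρ : GaloisRepAdic O)
    (h : ∃ g h, (matrixRep ρ (repBasis ρ) g * matrixRep ρ (repBasis ρ) h -
      matrixRep ρ (repBasis ρ) h * matrixRep ρ (repBasis ρ) g).det ≠ 0)
    (v : ρ.V) (hv : v ≠ 0) : ∃ σ, ∀ c d : O, c • ρ.ρ σ v = d • v → c = 0 := by
  classical
  by_contra hcon
  push Not at hcon
  choose c d hcd hc using hcon
  obtain ⟨g, h, hdet⟩ := h
  have := Module.Free.of_basis (repBasis ρ)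
  have key : (c g * c h) • ((ρ.ρ g * ρ.ρ h - ρ.ρ h * ρ.ρ g) v) = 0 := by
    rw [LinearMap.sub_apply, Module.End.mul_apply, Module.End.mul_apply, smul_sub]
    conv_lhs => arg 1; rw [mul_smul, ← map_smul (ρ.ρ g), hcd h, map_smul, smul_comm, hcd g]
    conv_lhs =>
      arg 2
      rw [mul_comm (c g), mul_smul, ← map_smul (ρ.ρ h), hcd g, map_smul, smul_comm, hcd h]
    rw [smul_comm, sub_self]
  rw [smul_eq_zero_iff_right (mul_ne_zero (hc g) (hc h))] at key
  have h1 : Matrix.mulVec (matrixRep ρ (repBasis ρ) g * matrixRep ρ (repBasis ρ) h -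
      matrixRep ρ (repBasis ρ) h * matrixRep ρ (repBasis ρ) g) ((repBasis ρ).repr v) = 0 := by
    simp only [matrixRep_apply, ← LinearMap.toMatrix_mul, ← map_sub]
    rw [LinearMap.toMatrix_mulVec_repr, key, map_zero, Finsupp.coe_zero]
  have h2 := Matrix.eq_zero_of_mulVec_eq_zero hdet h1
  exact hv ((repBasis ρ).repr.map_eq_zero_iff.mp (DFunLike.coe_injective h2))

end Trace

variable {R : Type} [CommRing R] [IsLocalRing R] [IsNoetherianRing R]
  [IsAdicComplete (maximalIdeal R) R] [IsReduced R] [Module.IsTorsionFree ℤ R] (T : ALSetup R)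
  {S : Finset ℕ} {ψ : ∀ q : ℕ, (ZMod q)ˣ →* R} {Q V B : Finset ℕ}
  {O' : Type} [CommRing O'] [IsDomain O'] [IsDiscreteValuationRing O']
  [IsAdicComplete (maximalIdeal O') O'] [Finite (ResidueField O')] [CharZero O']

/-- Products of inverse characters over a difference. -/
theorem charProd_inv_sdiff {A : Type} [CommRing A] (ψ : ∀ q : ℕ, (ZMod q)ˣ →* A) {Q Q' : Finset ℕ}
    (h : Q' ⊆ Q) (ℓ : ℕ) :
    charProd ψ (Q \ Q') ℓ * charProd (fun q => (ψ q).comp invMonoidHom) Q ℓ =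
      charProd (fun q => (ψ q).comp invMonoidHom) Q' ℓ := by
  classical
  have e : charProd (fun q => (ψ q).comp invMonoidHom) Q ℓ =
      charProd (fun q => (ψ q).comp invMonoidHom) (Q \ Q') ℓ *
        charProd (fun q => (ψ q).comp invMonoidHom) Q' ℓ :=
    (Finset.prod_sdiff h).symm
  rw [e, ← mul_assoc, mul_comm (charProd ψ _ _), charProd_inv_mul, one_mul]

/-- **The trace of inertia at an auxiliary prime at a point.** -/
theorem trace_inertia_of_point (H : PointHyp T S ψ Q V)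
    [Module.Finite R (T.NewQuot R H.subset B)]
    (φ : NewRing T H.subset B →+* O') (h2 : ((2 : ℕ) : O') ∈ maximalIdeal O')
    (ρ : GaloisRepAdic O') (hdet : ρ.DetIsCyclotomic 2)
    (htr : ∀ (ℓ : ℕ) (hℓ : ℓ.Prime) (hℓS : ℓ ∉ T.S), ℓ ≠ 2 → ∀ P : ValuationSubring Qbar,
      P.LiesOverPrime ℓ → ∀ σ : GQ, P.IsFrobeniusAt σ ℓ →
        ρ.trace σ = ptBase T H.subset φ (charProd (fun x => (ψ x).comp invMonoidHom) Q ℓ) *
          φ (Ideal.Quotient.mk _ (MvPolynomial.X ⟨⟨ℓ, hℓ⟩, hℓS⟩)))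
    (hirr : ∃ g h, (matrixRep ρ (repBasis ρ) g * matrixRep ρ (repBasis ρ) h -
      matrixRep ρ (repBasis ρ) h * matrixRep ρ (repBasis ρ) g).det ≠ 0)
    {q : ℕ} (hq : q ∈ Q) (hq2 : q ≠ 2) {P : ValuationSubring Qbar} (hP : P.LiesOverPrime q)
    {σ : GQ} (hσ : σ ∈ P.inertiaSubgroupIn ℚ) {e : (ZMod q)ˣ}
    (he : ∀ μ : Qbar, μ ^ q = 1 → σ μ = μ ^ (e : ZMod q).val) :
    ρ.trace σ = ptBase T H.subset φ (ψ q e + ψ q e⁻¹) := by
  classical
  have : Fact (Nat.Prime 2) := ⟨Nat.prime_two⟩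
  have : NeZero (T.level V) := ⟨T.level_ne_zero H.subset⟩
  set θ := ptBase T H.subset φ with hθdef
  set Q' := ptSupport T H.subset φ ψ Q with hQ'def
  let K := FractionRing O'
  have : CharZero K := charZero_of_injective_algebraMap (IsFractionRing.injective O' K)
  set ψK : ∀ x : ℕ, (ZMod x)ˣ →* K := ptChar ψ θ with hψKdef
  have hQ'sub : Q' ⊆ Q := sqSupport_subset _ Q
  obtain ⟨hqpr, hqd, hqq⟩ := H.exact_dvd q hq
  have := Fact.mk hqpr
  have : NeZero q := ⟨hqpr.ne_zero⟩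
  let ψO : ∀ x : ℕ, (ZMod x)ˣ →* O'ˣ := fun x => (θ.toMonoidHom.comp (ψ x)).toHomUnits
  have hψO : ∀ (Q₁ : Finset ℕ) (ℓ : ℕ),
      ((charProd ψO Q₁ ℓ : O'ˣ) : O') = θ (charProd ψ Q₁ ℓ) := fun Q₁ ℓ =>
    (charProd_map ψO (Units.coeHom O') Q₁ ℓ).symm.trans (charProd_map ψ θ.toMonoidHom Q₁ ℓ)
  have hsq : ∀ x ∈ Q \ Q', ∀ u, ψO x u ^ 2 = 1 := fun x hx u => by
    obtain ⟨hx1, hx2⟩ := Finset.mem_sdiff.mp hx
    have h := DFunLike.congr_fun (sq_eq_one_of_notMem_sqSupport ψK hx1 hx2) u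
    refine Units.ext (IsFractionRing.injective O' K ?_)
    rw [Units.val_pow_eq_pow_val, map_pow, Units.val_one, map_one]
    exact h
  set S' := insert 2 S with hS'def
  have h2S : 2 ∈ S' := Finset.mem_insert_self _ _
  have hQS : ∀ x ∈ Q, x ∈ S := fun x hx =>
    H.mem_S x (H.exact_dvd x hx).1 (H.exact_dvd x hx).2.1
  have hnot : ∀ {ℓ : ℕ}, ℓ ∉ S' → ℓ ∉ T.S ∧ ℓ ∉ Q ∧ ℓ ≠ 2 := fun {ℓ} h => by
    rw [hS'def, Finset.mem_insert, not_or] at h
    exact ⟨by rw [H.S_eq]; simpa using h.2, fun hQ => h.2 (hQS ℓ hQ), h.1⟩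
  obtain ⟨c, hc⟩ := exists_isCycloMod q
  have hce : c σ = e := by
    have : NeZero (q : Qbar) := ⟨Nat.cast_ne_zero.mpr hqpr.ne_zero⟩
    obtain ⟨ζ, hζ⟩ := HasEnoughRootsOfUnity.exists_primitiveRoot Qbar q
    refine Units.ext ?_
    rw [← ZMod.natCast_zmod_val ((c σ : ZMod q)), hζ.pow_inj (ZMod.val_lt _) (ZMod.val_lt _)
      ((hc σ ζ hζ.pow_eq_one).symm.trans (he ζ hζ.pow_eq_one)), ZMod.natCast_zmod_val]
  -- the eigenvalues of a twist of `ρ` with trivial square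
  let a : Nat.Primes → O' := sysVal T H.subset φ ψ Q
  have htwist : ∀ (η : GQ →* O'ˣ) (hη : HasFiniteLevel η),
      (∀ ℓ : ℕ, ℓ.Prime → ℓ ∉ S' → ∀ A : ValuationSubring Qbar, A.LiesOverPrime ℓ →
        ∀ τ : GQ, A.IsFrobeniusAt τ ℓ → (η τ : O') = θ (charProd ψ (Q \ Q') ℓ)) →
      ∀ (ℓ : ℕ) (hℓ : ℓ.Prime), ℓ ∉ S' → ∀ A : ValuationSubring Qbar, A.LiesOverPrime ℓ →
        ∀ τ : GQ, A.IsFrobeniusAt τ ℓ → (galTwist ρ hη).trace τ = a ⟨ℓ, hℓ⟩ :=
    fun η hη hval ℓ hℓ hℓS A hA τ hτ => by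
      rw [trace_galTwist, hval ℓ hℓ hℓS A hA τ hτ,
        htr ℓ hℓ (hnot hℓS).1 (hnot hℓS).2.2 A hA τ hτ, ← mul_assoc, ← map_mul,
        charProd_inv_sdiff ψ hQ'sub]
      show _ = sysVal T H.subset φ ψ Q _
      unfold sysVal
      rw [dif_neg (show ((⟨ℓ, hℓ⟩ : Nat.Primes) : ℕ) ∉ T.S from (hnot hℓS).1)]
  -- not Eisenstein
  have hnonEis : ∀ (η : GQ →* O'ˣ) (hη : HasFiniteLevel η), (∀ τ, η τ ^ 2 = 1) →
      (∀ (ℓ : ℕ) (hℓ : ℓ.Prime), ℓ ∉ S' → ∀ A : ValuationSubring Qbar, A.LiesOverPrime ℓ →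
        ∀ τ : GQ, A.IsFrobeniusAt τ ℓ → (galTwist ρ hη).trace τ = a ⟨ℓ, hℓ⟩) →
      Engine.IsAttachedSystem O' 2 (galTwist ρ hη) S'
          (fun ℓ => if h : ℓ.Prime then a ⟨ℓ, h⟩ else 0) ∧
        ∀ m : ℕ, 0 < m → ∃ ℓ : ℕ, ℓ.Prime ∧ ℓ ∉ S' ∧ (ℓ : ZMod m) = 1 ∧
          (if h : ℓ.Prime then a ⟨ℓ, h⟩ else 0) ≠ (ℓ : O') + 1 := fun η hη hη2 hfr => by
    have hatt : Engine.IsAttachedSystem O' 2 (galTwist ρ hη) S'
        (fun ℓ => if h : ℓ.Prime then a ⟨ℓ, h⟩ else 0) :=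
      ⟨detIsCyclotomic_galTwist ρ hη hη2 hdet, fun ℓ hℓ hℓS A hA τ hτ => by
        simp only [dif_pos hℓ]; exact hfr ℓ hℓ hℓS A hA τ hτ⟩
    refine ⟨hatt, SquareOld.exists_prime_eigen_ne hatt (fun v hv => ?_) h2S⟩
    obtain ⟨τ, hτ⟩ := no_line_of_commutator ρ hirr ((galTwistEquiv ρ hη).symm v)
      (fun h => hv ((galTwistEquiv ρ hη).symm.map_eq_zero_iff.mp h))
    refine ⟨τ, fun x y hxy => ?_⟩
    have h3 := congrArg (galTwistEquiv ρ hη).symm hxy
    rw [galTwist_apply, LinearMap.smul_apply, map_smul, map_smul, map_smul, smul_smul] at h3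
    have h4 : (x * (η τ : O')) • ρ.ρ τ ((galTwistEquiv ρ hη).symm v) =
        y • (galTwistEquiv ρ hη).symm v := by
      rw [← h3]
      congr 1
      exact ((galTwistEquiv ρ hη).symm_apply_apply _).symm
    exact (mul_eq_zero.mp (hτ _ _ h4)).resolve_right (η τ).ne_zero
  by_cases hqQ' : q ∈ Q'
  · -- the principal series case
    obtain ⟨η, hη, hηin, hηfr, hη2⟩ := exists_galChar (Q \ Q')
      (fun x hx => (H.aux x (Finset.mem_sdiff.mp hx).1).1) ψO
    have hfr := htwist η hη fun ℓ hℓ hℓS A hA τ hτ => by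
      rw [hηfr ℓ hℓ (fun h => (hnot hℓS).2.1 (Finset.mem_sdiff.mp h).1) A hA τ hτ, hψO]
    obtain ⟨hatt, hne⟩ := hnonEis η hη (hη2 hsq) hfr
    -- the class keeping the character at `q`
    obtain ⟨b, -, hb⟩ := Nat.exists_infinite_primes 2
    have := Fact.mk hb
    obtain ⟨u, hu0, hu, -, -⟩ := exists_eigen_class T H ((algebraMap O' K).comp φ)
      ((algebraMap O' K).comp θ) rfl b
    have hchar : levelChar (T.dvd_level V) (((algebraMap O' K).comp θ : R →* K).comp T.χ) =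
        charSq ψK ({q} ∪ Q'.erase q) (T.level V) := by
      rw [← Finset.insert_eq, Finset.insert_erase hqQ',
        show charSq ψK Q' (T.level V) = charSq ψK Q (T.level V) from charSq_sqSupport ψK Q _,
        show ψK = fun x => ((algebraMap O' K).comp θ).toMonoidHom.comp (ψ x) from rfl,
        charSq_map ψ ((algebraMap O' K).comp θ).toMonoidHom Q (T.level V), ← H.char_eq]
      rfl
    have hsub : ∀ x ∈ ({q} ∪ Q'.erase q : Finset ℕ), x ∈ Q := fun x hx => by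
      rcases Finset.mem_union.mp hx with h | h
      · exact Finset.mem_singleton.mp h ▸ hq
      · exact hQ'sub (Finset.mem_of_mem_erase h)
    obtain ⟨k₀, hk₀⟩ := hqd
    set N := k₀ * ∏ x ∈ Q'.erase q, x with hN
    have hN0 : N ≠ 0 := by
      refine mul_ne_zero (fun h => NeZero.ne (T.level V) (by rw [hk₀, h, mul_zero])) ?_
      exact Finset.prod_ne_zero_iff.mpr fun x hx =>
        (H.aux x (hQ'sub (Finset.mem_of_mem_erase hx))).1.ne_zero
    have : NeZero N := ⟨hN0⟩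
    have hpr : ∀ ℓ : ℕ, ℓ.Prime → ℓ ∣ ∏ x ∈ Q'.erase q, x → ℓ ∈ Q'.erase q := fun ℓ hℓ h => by
      obtain ⟨x, hx, hd⟩ := (Prime.dvd_finsetProd_iff hℓ.prime _).mp h
      rw [(Nat.prime_dvd_prime_iff_eq hℓ (H.aux x (hQ'sub (Finset.mem_of_mem_erase hx))).1).mp hd]
      exact hx
    have hNS : ∀ ℓ : ℕ, ℓ.Prime → ℓ ∣ N → ℓ ∈ S' := fun ℓ hℓ h => Finset.mem_insert_of_mem (by
      rcases (Nat.Prime.dvd_mul hℓ).mp h with h | h
      · exact H.mem_S ℓ hℓ (hk₀ ▸ h.mul_left q)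
      · exact hQS ℓ (hQ'sub (Finset.mem_of_mem_erase (hpr ℓ hℓ h))))
    have hqN : ¬ q ∣ N := fun h => by
      rcases (Nat.Prime.dvd_mul hqpr).mp h with h | h
      · exact hqq (hk₀ ▸ mul_dvd_mul_left q h)
      · exact Finset.ne_of_mem_erase (hpr q hqpr h) rfl
    have hex := exists_twistKeep_ne ψK {q} (Q'.erase q) (T.level V) (N * q)
      (by rw [hN, hk₀]; ring) (fun x hx => H.exact_dvd x (hsub x hx))
      (Finset.disjoint_singleton_left.mpr (Finset.notMem_erase q Q'))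
      (fun x hx => sq_ne_one_of_mem_sqSupport ψK (Q := Q) (Finset.mem_of_mem_erase hx))
    obtain ⟨Φ, hinj, hΦ⟩ := hex
    have ec := congrArg (fun χ => scalarRep χ K) hchar
    let ψu : (ZMod q)ˣ →* O'ˣ := ψO q
    let lam : ℕ → O' := fun ℓ => if h : ℓ.Prime ∧ ℓ ∉ T.S then
      θ (charProd (fun x => (ψ x).comp invMonoidHom) (Q'.erase q) ℓ) *
        φ (Ideal.Quotient.mk _ (MvPolynomial.X ⟨⟨ℓ, h.1⟩, h.2⟩)) else 0
    have hcharq : charSq ψK {q} (N * q) =
        ((algebraMap O' K).toMonoidHom.comp (Units.coeHom O')).comp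
          ((ψu ^ 2).comp (ZMod.unitsMap (dvd_mul_left q N))) := MonoidHom.ext fun v => by
      rw [charSq_apply, Finset.prod_singleton, charOn, dif_pos (dvd_mul_left q N)]
      show algebraMap O' K (θ (ψ q _)) ^ 2 = algebraMap O' K ((ψu _ ^ 2 : O'ˣ) : O')
      rw [Units.val_pow_eq_pow_val, map_pow]
      rfl
    have hψne : ψu ^ 2 ≠ 1 := fun h => sq_ne_one_of_mem_sqSupport ψK (Q := Q) hqQ'
      (MonoidHom.ext fun v => by
        show algebraMap O' K (ψu v : O') ^ 2 = 1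
        rw [← map_pow, ← Units.val_pow_eq_pow_val, ← MonoidHom.pow_apply, h,
          MonoidHom.one_apply, Units.val_one, map_one])
    have hocc : Engine.Occurs K (N * q) (charSq ψK {q} (N * q)) S'
        (fun ℓ => algebraMap O' K (lam ℓ)) := by
      refine ⟨Φ (castCoh ec u), fun h0 => hu0 ((castCoh ec).injective
        ((hinj (h0.trans (map_zero Φ).symm)).trans (map_zero _).symm)), fun ℓ hℓ hℓS hℓd => ?_⟩
      have hℓT := (hnot hℓS).1
      have h1 := hΦ ℓ hℓd (castCoh ec u)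
      have h3 : heckeOp _ ℓ (castCoh ec u) =
          algebraMap O' K (φ (Ideal.Quotient.mk _ (MvPolynomial.X ⟨⟨ℓ, hℓ.out⟩, hℓT⟩))) •
            castCoh ec u := by
        rw [← castCoh_heckeOp ec ℓ u]
        exact (congrArg (castCoh ec) (hu ⟨⟨ℓ, hℓ.out⟩, hℓT⟩)).trans (map_smul _ _ _)
      rw [h3, map_smul, show charProd ψK (Q'.erase q) ℓ = algebraMap O' K (θ (charProd ψ (Q'.erase q) ℓ))
        from charProd_ptChar ψ θ _ _] at h1
      simp only [lam, dif_pos (show ℓ.Prime ∧ ℓ ∉ T.S from ⟨hℓ.out, hℓT⟩)]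
      rw [map_mul, mul_smul, h1, smul_smul, ← map_mul, ← map_mul, charProd_inv_mul, map_one,
        map_one, one_smul]
    rw [hcharq] at hocc
    have h := XHLite.nebentypusInertia O' 2 N q ψu hψne hqpr hq2 hqN S' lam
      (fun ℓ => if h : ℓ.Prime then a ⟨ℓ, h⟩ else 0) (galTwist ρ hη)
      (Finset.mem_insert_of_mem (hQS q hq)) h2S hNS hocc (fun ℓ hcop hℓ hℓS => ?_) hatt hne
      P hP σ hσ e he
    · rw [trace_galTwist, hηin q hqpr (fun h => (Finset.mem_sdiff.mp h).2 hqQ') P hP σ hσ,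
        Units.val_one, one_mul] at h
      rw [h, map_add, MonoidHom.inv_apply, ← map_inv]
      rfl
    · have hℓT := (hnot hℓS).1
      simp only [lam, dif_pos hℓ, dif_pos (show ℓ.Prime ∧ ℓ ∉ T.S from ⟨hℓ, hℓT⟩), a]
      unfold sysVal
      rw [dif_neg (show ((⟨ℓ, hℓ⟩ : Nat.Primes) : ℕ) ∉ T.S from hℓT)]
      show θ _ * _ * θ (ψ q (ZMod.unitOfCoprime ℓ hcop)) = _
      rw [mul_right_comm, ← map_mul]
      congr 2
      rw [charProd, charProd, ← Finset.mul_prod_erase Q' _ hqQ', charAt, dif_pos hcop,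
        mul_right_comm, MonoidHom.comp_apply, ← map_mul]
      simp
  · -- the unipotent case
    obtain ⟨η₁, ⟨L₁, hL₁, hη₁lev⟩, hη₁in, hη₁fr, hη₁2⟩ := exists_galChar ((Q \ Q').erase q)
      (fun x hx => (H.aux x (Finset.mem_sdiff.mp (Finset.mem_of_mem_erase hx)).1).1) ψO
    have hqmem : q ∈ Q \ Q' := Finset.mem_sdiff.mpr ⟨hq, hqQ'⟩
    have : NeZero (q : Qbar) := ⟨Nat.cast_ne_zero.mpr hqpr.ne_zero⟩
    obtain ⟨ζ, hζ⟩ := HasEnoughRootsOfUnity.exists_primitiveRoot Qbar q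
    have : Algebra.IsAlgebraic ℚ Qbar := AlgebraicClosure.isAlgebraic ℚ
    have : FiniteDimensional ℚ (IntermediateField.adjoin ℚ {ζ}) :=
      IntermediateField.adjoin.finiteDimensional (Algebra.IsIntegral.isIntegral ζ)
    let η : GQ →* O'ˣ := (ψO q).comp c * η₁
    have hη : HasFiniteLevel η := ⟨L₁ ⊔ IntermediateField.adjoin ℚ {ζ},
      IntermediateField.finiteDimensional_sup _ _, fun τ hτ => by
        rw [MonoidHom.mul_apply, MonoidHom.comp_apply, (hc.eq_one_iff hζ τ).mpr (hτ ζ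
          (le_sup_right (a := L₁) (IntermediateField.mem_adjoin_simple_self ℚ ζ))), map_one,
          one_mul]
        exact hη₁lev τ fun x hx => hτ x (le_sup_left (a := L₁) hx)⟩
    have hη2 : ∀ τ, η τ ^ 2 = 1 := fun τ => by
      rw [MonoidHom.mul_apply, mul_pow, MonoidHom.comp_apply, hsq q hqmem,
        hη₁2 (fun x hx => hsq x (Finset.mem_of_mem_erase hx)) τ, one_mul]
    have hfr := htwist η hη fun ℓ hℓ hℓS A hA τ hτ => by
      have hℓq : ℓ ≠ q := fun h => (hnot hℓS).2.1 (h ▸ hq)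
      rw [MonoidHom.mul_apply, MonoidHom.comp_apply, cycloMod_frobenius hqpr hc hℓ hℓq hA hτ,
        hη₁fr ℓ hℓ (fun h => (hnot hℓS).2.1 (Finset.mem_sdiff.mp (Finset.mem_of_mem_erase h)).1)
          A hA τ hτ, Units.val_mul, hψO]
      show θ (ψ q _) * _ = _
      rw [← map_mul, charProd, charProd, ← Finset.mul_prod_erase (Q \ Q') _ hqmem, charAt,
        dif_pos ((Nat.coprime_primes hℓ hqpr).mpr hℓq)]
    obtain ⟨-, hne⟩ := hnonEis η hη hη2 hfr
    obtain ⟨k₀, hk₀⟩ := hqd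
    set M := k₀ * ∏ x ∈ Q', x with hM
    have hL : T.level V * ∏ x ∈ Q', x = M * q := by rw [hM, hk₀]; ring
    have hpr : ∀ ℓ : ℕ, ℓ.Prime → ℓ ∣ ∏ x ∈ Q', x → ℓ ∈ Q' := fun ℓ hℓ h => by
      obtain ⟨x, hx, hd⟩ := (Prime.dvd_finsetProd_iff hℓ.prime _).mp h
      rw [(Nat.prime_dvd_prime_iff_eq hℓ (H.aux x (hQ'sub hx)).1).mp hd]
      exact hx
    have hqM : ¬ q ∣ M := fun h => by
      rcases (Nat.Prime.dvd_mul hqpr).mp h with h | h
      · exact hqq (hk₀ ▸ mul_dvd_mul_left q h)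
      · exact hqQ' (hpr q hqpr h)
    have : NeZero (M * q) := ⟨hL ▸ mul_ne_zero (NeZero.ne _)
      (Finset.prod_ne_zero_iff.mpr fun x hx => (H.aux x (hQ'sub hx)).1.ne_zero)⟩
    have hMS : ∀ r : ℕ, r.Prime → r ∣ M * q → r ∈ S' := fun r hr h => by
      rw [← hL] at h
      refine Finset.mem_insert_of_mem ?_
      rcases (Nat.Prime.dvd_mul hr).mp h with h | h
      · exact H.mem_S r hr h
      · exact hQS r (hQ'sub (hpr r hr h))
    have hsys : ∃ u : Coh1 (trivRep (M * q) K K), u ≠ 0 ∧ ∀ l : Nat.Primes, (l : ℕ) ∉ S' →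
        heckeGen _ l u = algebraMap O' K (a l) • u := by
      rw [← hL]
      obtain ⟨u, hu0, hu⟩ := exists_system T K H φ
      exact ⟨u, hu0, fun l hl => hu l fun h => hl (Finset.mem_insert_of_mem h)⟩
    obtain ⟨u, hu0, hu⟩ := hsys
    obtain ⟨r, hr, hrS, hr1, hrne⟩ := hne (M * q) (Nat.pos_of_ne_zero (NeZero.ne _))
    have := Fact.mk hr
    rw [dif_pos hr] at hrne
    obtain ⟨b, v, -, hv0, -, hv⟩ := exists_eigenSub_of_class (p := 2)
      (SemistableRed.allRelations (M * q) 2) hr1 hrS hrne hu0 hu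
    have h := trace_eq_two_of_eigenSub h2 hqpr hqM hq2 _ S' h2S hMS a ⟨v, hv0, hv⟩
      (galTwist ρ hη) hfr hP hσ
    rw [trace_galTwist, MonoidHom.mul_apply,
      hη₁in q hqpr (Finset.notMem_erase q _) P hP σ hσ, mul_one, MonoidHom.comp_apply, hce] at h
    change θ (ψ q e) * ρ.trace σ = 2 at h
    have he2 : θ (ψ q e) * θ (ψ q e) = 1 := by
      have := congrArg Units.val (hsq q hqmem e)
      rwa [Units.val_pow_eq_pow_val, sq, Units.val_one] at this
    have hinv : θ (ψ q e⁻¹) = θ (ψ q e) := by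
      have h1 : θ (ψ q e) * θ (ψ q e⁻¹) = 1 := by
        rw [← map_mul, ← map_mul, mul_inv_cancel, map_one, map_one]
      calc θ (ψ q e⁻¹) = θ (ψ q e) * θ (ψ q e) * θ (ψ q e⁻¹) := by rw [he2, one_mul]
        _ = θ (ψ q e) := by rw [mul_assoc, h1, mul_one]
    rw [map_add, hinv]
    linear_combination θ (ψ q e) * h - ρ.trace σ * he2

/-- The determinant form of `DetIsCyclotomic`. -/
theorem detIsCyclotomic_of_det_eq_adic {p : ℕ} [Fact p.Prime] {O : Type} [CommRing O] [IsDomain O]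
    [IsDiscreteValuationRing O] [IsAdicComplete (maximalIdeal O) O]
    (hp : (p : O) ∈ maximalIdeal O) {ρ : GaloisRepAdic O}
    (h : ∀ σ, LinearMap.det (ρ.ρ σ) = padicHom p hp (epsilonPadic p σ : ℤ_[p])) :
    ρ.DetIsCyclotomic p := by
  refine ⟨hp, fun n σ a ha => ?_⟩
  obtain ⟨ζ, hζ⟩ := exists_primitiveRoot (p := p) n
  have hz : PadicInt.toZModPow n (epsilonPadic p σ : ℤ_[p]) =
      PadicInt.toZModPow n (a : ℤ_[p]) := by
    rw [toZModPow_epsilon_eq hζ (ha ζ hζ.pow_eq_one), map_natCast]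
  obtain ⟨c, hc⟩ := sub_mem_span_pow (padicHom p hp) hz
  rw [map_natCast] at hc
  rw [h, hc, add_sub_cancel_left, Nat.cast_pow]
  exact Ideal.mul_mem_right _ _ (Ideal.mem_span_singleton_self _)

end Fermat.Agent.TwoAdic.TSide

end
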