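import Fermat.Agent.TwoAdic.TSide.PointPair
import Fermat.Agent.TwoAdic.TSide.TameTrace

/-!
# Pairs of points with the traces of tame inertia

From residual membership in the prime of the setup: the residual values of a point, and the pair
of a point with the exact traces of inertia at the auxiliary primes.
-/

set_option autoImplicit false

noncomputable section

open IsLocalRing Module

namespace Fermat.Agent.TwoAdic.TSide

open HeckeModule EigenSystems Engine.TRep HeckeJ0 LevelRaising Fermat.Agent.EigenRep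
  Fermat.Agent.DefRing Fermat.Agent.Deform

attribute [local instance] ALSetup.isPrime

local notation "Ω" => AlgebraicClosure ℚ
local notation "GQ" => (AlgebraicClosure ℚ) ≃ₐ[ℚ] (AlgebraicClosure ℚ)

/-- The determinant of a commutator in traces. -/
theorem two_mul_det_commutator {A : Type*} [CommRing A] (N : MonoidHom GQ (Matrix (Fin 2) (Fin 2) A))
    (g h : GQ) : 2 * (N g * N h - N h * N g).det =
      -((N (g * h * g * h)).trace - (N (g * h * h * g)).trace - (N (h * g * g * h)).trace +
        (N (h * g * h * g)).trace) := by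
  simp only [map_mul]
  generalize N g = X
  generalize N h = Y
  simp only [Matrix.det_fin_two, Matrix.trace_fin_two, Matrix.mul_apply, Fin.sum_univ_two,
    Matrix.sub_apply]
  ring

variable {R : Type} [CommRing R] [IsLocalRing R] (T : ALSetup R) {V B : Finset ℕ}
  {O' : Type} [CommRing O'] [IsDomain O'] [IsLocalRing O'] [Finite (ResidueField O')]

omit [IsDomain O'] in
/-- A point into a finite residue field kills the prime of the setup residually. -/
theorem residue_point_eq_zero (hV : V ⊆ T.W) [Module.Finite R (T.NewQuot R hV B)]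
    (φ : NewRing T hV B →+* O') {a : AwayPoly R T.S} (ha : a ∈ T.m) :
    residue O' (φ (Ideal.Quotient.mk _ a)) = 0 := by
  have : Nontrivial (T.NewQuot R hV B) := by
    by_contra hn
    rw [not_nontrivial_iff_subsingleton] at hn
    have : Subsingleton (Module.End R (T.NewQuot R hV B)) :=
      ⟨fun f g => LinearMap.ext fun x => Subsingleton.elim _ _⟩
    have h10 : (1 : NewRing T hV B) = 0 := newRingAct_injective T hV B (Subsingleton.elim _ _)
    simpa using congrArg φ h10
  obtain ⟨hloc, hunit⟩ := isLocalRing_newRing T hV (B := B)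
  have := hloc
  let f : NewRing T hV B →+* ResidueField O' := (residue O').comp φ
  have : (RingHom.ker f).IsPrime := RingHom.ker_isPrime f
  have : Finite (NewRing T hV B ⧸ RingHom.ker f) :=
    Finite.of_injective _ (RingHom.kerLift_injective f)
  have : (RingHom.ker f).IsMaximal :=
    Ideal.Quotient.maximal_of_isField _ (Finite.isField_of_domain (NewRing T hV B ⧸ RingHom.ker f))
  have hmem : Ideal.Quotient.mk (RingHom.ker (T.newAct R hV B)) a ∈
      maximalIdeal (NewRing T hV B) := fun hu => (hunit a).mp hu ha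
  rwa [← eq_maximalIdeal (inferInstance : (RingHom.ker f).IsMaximal), RingHom.mem_ker] at hmem

omit [IsDomain O'] in
/-- Characters congruent to one are residually trivial at a point. -/
theorem residue_point_char (hV : V ⊆ T.W) [Module.Finite R (T.NewQuot R hV B)]
    (φ : NewRing T hV B →+* O') (ψ : ∀ q : ℕ, (ZMod q)ˣ →* R) {q : ℕ} {u : (ZMod q)ˣ}
    (h : ψ q u - 1 ∈ maximalIdeal R) : residue O' (ptBase T hV φ (ψ q u)) = 1 := by
  have h1 := residue_point_eq_zero T hV φ
    (T.le (Ideal.mem_map_of_mem MvPolynomial.C h))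
  rw [MvPolynomial.C_sub, MvPolynomial.C_1, map_sub, map_sub, map_sub, map_one, map_one, map_one,
    sub_eq_zero] at h1
  exact h1

variable [Fact (Nat.Prime 2)] {O : Type} [CommRing O] [IsDomain O] [IsDiscreteValuationRing O]
  [IsAdicComplete (maximalIdeal O) O] [Finite (ResidueField O)] [CharP (ResidueField O) 2]
  {D : NormalData O} {E : LiftData} {C : Set (GQ × GQ)}

/-- **The pair of a point, with the traces of inertia at the auxiliary primes.** -/
theorem exists_pointPair_tame {R : Type} [CommRing R] [IsLocalRing R] [IsNoetherianRing R]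
    [IsAdicComplete (maximalIdeal R) R] [IsReduced R] [Module.IsTorsionFree ℤ R] [Algebra O R]
    (T : ALSetup R) {S : Finset ℕ} {ψ : ∀ q : ℕ, (ZMod q)ˣ →* R} {Q V B : Finset ℕ}
    {O' : Type} [CommRing O'] [IsDomain O'] [IsDiscreteValuationRing O']
    [IsAdicComplete (maximalIdeal O') O'] [Finite (ResidueField O')] [CharZero O']
    [Algebra O O'] [Module.Finite O O'] [IsLocalHom (algebraMap O O')]
    (H : PointHyp T S ψ Q V) (P : PairHyp D E C T ψ S Q V B)
    [Module.Finite R (T.NewQuot R H.subset B)]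
    (φ : NewRing T H.subset B →ₐ[O] O')
    (hψ : ∀ q ∈ Q, ∀ u, residue O' (ptBase T H.subset (φ : NewRing T H.subset B →+* O') (ψ q u)) = 1)
    (htr : ∀ (l : AwayIndex T.S), ((l : Nat.Primes) : ℕ) ≠ 2 → ∀ A : ValuationSubring Ω,
      A.LiesOverPrime ((l : Nat.Primes) : ℕ) → ∀ σ : GQ,
        A.IsFrobeniusAt σ ((l : Nat.Primes) : ℕ) →
          residue O' (φ (Ideal.Quotient.mk _ (MvPolynomial.X l))) =
            ResidueField.map (algebraMap O O') (D.rbar σ).trace)
    (ha2 : ∀ h : ((twoPrime : Nat.Primes) : ℕ) ∉ T.S,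
      residue O' (φ (Ideal.Quotient.mk _ (MvPolynomial.X ⟨twoPrime, h⟩))) = 1) :
    ∃ (O₂ : Type) (_ : CommRing O₂) (_ : IsDomain O₂) (_ : IsDiscreteValuationRing O₂)
      (_ : IsAdicComplete (maximalIdeal O₂) O₂) (_ : Finite (ResidueField O₂)) (_ : CharZero O₂)
      (_ : Algebra O O₂) (_ : Module.Finite O O₂) (_ : IsLocalHom (algebraMap O O₂))
      (ι : O' →ₐ[O] O₂),
      Function.Injective ι ∧
      ∃ (N : MRep (smallResidue O O₂)) (α₀ : smallResidue O O₂),
        Pair.IsPair D E Q C inferInstance (residue_surjective_smallResidue (𝒪 := O) (A := O₂)) N α₀ ∧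
        (∀ (l : AwayIndex T.S), ((l : Nat.Primes) : ℕ) ≠ 2 → ∀ A : ValuationSubring Ω,
          A.LiesOverPrime ((l : Nat.Primes) : ℕ) → ∀ σ : GQ,
            A.IsFrobeniusAt σ ((l : Nat.Primes) : ℕ) →
              ι (φ (algebraMap R (NewRing T H.subset B)
                (charProd ψ Q ((l : Nat.Primes) : ℕ)))) * ((N σ).trace : O₂) =
                ι (φ (Ideal.Quotient.mk _ (MvPolynomial.X l)))) ∧
        (∀ h : ((twoPrime : Nat.Primes) : ℕ) ∉ T.S,
          ι (φ (algebraMap R (NewRing T H.subset B) (charProd ψ Q 2))) *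
              ((α₀ : O₂) * α₀ + 2) =
            ι (φ (Ideal.Quotient.mk _ (MvPolynomial.X ⟨twoPrime, h⟩))) * α₀) ∧
        ∀ q ∈ Q, ∀ A : ValuationSubring Ω, A.LiesOverPrime q → ∀ σ ∈ A.inertiaSubgroupIn ℚ,
          ∀ e : (ZMod q)ˣ, (∀ μ : Ω, μ ^ q = 1 → σ μ = μ ^ (e : ZMod q).val) →
            ((N σ).trace : O₂) =
              ι (φ (algebraMap R (NewRing T H.subset B) (ψ q e + ψ q e⁻¹))) := by
  classical
  obtain ⟨O₂, i₁, i₂, i₃, i₄, i₅, i₆, i₇, i₈, i₉, h2', ι, hinj, ρ, α, hdet, htrace, hroot, -, -,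
      N, α₀, hα₀, hpair, htrN⟩ :=
    exists_pointPair T H P φ hψ htr ha2
  refine ⟨O₂, i₁, i₂, i₃, i₄, i₅, i₆, i₇, i₈, i₉, ι, hinj, N, α₀, hpair,
    fun l hl A hA σ hσ => by rw [htrN]; exact htrace l hl A hA σ hσ,
    fun h => by rw [hα₀]; exact hroot h, fun q hq A hA σ hσ e he => ?_⟩
  rw [htrN]
  let φ₂ : NewRing T H.subset B →+* O₂ := (ι : O' →+* O₂).comp (φ : NewRing T H.subset B →+* O')
  -- a commutator with non-zero determinant
  obtain ⟨g, h, hgh⟩ := IsDihedralResidual.exists_commutator_det_ne_zero P.dihedral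
    (show 0 < E.D by have := E.mod_eight; omega)
  have hunit : IsUnit (N g * N h - N h * N g).det := by
    refine notMem_maximalIdeal.mp fun hm => hgh ?_
    have hr := hpair.isDef.reduces
    have e : ∀ σ, (N σ).map (toResidue (inferInstance : IsLocalHom (algebraMap O (smallResidue O O₂)))
        (residue_surjective_smallResidue (𝒪 := O) (A := O₂))) = D.rbar σ := fun σ => DFunLike.congr_fun hr σ
    have hz := (toResidue_eq_zero_iff (inferInstance : IsLocalHom (algebraMap O (smallResidue O O₂)))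
      (residue_surjective_smallResidue (𝒪 := O) (A := O₂))).mpr hm
    rw [← e g, ← e h]
    refine Eq.trans ?_ hz
    let f : ↥(smallResidue O O₂) →+* ResidueField O :=
      (toResidue (inferInstance : IsLocalHom (algebraMap O (smallResidue O O₂)))
        (residue_surjective_smallResidue (𝒪 := O) (A := O₂)) : _ →+* _)
    show (f.mapMatrix (N g) * f.mapMatrix (N h) - f.mapMatrix (N h) * f.mapMatrix (N g)).det = f _
    rw [RingHom.map_det, map_sub, map_mul, map_mul]
  have hirr : ∃ g h, (matrixRep ρ (repBasis ρ) g * matrixRep ρ (repBasis ρ) h -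
      matrixRep ρ (repBasis ρ) h * matrixRep ρ (repBasis ρ) g).det ≠ 0 := by
    refine ⟨g, h, fun h0 => ?_⟩
    have h1 := two_mul_det_commutator (matrixRep ρ (repBasis ρ)) g h
    rw [h0, mul_zero] at h1
    have h2 := congrArg (fun x : smallResidue O O₂ => (x : O₂)) (two_mul_det_commutator N g h)
    have ht : ∀ σ, (matrixRep ρ (repBasis ρ) σ).trace = ((N σ).trace : O₂) := fun σ => by
      rw [htrN, matrixRep_apply, ← LinearMap.trace_eq_matrix_trace]; rfl
    simp only [ht] at h1
    simp only [MulMemClass.coe_mul, NegMemClass.coe_neg, AddMemClass.coe_add,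
      AddSubgroupClass.coe_sub, ← h1, show ((2 : smallResidue O O₂) : O₂) = 2 from rfl,
      mul_eq_zero, OfNat.ofNat_ne_zero, false_or] at h2
    exact hunit.ne_zero (Subtype.ext h2)
  have hq2 : q ≠ 2 := fun h => P.two_notMem
    (h ▸ H.mem_S q (H.aux q hq).1 (H.exact_dvd q hq).2.1)
  refine trace_inertia_of_point T H φ₂ h2' ρ (detIsCyclotomic_of_det_eq_adic h2' hdet)
    (fun ℓ hℓ hℓS hℓ2 A hA τ hτ => ?_) hirr hq hq2 hA hσ he
  show _ = φ₂ (algebraMap R _ _) * φ₂ _
  rw [show φ₂ (Ideal.Quotient.mk _ (MvPolynomial.X ⟨⟨ℓ, hℓ⟩, hℓS⟩)) = _ from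
      (htrace ⟨⟨ℓ, hℓ⟩, hℓS⟩ hℓ2 A hA τ hτ).symm,
    show ι (φ (algebraMap R (NewRing T H.subset B) (charProd ψ Q ℓ))) =
      φ₂ (algebraMap R (NewRing T H.subset B) (charProd ψ Q ℓ)) from rfl,
    ← mul_assoc, ← map_mul φ₂, ← map_mul (algebraMap R _), charProd_inv_mul, map_one, map_one,
    one_mul]

end Fermat.Agent.TwoAdic.TSide

end
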