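import Fermat.Agent.TwoAdic.TSide.Action
import Fermat.Agent.TwoAdic.TSide.PairProducer
import Fermat.Agent.TwoAdic.TSide.PointTame
import Fermat.Agent.TwoAdic.Route.BaseSetup

/-!
# The T side at base setups

`pointPair_of_base`: at every Taylor–Wiles level of a base setup all points give pairs.
-/

set_option autoImplicit false

noncomputable section

open IsLocalRing GaloisRep Fermat.Agent.DefRing Fermat.Agent.Deform

namespace Fermat.Agent.TwoAdic.TSide

open HeckeModule EigenSystems Engine.TRep HeckeJ0 LevelRaising Pair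

attribute [local instance] ALSetup.isPrime

local notation "Ω" => AlgebraicClosure ℚ

variable {O : Type} [CommRing O] [IsDomain O] [IsDiscreteValuationRing O]
  [IsAdicComplete (maximalIdeal O) O] [Finite (ResidueField O)] [CharP (ResidueField O) 2]
  [CharZero O] {D : NormalData O} {E : LiftData} {C : Set (GQ × GQ)} {r : ℕ}
  [Fact ((2 : ℕ).Prime)] [Fact (((2 : ℕ) : O) ∈ maximalIdeal O)]

omit [IsDomain O] [IsDiscreteValuationRing O] [IsAdicComplete (maximalIdeal O) O]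
  [Finite (ResidueField O)] [CharP (ResidueField O) 2] [CharZero O] in
omit [Fact (Nat.Prime 2)] in
/-- The image of `1 + X i` is `1 + twVar i`, inverses included. -/
theorem tameTrace_eq (n : ℕ) (i : Fin r) :
    tameTrace O r n i = (1 + Engine.twVar O 2 r n i) +
      Ring.inverse (1 + Engine.twVar O 2 r n i) := by
  have hu : IsUnit (1 + MvPowerSeries.X i : MvPowerSeries (Fin r) O) := by
    rw [MvPowerSeries.isUnit_iff_constantCoeff, map_add, map_one, MvPowerSeries.constantCoeff_X,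
      add_zero]
    exact isUnit_one
  have e : Ideal.Quotient.mk (Engine.twIdeal O 2 r n) (1 + MvPowerSeries.X i) =
      1 + Engine.twVar O 2 r n i := by
    rw [map_add, map_one]; rfl
  rw [tameTrace, map_add, e]
  congr 1
  have h1 : Ideal.Quotient.mk (Engine.twIdeal O 2 r n) (Ring.inverse (1 + MvPowerSeries.X i)) *
      (1 + Engine.twVar O 2 r n i) = 1 := by
    rw [← e, ← map_mul, Ring.inverse_mul_cancel _ hu, map_one]
  have hu' : IsUnit (1 + Engine.twVar O 2 r n i) := e ▸ hu.map _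
  calc Ideal.Quotient.mk (Engine.twIdeal O 2 r n) (Ring.inverse (1 + MvPowerSeries.X i))
      = Ideal.Quotient.mk (Engine.twIdeal O 2 r n) (Ring.inverse (1 + MvPowerSeries.X i)) *
          ((1 + Engine.twVar O 2 r n i) * Ring.inverse (1 + Engine.twVar O 2 r n i)) := by
        rw [Ring.mul_inverse_cancel _ hu', mul_one]
    _ = Ring.inverse (1 + Engine.twVar O 2 r n i) := by rw [← mul_assoc, h1, one_mul]

/-- **Pairs at all points of the Taylor–Wiles levels of a base setup.** -/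
theorem pointPair_of_base (hr : IsDihedralResidual E.D D.rbar) (hc : IsCont D.rbar)
    (hC : ∀ x ∈ C, ∃ K : Pair.KummerPair, x = (K.s, K.t))
    {E' : LiftData} {Rc X : Finset ℕ} (hR : TopDown.CorePrimes E' D.rbar Rc X)
    (hD : E'.D = E.D) (haux : E.aux ⊆ E'.aux)
    (hsgn : ∀ e ∈ E.D.primeFactors.erase E.ℓ₀ ∪ E.aux, E'.sgn e = E.sgn e)
    (T : ALSetup O) (hcore : T.core = E.ℓ₀ * prodOf Rc) (hTc : ∀ e, T.c e = -(E'.sgn e : O))
    {V B : Finset ℕ} (hV : V ⊆ T.W) (hVeq : V = E.D.primeFactors.erase E.ℓ₀ ∪ E.aux)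
    (hB : E.aux ⊆ B) (S₀ : Finset ℕ) (h20 : 2 ∈ S₀) (hlev : (T.level T.W).primeFactors ⊆ S₀)
    (n : ℕ) (q : Fin r → ℕ) (hq : ∀ i, (q i).Prime ∧ q i ∉ S₀) (α : ℕ → O)
    (P : Fin r → ValuationSubring Ω) (hP : ∀ i, (P i).LiesOverPrime (q i)) (τ : Fin r → GQ)
    (hτ : ∀ i, τ i ∈ (P i).inertiaSubgroupIn ℚ)
    (cyc : ∀ i, GQ →* (ZMod (q i))ˣ) (hcyc : ∀ i, IsCycloMod (q i) (cyc i)) :
    PointPair D E C T hV B S₀ n q α τ cyc := by
  classical
  intro Ψ hΨaug hΨτ T' hTcore hTW hTS hTM hchar hTc' hmT hmQ H O' _ _ _ _ _ _ _ _ _ θ hθ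
  set Qs := Finset.univ.image q with hQs
  subst hVeq
  have hlevel : ∀ x : ℕ, x.Prime → x ∣ T.core * prodOf T.W → x ∈ S₀ := fun x hx hd =>
    hlev (Nat.mem_primeFactors.mpr ⟨hx, hd, T.level_ne_zero subset_rfl⟩)
  have hQ : ∀ x ∈ Qs, x.Prime ∧ ¬ x ∣ E.D ∧ x ∉ E.aux ∧ x ∉ Rc := fun x hx => by
    obtain ⟨i, -, rfl⟩ := Finset.mem_image.mp hx
    obtain ⟨hp, hS⟩ := hq i
    refine ⟨hp, fun hd => hS ?_, fun ha => hS ?_, fun hR' => hS ?_⟩
    · rcases eq_or_ne (q i) E.ℓ₀ with he | he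
      · exact hlevel _ hp (by rw [hcore, he]; exact (dvd_mul_right _ _).mul_right _)
      · exact hlevel _ hp ((Finset.dvd_prod_of_mem id (hV (Finset.mem_union_left _
          (Finset.mem_erase.mpr ⟨he, Nat.mem_primeFactors.mpr
            ⟨hp, hd, by have := E.mod_eight; omega⟩⟩)))).mul_left _)
    · exact hlevel _ hp ((Finset.dvd_prod_of_mem id (hV (Finset.mem_union_right _ ha))).mul_left _)
    · exact hlevel _ hp ((hcore ▸ (Finset.dvd_prod_of_mem id hR').mul_left _).mul_right _)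
  have h2S : 2 ∉ bigSet S₀ Qs := fun h => by
    rcases Finset.mem_union.mp h with h | h
    · exact Finset.notMem_erase 2 S₀ h
    · obtain ⟨i, -, hi⟩ := Finset.mem_image.mp h
      exact (hq i).2 (hi ▸ h20)
  have HP : PairHyp D E C H.big Ψ (bigSet S₀ Qs) Qs
      (E.D.primeFactors.erase E.ℓ₀ ∪ E.aux) B :=
    pairHyp_of_twLevel (Qs := Qs) hr hc hC hR hD haux hsgn hQ T hcore hTc hV
      (Engine.twConst O 2 r n) H.big hTcore hTM hTW hTc' hB h2S
  have hΨ1 : ∀ x u, Ψ x u - 1 ∈ maximalIdeal (Engine.TwQuot O 2 r n) := fun x u hu => by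
    have h := hu.map (Engine.twAug O 2 r n)
    rw [map_sub, hΨaug, map_one, sub_self] at h
    exact not_isUnit_zero h
  have := (H.big.free_signed H.subset).1
  have : Module.Finite (Engine.TwQuot O 2 r n)
    (H.big.NewQuot (Engine.TwQuot O 2 r n) H.subset B) := inferInstance
  obtain ⟨O₂, i₁, i₂, i₃, i₄, i₅, i₆, i₇, i₈, i₉, ι, hinj, N, α₀, hpair, htr, hroot, htame⟩ :=
    exists_pointPair_tame H.big H.pointHyp HP θ
      (fun x _ u => residue_point_char H.big H.subset _ Ψ (hΨ1 x u))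
      (fun l hl2 A hA σ hσ => (hθ _ l.1.2 l.2).2 hl2 A hA σ hσ)
      (fun h => (hθ 2 Nat.prime_two h).1 rfl)
  refine ⟨O₂, i₁, i₂, i₃, i₄, i₅, i₆, i₇, i₈, i₉, ι, hinj, N, α₀, hpair,
    fun l hl hlS hl2 A hA σ hσ => htr ⟨⟨l, hl⟩, hlS⟩ hl2 A hA σ hσ,
    fun h => hroot h, fun i => ?_⟩
  show _ = ι (θ (algebraMap _ _ (tameTrace O r n i)))
  have hinv : Ψ (q i) (cyc i (τ i))⁻¹ = Ring.inverse (1 + Engine.twVar O 2 r n i) := by
    rw [← hΨτ i]
    generalize cyc i (τ i) = e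
    have h1 : Ψ (q i) e = (((Ψ (q i)).toHomUnits e : (Engine.TwQuot O 2 r n)ˣ) : _) := rfl
    rw [h1, Ring.inverse_unit, ← map_inv]
    rfl
  rw [tameTrace_eq, ← hinv, ← hΨτ i]
  exact htame (q i) (Finset.mem_image_of_mem q (Finset.mem_univ i)) (P i) (hP i) (τ i) (hτ i)
    (cyc i (τ i)) (hcyc i (τ i))

/-- **The T side at base setups**: the hypothesis `hTside` of `free_rank_two_top_keyed`. -/
theorem tSideAction_of_base (hr : IsDihedralResidual E.D D.rbar) (hc : IsCont D.rbar)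
    (hspan : Submodule.span (ResidueField O) (Set.range D.rbar) = ⊤)
    (hC : ∀ x ∈ C, ∃ K : Pair.KummerPair, x = (K.s, K.t))
    {E' : LiftData} {Rc X : Finset ℕ} (hR : TopDown.CorePrimes E' D.rbar Rc X)
    (hD : E'.D = E.D) (haux : E.aux ⊆ E'.aux)
    (hsgn : ∀ e ∈ E.D.primeFactors.erase E.ℓ₀ ∪ E.aux, E'.sgn e = E.sgn e)
    (T : ALSetup O) (hcore : T.core = E.ℓ₀ * prodOf Rc) (hTc : ∀ e, T.c e = -(E'.sgn e : O))
    {V B : Finset ℕ} (hV : V ⊆ T.W) (hVeq : V = E.D.primeFactors.erase E.ℓ₀ ∪ E.aux)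
    (hB : E.aux ⊆ B) (S₀ : Finset ℕ) (hS₀ : T.S ⊆ ↑S₀) (h20 : 2 ∈ S₀)
    (hlev : (T.level T.W).primeFactors ⊆ S₀) (h2S : 2 ∉ T.S)
    (hmres : ∀ (l : AwayIndex T.S), ((l : Nat.Primes) : ℕ) ∉ S₀ →
      ∀ P : ValuationSubring Ω, P.LiesOverPrime ((l : Nat.Primes) : ℕ) →
        ∀ φ : GQ, P.IsFrobeniusAt φ ((l : Nat.Primes) : ℕ) → ∀ o : O,
          residue O o = (D.rbar φ).trace → MvPolynomial.X l - MvPolynomial.C o ∈ T.m)
    (hm2 : awayX O Nat.prime_two h2S - MvPolynomial.C 1 ∈ T.m)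
    (n : ℕ) (q : Fin r → ℕ) (hq : ∀ i, (q i).Prime ∧ q i ∉ S₀) (α : ℕ → O)
    (P : Fin r → ValuationSubring Ω) (hP : ∀ i, (P i).LiesOverPrime (q i)) (τ : Fin r → GQ)
    (hτ : ∀ i, TameInertia.IsTameGenerator (P i) 2 (q i) (τ i))
    (cyc : ∀ i, GQ →* (ZMod (q i))ˣ) (hcyc : ∀ i, IsCycloMod (q i) (cyc i))
    {h : IsResidualPair D E (Finset.univ.image q) C} (U : (pairFunctor h).UniversalPoint) :
    TSideAction T hV B S₀ n q α τ cyc U :=
  tSideAction_of_pointPair hspan hr hc T hV B S₀ hS₀ h20 h2S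
    (fun l hl hd => by
      refine ⟨hlev (Nat.mem_primeFactors.mpr ⟨hl, hd.trans (dvd_mul_right _ _),
        T.level_ne_zero subset_rfl⟩), fun h2 => ?_⟩
      subst h2
      rw [hcore] at hd
      rcases (Nat.prime_two.dvd_mul).mp hd with hd | hd
      · have h3 := (Nat.prime_dvd_prime_iff_eq Nat.prime_two E.prime_ℓ₀).mp hd
        have h4 := E.dvd_ℓ₀
        have h5 := E.mod_eight
        rw [← h3] at h4
        omega
      · obtain ⟨x, hx, hx2⟩ := (Nat.prime_two.prime.dvd_finsetProd_iff _).mp hd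
        have h3 := (Nat.prime_dvd_prime_iff_eq Nat.prime_two (hR.prime x hx)).mp hx2
        have h4 := hR.mod_four x hx
        omega)
    hmres hm2 n q hq α τ cyc U
    (pointPair_of_base hr hc hC hR hD haux hsgn T hcore hTc hV hVeq hB S₀ h20 hlev n q hq α P hP τ
      (fun i => (hτ i).1) cyc hcyc)

end Fermat.Agent.TwoAdic.TSide

end
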