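import Fermat.Agent.TwoAdic.TopData
import Fermat.Agent.TwoAdic.TopPrimes
import Fermat.Agent.TwoAdic.TSide.SubRing
import Fermat.Agent.TwoAdic.TSide.Descend
import Fermat.Agent.TwoAdic.TSide.Surjection

/-!
# The action of the ring of pairs on Taylor–Wiles new quotients

`tSideAction_of_pointPair`: pairs at the points of the enlarged setup give `TSideAction`.
-/

set_option autoImplicit false

noncomputable section

open IsLocalRing GaloisRep Fermat.Agent.DefRing Fermat.Agent.Deform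

namespace Fermat.Agent.TwoAdic.TSide

open HeckeModule EigenSystems Engine.TRep HeckeJ0 LevelRaising Pair

attribute [local instance] ALSetup.isPrime

variable {O : Type} [CommRing O] [IsDomain O] [IsDiscreteValuationRing O]
  [IsAdicComplete (maximalIdeal O) O] [Finite (ResidueField O)]

section Point

variable {R : Type} [CommRing R] [IsLocalRing R] [Algebra O R] (D : NormalData O) (E : LiftData)
  (Qs : Finset ℕ) (C : Set (GQ × GQ)) (T : ALSetup R) {V : Finset ℕ} (hV : V ⊆ T.W) (B : Finset ℕ)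
  (ψ : ∀ x : ℕ, (ZMod x)ˣ →* R) {r : ℕ} (τ : Fin r → GQ) (tv : Fin r → R)
  {O' : Type} [CommRing O'] [IsDomain O'] [IsDiscreteValuationRing O'] [Algebra O O']
  [IsLocalHom (algebraMap O O')]

/-- The residual values at a point: the traces of the residual representation, `1` at `2`. -/
def ResidualValues (θ : NewRing T hV B →ₐ[O] O') : Prop :=
  ∀ (l : ℕ) (hl : l.Prime) (hlS : l ∉ T.S),
    (l = 2 → residue O' (θ (Ideal.Quotient.mk _ (awayX R hl hlS))) = 1) ∧
    (l ≠ 2 → ∀ A : ValuationSubring (AlgebraicClosure ℚ), A.LiesOverPrime l → ∀ σ : GQ,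
      A.IsFrobeniusAt σ l → residue O' (θ (Ideal.Quotient.mk _ (awayX R hl hlS))) =
        ResidueField.map (algebraMap O O') (Matrix.trace (D.rbar σ)))

/-- A pair at a point: twisted traces at Frobenius elements, the twisted root equation at `2`, and
the prescribed traces at the elements `τ i`. -/
def HasPair (θ : NewRing T hV B →ₐ[O] O') : Prop :=
  ∃ (N : MRep (smallResidue O O')) (α₀ : smallResidue O O'),
    IsPair D E Qs C inferInstance (residue_surjective_smallResidue (𝒪 := O) (A := O')) N α₀ ∧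
    (∀ (l : ℕ) (hl : l.Prime) (hlS : l ∉ T.S), l ≠ 2 →
      ∀ A : ValuationSubring (AlgebraicClosure ℚ), A.LiesOverPrime l → ∀ σ : GQ,
        A.IsFrobeniusAt σ l →
          θ (algebraMap R _ (charProd ψ Qs l)) * ((Matrix.trace (N σ) : smallResidue O O') : O') =
            θ (Ideal.Quotient.mk _ (awayX R hl hlS))) ∧
    (∀ h2 : 2 ∉ T.S,
      θ (algebraMap R _ (charProd ψ Qs 2)) * ((α₀ : O') * (α₀ : O') + 2) =
        θ (Ideal.Quotient.mk _ (awayX R Nat.prime_two h2)) * (α₀ : O')) ∧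
    ∀ i, ((Matrix.trace (N (τ i)) : smallResidue O O') : O') = θ (algebraMap R _ (tv i))

end Point

/-- The exact trace of the `i`-th tame generator. -/
def tameTrace (O : Type) [CommRing O] (r n : ℕ) (i : Fin r) : Engine.TwQuot O 2 r n :=
  Ideal.Quotient.mk (Engine.twIdeal O 2 r n)
    ((1 + MvPowerSeries.X i) + Ring.inverse (1 + MvPowerSeries.X i))

variable [CharP (ResidueField O) 2] [CharZero O] {D : NormalData O} {E : LiftData}
  {C : Set (GQ × GQ)} {r : ℕ} [Fact ((2 : ℕ).Prime)] [Fact (((2 : ℕ) : O) ∈ maximalIdeal O)]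

/-- The set of excluded primes at a Taylor–Wiles level: `S₀` without `2`, and the tuple. -/
abbrev bigSet (S₀ Qs : Finset ℕ) : Finset ℕ := S₀.erase 2 ∪ Qs

/-- **Pairs at all points** of the enlarged Taylor–Wiles setups. -/
def PointPair (D : NormalData O) (E : LiftData) (C : Set (GQ × GQ)) (T : ALSetup O)
    {V : Finset ℕ} (_hV : V ⊆ T.W) (B S₀ : Finset ℕ) (n : ℕ) (q : Fin r → ℕ) (α : ℕ → O)
    (τ : Fin r → GQ) (cyc : ∀ i, GQ →* (ZMod (q i))ˣ) : Prop :=
  ∀ (Ψ : ∀ x : ℕ, (ZMod x)ˣ →* Engine.TwQuot O 2 r n),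
      (∀ x u, Engine.twAug O 2 r n (Ψ x u) = 1) →
      (∀ i, Ψ (q i) (cyc i (τ i)) = 1 + Engine.twVar O 2 r n i) →
      ∀ (T' : ALSetup (Engine.TwQuot O 2 r n)),
        T'.core = prodOf (Finset.univ.image q) * T.core → T'.W = T.W → T'.S = T.S →
        T'.M = prodOf (Finset.univ.image q) →
        (∀ u : (ZMod (T'.level V))ˣ, T'.char V u = charSq Ψ (Finset.univ.image q) (T'.level V) u) →
        (∀ e ∈ T'.W, T'.c e = Engine.twConst O 2 r n (T.c e) *
          charProd Ψ (Finset.univ.image q) e) →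
        (∀ (l : AwayIndex T'.S) (hl : ((l : Nat.Primes) : ℕ) ∉ T.S),
          ((l : Nat.Primes) : ℕ) ∉ Finset.univ.image q → ∀ t : O,
            MvPolynomial.X (⟨l.1, hl⟩ : AwayIndex T.S) - MvPolynomial.C t ∈ T.m →
              MvPolynomial.X l - MvPolynomial.C (Engine.twConst O 2 r n t) ∈ T'.m) →
        (∀ (l : AwayIndex T'.S), ((l : Nat.Primes) : ℕ) ∈ Finset.univ.image q →
          MvPolynomial.X l - MvPolynomial.C (Engine.twConst O 2 r n (α (l : Nat.Primes))) ∈ T'.m) →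
        ∀ H : SubHyp T' (bigSet S₀ (Finset.univ.image q)) Ψ (Finset.univ.image q) V,
        ∀ (O' : Type) [CommRing O'] [IsDomain O'] [IsDiscreteValuationRing O']
          [IsAdicComplete (maximalIdeal O') O'] [Finite (ResidueField O')] [CharZero O']
          [Algebra O O'] [Module.Finite O O'] [IsLocalHom (algebraMap O O')]
          (θ : NewRing H.big H.subset B →ₐ[O] O'),
            ResidualValues D H.big H.subset B θ →
              ∃ (O₂ : Type) (_ : CommRing O₂) (_ : IsDomain O₂) (_ : IsDiscreteValuationRing O₂)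
                (_ : IsAdicComplete (maximalIdeal O₂) O₂) (_ : Finite (ResidueField O₂))
                (_ : CharZero O₂) (_ : Algebra O O₂) (_ : Module.Finite O O₂)
                (_ : IsLocalHom (algebraMap O O₂)) (ι : O' →ₐ[O] O₂), Function.Injective ι ∧
                  HasPair D E (Finset.univ.image q) C H.big H.subset B Ψ τ (tameTrace O r n)
                    (ι.comp θ)

omit [IsDomain O] [IsDiscreteValuationRing O] [IsAdicComplete (maximalIdeal O) O]
  [Finite (ResidueField O)] [CharP (ResidueField O) 2] [CharZero O] [Fact (Nat.Prime 2)] in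
/-- The augmentation is a section of the constants. -/
private theorem twAug_twConst {n : ℕ} (o : O) :
    Engine.twAug O 2 r n (Engine.twConst O 2 r n o) = o := by
  simp [Engine.twAug, Engine.twConst]

omit [IsAdicComplete (maximalIdeal O) O] [Finite (ResidueField O)] [CharP (ResidueField O) 2]
  [CharZero O] [Fact (Nat.Prime 2)] [Fact (↑2 ∈ maximalIdeal O)] in
/-- The level of a Taylor–Wiles setup has its primes in the excluded set, and the auxiliary
primes divide it exactly once. -/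
private theorem twLevel_facts {n : ℕ} (T : ALSetup O) (T' : ALSetup (Engine.TwQuot O 2 r n))
    {V S₀ Qs : Finset ℕ} (hV : V ⊆ T.W) (hS₀ : T.S ⊆ ↑S₀) (hS : T'.S ⊆ (↑(bigSet S₀ Qs) : Set ℕ))
    (hTS : T'.S = T.S) (hTcore : T'.core = prodOf Qs * T.core)
    (hcore : ∀ ℓ : ℕ, ℓ.Prime → ℓ ∣ T.core → ℓ ∈ S₀ ∧ ℓ ≠ 2)
    (hQs : ∀ x ∈ Qs, x.Prime ∧ x ∉ S₀) :
    (∀ ℓ : ℕ, ℓ.Prime → ℓ ∣ T'.level V → ℓ ∈ bigSet S₀ Qs) ∧
      ∀ x ∈ Qs, x.Prime ∧ x ∣ T'.core ∧ ¬ x * x ∣ T'.level V := by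
  have hWS : ∀ e ∈ T.W, e ∈ T.S := T.mem_S
  refine ⟨fun ℓ hℓ hd => ?_, fun x hx => ?_⟩
  · rw [ALSetup.level, hTcore] at hd
    rcases hℓ.dvd_mul.mp hd with hd | hd
    · rcases hℓ.dvd_mul.mp hd with hd | hd
      · obtain ⟨x, hx, hlx⟩ := (Prime.dvd_finsetProd_iff hℓ.prime _).mp hd
        exact Finset.mem_union_right _
          ((Nat.prime_dvd_prime_iff_eq hℓ (hQs x hx).1).mp hlx ▸ hx)
      · exact Finset.mem_union_left _ (Finset.mem_erase.mpr ⟨(hcore ℓ hℓ hd).2, (hcore ℓ hℓ hd).1⟩)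
    · obtain ⟨x, hx, hlx⟩ := (Prime.dvd_finsetProd_iff hℓ.prime _).mp hd
      have hxS : x ∈ T.S := hWS x (hV hx)
      exact Finset.mem_coe.mp (hS ((Nat.prime_dvd_prime_iff_eq hℓ (T.prime x (hV hx))).mp hlx ▸
        hTS.symm ▸ hxS))
  · obtain ⟨hxp, hxS⟩ := hQs x hx
    refine ⟨hxp, hTcore ▸ dvd_mul_of_dvd_left (Finset.dvd_prod_of_mem id hx) _, fun hd => ?_⟩
    rw [ALSetup.level, hTcore, show prodOf Qs = x * prodOf (Qs.erase x) from
      (Finset.mul_prod_erase Qs id hx).symm, mul_assoc, mul_assoc] at hd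
    have hd' := (Nat.mul_dvd_mul_iff_left hxp.pos).mp hd
    rcases hxp.dvd_mul.mp hd' with hd' | hd'
    · obtain ⟨y, hy, hxy⟩ := (Prime.dvd_finsetProd_iff hxp.prime _).mp hd'
      obtain ⟨hy1, hy2⟩ := Finset.mem_erase.mp hy
      exact hy1 ((Nat.prime_dvd_prime_iff_eq hxp (hQs y hy2).1).mp hxy).symm
    rcases hxp.dvd_mul.mp hd' with hd' | hd'
    · exact hxS (hcore x hxp hd').1
    · obtain ⟨y, hy, hxy⟩ := (Prime.dvd_finsetProd_iff hxp.prime _).mp hd'
      have := (Nat.prime_dvd_prime_iff_eq hxp (T.prime y (hV hy))).mp hxy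
      exact hxS (Finset.mem_coe.mp (hS₀ (this ▸ hWS y (hV hy))))

omit [IsAdicComplete (maximalIdeal O) O] [Finite (ResidueField O)] [CharP (ResidueField O) 2]
  [CharZero O] [Fact (Nat.Prime 2)] [Fact (↑2 ∈ maximalIdeal O)] in
/-- Residual values on the generators away from the excluded set. -/
private theorem exists_residualValue {n : ℕ} (T : ALSetup O)
    (T' : ALSetup (Engine.TwQuot O 2 r n)) {S₀ Qs : Finset ℕ}
    (hS : T'.S ⊆ (↑(bigSet S₀ Qs) : Set ℕ)) (hTS : T'.S = T.S) (h2S : 2 ∉ T.S)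
    (hmres : ∀ (l : AwayIndex T.S), ((l : Nat.Primes) : ℕ) ∉ S₀ →
      ∀ P : ValuationSubring (AlgebraicClosure ℚ), P.LiesOverPrime ((l : Nat.Primes) : ℕ) →
        ∀ φ : GQ, P.IsFrobeniusAt φ ((l : Nat.Primes) : ℕ) → ∀ o : O,
          residue O o = (D.rbar φ).trace → MvPolynomial.X l - MvPolynomial.C o ∈ T.m)
    (hm2 : awayX O Nat.prime_two h2S - MvPolynomial.C 1 ∈ T.m)
    (hmT : ∀ (l : AwayIndex T'.S) (hl : ((l : Nat.Primes) : ℕ) ∉ T.S),
      ((l : Nat.Primes) : ℕ) ∉ Qs → ∀ t : O,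
        MvPolynomial.X (⟨l.1, hl⟩ : AwayIndex T.S) - MvPolynomial.C t ∈ T.m →
          MvPolynomial.X l - MvPolynomial.C (Engine.twConst O 2 r n t) ∈ T'.m)
    (l : ℕ) (hl : l.Prime) (hlS : l ∉ (↑(bigSet S₀ Qs) : Set ℕ)) :
    ∃ t : O, MvPolynomial.X (⟨⟨l, hl⟩, fun h' => hlS (hS h')⟩ : AwayIndex T'.S) -
        MvPolynomial.C (Engine.twConst O 2 r n t) ∈ T'.m ∧ (l = 2 → residue O t = 1) ∧
      (l ≠ 2 → ∀ A : ValuationSubring (AlgebraicClosure ℚ), A.LiesOverPrime l → ∀ σ : GQ,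
        A.IsFrobeniusAt σ l → residue O t = Matrix.trace (D.rbar σ)) := by
  have hlT : l ∉ T.S := fun h' => hlS (hS (hTS.symm ▸ h'))
  have hlQ : l ∉ Qs := fun h' => hlS (Finset.mem_coe.mpr (Finset.mem_union_right _ h'))
  by_cases hl2 : l = 2
  · subst hl2
    exact ⟨1, hmT _ hlT hlQ 1 hm2, fun _ => map_one _, fun h' => absurd rfl h'⟩
  · have hl0 : l ∉ S₀ := fun h' =>
      hlS (Finset.mem_coe.mpr (Finset.mem_union_left _ (Finset.mem_erase.mpr ⟨hl2, h'⟩)))
    obtain ⟨A₀, σ₀, hA₀, hσ₀⟩ := Frobenius.exists_liesOverPrime_and_isFrobeniusAt_qbar hl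
    obtain ⟨t, ht⟩ := IsLocalRing.residue_surjective (Matrix.trace (D.rbar σ₀))
    have hm := hmres ⟨⟨l, hl⟩, hlT⟩ hl0 A₀ hA₀ σ₀ hσ₀ t ht
    refine ⟨t, hmT _ hlT hlQ t hm, fun h' => absurd h' hl2, fun _ A hA σ hσ => ?_⟩
    obtain ⟨t', ht'⟩ := IsLocalRing.residue_surjective (Matrix.trace (D.rbar σ))
    have hm' := hmres ⟨⟨l, hl⟩, hlT⟩ hl0 A hA σ hσ t' ht'
    rw [← ht', ← sub_eq_zero, ← map_sub, residue_eq_zero_iff]
    intro hu
    refine T.isPrime.ne_top (Ideal.eq_top_of_isUnit_mem _ ?_ (hu.map MvPolynomial.C))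
    have h' := sub_mem hm' hm
    rw [sub_sub_sub_cancel_left, ← map_sub] at h'
    exact h'

omit [IsAdicComplete (maximalIdeal O) O] [Finite (ResidueField O)] [CharZero O]
  [Fact (Nat.Prime 2)] [Fact (↑2 ∈ maximalIdeal O)] in
/-- A generator away from the excluded set which is congruent to one and not Eisenstein. -/
private theorem bigSet_eisenstein {n : ℕ} (hr : IsDihedralResidual E.D D.rbar)
    (hc : IsCont D.rbar) (T : ALSetup O) (T' : ALSetup (Engine.TwQuot O 2 r n))
    {S₀ Qs : Finset ℕ} (h2S₀ : 2 ∈ S₀) (hQs : ∀ x ∈ Qs, x.Prime ∧ x ∉ S₀)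
    (hS : T'.S ⊆ (↑(bigSet S₀ Qs) : Set ℕ)) (hTS : T'.S = T.S) (h2S : 2 ∉ T.S)
    (hmres : ∀ (l : AwayIndex T.S), ((l : Nat.Primes) : ℕ) ∉ S₀ →
      ∀ P : ValuationSubring (AlgebraicClosure ℚ), P.LiesOverPrime ((l : Nat.Primes) : ℕ) →
        ∀ φ : GQ, P.IsFrobeniusAt φ ((l : Nat.Primes) : ℕ) → ∀ o : O,
          residue O o = (D.rbar φ).trace → MvPolynomial.X l - MvPolynomial.C o ∈ T.m)
    (hm2 : awayX O Nat.prime_two h2S - MvPolynomial.C 1 ∈ T.m)
    (hmT : ∀ (l : AwayIndex T'.S) (hl : ((l : Nat.Primes) : ℕ) ∉ T.S),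
      ((l : Nat.Primes) : ℕ) ∉ Qs → ∀ t : O,
        MvPolynomial.X (⟨l.1, hl⟩ : AwayIndex T.S) - MvPolynomial.C t ∈ T.m →
          MvPolynomial.X l - MvPolynomial.C (Engine.twConst O 2 r n t) ∈ T'.m) :
    ∃ (l : ℕ) (hl : l.Prime) (hlS : l ∉ (↑(bigSet S₀ Qs) : Set ℕ)),
      (l : ZMod (T'.level T'.W * ∏ x ∈ Qs, x)) = 1 ∧
        awayX (Engine.TwQuot O 2 r n) hl (fun h' => hlS (hS h')) -
          MvPolynomial.C ((l : Engine.TwQuot O 2 r n) + 1) ∉ T'.m := by
  have : NeZero (T'.level T'.W * ∏ x ∈ Qs, x) :=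
    ⟨mul_ne_zero (T'.level_ne_zero subset_rfl)
      (Finset.prod_ne_zero_iff.mpr fun x hx => (hQs x hx).1.ne_zero)⟩
  obtain ⟨l, hl, hlX, hl1, hltr⟩ := exists_orderThree_one_mod hr hc
    (by have := E.mod_eight; omega) (T'.level T'.W * ∏ x ∈ Qs, x) (S₀ ∪ Qs)
  simp only [Finset.mem_union, not_or] at hlX
  have hl2 : l ≠ 2 := fun h' => hlX.1 (h' ▸ h2S₀)
  have hlS : l ∉ (↑(bigSet S₀ Qs) : Set ℕ) := fun h' => by
    rcases Finset.mem_union.mp (Finset.mem_coe.mp h') with h'' | h''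
    · exact hlX.1 (Finset.mem_of_mem_erase h'')
    · exact hlX.2 h''
  obtain ⟨t, ht, -, htr⟩ := exists_residualValue T T' hS hTS h2S hmres hm2 hmT l hl hlS
  obtain ⟨A, σ, hA, hσ⟩ := Frobenius.exists_liesOverPrime_and_isFrobeniusAt_qbar hl
  have ht1 : residue O t = 1 := by rw [htr hl2 A hA σ hσ, hltr A hA σ hσ]
  refine ⟨l, hl, hlS, hl1, fun hm => ?_⟩
  have h' := sub_mem ht hm
  rw [awayX, sub_sub_sub_cancel_left, ← map_sub] at h'
  refine T'.isPrime.ne_top (Ideal.eq_top_of_isUnit_mem _ h' (IsUnit.map _ ?_))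
  refine IsLocalRing.notMem_maximalIdeal.mp fun hmm => ?_
  have h0 : Engine.twAug O 2 r n ((l : Engine.TwQuot O 2 r n) + 1 - Engine.twConst O 2 r n t) ∈
      maximalIdeal O :=
    map_mem_maximalIdeal (twAug_surjective (O := O) r n) hmm
  rw [map_sub, map_add, map_natCast, map_one, twAug_twConst, ← residue_eq_zero_iff, map_sub, map_add,
    map_natCast, map_one, ht1, add_sub_cancel_right] at h0
  obtain ⟨k, rfl⟩ := hl.odd_of_ne_two hl2
  simp [CharTwo.two_eq_zero] at h0

omit [IsDomain O] [IsDiscreteValuationRing O] [IsAdicComplete (maximalIdeal O) O]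
  [Finite (ResidueField O)] [CharP (ResidueField O) 2] [CharZero O] [Fact ((2 : ℕ).Prime)]
  [Fact (((2 : ℕ) : O) ∈ maximalIdeal O)] in
/-- A ring acting faithfully on a torsion free module is torsion free. -/
private theorem eq_zero_of_algebraMap_mul_of_injective {Λ A M : Type} [CommRing Λ] [CommRing A]
    [Algebra O Λ] [Algebra Λ A] [Algebra O A] [IsScalarTower O Λ A] [AddCommGroup M] [Module Λ M]
    (act : A →ₐ[Λ] Module.End Λ M) (hinj : Function.Injective act)
    (htf : ∀ o : O, o ≠ 0 → ∀ y : M, algebraMap O Λ o • y = 0 → y = 0) (o : O) (z : A)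
    (ho : o ≠ 0) (hz : algebraMap O A o * z = 0) : z = 0 := by
  refine hinj (LinearMap.ext fun y => ?_)
  rw [map_zero, LinearMap.zero_apply]
  refine htf o ho _ ?_
  have h := LinearMap.congr_fun (congrArg act hz) y
  rw [IsScalarTower.algebraMap_apply O Λ A, map_mul, AlgHom.commutes, map_zero] at h
  simpa using h

omit [Fact (Nat.Prime 2)] in
/-- The action of the relation of a root. -/
private theorem act_root_relation {Λ A M : Type} [CommRing Λ] [CommRing A] [Algebra Λ A]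
    [AddCommGroup M] [Module Λ M] (act : A →ₐ[Λ] Module.End Λ M) {c u : Λ} {a X t : A}
    (hu : c * u = 1) (ht : t = algebraMap Λ A u * X) (h : a * a + 2 = t * a) (x : M) :
    c • (act a (act a x) + (2 : Λ) • x) = act X (act a x) := by
  have e : algebraMap Λ A c * (a * a + algebraMap Λ A 2) = X * a := by
    rw [map_ofNat, h, ht, ← mul_assoc, ← mul_assoc, ← map_mul, hu, map_one, one_mul]
  have h' := LinearMap.congr_fun (congrArg act e) x
  rw [map_mul, map_mul, map_add, map_mul, AlgHom.commutes, AlgHom.commutes] at h'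
  simpa only [Module.End.mul_apply, LinearMap.add_apply, Module.algebraMap_end_apply] using h'

omit [Fact (Nat.Prime 2)] in
/-- The unit root of `X² - t X + 2`. -/
private theorem exists_unitRoot {A : Type} [CommRing A] [IsLocalRing A]
    [IsAdicComplete (maximalIdeal A) A] {t : A} (ht : t - 1 ∈ maximalIdeal A)
    (h2 : (2 : A) ∈ maximalIdeal A) :
    ∃ a : A, a * a + 2 = t * a ∧ a - 1 ∈ maximalIdeal A := by
  obtain ⟨a, ha, ha1⟩ := HenselianRing.is_henselian (I := maximalIdeal A)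
    (Polynomial.X ^ 2 - Polynomial.C t * Polynomial.X + Polynomial.C 2) (by monicity!) 1 (by
      simp only [Polynomial.eval_add, Polynomial.eval_sub, Polynomial.eval_pow,
        Polynomial.eval_mul, Polynomial.eval_X, Polynomial.eval_C, one_pow, mul_one]
      rw [show (1 : A) - t + 2 = -(t - 1) + 2 by ring]
      exact add_mem (neg_mem ht) h2) (by
      simp only [Polynomial.derivative_add, Polynomial.derivative_sub, Polynomial.derivative_pow,
        Polynomial.derivative_mul, Polynomial.derivative_X, Polynomial.derivative_C,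
        Polynomial.eval_sub, Polynomial.eval_mul, Polynomial.eval_X,
        Polynomial.eval_C, Polynomial.eval_pow, zero_mul, mul_one, zero_add, add_zero]
      refine IsUnit.map _ (IsLocalRing.notMem_maximalIdeal.mp fun hm => ?_)
      have h' := add_mem hm ht
      norm_num at h')
  refine ⟨a, ?_, ha1⟩
  have h' := ha.eq_zero
  simp only [Polynomial.eval_add, Polynomial.eval_sub, Polynomial.eval_pow,
    Polynomial.eval_mul, Polynomial.eval_X, Polynomial.eval_C] at h'
  linear_combination h'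

omit [Fact (Nat.Prime 2)] in
/-- A local map to a domain sends the unit root to the unit root. -/
private theorem map_unitRoot {A B : Type} [CommRing A] [IsLocalRing A] [CommRing B] [IsDomain B]
    [IsLocalRing B] (θ : A →+* B) [IsLocalHom θ] {a t : A} {b : B} (ha : a * a + 2 = t * a)
    (ha1 : a - 1 ∈ maximalIdeal A) (ht : t - 1 ∈ maximalIdeal A) (hb : b * b + 2 = θ t * b)
    (hb1 : residue B b = 1) : θ a = b := by
  have hres : ∀ x : A, x - 1 ∈ maximalIdeal A → residue B (θ x) = 1 := fun x hx => by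
    rw [← map_one (residue B), ← map_one θ, ← sub_eq_zero, ← map_sub, ← map_sub,
      residue_eq_zero_iff]
    exact map_nonunit θ _ hx
  have e1 := congrArg θ ha
  rw [map_add, map_mul, map_mul, map_ofNat] at e1
  have hne : θ a + b - θ t ≠ 0 := fun h0 => by
    have h' := congrArg (residue B) h0
    rw [map_sub, map_add, hres a ha1, hb1, hres t ht, add_sub_cancel_right, map_zero] at h'
    exact one_ne_zero h'
  refine sub_eq_zero.mp ((mul_eq_zero.mp ?_).resolve_right hne)
  linear_combination e1 - hb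

/-- **`TSideAction` from pairs at points.** -/
theorem tSideAction_of_pointPair (hspan : Submodule.span (ResidueField O) (Set.range D.rbar) = ⊤)
    (hr : IsDihedralResidual E.D D.rbar) (hc : IsCont D.rbar) (T : ALSetup O) {V : Finset ℕ}
    (hV : V ⊆ T.W) (B S₀ : Finset ℕ) (hS₀ : T.S ⊆ ↑S₀) (h2S₀ : 2 ∈ S₀) (h2S : 2 ∉ T.S)
    (hcore : ∀ ℓ : ℕ, ℓ.Prime → ℓ ∣ T.core → ℓ ∈ S₀ ∧ ℓ ≠ 2)
    (hmres : ∀ (l : AwayIndex T.S), ((l : Nat.Primes) : ℕ) ∉ S₀ →
      ∀ P : ValuationSubring (AlgebraicClosure ℚ), P.LiesOverPrime ((l : Nat.Primes) : ℕ) →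
        ∀ φ : GQ, P.IsFrobeniusAt φ ((l : Nat.Primes) : ℕ) → ∀ o : O,
          residue O o = (D.rbar φ).trace → MvPolynomial.X l - MvPolynomial.C o ∈ T.m)
    (hm2 : awayX O Nat.prime_two h2S - MvPolynomial.C 1 ∈ T.m)
    (n : ℕ) (q : Fin r → ℕ) (hq : ∀ i, (q i).Prime ∧ q i ∉ S₀) (α : ℕ → O) (τ : Fin r → GQ)
    (cyc : ∀ i, GQ →* (ZMod (q i))ˣ) {h : IsResidualPair D E (Finset.univ.image q) C}
    (U : (pairFunctor h).UniversalPoint)
    (hPP : PointPair D E C T hV B S₀ n q α τ cyc) :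
    TSideAction T hV B S₀ n q α τ cyc U := by
  classical
  intro Ψ hΨaug hΨτ T' hV' hTcore hTW hTS hTM hchar hTc hmT hmQ hfree
  set Qs := Finset.univ.image q with hQs
  let Λ := Engine.TwQuot O 2 r n
  have hmemQ : ∀ x ∈ Qs, x.Prime ∧ x ∉ S₀ := fun x hx => by
    obtain ⟨i, -, rfl⟩ := Finset.mem_image.mp hx
    exact hq i
  have h2Q : (2 : ℕ) ∉ Qs := fun h' => (hmemQ 2 h').2 h2S₀
  set S := bigSet S₀ Qs with hSdef
  have hS : T'.S ⊆ (↑S : Set ℕ) := fun x hx => by
    rw [hTS] at hx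
    exact Finset.mem_coe.mpr (Finset.mem_union_left _
      (Finset.mem_erase.mpr ⟨fun h' => h2S (h' ▸ hx), Finset.mem_coe.mp (hS₀ hx)⟩))
  have h2SS : (2 : ℕ) ∉ (↑S : Set ℕ) := fun h' => by
    rcases Finset.mem_union.mp (Finset.mem_coe.mp h') with h'' | h''
    · exact Finset.notMem_erase 2 S₀ h''
    · exact h2Q h''
  have h2O : (2 : O) ∈ maximalIdeal O := T.two
  have hΛker : ∀ x : Λ, Engine.twAug O 2 r n x = 0 → x ∈ maximalIdeal Λ := fun x hx hu => by
    have := hu.map (Engine.twAug O 2 r n)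
    rw [hx] at this
    exact not_isUnit_zero this
  have hconst : ∀ o : O, algebraMap O Λ o = Engine.twConst O 2 r n o := fun o => rfl
  obtain ⟨hlevelS, haux⟩ := twLevel_facts T T' hV hS₀ hS hTS hTcore hcore hmemQ
  have hres := exists_residualValue T T' hS hTS h2S hmres hm2 hmT
  have hEis := bigSet_eisenstein hr hc T T' h2S₀ hmemQ hS hTS h2S hmres hm2 hmT
  let H : SubHyp T' S Ψ Qs V :=
    { subset := hV'
      S_sub := hS
      mem_S := hlevelS
      aux := haux
      char_eq := MonoidHom.ext hchar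
      eisenstein := hEis }
  have := (T'.free_signed hV').1
  have : Module.Finite Λ (T'.NewQuot Λ hV' B) := inferInstance
  have := hfree
  by_cases hnt : Nontrivial (T'.NewQuot Λ hV' B)
  swap
  · have := not_nontrivial_iff_subsingleton.mp hnt
    have : Subsingleton (Module.End Λ (T'.NewQuot Λ hV' B)) :=
      ⟨fun f g => LinearMap.ext fun x => Subsingleton.elim _ _⟩
    exact ⟨{ toFun := fun _ => 0
             map_one' := Subsingleton.elim _ _
             map_mul' := fun _ _ => Subsingleton.elim _ _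
             map_zero' := rfl
             map_add' := fun _ _ => Subsingleton.elim _ _ },
      fun _ _ => Subsingleton.elim _ _, fun _ _ _ _ _ _ _ _ _ _ => Subsingleton.elim _ _,
      fun _ _ => Subsingleton.elim _ _, fun _ _ => Subsingleton.elim _ _⟩
  let A := SubRing T' H.S_sub H.subset B
  let act := subRingAct T' H.S_sub H.subset B
  obtain ⟨hloc, hunit⟩ := isLocalRing_subRing T' H.S_sub H.subset (B := B)
  have : IsLocalRing A := hloc
  have : Module.Finite Λ A :=
    Module.Finite.of_injective act.toLinearMap (subRingAct_injective T' H.S_sub H.subset B)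
  have : Module.Finite O A := Module.Finite.trans Λ A
  have : IsNoetherianRing A := IsNoetherianRing.of_finite O A
  have hlocΛ : IsLocalHom (algebraMap Λ A) := ⟨fun c hu => by
    by_contra hc'
    refine (hunit (algebraMap Λ _ c)).mp ?_ ?_
    · rwa [Ideal.Quotient.mk_algebraMap]
    · rw [AlgHom.commutes]
      exact T'.le (Ideal.mem_map_of_mem _ hc')⟩
  have : IsLocalHom (algebraMap O A) := ⟨fun o hu => by
    rw [IsScalarTower.algebraMap_apply O Λ A, hconst] at hu
    have h' := (hlocΛ.map_nonunit _ hu).map (Engine.twAug O 2 r n)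
    rwa [twAug_twConst] at h'⟩
  have : IsAdicComplete (maximalIdeal A) A := IsLocalRing.isAdicComplete_of_module_finite (𝒪 := O)
  let X : ∀ (l : ℕ) (hl : l.Prime), l ∉ (↑S : Set ℕ) → A := fun l hl hlS =>
    Ideal.Quotient.mk _ (awayX Λ hl hlS)
  have hXact : ∀ l hl hlS (hlT : l ∉ T'.S),
      act (X l hl hlS) = T'.newAct Λ hV' B (awayX Λ hl hlT) := fun l hl hlS hlT => by
    show T'.newAct Λ hV' B (restrictAway Λ H.S_sub (awayX Λ hl hlS)) = _
    rw [H.awayX_big]
  have hXres : ∀ l hl hlS (t : O),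
      MvPolynomial.X (⟨⟨l, hl⟩, fun h' => hlS (hS h')⟩ : AwayIndex T'.S) -
          MvPolynomial.C (Engine.twConst O 2 r n t) ∈ T'.m →
        X l hl hlS - algebraMap O A t ∈ maximalIdeal A := by
    intro l hl hlS t ht hu
    rw [IsScalarTower.algebraMap_apply O Λ A, hconst, ← Ideal.Quotient.mk_algebraMap,
      ← map_sub, hunit, map_sub, H.awayX_big, AlgHom.commutes] at hu
    exact hu ht
  -- the scalars `charProd`
  let cp : ℕ → Λ := charProd Ψ Qs
  have hcp1 : ∀ l, cp l - 1 ∈ maximalIdeal Λ := fun l => hΛker _ (by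
    rw [map_sub, twAug_charProd Ψ hΨaug, map_one, sub_self])
  have hcpu : ∀ l, IsUnit (cp l) := fun l => IsLocalRing.notMem_maximalIdeal.mp fun hm => by
    have := sub_mem hm (hcp1 l)
    rw [sub_sub_cancel] at this
    exact this isUnit_one
  have hcinv : ∀ l, Ring.inverse (cp l) - 1 ∈ maximalIdeal Λ := fun l => by
    rw [show Ring.inverse (cp l) - 1 = -(Ring.inverse (cp l) * (cp l - 1)) by
      rw [mul_sub, Ring.inverse_mul_cancel _ (hcpu l)]; ring]
    exact neg_mem (Ideal.mul_mem_left _ _ (hcp1 l))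
  -- the twisted operator at `2` and its unit root
  let t₂ : A := algebraMap Λ A (Ring.inverse (cp 2)) * X 2 Nat.prime_two h2SS
  have ht2 : t₂ - 1 ∈ maximalIdeal A := by
    obtain ⟨t, ht, ht1, -⟩ := hres 2 Nat.prime_two h2SS
    have h1 := hXres 2 Nat.prime_two h2SS t ht
    have h2' : algebraMap Λ A (Ring.inverse (cp 2) - 1) ∈ maximalIdeal A := fun hu =>
      (hcinv 2) (hlocΛ.map_nonunit _ hu)
    have h3 : algebraMap O A (t - 1) ∈ maximalIdeal A := fun hu => by
      have h' := (IsLocalHom.map_nonunit (f := algebraMap O A) _ hu).map (residue O)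
      rw [map_sub, ht1 rfl, map_one, sub_self] at h'
      exact not_isUnit_zero h'
    rw [show t₂ - 1 = algebraMap Λ A (Ring.inverse (cp 2) - 1) * X 2 Nat.prime_two h2SS +
      (X 2 Nat.prime_two h2SS - algebraMap O A t) + algebraMap O A (t - 1) by
        simp only [t₂, map_sub, map_one]; ring]
    exact add_mem (add_mem (Ideal.mul_mem_right _ _ h2') h1) h3
  have h2A : (2 : A) ∈ maximalIdeal A := by
    simpa only [map_ofNat] using map_nonunit (algebraMap O A) _ h2O
  obtain ⟨αA, hαA, hαA1⟩ := exists_unitRoot ht2 h2A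
  -- points
  have htf : ∀ o : O, o ≠ 0 → ∀ y : T'.NewQuot Λ hV' B, algebraMap O Λ o • y = 0 → y = 0 :=
    fun o ho y hy => by
      let b := Module.Free.chooseBasis Λ (T'.NewQuot Λ hV' B)
      refine b.repr.injective (Finsupp.ext fun i => ?_)
      rw [map_zero, Finsupp.zero_apply]
      refine eq_zero_of_algebraMap_mul (p := 2) (by exact_mod_cast h2O) ho ?_
      have h := congrArg (fun z => b.repr z i) hy
      simpa only [map_smul, Finsupp.smul_apply, smul_eq_mul, map_zero, Finsupp.zero_apply] using h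
  have htfA := eq_zero_of_algebraMap_mul_of_injective act
    (subRingAct_injective T' H.S_sub H.subset B) htf
  have hnil : ∀ x : A, x ≠ 0 → ¬ IsNilpotent x := fun x hx ⟨k, hk⟩ => hx (by
    obtain ⟨a, rfl⟩ := Ideal.Quotient.mk_surjective x
    rw [← map_pow, Ideal.Quotient.eq_zero_iff_mem, RingHom.mem_ker, map_pow] at hk
    rw [Ideal.Quotient.eq_zero_iff_mem, RingHom.mem_ker]
    exact subAct_eq_zero_of_pow T' H htf a k hk)
  choose O₀ i1 i2 i3 i4 i5 i6 i7 i8 i9 θ₀ hθ₀ using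
    fun x : {x : A // x ≠ 0} => exists_point O A htfA (hnil x.1 x.2)
  choose θ₀' hθ₀' using fun j => H.exists_bigPoint T' (θ₀ j)
  have hrv : ∀ j, ResidualValues D H.big H.subset B (θ₀' j) := fun j l hl hlS => by
    obtain ⟨t, ht, ht2', ht'⟩ := hres l hl hlS
    have := isLocalHom_point (θ₀ j)
    have e : residue (O₀ j) (θ₀' j (Ideal.Quotient.mk _ (awayX Λ hl hlS))) =
        ResidueField.map (algebraMap O (O₀ j)) (residue O t) := by
      rw [show θ₀' j (Ideal.Quotient.mk _ (awayX Λ hl hlS)) = θ₀ j (X l hl hlS) from hθ₀' j _,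
        ResidueField.map_residue, ← (θ₀ j).commutes, ← sub_eq_zero, ← map_sub, ← map_sub,
        residue_eq_zero_iff]
      exact fun hu => hXres l hl hlS t ht (IsLocalHom.map_nonunit (f := (θ₀ j : A →+* O₀ j)) _ hu)
    rw [e]
    exact ⟨fun h' => by rw [ht2' h', map_one],
      fun h' A' hA' σ hσ => by rw [ht' h' A' hA' σ hσ]⟩
  choose O' k1 k2 k3 k4 k5 k6 k7 k8 k9 ι hι N α₀ hN hNtr hN2 hNtame using fun j =>
    hPP Ψ hΨaug hΨτ T' hTcore hTW hTS hTM hchar hTc hmT hmQ H (O₀ j) (θ₀' j) (hrv j)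
  let θ : ∀ j, A →ₐ[O] O' j := fun j => (ι j).comp (θ₀ j)
  let θ' : ∀ j, NewRing H.big H.subset B →ₐ[O] O' j := fun j => (ι j).comp (θ₀' j)
  have hθloc : ∀ j, IsLocalHom (θ j : A →+* O' j) := fun j => isLocalHom_point (θ j)
  have hinj : ∀ x : A, (∀ j, θ j x = 0) → x = 0 := fun x hx => by
    by_contra hne
    exact hθ₀ ⟨x, hne⟩ (hι _ ((hx ⟨x, hne⟩).trans (map_zero _).symm))
  have hθX : ∀ j (l : ℕ) (hl : l.Prime) (hlS : l ∉ H.big.S),
      θ' j (Ideal.Quotient.mk _ (awayX Λ hl hlS)) = θ j (X l hl hlS) := fun j l hl hlS =>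
    congrArg (ι j) (hθ₀' j _)
  have hθΛ : ∀ j (c : Λ), θ' j (algebraMap Λ _ c) = θ j (algebraMap Λ A c) := fun j c => by
    rw [← Ideal.Quotient.mk_algebraMap]
    exact congrArg (ι j) (hθ₀' j _)
  choose fs hfs huniq using fun j => existsUnique_map U
    (residue_surjective_smallResidue (𝒪 := O) (A := O' j)) (hN j)
  let f : ∀ j, U.R →ₐ[O] O' j := fun j => (smallResidue O (O' j)).val.comp (fs j)
  have hfloc : ∀ j, IsLocalHom (f j : U.R →+* O' j) := fun j =>
    haveI := (hfs j).1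
    RingHom.isLocalHom_comp ((smallResidue O (O' j)).val : smallResidue O (O' j) →+* O' j)
      (fs j : U.R →+* smallResidue O (O' j))
  have hftr : ∀ j σ, f j (Matrix.trace (uRep U σ)) =
      ((Matrix.trace (N j σ) : smallResidue O (O' j)) : O' j) := fun j σ => by
    rw [← (hfs j).2.1]
    simp [f, Matrix.trace, Fin.sum_univ_two]
  have hinvmul : ∀ j l (y : O' j), θ j (algebraMap Λ A (Ring.inverse (cp l))) *
      (θ j (algebraMap Λ A (cp l)) * y) = y := fun j l y => by
    rw [← mul_assoc, ← map_mul, ← map_mul, Ring.inverse_mul_cancel _ (hcpu l), map_one, map_one,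
      one_mul]
  have htr : ∀ (l : ℕ) (hl : l.Prime) (hlS : l ∉ (↑S : Set ℕ)), l ≠ 2 →
      ∀ P : ValuationSubring (AlgebraicClosure ℚ), P.LiesOverPrime l → ∀ σ : GQ,
        P.IsFrobeniusAt σ l → ∀ j,
          θ j (algebraMap Λ A (Ring.inverse (cp l)) * X l hl hlS) =
            f j (Matrix.trace (uRep U σ)) := fun l hl hlS hl2 P hP σ hσ j => by
    rw [hftr, map_mul, ← hθX j l hl hlS, ← hNtr j l hl hlS hl2 P hP σ hσ, hθΛ, hinvmul]
  have hroot : ∀ j, θ j αA = f j (uRoot U) := fun j => by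
    show _ = ((fs j (uRoot U) : smallResidue O (O' j)) : O' j)
    rw [(hfs j).2.2]
    have e2 : (α₀ j : O' j) * α₀ j + 2 = θ j t₂ * α₀ j := by
      simp only [t₂, map_mul]
      rw [mul_assoc, ← hθX j 2 Nat.prime_two h2SS, ← hN2 j h2SS, hθΛ, hinvmul]
    have := hθloc j
    exact map_unitRoot (θ j : A →+* O' j) hαA hαA1 ht2 e2
      (by rw [← map_toResidue_smallResidue, (hN j).residue_eq, map_one])
  let SF : Finset ℕ := S ∪ {2}
  obtain ⟨φ, hφloc, hφ, hval⟩ := exists_algHom_of_points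
    ((fun σ => Matrix.trace (uRep U σ)) '' frobeniusSet SF ∪ {uRoot U})
    (adjoin_root_trace_sub_mem U hspan SF) O' θ hθloc hinj f hfloc (by
      rintro g (⟨σ, ⟨l, hl, hlS, P, hP, hσ⟩, rfl⟩ | rfl)
      · simp only [SF, Finset.mem_union, Finset.mem_singleton, not_or] at hlS
        exact ⟨_, htr l hl (fun h' => hlS.1 (Finset.mem_coe.mp h')) hlS.2 P hP σ hσ⟩
      · exact ⟨αA, hroot⟩)
  refine ⟨act.toRingHom.comp φ.toRingHom, fun o x => ?_, fun l hl hlT hl0 hlQ P hP σ hσ x => ?_,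
    fun h2T x => ?_, fun i x => ?_⟩
  · show act (φ (algebraMap O U.R o)) x = _
    rw [AlgHom.commutes, IsScalarTower.algebraMap_apply O Λ A, hconst, AlgHom.commutes,
      Module.algebraMap_end_apply]
  · have hlS : l ∉ (↑S : Set ℕ) := fun h' => by
      rcases Finset.mem_union.mp (Finset.mem_coe.mp h') with h'' | h''
      · exact hl0 (Finset.mem_of_mem_erase h'')
      · exact hlQ h''
    show cp l • act (φ (Matrix.trace (uRep U σ))) x = _
    rw [hval _ _ (htr l hl hlS (fun h' => hl0 (h' ▸ h2S₀)) P hP σ hσ), map_mul,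
      Module.End.mul_apply, AlgHom.commutes, Module.algebraMap_end_apply, smul_smul,
      Ring.mul_inverse_cancel _ (hcpu l), one_smul, hXact l hl hlS hlT]
  · show cp 2 • (act (φ (uRoot U)) (act (φ (uRoot U)) x) + (2 : Λ) • x) =
      T'.newAct Λ hV' B (awayX Λ Nat.prime_two h2T) (act (φ (uRoot U)) x)
    rw [hval _ _ hroot, ← hXact 2 Nat.prime_two h2SS h2T]
    exact act_root_relation act (Ring.mul_inverse_cancel _ (hcpu 2)) rfl hαA x
  · show act (φ (Matrix.trace (uRep U (τ i)))) x = tameTrace O r n i • x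
    rw [hval _ (algebraMap Λ A (tameTrace O r n i)) fun j => by
      rw [hftr, hNtame, hθΛ], AlgHom.commutes, Module.algebraMap_end_apply]

end Fermat.Agent.TwoAdic.TSide
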