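import Fermat.Agent.TwoAdic.TSide.BoundPoly

/-!
# Eigenvalues at a prime outside the level are not `± (b + 1)`

For a non-Eisenstein eigen class with trivial character over a field of characteristic zero.
-/

set_option autoImplicit false

noncomputable section

open Polynomial CongruenceSubgroup

namespace Fermat.Agent.TwoAdic.TSide

open HeckeJ0 HeckeModule EigenSystems Engine.TRep

/-- An eigenvalue at `b ∤ N` has square different from `(b + 1)²`. -/
theorem sq_ne_of_eigen {N b r : ℕ} [NeZero N] [hb : Fact b.Prime] [hr : Fact r.Prime]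
    (hbN : ¬ b ∣ N) (hr1 : (r : ZMod N) = 1) {K : Type} [Field K] [CharZero K]
    {c : Coh1 (trivRep N K K)} (hc0 : c ≠ 0) {ab ar : K}
    (hcb : heckeOp (trivRep N K K) b c = ab • c) (hcr : heckeOp (trivRep N K K) r c = ar • c)
    (hne : ar ≠ (r : K) + 1) : ab ^ 2 ≠ ((b : K) + 1) ^ 2 := by
  have : NeZero r := ⟨hr.out.ne_zero⟩
  obtain ⟨g, hg0, hg⟩ := exists_poly_sq_forms hb.out hbN
  have he : eisen K r • c = (ar - ((r : K) + 1)) • c := by
    rw [eisen_smul, hcr, sub_smul]
  have h := HeckeSemisimple.aeval_eisen_smul_eq_zero (ρ := trivRep N K K) (fun _ => rfl) hbN hg hr1 c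
  rw [he, map_smul, smul_eq_zero_iff_right (sub_ne_zero.mpr hne)] at h
  have hpow : ∀ i : ℕ, ((heckeOp (trivRep N K K) b : Module.End K _) ^ i) c = ab ^ i • c := fun i => by
    induction i with
    | zero => simp
    | succ i ih => rw [pow_succ', Module.End.mul_apply, ih, map_smul, hcb, smul_smul, ← pow_succ]
  have hev : ∀ f : ℤ[X], aeval (heckeOp (trivRep N K K) b : Module.End K _) f c =
      (aeval ab f) • c := fun f => by
    induction f using Polynomial.induction_on' with
    | add f f' hf hf' => rw [map_add, map_add, LinearMap.add_apply, hf, hf', add_smul]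
    | monomial i z =>
      rw [aeval_monomial, aeval_monomial, algebraMap_int_eq, eq_intCast, eq_intCast,
        Module.End.mul_apply, hpow, ← zsmul_one z, LinearMap.smul_apply, Module.End.one_apply,
        ← smul_smul, ← Int.cast_smul_eq_zsmul K z (ab ^ i • c)]
  rw [hev, smul_eq_zero_iff_left hc0, aeval_comp, map_pow, aeval_X] at h
  intro hab
  rw [hab, show ((b : K) + 1) ^ 2 = algebraMap ℤ K (((b : ℤ) + 1) ^ 2) by simp,
    aeval_algebraMap_apply] at h
  exact hg0 (by simpa using h)

end Fermat.Agent.TwoAdic.TSide
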