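import Fermat.Agent.TwoAdic.TSide.EigenMultiple
import Fermat.Agent.TwoAdic.TSide.BoundPoly
import Fermat.Agent.TwoAdic.TSide.Reduced
import Fermat.Agent.TwoAdic.Modules.CoeffChange

/-!
# The eigen class of a point of a new quotient

A point of the ring of a new quotient at `B` is, over a field of characteristic zero, the system
of a class with the prescribed Atkin–Lehner signs, killed by the trace at a chosen `b ∈ B`.
-/

set_option autoImplicit false

noncomputable section

open IsLocalRing

namespace Fermat.Agent.TwoAdic.TSide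

open HeckeModule EigenSystems Engine.TRep HeckeJ0 LevelRaising

attribute [local instance] ALSetup.isPrime

variable {R : Type} [CommRing R] [IsLocalRing R] [IsNoetherianRing R]
  [IsAdicComplete (maximalIdeal R) R] (T : ALSetup R) {S : Finset ℕ}
  {ψ : ∀ q : ℕ, (ZMod q)ˣ →* R} {Q V B : Finset ℕ}

/-- The signed part is a direct summand. -/
theorem exists_signed_projection (hV : V ⊆ T.W) :
    ∃ left : T.H V R →ₗ[R] T.signed R hV, ∀ x : T.signed R hV, left (x : T.H V R) = x := by
  have : NeZero (T.level V) := ⟨T.level_ne_zero hV⟩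
  obtain ⟨_, _⟩ := T.free_H hV
  obtain ⟨_, _⟩ := T.free_signed hV
  obtain ⟨left, hl⟩ := exists_leftInverse_of_mod (T.signed R hV).subtype fun x hx =>
    T.mem_smul_signed hV (maximalIdeal R) x ((ker_charMap_mkQ (T.exact hV) _ _).mpr hx)
  exact ⟨left, fun x => LinearMap.congr_fun hl x⟩

omit [IsNoetherianRing R] [IsAdicComplete (maximalIdeal R) R] in
/-- A functional on a new quotient at a point of its ring. -/
theorem exists_point_functional (hV : V ⊆ T.W) [Module.Finite R (T.NewQuot R hV B)] {K : Type}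
    [Field K] (φ : NewRing T hV B →+* K) :
    ∃ g : T.NewQuot R hV B →+ K, g ≠ 0 ∧ ∀ a x,
      g (newRingAct T hV B a x) = φ a * g x := by
  let : Module (NewRing T hV B) (T.NewQuot R hV B) :=
    Module.compHom _ (newRingAct T hV B).toRingHom
  have : IsScalarTower R (NewRing T hV B) (T.NewQuot R hV B) := ⟨fun r a x => by
    show newRingAct T hV B (r • a) x = r • newRingAct T hV B a x
    rw [map_smul, LinearMap.smul_apply]⟩
  have : Module.Finite (NewRing T hV B) (T.NewQuot R hV B) :=
    Module.Finite.of_restrictScalars_finite R _ _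
  obtain ⟨g, hg0, hg⟩ := EigenRep.exists_semilinear_functional (M := T.NewQuot R hV B) φ
    fun a ha => by
      rw [RingHom.mem_ker, show a = 0 from newRingAct_injective T hV B (LinearMap.ext fun x => by
        rw [map_zero, LinearMap.zero_apply]
        exact Module.mem_annihilator.mp ha x), map_zero]
  exact ⟨g, hg0, fun a x => hg a x⟩

variable [IsReduced R] [Module.IsTorsionFree ℤ R]

omit [IsNoetherianRing R] [IsAdicComplete (maximalIdeal R) R] in
/-- Modifying a signed class by an old one to kill the trace at `b`: the multiplier is an integer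
which is not zero. -/
theorem exists_trace_zero {b : ℕ} [hb : Fact b.Prime] (H : PointHyp T S ψ Q V) (hbV : b ∈ V)
    (z : T.signed R H.subset) :
    ∃ (δ : ℤ) (y : T.signed R ((V.erase_subset b).trans H.subset)), δ ≠ 0 ∧
      T.tr R T.coreInS H.subset (Finset.notMem_erase b V) (Finset.insert_erase hbV)
        ((δ • z + T.oldSigned R H.subset hbV y : T.signed R H.subset) : T.H V R) = 0 := by
  classical
  set hUV := Finset.insert_erase hbV
  set hbU := Finset.notMem_erase b V
  have H' := H.face (V.erase_subset b)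
  have hbW : b ∈ T.W := H.subset hbV
  have : NeZero (T.level (V.erase b)) := ⟨T.level_ne_zero H'.subset⟩
  obtain ⟨r, hr, hrS, hr1, hre⟩ := H'.eisenstein
  have := Fact.mk hr
  obtain ⟨g, hg0, hg⟩ := exists_poly_sq_levels hb.out (T.level (V.erase b)) Q
  set κ := T.twistConst hbW with hκdef
  have hbN : ¬ b ∣ T.level (V.erase b) := T.not_dvd_level H'.subset hbW hbU
  have hκ : κ ^ 2 * charProd ψ Q b ^ 2 = 1 := by
    let v := ZMod.unitOfCoprime b ((Nat.Prime.coprime_iff_not_dvd hb.out).mpr hbN)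
    have h1 : T.χ (ZMod.unitOfCoprime b (T.coprime_M hbW)) = charProd ψ Q b ^ 2 := by
      have e : T.char (V.erase b) v = T.χ (ZMod.unitOfCoprime b (T.coprime_M hbW)) :=
        congrArg T.χ (Units.ext (by
          rw [ZMod.unitsMap_def, Units.coe_map, MonoidHom.coe_coe, ZMod.coe_unitOfCoprime,
            ZMod.coe_unitOfCoprime, map_natCast]))
      rw [← e, H'.char_eq, charSq_apply, charProd, ← Finset.prod_pow]
      refine Finset.prod_congr rfl fun q hq => ?_
      have hqd := (H'.exact_dvd q hq).2.1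
      have hcop : b.Coprime q := Nat.Coprime.coprime_dvd_right hqd
        ((Nat.Prime.coprime_iff_not_dvd hb.out).mpr hbN)
      rw [charOn, dif_pos hqd, charAt, dif_pos hcop, MonoidHom.comp_apply]
      congr 2
      refine Units.ext ?_
      rw [ZMod.unitsMap_def, Units.coe_map, MonoidHom.coe_coe, ZMod.coe_unitOfCoprime,
        ZMod.coe_unitOfCoprime, map_natCast]
    have hc := T.sq b hbW (T.coprime_M hbW)
    have hinv : T.χ (ZMod.unitOfCoprime b (T.coprime_M hbW)) *
        T.χ (ZMod.unitOfCoprime b (T.coprime_M hbW))⁻¹ = 1 := by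
      rw [← map_mul, mul_inv_cancel, map_one]
    rw [← h1, hκdef, ALSetup.twistConst, mul_pow, pow_two (T.c b), hc]
    linear_combination (T.χ (ZMod.unitOfCoprime b (T.coprime_M hbW)) *
      T.χ (ZMod.unitOfCoprime b (T.coprime_M hbW))⁻¹ + 1) * hinv
  have hrN : ¬ r ∣ T.level (V.erase b) := fun h =>
    hrS (H.S_eq.symm ▸ H'.mem_S r hr h : r ∈ T.S)
  have hkill : ∀ x : T.H (V.erase b) R, Polynomial.aeval (scaledSq κ b) g • x = 0 := fun x =>
    aeval_smul_eq_zero_loc ψ Q H'.exact_dvd hbN hr1 hrN H'.char_eq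
      (eisen_mem_awayMonoid hrS hre) hκ hg x
  -- `g = g (C₀) + (X - C₀) g'`
  set C₀ : ℤ := ((b : ℤ) + 1) ^ 2
  obtain ⟨g', hg'⟩ := Polynomial.X_sub_C_dvd_sub_C_eval (a := C₀) (p := g)
  set X₁ : HeckePoly R := MvPolynomial.X (⟨b, hb.out⟩ : Nat.Primes)
  set Dp : HeckePoly R :=
    algebraMap R (HeckePoly R) ((b : R) + 1) + algebraMap R (HeckePoly R) κ * X₁ with hDp
  set E : HeckePoly R := (algebraMap R (HeckePoly R) κ * X₁ -
    algebraMap R (HeckePoly R) ((b : R) + 1)) * Polynomial.aeval (scaledSq κ b) g' with hE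
  have hdec : Polynomial.aeval (scaledSq κ b) g = ((g.eval C₀ : ℤ) : HeckePoly R) + Dp * E := by
    have h1 := congrArg (Polynomial.aeval (scaledSq κ b)) hg'
    rw [map_sub, map_mul, map_sub, Polynomial.aeval_X, Polynomial.aeval_C, Polynomial.aeval_C,
      eq_intCast, eq_intCast] at h1
    have h2 : scaledSq κ b = (algebraMap R (HeckePoly R) κ * X₁) ^ 2 := rfl
    have h3 : ((C₀ : ℤ) : HeckePoly R) = algebraMap R (HeckePoly R) ((b : R) + 1) ^ 2 := by
      simp [C₀]
    rw [hDp, hE]
    linear_combination h1 + (Polynomial.aeval (scaledSq κ b) g') * h2 -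
      (Polynomial.aeval (scaledSq κ b) g') * h3
  -- operators commuting with the involutions below
  let Z : Subalgebra R (HeckePoly R) :=
    { carrier := {a | ∀ e ∈ V.erase b, ∀ x : T.H (V.erase b) R,
        T.w R H'.subset e (a • x) = a • T.w R H'.subset e x}
      mul_mem' := fun {a a'} ha ha' e he x => by rw [mul_smul, ha e he, ha' e he, mul_smul]
      add_mem' := fun {a a'} ha ha' e he x => by
        rw [add_smul, map_add, ha e he, ha' e he, add_smul]
      algebraMap_mem' := fun c e _ x => by rw [algebraMap_smul, map_smul, algebraMap_smul] }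
  have hX : X₁ ∈ Z := fun e he x => T.w_X R H'.subset hbU subset_rfl he x
  have hP : scaledSq κ b ∈ Z := pow_mem (mul_mem (Z.algebraMap_mem κ) hX) 2
  have hEZ : E ∈ Z := mul_mem (sub_mem (mul_mem (Z.algebraMap_mem κ) hX) (Z.algebraMap_mem _))
    (by
      have e := Polynomial.aeval_algHom_apply (Z.val.restrictScalars ℤ) ⟨scaledSq κ b, hP⟩ g'
      exact (show Polynomial.aeval (scaledSq κ b) g' =
        ((Polynomial.aeval (⟨scaledSq κ b, hP⟩ : Z) g' : Z) : HeckePoly R) from e).symm ▸
          SetLike.coe_mem _)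
  set t := T.tr R T.coreInS H.subset hbU hUV (z : T.H V R)
  have hts : E • t ∈ T.signed R H'.subset := T.mem_signed.mpr fun e he => by
    rw [hEZ e he, T.w_tr T.coreInS H.subset hbU hUV he,
      T.mem_signed.mp z.2 e (Finset.mem_of_mem_erase he)]
  refine ⟨g.eval C₀, ⟨E • t, hts⟩, hg0, ?_⟩
  have hdeg : ∀ y : T.H (V.erase b) R, T.tr R T.coreInS H.subset hbU hUV
      (T.oldMap R H.subset (V.erase_subset b) b y) = Dp • y := fun y => by
    rw [T.oldMap_apply, map_add, T.tr_res_self T.coreInS H.subset hbU hUV,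
      T.tr_w_res_self T.coreInS H.subset hbU hUV, hDp]
    refine ((add_smul _ _ y).trans (congrArg₂ HAdd.hAdd ?_ ?_)).symm
    · exact algebraMap_smul (HeckePoly R) ((b : R) + 1) y
    · exact (mul_smul _ _ y).trans (algebraMap_smul (HeckePoly R) κ _)
  rw [Submodule.coe_add, T.coe_oldSigned, map_add, hdeg, Submodule.coe_smul_of_tower, map_zsmul,
    ← Int.cast_smul_eq_zsmul (HeckePoly R), ← mul_smul, ← add_smul, ← hdec]
  exact hkill t

/-- **The eigen class of a point.** -/
theorem exists_eigen_class (H : PointHyp T S ψ Q V) [Module.Finite R (T.NewQuot R H.subset B)] {K : Type} [Field K] [CharZero K]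
    (φ : NewRing T H.subset B →+* K) (θ : R →+* K)
    (hθ : θ = φ.comp (algebraMap R (NewRing T H.subset B))) (b : ℕ) [hb : Fact b.Prime] :
    ∃ c : Coh1 (scalarRep (levelChar (T.dvd_level V) ((θ : R →* K).comp T.χ)) K), c ≠ 0 ∧
      (∀ l : AwayIndex T.S, heckeGen _ (l : Nat.Primes) c =
        φ (Ideal.Quotient.mk _ (MvPolynomial.X l)) • c) ∧
      (∀ e (he : e ∈ V), alOp K (T.isAL H.subset) he (T.dvd_level V) ((θ : R →* K).comp T.χ)
        (T.coprime_M (H.subset he)) (θ (T.c e)) c = c) ∧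
      ∀ hbV : b ∈ V, b ∈ B →
        charTrace K (T.dvd_level (V.erase b)) ((θ : R →* K).comp T.χ)
          (T.not_dvd_face H.subset (Finset.notMem_erase b V) (Finset.insert_erase hbV))
          ((T.dvd_level (V.erase b)).mul_left b)
          (charDegen K (T.dvd_level V) ((θ : R →* K).comp T.χ)
            ((T.dvd_level (V.erase b)).mul_left b) one_ne_zero
            (T.insert_dvd_mul (Finset.notMem_erase b V) (Finset.insert_erase hbV)) c) = 0 := by
  classical
  have : NeZero (T.level V) := ⟨T.level_ne_zero H.subset⟩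
  obtain ⟨left, hleft⟩ := exists_signed_projection T H.subset
  obtain ⟨g₀, hg₀, hg₀a⟩ := exists_point_functional T H.subset (B := B) φ
  let g : T.H V R →+ K :=
    g₀.comp ((T.oldSpace R H.subset B).mkQ.comp left).toAddMonoidHom
  have hgs : ∀ x : T.signed R H.subset, g (x : T.H V R) = g₀ (Submodule.Quotient.mk x) := fun x =>
    congrArg (fun w => g₀ (Submodule.Quotient.mk w)) (hleft x)
  have hgR : ∀ (c : R) v, g (c • v) = θ c * g v := fun c v => by
    show g₀ (((T.oldSpace R H.subset B).mkQ.comp left) (c • v)) = _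
    rw [map_smul, hθ, RingHom.comp_apply]
    refine Eq.trans (congrArg g₀ ?_) (hg₀a (algebraMap R (NewRing T H.subset B) c) _)
    rw [AlgHom.commutes, Module.algebraMap_end_apply]
    rfl
  -- a signed class on which the functional does not vanish
  obtain ⟨x, hx0, hxt⟩ : ∃ x : T.signed R H.subset, g₀ (Submodule.Quotient.mk x) ≠ 0 ∧
      ∀ hbV : b ∈ V, b ∈ B → T.tr R T.coreInS H.subset (Finset.notMem_erase b V)
        (Finset.insert_erase hbV) (x : T.H V R) = 0 := by
    obtain ⟨z, hz⟩ : ∃ z : T.signed R H.subset, g₀ (Submodule.Quotient.mk z) ≠ 0 := by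
      by_contra hc
      push Not at hc
      exact hg₀ (AddMonoidHom.ext fun y => by
        obtain ⟨y, rfl⟩ := Submodule.mkQ_surjective _ y
        exact hc y)
    by_cases hb' : b ∈ V ∧ b ∈ B
    · obtain ⟨δ, y, hδ, hy⟩ := exists_trace_zero T H hb'.1 z
      refine ⟨δ • z + T.oldSigned R H.subset hb'.1 y, ?_, fun _ _ => hy⟩
      rw [Submodule.Quotient.mk_add, (Submodule.Quotient.mk_eq_zero _).mpr
        (T.oldSigned_mem_oldSpace R H.subset hb'.1 hb'.2 y), add_zero, Submodule.Quotient.mk_smul,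
        map_zsmul, zsmul_eq_mul]
      exact mul_ne_zero (Int.cast_ne_zero.mpr hδ) hz
    · exact ⟨z, hz, fun h h' => absurd ⟨h, h'⟩ hb'⟩
  -- an exact representative
  obtain ⟨⟨u₀, s₀⟩, hxrep⟩ : ∃ p : Coh1 (scalarRep (T.char V) R) × awayMonoid T.m,
      (x : T.H V R) = LocalizedModule.mk p.1 p.2 := by
    induction (x : T.H V R) using LocalizedModule.induction_on with
    | _ u s => exact ⟨(u, s), rfl⟩
  have halR : ∀ e (he : e ∈ V) (a : AwayPoly R T.S) (v : Coh1 (scalarRep (T.char V) R)),
      alOp R (T.isAL H.subset) he (T.dvd_level V) T.χ (T.coprime_M (H.subset he)) (T.c e)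
        (awayIncl R T.S a • v) = awayIncl R T.S a •
      alOp R (T.isAL H.subset) he (T.dvd_level V) T.χ (T.coprime_M (H.subset he)) (T.c e) v :=
    fun e he a v => map_awayIncl_smul (S := T.S) _ (fun ℓ _ hℓ w => alOp_heckeOp_ne
      (T.isAL H.subset) he _ T.χ _ _ (ne_of_notMem hℓ (T.mem_S e (H.subset he))) w) a v
  have hw : ∀ e ∈ V, ∃ a : AwayPoly R T.S, a ∉ T.m ∧ ∀ he : e ∈ V,
      awayIncl R T.S a • alOp R (T.isAL H.subset) he (T.dvd_level V) T.χ
        (T.coprime_M (H.subset he)) (T.c e) u₀ = awayIncl R T.S a • u₀ := fun e he => by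
    have h := T.mem_signed.mp x.2 e he
    rw [hxrep, T.w_mk _ he, LocalizedModule.mk_eq] at h
    obtain ⟨⟨_, a, ha, rfl⟩, h⟩ := h
    obtain ⟨_, s, hs, hs'⟩ := s₀
    refine ⟨a * s, fun hm => (T.isPrime.mem_or_mem hm).elim ha hs, fun _ => ?_⟩
    rw [map_mul, mul_smul, mul_smul,
      show awayIncl R T.S s = (awayIncl R T.S : AwayPoly R T.S →+* HeckePoly R) s from rfl, hs']
    simp only [Submonoid.smul_def] at h
    exact h
  choose aw haw haw' using hw
  obtain ⟨a₁, ha₁, ha₁'⟩ : ∃ a : AwayPoly R T.S, a ∉ T.m ∧ ∀ hbV : b ∈ V, b ∈ B →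
      awayIncl R T.S a • T.trCoh R H.subset (Finset.notMem_erase b V) (Finset.insert_erase hbV) u₀
        = 0 := by
    by_cases hb' : b ∈ V ∧ b ∈ B
    · have h := hxt hb'.1 hb'.2
      rw [hxrep, ALSetup.tr, locLift_mk, IsLocalizedModule.mk_eq_mk',
        IsLocalizedModule.mk'_eq_zero'] at h
      obtain ⟨⟨_, a, ha, rfl⟩, h⟩ := h
      exact ⟨a, ha, fun _ _ => h⟩
    · exact ⟨1, fun h => T.isPrime.ne_top ((Ideal.eq_top_iff_one _).mpr h),
        fun h h' => absurd ⟨h, h'⟩ hb'⟩
  set a₀ : AwayPoly R T.S := a₁ * ∏ e ∈ V.attach, aw e.1 e.2 with ha₀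
  have ha₀m : a₀ ∉ T.m := fun h => (T.isPrime.mem_or_mem h).elim ha₁ fun h => by
    obtain ⟨e, -, he⟩ := T.isPrime.prod_mem_iff.mp h
    exact haw _ _ he
  set u := awayIncl R T.S a₀ • u₀ with hu
  have huw : ∀ e (he : e ∈ V), alOp R (T.isAL H.subset) he (T.dvd_level V) T.χ
      (T.coprime_M (H.subset he)) (T.c e) u = u := fun e he => by
    rw [hu, halR e he, ha₀, ← Finset.mul_prod_erase _ _ (Finset.mem_attach V ⟨e, he⟩),
      ← mul_assoc, mul_comm a₁, mul_assoc, mul_comm (aw e he), map_mul, mul_smul, mul_smul,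
      haw' e he he]
  have hut : ∀ hbV : b ∈ V, b ∈ B →
      T.trCoh R H.subset (Finset.notMem_erase b V) (Finset.insert_erase hbV) u = 0 :=
    fun hbV hbB => by
      rw [hu, map_awayIncl_smul (S := T.S) _ (fun ℓ _ hℓ w => T.trCoh_heckeOp R T.coreInS H.subset
        (Finset.notMem_erase b V) (Finset.insert_erase hbV) ℓ hℓ w), ha₀, mul_comm a₁, map_mul,
        mul_smul, ha₁' hbV hbB, smul_zero]
  -- the functional on its multiples
  obtain ⟨s, hs, hsx⟩ : ∃ s : AwayPoly R T.S, s ∉ T.m ∧
      toLoc (awayMonoid T.m) _ u₀ = awayIncl R T.S s • (x : T.H V R) := by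
    obtain ⟨_, s, hs, hs'⟩ := s₀
    refine ⟨s, hs, ?_⟩
    rw [hxrep, LocalizedModule.smul'_mk, toLoc, LocalizedModule.mkLinearMap_apply,
      LocalizedModule.mk_eq]
    refine ⟨1, ?_⟩
    simp only [one_smul, Submonoid.smul_def]
    rw [← hs']
    rfl
  let φa : AwayPoly R T.S →+* K := φ.comp (Ideal.Quotient.mk _)
  have hval : ∀ P : AwayPoly R T.S, g (awayIncl R T.S P • toLoc (awayMonoid T.m) _ u) =
      φa (P * a₀ * s) * g₀ (Submodule.Quotient.mk x) := fun P => by
    rw [hu, LinearMap.map_smul, ← mul_smul, hsx, ← mul_smul, ← map_mul, ← map_mul]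
    exact (hgs ((T.awayOp R H.subset (P * a₀ * s)).signedEnd subset_rfl x)).trans
      (hg₀a (Ideal.Quotient.mk _ (P * a₀ * s)) (Submodule.Quotient.mk x))
  have hu0 : g (toLoc (awayMonoid T.m) _ u) ≠ 0 := by
    have h := hval 1
    rw [map_one, one_smul, one_mul] at h
    rw [h]
    refine mul_ne_zero ?_ hx0
    exact ((isUnit_mk_newRing T H.subset (B := B) (fun hm =>
      (T.isPrime.mem_or_mem hm).elim ha₀m hs)).map φ).ne_zero
  obtain ⟨Q₀, hQ0, hQ⟩ := exists_eigen_multiple θ (T.exact H.subset) φa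
    (fun c => by
      rw [hθ, RingHom.comp_apply, RingHom.comp_apply, ← MvPolynomial.algebraMap_eq]
      rfl) g hgR u
    (fun P => by
      have h1 : g (toLoc (awayMonoid T.m) _ u) =
          φa (1 * a₀ * s) * g₀ (Submodule.Quotient.mk x) := by
        have h := hval 1
        rwa [map_one, one_smul] at h
      rw [hval P, h1]
      simp only [one_mul, map_mul]
      ring) hu0
  set χK : (ZMod T.M)ˣ →* K := (θ : R →* K).comp T.χ
  refine ⟨awayIncl K T.S Q₀ • pushCoh θ (T.char V) u, hQ0, hQ, fun e he => ?_, fun hbV hbB => ?_⟩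
  · have hpush : alOp K (T.isAL H.subset) he (T.dvd_level V) χK (T.coprime_M (H.subset he))
        (θ (T.c e)) (pushCoh θ (T.char V) u) = pushCoh θ (T.char V) u := by
      conv_rhs => rw [← huw e he]
      exact (semiCoh_onH1 θ.toSemilinearMap _ _
        (alData R (T.isAL H.subset) he (T.dvd_level V) T.χ (T.coprime_M (H.subset he)) (T.c e))
        (alData K (T.isAL H.subset) he (T.dvd_level V) χK (T.coprime_M (H.subset he)) (θ (T.c e)))
        (fun _ => rfl) (fun _ a => map_mul θ (T.c e) a) u).symm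
    refine (map_awayIncl_smul (S := T.S) _ (fun ℓ _ hℓ w => alOp_heckeOp_ne
      (T.isAL H.subset) he _ χK _ _ (ne_of_notMem hℓ (T.mem_S e (H.subset he))) w) Q₀ _).trans ?_
    exact congrArg _ hpush
  · set U := V.erase b
    set hUV := Finset.insert_erase hbV
    set hbU := Finset.notMem_erase b V
    have hd : ∀ ℓ : ℕ, ℓ.Prime → ℓ ∉ T.S → ¬ ℓ ∣ b * T.level U := fun ℓ hℓ h hd =>
      h (T.mem_S_of_dvd (fun _ hl hd' => H.core_mem_S hl hd') H.subset hUV hℓ hd)
    have hpush : charTrace K (T.dvd_level U) χK (T.not_dvd_face H.subset hbU hUV)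
        ((T.dvd_level U).mul_left b) (charDegen K (T.dvd_level V) χK ((T.dvd_level U).mul_left b)
          one_ne_zero (T.insert_dvd_mul hbU hUV) (pushCoh θ (T.char V) u)) = 0 := by
      have hf : ∀ (N : ℕ) (h : T.M ∣ N) (v : (ZMod N)ˣ) (a : R),
          θ.toSemilinearMap (scalarRep (levelChar h T.χ) R v a) =
            scalarRep (levelChar h χK) K v (θ.toSemilinearMap a) := fun N h v a => map_mul θ _ a
      have h1 := semiCoh_onH1 θ.toSemilinearMap (hf _ (T.dvd_level V))
        (hf _ ((T.dvd_level U).mul_left b))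
        (charDegenData R (T.dvd_level V) T.χ ((T.dvd_level U).mul_left b) one_ne_zero
          (T.insert_dvd_mul hbU hUV))
        (charDegenData K (T.dvd_level V) χK ((T.dvd_level U).mul_left b) one_ne_zero
          (T.insert_dvd_mul hbU hUV)) (fun _ => rfl) (fun _ _ => rfl) u
      refine (congrArg _ h1.symm).trans ?_
      refine (semiCoh_onH1 θ.toSemilinearMap (hf _ ((T.dvd_level U).mul_left b))
        (hf _ (T.dvd_level U))
        (charTraceData R (T.dvd_level U) T.χ (T.not_dvd_face H.subset hbU hUV)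
          ((T.dvd_level U).mul_left b))
        (charTraceData K (T.dvd_level U) χK (T.not_dvd_face H.subset hbU hUV)
          ((T.dvd_level U).mul_left b)) (fun _ => rfl) (fun _ _ => rfl) _).symm.trans ?_
      exact (congrArg (semiCoh θ.toSemilinearMap _) (hut hbV hbB)).trans (map_zero _)
    refine (congrArg _ (map_awayIncl_smul (S := T.S) _ (fun ℓ _ hℓ w => charDegen_heckeOp
      (T.dvd_level V) χK _ one_ne_zero _ (Fact.out : ℓ.Prime).not_dvd_one
      (fun h => absurd h (hd ℓ Fact.out hℓ)) w) Q₀ _)).trans ?_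
    refine (map_awayIncl_smul (S := T.S) _ (fun ℓ _ hℓ w => charTrace_heckeOp
      (T.dvd_level U) χK _ _ (hd ℓ Fact.out hℓ) w) Q₀ _).trans ?_
    exact (congrArg _ hpush).trans (smul_zero _)

end Fermat.Agent.TwoAdic.TSide
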