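import Fermat.Agent.Deform.Traces

/-!
# Artinian rings generated by traces of a lift and finitely many further elements
-/

set_option autoImplicit false

open IsLocalRing GaloisRep Fermat.Agent.DefRing Fermat.Agent.Deform

namespace Fermat.Agent.TwoAdic.TSide

variable {𝒪 : Type} [CommRing 𝒪] [IsLocalRing 𝒪] {A : Type} [CommRing A] [IsLocalRing A]
  [Algebra 𝒪 A] {D : NormalData 𝒪} {hl : IsLocalHom (algebraMap 𝒪 A)}
  {hs : Function.Surjective (residue A ∘ algebraMap 𝒪 A)}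

attribute [local instance 10000] dualAlgebra

/-- An Artinian algebra whose tangent vectors are separated by a normal lift and a set `G` is
generated by the traces of the lift and `G`. -/
theorem adjoin_trace_union_eq_top [Finite (ResidueField 𝒪)]
    (G : Set A) (hspan : Submodule.span (ResidueField 𝒪) (Set.range D.rbar) = ⊤)
    (hA : IsArtinianTestAlgebra 𝒪 A) {N : MRep A} (hN : D.IsNormal N)
    (rN : D.Reduces hl hs N)
    (hsep : letI : Algebra 𝒪 (DualNumber (ResidueField 𝒪)) := dualAlgebra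
      ∀ f g : A →ₐ[𝒪] DualNumber (ResidueField 𝒪),
        mapRep (f : A →+* DualNumber (ResidueField 𝒪)) N =
          mapRep (g : A →+* DualNumber (ResidueField 𝒪)) N → (∀ e ∈ G, f e = g e) → f = g)
    (Sig : Set GQ)
    (hSig : ∀ σ, ∃ σ' ∈ Sig, N σ' = N σ) :
    Algebra.adjoin 𝒪 ((fun σ => Matrix.trace (N σ)) '' Sig ∪ G) = ⊤ := by
  classical
  have := hA.isArtinian
  set S := Algebra.adjoin 𝒪 ((fun σ => Matrix.trace (N σ)) '' Sig ∪ G) with hS
  have htrS : ∀ σ, Matrix.trace (N σ) ∈ S := fun σ => by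
    obtain ⟨σ', hσ', he⟩ := hSig σ
    exact Algebra.subset_adjoin (Or.inl ⟨σ', hσ', by rw [← he]⟩)
  refine subalgebra_eq_top isNilpotent_maximalIdeal_of_isArtinianRing hs S fun a ha => ?_
  -- `S ∩ m + m ^ 2` is an ideal
  let I : Ideal A :=
    { carrier := {x | ∃ s ∈ S, s ∈ maximalIdeal A ∧ x - s ∈ maximalIdeal A ^ 2}
      zero_mem' := ⟨0, S.zero_mem, zero_mem _, by simp⟩
      add_mem' := by
        rintro x y ⟨s, hs1, hs2, hs3⟩ ⟨t, ht1, ht2, ht3⟩
        exact ⟨s + t, S.add_mem hs1 ht1, add_mem hs2 ht2, by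
          rw [show x + y - (s + t) = (x - s) + (y - t) by ring]; exact add_mem hs3 ht3⟩
      smul_mem' := by
        rintro c x ⟨s, hs1, hs2, hs3⟩
        obtain ⟨o, ho⟩ := exists_algebraMap_add_mem hs c
        refine ⟨algebraMap 𝒪 A o * s, S.mul_mem (S.algebraMap_mem o) hs1,
          Ideal.mul_mem_left _ _ hs2, ?_⟩
        rw [smul_eq_mul, show c * x - algebraMap 𝒪 A o * s =
          c * (x - s) + (c - algebraMap 𝒪 A o) * s by ring]
        exact add_mem (Ideal.mul_mem_left _ _ hs3) (pow_two (maximalIdeal A) ▸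
          Ideal.mul_mem_mul ho hs2) }
  by_contra hcon
  have haI : a ∉ I := fun ⟨s, hs1, _, hs3⟩ => hcon ⟨s, hs1, hs3⟩
  have hI1 : I ≤ maximalIdeal A := fun x ⟨s, _, hs2, hs3⟩ => by
    simpa using add_mem (Ideal.pow_le_self two_ne_zero hs3) hs2
  have hI2 : maximalIdeal A ^ 2 ≤ I := fun x hx => ⟨0, S.zero_mem, zero_mem _, by simpa using hx⟩
  have hIp : (maximalIdeal 𝒪).map (algebraMap 𝒪 A) ≤ I :=
    Ideal.map_le_iff_le_comap.mpr fun o ho => ⟨algebraMap 𝒪 A o, S.algebraMap_mem o,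
      fun hu => ho (hl.map_nonunit o hu), by simp⟩
  have := finite_of_isArtinianTestAlgebra hA
  have : Nontrivial (A ⧸ I) := Ideal.Quotient.nontrivial_iff.mpr fun h =>
    (maximalIdeal.isMaximal A).ne_top (top_le_iff.mp (h ▸ hI1))
  have : IsLocalRing (A ⧸ I) :=
    IsLocalRing.of_surjective' (Ideal.Quotient.mk I) Ideal.Quotient.mk_surjective
  have hmk : IsLocalHom (Ideal.Quotient.mkₐ 𝒪 I : A →+* A ⧸ I) :=
    isLocalHom_of_surjective' _ Ideal.Quotient.mk_surjective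
  have : Finite (A ⧸ I) := Finite.of_surjective _ Ideal.Quotient.mk_surjective
  let π : A ⧸ I →ₐ[𝒪] ResidueField 𝒪 :=
    Ideal.Quotient.liftₐ I (toResidue hl hs) fun x hx => (toResidue_eq_zero_iff hl hs).mpr (hI1 hx)
  have hB : IsArtinianTestAlgebra 𝒪 (A ⧸ I) := by
    refine isArtinianTestAlgebra_of_toField π fun c hc => ⟨2, ?_⟩
    obtain ⟨x, rfl⟩ := Ideal.Quotient.mk_surjective c
    rw [← map_pow, Ideal.Quotient.eq_zero_iff_mem]
    exact hI2 (Ideal.pow_mem_pow ((toResidue_eq_zero_iff hl hs).mp hc) 2)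
  have hy : Ideal.Quotient.mk I a ∈ maximalIdeal (A ⧸ I) := by
    simpa using mem_pow_of_algHom (Ideal.Quotient.mkₐ 𝒪 I : A →+* A ⧸ I) hmk (n := 1)
      (by simpa using ha)
  have hyK : Ideal.Quotient.mk I a ∉ maximalIdeal (A ⧸ I) ^ 2 ⊔
      (maximalIdeal 𝒪).map (algebraMap 𝒪 (A ⧸ I)) := by
    have h2 : maximalIdeal (A ⧸ I) ^ 2 ⊔ (maximalIdeal 𝒪).map (algebraMap 𝒪 (A ⧸ I)) = ⊥ := by
      rw [sup_eq_bot_iff]
      constructor
      · rw [← DefRing.map_maximalIdeal_of_surjective _ (Ideal.Quotient.mk_surjective (I := I)),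
          Ideal.map_eq_bot_iff_le_ker, Ideal.mk_ker]
        exact hI2
      · rw [show algebraMap 𝒪 (A ⧸ I) = (Ideal.Quotient.mk I).comp (algebraMap 𝒪 A) from rfl,
          ← Ideal.map_map,
          Ideal.map_eq_bot_iff_le_ker, Ideal.mk_ker]
        exact hIp
    rw [h2, Ideal.mem_bot, Ideal.Quotient.eq_zero_iff_mem]
    exact haI
  let : Algebra 𝒪 (DualNumber (ResidueField 𝒪)) := dualAlgebra
  obtain ⟨φ, hφ⟩ := exists_algHom_dual_snd_ne_zero hB.isLocalHom hB.residue_surjective hy hyK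
  have hT := isArtinianTestAlgebra_dual (𝒪 := 𝒪)
  let f₁ : A →ₐ[𝒪] DualNumber (ResidueField 𝒪) := φ.comp (Ideal.Quotient.mkₐ 𝒪 I)
  let inl' : ResidueField 𝒪 →ₐ[𝒪] DualNumber (ResidueField 𝒪) :=
    { algebraMap (ResidueField 𝒪) (DualNumber (ResidueField 𝒪)) with commutes' := fun o => rfl }
  let f₀ : A →ₐ[𝒪] DualNumber (ResidueField 𝒪) := inl'.comp (toResidue hl hs)
  have hf₁ := isLocalHom_of_isArtinianRing (f₁ : A →+* DualNumber (ResidueField 𝒪))
  have hf₀ := isLocalHom_of_isArtinianRing (f₀ : A →+* DualNumber (ResidueField 𝒪))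
  have hrep : mapRep (f₁ : A →+* DualNumber (ResidueField 𝒪)) N =
      mapRep (f₀ : A →+* DualNumber (ResidueField 𝒪)) N := by
    refine eq_of_trace_eq (hl := hT.isLocalHom) (hs := hT.residue_surjective) hspan (hN.map _)
      (hN.map _) (rN.map _ hf₁) (rN.map _ hf₀) fun σ => ?_
    have hmt : ∀ f : A →ₐ[𝒪] DualNumber (ResidueField 𝒪),
        Matrix.trace (mapRep (f : A →+* DualNumber (ResidueField 𝒪)) N σ) =
          f (Matrix.trace (N σ)) := fun f => by
      simp [Matrix.trace, Fin.sum_univ_two]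
    rw [hmt, hmt]
    obtain ⟨o, ho⟩ := exists_algebraMap_add_mem hs (Matrix.trace (N σ))
    have hmkt : Ideal.Quotient.mkₐ 𝒪 I (Matrix.trace (N σ)) =
        algebraMap 𝒪 (A ⧸ I) o := by
      refine (Ideal.Quotient.mk_eq_mk_iff_sub_mem _ _).mpr ?_
      exact ⟨_, S.sub_mem (htrS σ) (S.algebraMap_mem o), ho, by simp⟩
    have hres : toResidue hl hs (Matrix.trace (N σ)) = algebraMap 𝒪 (ResidueField 𝒪) o := by
      rw [← sub_eq_zero, ← AlgHom.commutes (toResidue hl hs) o, ← map_sub, toResidue_eq_zero_iff]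
      exact ho
    show φ (Ideal.Quotient.mkₐ 𝒪 I _) = inl' (toResidue hl hs _)
    rw [hmkt, hres, AlgHom.commutes, AlgHom.commutes]
  have heq := hsep f₁ f₀ hrep fun e he => by
    obtain ⟨o, ho⟩ := exists_algebraMap_add_mem hs e
    have hmkt : Ideal.Quotient.mkₐ 𝒪 I e = algebraMap 𝒪 (A ⧸ I) o :=
      (Ideal.Quotient.mk_eq_mk_iff_sub_mem _ _).mpr
        ⟨_, S.sub_mem (Algebra.subset_adjoin (Or.inr he)) (S.algebraMap_mem o), ho, by simp⟩
    have hres : toResidue hl hs e = algebraMap 𝒪 (ResidueField 𝒪) o := by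
      rw [← sub_eq_zero, ← AlgHom.commutes (toResidue hl hs) o, ← map_sub, toResidue_eq_zero_iff]
      exact ho
    show φ (Ideal.Quotient.mkₐ 𝒪 I e) = inl' (toResidue hl hs e)
    rw [hmkt, hres, AlgHom.commutes, AlgHom.commutes]
  apply hφ
  have h1 : φ (Ideal.Quotient.mk I a) = inl' (toResidue hl hs a) := DFunLike.congr_fun heq a
  rw [h1, (toResidue_eq_zero_iff hl hs).mpr ha, map_zero, TrivSqZeroExt.snd_zero]

end Fermat.Agent.TwoAdic.TSide
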