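import Fermat.Agent.TwoAdic.TSide.SignMatrix
import Fermat.Agent.OrdinaryT.Norms
import Fermat.Agent.Engine.Lifting.NormMat

/-!
# The norm and the trace

The norm `J₀(M q) → J₀(M)` on monodromy and on the lattice: after the twist by the Fricke matrices
it is the transfer along the representatives of `diag(1, q) Γ₀(M)`.
-/

set_option autoImplicit false

noncomputable section

open Matrix CongruenceSubgroup Matrix.SpecialLinearGroup
open scoped MatrixGroups

namespace Fermat.Agent.TwoAdic.TSide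

open HeckeJ0 HeckeModule LevelRaising

section Transfer

variable {M q L : ℕ} [hq : Fact q.Prime] (hqM : ¬ q ∣ M) (hL : L = q * M)

/-- The coset data of `diag(1, q) Γ₀(M)`. -/
def degenData : Data (HeckeModule.toGL (q * M)) (HeckeModule.toGL M)
    (gammaRep (trivRep (q * M) ℤ ℤ)) (gammaRep (trivRep M ℤ ℤ))
    {negOne (q * M)} {negOne M} (Option (Fin q)) :=
  factData ℤ (fact_degenReps hqM) degenSet_mul_mem

/-- Moving between equal levels. -/
def castLevel (g : Gamma0 (q * M)) : Gamma0 L := ⟨(g : SL(2, ℤ)), hL.symm ▸ g.2⟩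

/-- The transfer of a homomorphism of `Γ₀(q M)`, evaluated at an element of `Γ₀(M)`. -/
def normTransfer {A : Type*} [AddCommGroup A] (ψ : Additive (Gamma0 L) →+ A) (γ : Gamma0 M) : A :=
  ∑ i, ψ (Additive.ofMul (castLevel hL ((degenData hqM).tr i γ)))

variable [NeZero L] [NeZero M]

/-- The transfer on the lattice. -/
def normMatZ : Matrix (Fin (rk M)) (Fin (rk L)) ℤ :=
  fun i k => normTransfer hqM hL (HeckeJ0.ofCoords L (Pi.single k (1 : ℤ))) (cyc M i)

theorem normTransfer_ofCoords {A : Type*} [AddCommGroup A] (a : Fin (rk L) → A) (i : Fin (rk M)) :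
    normTransfer hqM hL (HeckeJ0.ofCoords L a) (cyc M i) =
      ∑ k, normMatZ hqM hL i k • a k := by
  classical
  simp only [normMatZ, normTransfer, HeckeJ0.ofCoords_apply]
  rw [Finset.sum_comm]
  refine Finset.sum_congr rfl fun k _ => ?_
  rw [Finset.sum_smul]
  refine Finset.sum_congr rfl fun x _ => ?_
  simp [Pi.single_apply]

end Transfer

section Monodromy

open ModularCurve AlgebraicCurve SemistableRed OrdinaryT X0Analytic

local notation "ℚbar" => AlgebraicClosure ℚ

/-- A scalar matrix acts trivially on meromorphic functions. -/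
theorem act_of_val_smul_one {g : GL (Fin 2) ℝ} {c : ℝ} (hc : c ≠ 0)
    (hg : (g : Matrix (Fin 2) (Fin 2) ℝ) = c • 1) (F : Mer) : HeckeJ0.act g F = F := by
  have hpos : 0 < g.det.val := by
    rw [Matrix.GeneralLinearGroup.val_det_apply, hg, Matrix.det_fin_two]
    simp [mul_self_pos.mpr hc]
  suffices h : HeckeJ0.act g = RingHom.id Mer from RingHom.congr_fun h F
  refine IsLocalization.ringHom_ext (nonZeroDivisors Hol) (RingHom.ext fun f => ?_)
  rw [RingHom.comp_apply, RingHom.comp_apply, act_algebraMap hpos, RingHom.id_apply]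
  refine congrArg _ (Subtype.ext (funext fun τ => ?_))
  have hτ : g • τ = τ := ?_
  · rw [preComp_apply, hτ]
  refine UpperHalfPlane.ext ?_
  rw [UpperHalfPlane.coe_smul_of_det_pos hpos, UpperHalfPlane.num, UpperHalfPlane.denom, hg]
  have hc' : (c : ℂ) ≠ 0 := Complex.ofReal_ne_zero.mpr hc
  simp [hc']

variable {M q : ℕ} [NeZero M] [NeZero q] [hq : Fact q.Prime] (hqM : ¬ q ∣ M)

/-- **Monodromy of the norm.** -/
theorem monodromy_normMap (φ : ℚbar →+* ℂ) {n : ℕ} [NeZero n] {x : JZero (M * q)}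
    (hx : x ∈ Pic0.torsion ℚbar (modularFunctionFieldBar (M * q)) n)
    {ψ : Additive (Gamma0 (M * q)) →+ ZMod n} {ψ' : Additive (Gamma0 M) →+ ZMod n}
    (h : IsMonodromy φ n x ψ) (h' : IsMonodromy φ n (normMaps M q false x) ψ') (γ : Gamma0 M) :
    frickeTwist ψ' (Additive.ofMul γ) =
      normTransfer hqM (mul_comm M q) (frickeTwist ψ) γ := by
  classical
  obtain ⟨D, u, hD, hu0, hDu⟩ := exists_divisor_function hx
  obtain ⟨hN0, D', hD', hD'N⟩ : IsFunctionOf n (normMaps M q false x)
      (SemistableRed.normAlong (heckeAlphaBar ℚbar M q) u) :=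
    isFunctionOf_normMap (heckeAlphaBar ℚbar M q) ⟨hu0, D, hD, fun P => (hDu P).symm⟩
  obtain ⟨r, hr0, hr, hract⟩ := exists_root φ (NeZero.ne n) (h D u hD hu0 hDu)
  obtain ⟨r', hr'0, hr', hr'act⟩ :=
    exists_root φ (NeZero.ne n) (h' D' _ hD' hN0 fun P => (hD'N P).symm)
  have hW := det_pos_fricke M
  have hWq := det_pos_fricke (M * q)
  set s : Mer := HeckeJ0.act (fricke (M * q)) r with hs
  have hsact : ∀ g : Gamma0 (M * q), HeckeJ0.act (mapGL ℝ (g : SL(2, ℤ))) s =
      constMer (expChar n ψ (frickeConj g)) * s := fun g => by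
    rw [hs, ← act_mul hWq (det_pos_mapGL _), ← frickeConj_mul_fricke,
      act_mul (det_pos_mapGL _) hWq, hract, map_mul, act_constMer hWq]
  let β : Option (Fin q) → LevelRaising.Mat := degenReps M q
  have hβ0 : ∀ i, (β i).det ≠ 0 := fun i => (fact_degenReps hqM).det_ne_zero i
  let α : Option (Fin q) → GL (Fin 2) ℝ := fun i => matGL (β i) (hβ0 i)
  have hpos : ∀ i, 0 < (α i).det.val := fun i => by
    rw [Matrix.GeneralLinearGroup.val_det_apply, val_matGL,
      show (β i).map (Int.cast : ℤ → ℝ) = (Int.castRingHom ℝ).mapMatrix (β i) from rfl,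
      ← RingHom.map_det, det_degenReps hqM]
    simpa using hq.out.pos
  -- the product over the representatives is the product over the cosets
  let Φ := merModel φ
  set F : Mer := Φ.ι (M * q) u with hF
  have hE0 : (LevelRaising.mm 1 0 0 (q : ℤ)).det ≠ 0 := by simpa using hq.out.ne_zero
  set E : GL (Fin 2) ℝ := matGL _ hE0 with hE
  have hEpos : 0 < E.det.val := by
    rw [Matrix.GeneralLinearGroup.val_det_apply, hE, val_matGL, Matrix.det_fin_two]
    simpa [LevelRaising.mm] using hq.out.pos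
  have hscal : ∀ G : Mer, HeckeJ0.act (degenMat q * E) G = G := by
    refine act_of_val_smul_one (c := (q : ℝ)) (Nat.cast_ne_zero.mpr hq.out.ne_zero) ?_
    rw [Units.val_mul, val_degenMat (NeZero.ne q), hE, val_matGL, ← Matrix.map_mul_intCast]
    ext i j
    fin_cases i <;> fin_cases j <;> simp [LevelRaising.mm]
  have hdeg : 0 < (degenMat q).det.val := by
    rw [Bridge.degenMat_eq_scaleGL]; exact det_pos_scaleGL q
  have hcoset : ∀ x : Idx M q, ∃ i, ∀ G : Mer,
      (∀ g : Gamma0 (M * q), HeckeJ0.act (mapGL ℝ (g : SL(2, ℤ))) G = G) →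
      HeckeJ0.act (fricke M) (HeckeJ0.act (mapGL ℝ (frickeConj (gammaOf x) : SL(2, ℤ))) G) =
        HeckeJ0.act (α i) (HeckeJ0.act (fricke (M * q)) G) := fun x => by
    obtain ⟨i, y, hy, he⟩ := (fact_degenReps hqM).fact _
      ⟨((gammaOf x : SL(2, ℤ)) : LevelRaising.Mat), HeckeModule.coe_mem_lvl (gammaOf x), rfl⟩
    refine ⟨i, fun G hG => ?_⟩
    set g : Gamma0 (M * q) := castLevel (mul_comm M q) (lvlElt hy) with hg
    have hmul : E * mapGL ℝ (gammaOf x : SL(2, ℤ)) = mapGL ℝ (g : SL(2, ℤ)) * α i :=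
      (matGL_mul_toGL_iff hE0 (hβ0 i) (gammaOf x) (lvlElt hy)).mpr he
    rw [← act_mul (det_pos_mapGL _) hW, frickeConj_mul_fricke, ← act_mul hWq (hpos i)]
    -- `W_{Mq} g α = W_M (q) γ`
    have h1 : mapGL ℝ (frickeConj g : SL(2, ℤ)) * (fricke (M * q) * α i) =
        fricke M * ((degenMat q * E) * mapGL ℝ (gammaOf x : SL(2, ℤ))) := by
      rw [← mul_assoc, frickeConj_mul_fricke, mul_assoc, ← hmul, ← Bridge.fricke_mul_degenMat]
      simp only [mul_assoc]
    have h2 : HeckeJ0.act (fricke (M * q) * α i) G =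
        HeckeJ0.act (mapGL ℝ (frickeConj g : SL(2, ℤ)) * (fricke (M * q) * α i)) G := by
      rw [act_mul (det_pos_mapGL _) (det_pos_mul hWq (hpos i)), hG]
    rw [h2, h1, act_mul hW (det_pos_mul (det_pos_mul hdeg hEpos) (det_pos_mapGL _)),
      act_mul (det_pos_mul hdeg hEpos) (det_pos_mapGL _), hscal, act_mul hW (det_pos_mapGL _)]
  choose σ hσ using hcoset
  have hfix : ∀ (z : modularFunctionFieldBar (M * q)) (g : Gamma0 (M * q)),
      HeckeJ0.act (mapGL ℝ (g : SL(2, ℤ))) (Φ.ι (M * q) z) = Φ.ι (M * q) z :=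
    fun z g => Φ.act_ι (M * q) g z
  have hσinj : Function.Injective σ := fun a b hab => Φ.conjHom_injective M q
    (RingHom.ext fun z => (HeckeJ0.act (fricke M)).injective (by
      show HeckeJ0.act (fricke M) (HeckeJ0.act _ (Φ.ι (M * q) z)) = _
      rw [hσ a _ (hfix z), hab, ← hσ b _ (hfix z)]
      rfl))
  have hσbij : Function.Bijective σ := by
    let e : Idx M q ≃ OnePoint (ZMod q) :=
      ⟨fun x => x.1, fun x => ⟨x, fun hd => absurd hd hqM⟩, fun _ => rfl, fun _ => rfl⟩
    refine (Fintype.bijective_iff_injective_and_card σ).mpr ⟨hσinj, ?_⟩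
    rw [Fintype.card_option, Fintype.card_fin, Fintype.card_congr e]
    exact (Fintype.card_option).trans (by rw [ZMod.card])
  set R : Mer := ∏ i, HeckeJ0.act (α i) s with hR
  have hsn : s ^ n = HeckeJ0.act (fricke (M * q)) F := by
    rw [hs, ← map_pow, hr]; rfl
  have hRn : HeckeJ0.act (fricke M) r' ^ n = R ^ n := by
    rw [← map_pow, hr', hR, ← Finset.prod_pow]
    refine Eq.trans ?_ ((hσbij.prod_comp fun i => (HeckeJ0.act (α i) s) ^ n))
    refine (congrArg (HeckeJ0.act (fricke M))
      (Φ.ι_normAlong_alpha M q (degreeAlpha M q) u)).trans ?_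
    rw [map_prod]
    refine Finset.prod_congr rfl fun x _ => ?_
    rw [← map_pow, hsn, ← hσ x F (hfix u)]
    rfl
  have hs0 : s ≠ 0 := (map_ne_zero _).mpr hr0
  have hR0 : R ≠ 0 := Finset.prod_ne_zero_iff.mpr fun i _ => (map_ne_zero _).mpr hs0
  obtain ⟨c, hc⟩ := exists_mul_of_pow_eq (NeZero.ne n) hR0 hRn
  set T := degenData hqM with hT
  have hTα : ∀ i, T.α i = α i := fun _ => rfl
  have hRγ : HeckeJ0.act (mapGL ℝ (γ : SL(2, ℤ))) R = constMer (∏ i,
      expChar n ψ (frickeConj (castLevel (mul_comm M q) (T.tr i γ)))) * R := by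
    rw [hR, map_prod, map_prod]
    rw [← Equiv.prod_comp (T.permEquiv HeckeModule.toGL_injective γ)
      (fun i => HeckeJ0.act (α i) s), ← Finset.prod_mul_distrib]
    refine Finset.prod_congr rfl fun i _ => ?_
    have hspec : α i * mapGL ℝ (γ : SL(2, ℤ)) =
        mapGL ℝ (castLevel (mul_comm M q) (T.tr i γ) : SL(2, ℤ)) * α (T.perm γ i) :=
      T.mul_spec i γ
    rw [← act_mul (hpos i) (det_pos_mapGL _), hspec, act_mul (det_pos_mapGL _) (hpos _), hsact,
      map_mul, act_constMer (hpos _)]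
    rfl
  have key : HeckeJ0.act (mapGL ℝ (γ : SL(2, ℤ))) (HeckeJ0.act (fricke M) r') =
      constMer (expChar n ψ' (frickeConj γ)) * HeckeJ0.act (fricke M) r' := by
    rw [← act_mul hW (det_pos_mapGL _), ← frickeConj_mul_fricke, act_mul (det_pos_mapGL _) hW,
      hr'act, map_mul, act_constMer hW]
  rw [hc, map_mul, act_constMer (det_pos_mapGL _), hRγ] at key
  have hc0 : constMer c ≠ 0 := fun h0 =>
    (map_ne_zero (HeckeJ0.act (fricke M))).mpr hr'0 (by rw [hc, h0, zero_mul])
  have hval : expChar n ψ' (frickeConj γ) =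
      ∏ i, expChar n ψ (frickeConj (castLevel (mul_comm M q) (T.tr i γ))) := by
    refine constMer.injective (mul_right_cancel₀ (mul_ne_zero hc0 hR0) ?_)
    rw [← key]
    ring
  refine ZMod.injective_stdAddChar ?_
  rw [normTransfer, stdAddChar_sum]
  exact hval

open EigenRep Engine.Lifting Engine.TRep in
/-- **The matrix of the norm is the transfer on the lattice.** -/
theorem normPadic_stdInputs {p : ℕ} [Fact p.Prime] (hes : EichlerShimuraRelations (M * q) p)
    (hes' : EichlerShimuraRelations M p) :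
    normPadic (stdInputs hes) (stdInputs hes') false =
      (normMatZ hqM (mul_comm M q)).map (Int.cast : ℤ → ℤ_[p]) := by
  refine Matrix.ext fun i k => PadicInt.ext_of_toZModPow.mp fun n => ?_
  have : NeZero (p ^ n) := ⟨pow_ne_zero n (Fact.out : p.Prime).ne_zero⟩
  have hmod : mapMat (stdInputs hes).model (stdInputs hes').model (normMaps M q false) n =
      ((normMatZ hqM (mul_comm M q)).map (Int.cast : ℤ → ZMod (p ^ n))) := by
    refine Matrix.ext_of_mulVec_single fun j => ?_
    obtain ⟨x, hx⟩ := ((stdInputs hes).model.e n).surjective (Pi.single j 1)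
    rw [← hx, mapMat_mulVec]
    funext i
    set θ := fun (z : Pic0.torsion ℚbar (modularFunctionFieldBar (M * q)) (p ^ n)) =>
      (J0Torsion.torsionEquiv (M * q) (p ^ n) z : Additive (Gamma0 (M * q)) →+ ZMod (p ^ n))
    set y := torsMap (normMaps M q false) (p ^ n) x
    have hmon := monodromy_normMap hqM J0Torsion.jEmb x.2
      (HeckeJ0.isMonodromy_torsionEquiv _ _ x) (HeckeJ0.isMonodromy_torsionEquiv M (p ^ n) y)
      (cyc M i)
    show HeckeJ0.coords M (frickeTwist
        (J0Torsion.torsionEquiv M (p ^ n) y : Additive (Gamma0 M) →+ ZMod (p ^ n))) i = _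
    rw [HeckeJ0.coords_apply, hmon, ← ofCoords_coords_zmod _ (HeckeJ0.parabolicFull (M * q)) (p ^ n)
      (HeckeJ0.isGoodHom_frickeTwist (J0Torsion.torsionEquiv (M * q) (p ^ n) x).2),
      normTransfer_ofCoords]
    show ∑ k, normMatZ hqM (mul_comm M q) i k • HeckeJ0.coords (M * q) (frickeTwist (θ x)) k =
      ∑ k, ((normMatZ hqM (mul_comm M q) i k : ℤ) : ZMod (p ^ n)) *
        HeckeJ0.coords (M * q) (frickeTwist (θ x)) k
    exact Finset.sum_congr rfl fun k _ => zsmul_eq_mul _ _
  have h := congrFun (congrFun ((mapPadic_mod _ _ _ n).trans hmod) i) k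
  rw [Matrix.map_apply, Matrix.map_apply] at h
  rw [Matrix.map_apply, map_intCast]
  exact h

end Monodromy

end Fermat.Agent.TwoAdic.TSide
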