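import Fermat.Agent.TwoAdic.TSide.PointSystem
import Fermat.Agent.TwoAdic.Pair.Residual
import Fermat.Agent.TwoAdic.TSide.Attached

/-!
# Small facts on representations of points
-/

set_option autoImplicit false

noncomputable section

open IsLocalRing Module

namespace Fermat.Agent.TwoAdic.TSide

open HeckeModule EigenSystems Engine.TRep HeckeJ0 LevelRaising Fermat.Agent.EigenRep
  Fermat.Agent.DefRing

local notation "Ω" => AlgebraicClosure ℚ
local notation "GQ" => (AlgebraicClosure ℚ) ≃ₐ[ℚ] (AlgebraicClosure ℚ)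

/-- Continuous residual matrices give a residual representation. -/
theorem exists_residualRep {k : Type} [Field k] (r : MRep k) (hc : IsCont r) :
    ∃ (ρbar : ResidualGaloisRep k) (b : Basis (Fin 2) k ρbar.V),
      ∀ σ, LinearMap.toMatrix b b (ρbar.ρ σ) = r σ := by
  let f : GQ →* Module.End k (Fin 2 → k) :=
    (Matrix.toLinAlgEquiv' (R := k) (n := Fin 2)).toAlgHom.toMonoidHom.comp r
  refine ⟨⟨Fin 2 → k, Module.finrank_fin_fun k, f, ?_⟩, Pi.basisFun k (Fin 2),
    fun σ => LinearMap.toMatrix'_toLin' _⟩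
  obtain ⟨L, hL, h1⟩ := hc.finite_level
  exact ⟨L, hL, fun σ hσ => by simp [f, h1 σ hσ]⟩

/-- A determinant given by the adic cyclotomic character is cyclotomic. -/
theorem detIsCyclotomic_of_det_eq {p : ℕ} [Fact p.Prime] {A : Type} [CommRing A] [IsLocalRing A]
    [IsAdicComplete (maximalIdeal A) A] (hp : (p : A) ∈ maximalIdeal A) (ρ : GaloisRepAdic A)
    (h : ∀ σ, LinearMap.det (ρ.ρ σ) = padicHom p hp (epsilonPadic p σ : ℤ_[p])) :
    ρ.DetIsCyclotomic p := by
  refine ⟨hp, fun n σ a ha => ?_⟩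
  obtain ⟨ζ, hζ⟩ := exists_primitiveRoot (p := p) n
  have h1 := toZModPow_epsilon_eq hζ (ha ζ hζ.pow_eq_one)
  have h2 : (epsilonPadic p σ : ℤ_[p]) - (a : ℤ_[p]) ∈ RingHom.ker (PadicInt.toZModPow n) := by
    rw [RingHom.mem_ker, map_sub, h1, map_natCast, sub_self]
  rw [PadicInt.ker_toZModPow, Ideal.mem_span_singleton] at h2
  obtain ⟨c, hc⟩ := h2
  rw [Ideal.mem_span_singleton, h σ]
  refine ⟨padicHom p hp c, ?_⟩
  rw [← map_natCast (padicHom p hp) a, ← map_sub, hc, map_mul, map_pow, map_natCast, Nat.cast_pow]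

section Residual

variable {A : Type} [CommRing A] [IsLocalRing A] {k : Type} [Field k] {ρ : GaloisRepAdic A}
  {r : GQ → Matrix (Fin 2) (Fin 2) k} {ψ : k →+* ResidueField A}

/-- Residual traces of a representation with residual matrices conjugate to the given ones. -/
theorem residue_trace_of_conj (b : Basis (Fin 2) A ρ.V)
    {g : (Matrix (Fin 2) (Fin 2) (ResidueField A))ˣ}
    (hg : ∀ σ, (g : Matrix (Fin 2) (Fin 2) (ResidueField A)) * (matrixRep ρ b σ).map (residue A) =
      (r σ).map ψ * g) (σ : GQ) :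
    residue A (ρ.trace σ) = ψ (r σ).trace := by
  have e := congrArg (fun M => M * (↑g⁻¹ : Matrix (Fin 2) (Fin 2) (ResidueField A))) (hg σ)
  simp only [mul_assoc, Units.mul_inv, mul_one] at e
  have h := congrArg Matrix.trace e
  rw [Matrix.trace_mul_comm, mul_assoc, Units.inv_mul, mul_one] at h
  rw [show ρ.trace σ = (matrixRep ρ b σ).trace from LinearMap.trace_eq_matrix_trace A b _]
  exact ((AddMonoidHom.map_trace (residue A).toAddMonoidHom _).trans h).trans
    (AddMonoidHom.map_trace ψ.toAddMonoidHom _).symm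

/-- Residual determinants. -/
theorem residue_det_of_conj (b : Basis (Fin 2) A ρ.V)
    {g : (Matrix (Fin 2) (Fin 2) (ResidueField A))ˣ}
    (hg : ∀ σ, (g : Matrix (Fin 2) (Fin 2) (ResidueField A)) * (matrixRep ρ b σ).map (residue A) =
      (r σ).map ψ * g) (σ : GQ) :
    residue A (matrixRep ρ b σ).det = ψ (r σ).det := by
  have h := congrArg Matrix.det (hg σ)
  rw [Matrix.det_mul, Matrix.det_mul, mul_comm ((r σ).map ψ).det] at h
  rw [RingHom.map_det, RingHom.map_det]
  exact ((Matrix.isUnit_iff_isUnit_det _).mp g.isUnit).mul_left_cancel h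

/-- Residual matrices are one exactly where the given ones are. -/
theorem map_eq_one_iff_of_conj (b : Basis (Fin 2) A ρ.V)
    {g : (Matrix (Fin 2) (Fin 2) (ResidueField A))ˣ}
    (hg : ∀ σ, (g : Matrix (Fin 2) (Fin 2) (ResidueField A)) * (matrixRep ρ b σ).map (residue A) =
      (r σ).map ψ * g) (σ : GQ) :
    (matrixRep ρ b σ).map (residue A) = 1 ↔ r σ = 1 := by
  constructor
  · intro h
    have e := hg σ
    rw [h, mul_one] at e
    refine Matrix.map_injective ψ.injective ?_
    show (r σ).map ψ = (1 : Matrix (Fin 2) (Fin 2) k).map ψ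
    rw [Matrix.map_one ψ (map_zero ψ) (map_one ψ)]
    exact g.isUnit.mul_right_cancel (e.symm.trans (one_mul _).symm)
  · intro h
    have e := hg σ
    rw [h, Matrix.map_one ψ (map_zero ψ) (map_one ψ), one_mul] at e
    exact g.isUnit.mul_left_cancel (e.trans (mul_one _).symm)

end Residual

/-- Inertia moves residually at primes dividing the discriminant. -/
theorem exists_inertia_ne_one {k : Type} [Field k] {D : ℕ} {r : MRep k}
    (hr : IsDihedralResidual D r) (hsq : Squarefree D) {q : ℕ} (hq : q.Prime) (hqD : q ∣ D)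
    {P : ValuationSubring Ω} (hP : P.LiesOverPrime q) :
    ∃ τ ∈ P.inertiaSubgroupIn ℚ, r τ ≠ 1 := by
  obtain ⟨x, hx⟩ := IsAlgClosed.exists_pow_nat_eq (-(D : Ω)) (n := 2) two_pos
  obtain ⟨τ, hτ, hτx⟩ := exists_inertia_moves hq hqD hsq hP hx
  exact ⟨τ, hτ, fun h => hτx ((hr.fixing τ).mpr (Or.inr h) x hx)⟩

attribute [local instance] ALSetup.isPrime

section Comp

variable {R : Type} [CommRing R] [IsLocalRing R] [IsNoetherianRing R]
  [IsAdicComplete (maximalIdeal R) R] [IsReduced R] [Module.IsTorsionFree ℤ R] (T : ALSetup R)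
  {V B : Finset ℕ} {O' O₂ : Type} [CommRing O'] [IsDomain O'] [CharZero O']
  [CommRing O₂] [IsDomain O₂] [CharZero O₂] {ι : O' →+* O₂}

omit [IsNoetherianRing R] [IsAdicComplete (maximalIdeal R) R] [IsReduced R] [IsTorsionFree ℤ R]
  [CharZero O'] [CharZero O₂] in
/-- The primes twisted away do not change under an extension of the ring of values. -/
theorem ptSupport_comp (hι : Function.Injective ι) (hV : V ⊆ T.W)
    (φ : NewRing T hV B →+* O') (ψ : ∀ q : ℕ, (ZMod q)ˣ →* R) (Q : Finset ℕ) :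
    ptSupport T hV (ι.comp φ) ψ Q = ptSupport T hV φ ψ Q := by
  classical
  unfold ptSupport sqSupport
  refine Finset.filter_congr fun q _ => not_congr ?_
  have h1 : ∀ (A : Type) [CommRing A] [IsDomain A] (θ : R →+* A),
      ptChar (K := FractionRing A) ψ θ q ^ 2 = 1 ↔ ∀ u, θ (ψ q u) ^ 2 = 1 := fun A _ _ θ => by
    rw [MonoidHom.ext_iff]
    refine forall_congr' fun u => ?_
    show (algebraMap A (FractionRing A) (θ (ψ q u))) ^ 2 = 1 ↔ _
    rw [← map_pow, ← map_one (algebraMap A (FractionRing A)),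
      (IsFractionRing.injective A (FractionRing A)).eq_iff]
  rw [h1, h1]
  refine forall_congr' fun u => ?_
  show ι (φ (algebraMap R (NewRing T hV B) (ψ q u))) ^ 2 = 1 ↔ _
  rw [← map_pow, ← map_one ι, hι.eq_iff]
  rfl

omit [IsNoetherianRing R] [IsAdicComplete (maximalIdeal R) R] [IsReduced R] [IsTorsionFree ℤ R]
  [CharZero O'] [CharZero O₂] in
/-- The twisted values after an extension of the ring of values. -/
theorem sysVal_comp (hι : Function.Injective ι) (hV : V ⊆ T.W)
    (φ : NewRing T hV B →+* O') (ψ : ∀ q : ℕ, (ZMod q)ˣ →* R) (Q : Finset ℕ) (l : Nat.Primes) :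
    sysVal T hV (ι.comp φ) ψ Q l = ι (sysVal T hV φ ψ Q l) := by
  unfold sysVal
  rw [ptSupport_comp T hι hV φ ψ Q]
  split
  · rw [map_zero]
  · rw [map_mul]
    rfl

omit [IsNoetherianRing R] [IsAdicComplete (maximalIdeal R) R] [IsReduced R] [IsTorsionFree ℤ R] in
omit [CharZero O'] in
/-- Outside the support the values of the characters have square one. -/
theorem sq_eq_one_of_notMem_ptSupport (hV : V ⊆ T.W) (φ : NewRing T hV B →+* O')
    (ψ : ∀ q : ℕ, (ZMod q)ˣ →* R) {Q : Finset ℕ} {q : ℕ} (hq : q ∈ Q)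
    (h : q ∉ ptSupport T hV φ ψ Q) (u : (ZMod q)ˣ) : ptBase T hV φ (ψ q u) ^ 2 = 1 := by
  have h1 := DFunLike.congr_fun (sq_eq_one_of_notMem_sqSupport _ hq h) u
  refine IsFractionRing.injective O' (FractionRing O') ?_
  rw [map_pow, map_one]
  exact h1

end Comp

end Fermat.Agent.TwoAdic.TSide

end
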