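import Fermat.Agent.TameInertia.Adic
import Fermat.Agent.SquareOld.NonEisenstein
import Fermat.Agent.Deform.Conditions
import Fermat.Agent.Frobenius.Exists

/-!
# Unipotent inertia with a residually nonzero Frobenius trace is trivial, at the prime `2`

If inertia at an odd `r` acts through unipotent matrices, Frobenius conjugates `N = ρ τ - 1` to
`r N`.  A nonzero `N` then forces `trace φ ^ 2 = (1 + r) ^ 2`, which is residually zero.
-/

set_option autoImplicit false

noncomputable section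

open IsLocalRing Matrix Polynomial

namespace Fermat.Agent.TwoAdic.TSide

open DefRing EigenRep

local notation "Qbar" => AlgebraicClosure ℚ
local notation "GQ" => (AlgebraicClosure ℚ ≃ₐ[ℚ] AlgebraicClosure ℚ)

/-- `(1 + N) ^ k = 1 + k • N` for `N ^ 2 = 0`. -/
theorem one_add_pow_of_sq_zero {S : Type*} [Ring S] {N : S} (hN : N * N = 0) (k : ℕ) :
    (1 + N) ^ k = 1 + k • N := by
  induction k with
  | zero => simp
  | succ k ih =>
    rw [pow_succ, ih, succ_nsmul, add_mul, one_mul, smul_mul_assoc, mul_add, mul_one, hN, add_zero]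
    abel

/-- A rank one nilpotent matrix scaled by `r` under a conjugation with determinant `r`. -/
theorem trace_sq_eq_of_mul_eq_smul {R : Type*} [CommRing R] [IsDomain R]
    {F N : Matrix (Fin 2) (Fin 2) R} {r : R} (hr : r ≠ 0) (hr1 : r ≠ 1) (hdet : F.det = r)
    (hN : N ≠ 0) (h : F * N = r • (N * F)) : F.trace ^ 2 = (1 + r) ^ 2 := by
  set t := F.trace
  have hF : F * F = t • F - r • 1 := by
    ext i j
    fin_cases i <;> fin_cases j <;>
      simp [t, ← hdet, Matrix.mul_apply, Matrix.det_fin_two, Matrix.trace_fin_two,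
        Fin.sum_univ_two] <;> ring
  have h2 : F * F * N = (r * r) • (N * (F * F)) := by
    rw [mul_assoc, h, mul_smul_comm, ← mul_assoc F N F, h, smul_mul_assoc, smul_smul, mul_assoc]
  rw [hF, sub_mul, smul_mul_assoc, smul_mul_assoc, one_mul, h, mul_sub, mul_smul_comm,
    mul_smul_comm, mul_one] at h2
  have h3 : (r * (1 - r)) • (t • (N * F) - (1 + r) • N) = 0 := by
    linear_combination (norm := module) h2
  have h4 : t • (N * F) = (1 + r) • N :=
    sub_eq_zero.mp ((smul_eq_zero.mp h3).resolve_left (mul_ne_zero hr (sub_ne_zero.mpr (Ne.symm hr1))))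
  have h5 := congrArg (fun X => t • (X * F)) h4
  simp only [smul_mul_assoc, mul_assoc, hF, mul_sub, mul_smul_comm, mul_one] at h5
  have h6 : (r * (t ^ 2)) • N = ((t * t - (1 + r)) * (1 + r)) • N := by
    linear_combination (norm := module) (t * t - (1 + r)) • h4 - h5
  have h7 := smul_left_injective R hN h6
  linear_combination -h7

variable {O : Type} [CommRing O] [IsDomain O] [IsDiscreteValuationRing O]
  [IsAdicComplete (maximalIdeal O) O]

omit [IsAdicComplete (maximalIdeal O) O] in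
/-- Unipotent inertia: the Frobenius relation. -/
theorem matrixRep_frobenius_mul (ρ : GaloisRepAdic O) {r : ℕ} (hr : r.Prime) (hr2 : r ≠ 2)
    (h2 : (2 : O) ∈ maximalIdeal O) (hu : ρ.IsUnipotentOnInertiaAt r)
    {A : ValuationSubring Qbar} (hA : A.LiesOverPrime r) {φ τ : GQ} (hφ : A.IsFrobeniusAt φ r)
    (hτ : τ ∈ A.inertiaSubgroupIn ℚ) :
    let M := matrixRep ρ (repBasis ρ)
    M φ * M τ = M τ ^ r * M φ ∧ (M τ - 1) * (M τ - 1) = 0 := by
  intro M
  have hsq : ∀ d ∈ A.inertiaSubgroupIn ℚ, (M d - 1) * (M d - 1) = 0 := fun d hd => by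
    have h := Matrix.aeval_self_charpoly (M d)
    have hc : (M d).charpoly = (X - 1) ^ 2 :=
      (LinearMap.charpoly_toMatrix (ρ.ρ d) (repBasis ρ)).trans (hu A hA d hd)
    rw [hc, map_pow, map_sub, aeval_X, map_one, pow_two] at h
    exact h
  refine ⟨TameInertia.frobenius_relation fun k => TameInertia.redMat_eq_iff.1 ?_, hsq τ hτ⟩
  let J : Ideal O := maximalIdeal O ^ k
  let f : GQ →* (Matrix (Fin 2) (Fin 2) (O ⧸ J))ˣ :=
    ((TameInertia.redMat J).toMonoidHom.comp M).toHomUnits
  have hf : ∀ d, ((f d : (Matrix (Fin 2) (Fin 2) (O ⧸ J))ˣ) : Matrix (Fin 2) (Fin 2) (O ⧸ J)) =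
      TameInertia.redMat J (M d) := fun d => rfl
  obtain ⟨L, hL, hLM⟩ := isCont_matrixRep ρ (repBasis ρ) k
  obtain ⟨-, hfrob⟩ := TameInertia.local_tame_inertia (MonoidHom.id GQ) (ρ := f) (e := 2 ^ k)
    ⟨L, hL, fun d hd => Units.ext (by
      rw [hf, Units.val_one, ← map_one (TameInertia.redMat J), TameInertia.redMat_eq_iff]
      exact hLM d ((IntermediateField.mem_fixingSubgroup_iff L d).1 hd))⟩
    hr hA (Nat.Coprime.pow_left k ((Nat.coprime_primes Nat.prime_two hr).2 (Ne.symm hr2)))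
    (fun d hd => Units.ext (by
      rw [Units.val_pow_eq_pow_val, hf, Units.val_one, ← map_pow, ← map_one (TameInertia.redMat J),
        TameInertia.redMat_eq_iff]
      intro a b
      rw [show M d ^ 2 ^ k - 1 = (2 ^ k) • (M d - 1) by
        rw [show M d = 1 + (M d - 1) by abel, one_add_pow_of_sq_zero (hsq d hd), add_sub_cancel_left,
          add_sub_cancel_left], Matrix.smul_apply, nsmul_eq_mul, Nat.cast_pow, Nat.cast_ofNat]
      exact Ideal.mul_mem_right _ _ (Ideal.pow_mem_pow h2 k)))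
  have h := hfrob φ hφ τ hτ
  rw [mul_inv_eq_iff_eq_mul] at h
  simpa [hf, map_mul, map_pow] using congrArg Units.val h

/-- **Unipotent and residually nonzero trace at Frobenius: unramified.** -/
theorem isUnramifiedAt_of_unipotent [Finite (ResidueField O)] [CharZero O] (ρ : GaloisRepAdic O)
    {r : ℕ} (hr : r.Prime) (hr2 : r ≠ 2) (h2 : (2 : O) ∈ maximalIdeal O)
    (hdet : ρ.DetIsCyclotomic 2) (hu : ρ.IsUnipotentOnInertiaAt r)
    (htr : ∀ A : ValuationSubring Qbar, A.LiesOverPrime r → ∀ φ : GQ, A.IsFrobeniusAt φ r →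
      residue O (ρ.trace φ) ≠ 0) : ρ.IsUnramifiedAt r := by
  have : Fact (Nat.Prime 2) := ⟨Nat.prime_two⟩
  intro A hA τ hτ
  obtain ⟨φ, hφ⟩ := Frobenius.exists_isFrobeniusAt_qbar hr hA
  obtain ⟨hrel, hsq⟩ := matrixRep_frobenius_mul ρ hr hr2 h2 hu hA hφ hτ
  let M := matrixRep ρ (repBasis ρ)
  set N := M τ - 1 with hN
  suffices h0 : N = 0 by
    refine (LinearMap.toMatrix (repBasis ρ) (repBasis ρ)).injective ?_
    rw [LinearMap.toMatrix_one]
    exact sub_eq_zero.mp h0
  by_contra hne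
  have hMN : M τ = 1 + N := by rw [hN]; abel
  rw [show matrixRep ρ (repBasis ρ) τ = 1 + N from hMN, one_add_pow_of_sq_zero hsq, mul_add,
    mul_one, add_mul, one_mul, smul_mul_assoc, add_left_cancel_iff,
    ← Nat.cast_smul_eq_nsmul O] at hrel
  have hd : (M φ).det = (r : O) := by
    rw [← Deform.det_eq_matrixRep_det, SquareOld.det_eq_padicHom hdet,
      epsilon_frobenius hr hr2 hA hφ, map_natCast]
  have key := trace_sq_eq_of_mul_eq_smul (Nat.cast_ne_zero.mpr hr.ne_zero)
    (Nat.cast_ne_one.mpr hr.ne_one) hd hne hrel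
  have ht : ρ.trace φ = (M φ).trace := LinearMap.trace_eq_matrix_trace O (repBasis ρ) _
  refine htr A hA φ hφ ?_
  rw [ht, residue_eq_zero_iff]
  refine (IsLocalRing.maximalIdeal.isMaximal O).isPrime.mem_of_pow_mem 2 ?_
  rw [key]
  refine Ideal.pow_mem_of_mem _ ?_ 2 (by norm_num)
  obtain ⟨k, hk⟩ := hr.odd_of_ne_two hr2
  rw [hk, show (1 : O) + ((2 * k + 1 : ℕ) : O) = 2 * ((k : O) + 1) by push_cast; ring]
  exact Ideal.mul_mem_right _ _ h2

end Fermat.Agent.TwoAdic.TSide
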