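import Fermat.Agent.TwoAdic.TSide.PointSigned
import Fermat.Agent.TwoAdic.TSide.Descend
import Fermat.Agent.TwoAdic.TSide.Unramified

/-!
# Points give pairs

An integral point of the ring of a new quotient gives, over a finite extension of its ring of
values, a representation with an ordinary root satisfying the conditions of pairs, with the traces
and the root equation prescribed by the point, hence a pair over the elements with residue in the
base residue field.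
-/

set_option autoImplicit false

noncomputable section

open IsLocalRing Module

namespace Fermat.Agent.TwoAdic.TSide

open HeckeModule EigenSystems Engine.TRep HeckeJ0 LevelRaising Fermat.Agent.EigenRep
  Fermat.Agent.DefRing Fermat.Agent.Deform

attribute [local instance] ALSetup.isPrime

local notation "Ω" => AlgebraicClosure ℚ
local notation "GQ" => (AlgebraicClosure ℚ) ≃ₐ[ℚ] (AlgebraicClosure ℚ)

/-- The facts on a setup and a problem under which points give pairs. -/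
structure PairHyp {O R : Type} [CommRing O] [IsLocalRing O] [CharP (ResidueField O) 2]
    [CommRing R] [IsLocalRing R] (D : NormalData O) (E : LiftData) (C : Set (GQ × GQ))
    (T : ALSetup R) (ψ : ∀ q : ℕ, (ZMod q)ˣ →* R) (S Q V B : Finset ℕ) : Prop where
  dihedral : IsDihedralResidual E.D D.rbar
  cont : IsCont D.rbar
  kummer : ∀ x ∈ C, ∃ K : Pair.KummerPair, x = (K.s, K.t)
  new_mem : ∀ q : ℕ, q.Prime → ((q ∣ E.D ∧ q ≠ E.ℓ₀) ∨ q ∈ E.aux) → q ∈ V
  aux_mem : ∀ q ∈ E.aux, q ∈ B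
  sign : ∀ q : ℕ, q.Prime → ((q ∣ E.D ∧ q ≠ E.ℓ₀) ∨ q ∈ E.aux) →
    T.c q = -(E.sgn q : R) * charProd ψ Q q
  dvd_M : ∀ q ∈ Q, q ∣ T.M
  two_notMem : 2 ∉ S
  ell_exact : ¬ E.ℓ₀ * E.ℓ₀ ∣ T.level V
  ell_notMem : E.ℓ₀ ∉ Q
  core : ∀ q : ℕ, q.Prime → q ∣ T.level V → ¬ q ∣ E.D → q ∉ E.aux → q ∉ Q →
    ¬ q * q ∣ T.level V ∧ ∀ A : ValuationSubring Ω, A.LiesOverPrime q →
      ∀ f : GQ, A.IsFrobeniusAt f q → (D.rbar f).trace ≠ 0

variable [Fact (Nat.Prime 2)] {O : Type} [CommRing O] [IsDomain O] [IsDiscreteValuationRing O]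
  [IsAdicComplete (maximalIdeal O) O] [Finite (ResidueField O)] [CharP (ResidueField O) 2]
  {D : NormalData O} {E : LiftData} {C : Set (GQ × GQ)}
  {R : Type} [CommRing R] [IsLocalRing R] [IsNoetherianRing R]
  [IsAdicComplete (maximalIdeal R) R] [IsReduced R] [Module.IsTorsionFree ℤ R] [Algebra O R]
  (T : ALSetup R) {S : Finset ℕ} {ψ : ∀ q : ℕ, (ZMod q)ˣ →* R} {Q V B : Finset ℕ}
  {O' : Type} [CommRing O'] [IsDomain O'] [IsDiscreteValuationRing O']
  [IsAdicComplete (maximalIdeal O') O'] [Finite (ResidueField O')] [CharZero O']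
  [Algebra O O'] [Module.Finite O O'] [IsLocalHom (algebraMap O O')]

/-- **A point gives a pair.** -/
theorem exists_pointPair (H : PointHyp T S ψ Q V) (P : PairHyp D E C T ψ S Q V B)
    [Module.Finite R (T.NewQuot R H.subset B)]
    (φ : NewRing T H.subset B →ₐ[O] O')
    (hψ : ∀ q ∈ Q, ∀ u, residue O' (ptBase T H.subset (φ : NewRing T H.subset B →+* O') (ψ q u)) = 1)
    (htr : ∀ (l : AwayIndex T.S), ((l : Nat.Primes) : ℕ) ≠ 2 → ∀ A : ValuationSubring Ω,
      A.LiesOverPrime ((l : Nat.Primes) : ℕ) → ∀ σ : GQ,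
        A.IsFrobeniusAt σ ((l : Nat.Primes) : ℕ) →
          residue O' (φ (Ideal.Quotient.mk _ (MvPolynomial.X l))) =
            ResidueField.map (algebraMap O O') (D.rbar σ).trace)
    (ha2 : ∀ h : ((twoPrime : Nat.Primes) : ℕ) ∉ T.S,
      residue O' (φ (Ideal.Quotient.mk _ (MvPolynomial.X ⟨twoPrime, h⟩))) = 1) :
    ∃ (O₂ : Type) (_ : CommRing O₂) (_ : IsDomain O₂) (_ : IsDiscreteValuationRing O₂)
      (_ : IsAdicComplete (maximalIdeal O₂) O₂) (_ : Finite (ResidueField O₂)) (_ : CharZero O₂)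
      (_ : Algebra O O₂) (_ : Module.Finite O O₂) (_ : IsLocalHom (algebraMap O O₂))
      (h2' : ((2 : ℕ) : O₂) ∈ maximalIdeal O₂) (ι : O' →ₐ[O] O₂),
      Function.Injective ι ∧
      ∃ (ρ : GaloisRepAdic O₂) (α : O₂),
        (∀ σ, LinearMap.det (ρ.ρ σ) = padicHom 2 h2' (epsilonPadic 2 σ : ℤ_[2])) ∧
        (∀ (l : AwayIndex T.S), ((l : Nat.Primes) : ℕ) ≠ 2 → ∀ A : ValuationSubring Ω,
          A.LiesOverPrime ((l : Nat.Primes) : ℕ) → ∀ σ : GQ,
            A.IsFrobeniusAt σ ((l : Nat.Primes) : ℕ) →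
              ι (φ (algebraMap R (NewRing T H.subset B)
                (charProd ψ Q ((l : Nat.Primes) : ℕ)))) * ρ.trace σ =
                ι (φ (Ideal.Quotient.mk _ (MvPolynomial.X l)))) ∧
        (∀ h : ((twoPrime : Nat.Primes) : ℕ) ∉ T.S,
          ι (φ (algebraMap R (NewRing T H.subset B) (charProd ψ Q 2))) * (α * α + 2) =
            ι (φ (Ideal.Quotient.mk _ (MvPolynomial.X ⟨twoPrime, h⟩))) * α) ∧
        E.pairCond Q C O ρ ∧ Pair.IsOrdinary ρ α ∧
        ∃ (N : MRep (smallResidue O O₂)) (α₀ : smallResidue O O₂), (α₀ : O₂) = α ∧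
          Pair.IsPair D E Q C inferInstance (residue_surjective_smallResidue (𝒪 := O) (A := O₂)) N α₀ ∧
          ∀ σ, ((N σ).trace : O₂) = ρ.trace σ := by
  classical
  have h2O : (2 : O) ∈ maximalIdeal O := (residue_eq_zero_iff _).mp (by
    rw [map_ofNat]; exact CharTwo.two_eq_zero)
  have h2 : ((2 : ℕ) : O') ∈ maximalIdeal O' := by
    have h := map_nonunit (algebraMap O O') _ h2O
    rwa [map_ofNat] at h
  have h2S : (2 : ℕ) ∉ S := P.two_notMem
  have h2V : ¬ 2 ∣ T.level V := fun h => h2S (H.mem_S 2 Nat.prime_two h)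
  have hlT : ∀ l : ℕ, l ∉ S → l ∉ T.S := fun l hl => by rw [H.S_eq]; simpa using hl
  have hD0 : 0 < E.D := by have := E.mod_eight; omega
  let φ' : NewRing T H.subset B →+* O' := φ
  set Q' := ptSupport T H.subset φ' ψ Q with hQ'
  have hQ'sub : Q' ⊆ Q := sqSupport_subset _ Q
  have hQS : ∀ q ∈ Q, q ∈ S := fun q hq => H.mem_S q (H.aux q hq).1 (H.exact_dvd q hq).2.1
  -- residues of the twisted values
  have hone : ∀ (F : Finset ℕ), F ⊆ Q → ∀ n : ℕ,
      residue O' (ptBase T H.subset φ' (charProd ψ F n)) = 1 := fun F hF n => by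
    rw [charProd, map_prod, map_prod]
    refine Finset.prod_eq_one fun x hx => ?_
    rw [charAt]
    split
    · exact hψ x (hF hx) _
    · rw [map_one, map_one]
  have hres_sys : ∀ l : AwayIndex T.S, residue O' (sysVal T H.subset φ' ψ Q l.1) =
      residue O' (φ (Ideal.Quotient.mk _ (MvPolynomial.X l))) := fun l => by
    have h := congrArg (residue O') (charProd_mul_sysVal T H.subset φ' (ψ := ψ) (Q := Q) l)
    rw [map_mul, hone Q' hQ'sub, one_mul] at h
    exact h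
  -- the residual representation over the residue field of `O'`
  let ψ₁ : ResidueField O →+* ResidueField O' := ResidueField.map (algebraMap O O')
  have hc₁ : IsCont (ψ₁.mapMatrix.toMonoidHom.comp D.rbar) := by
    obtain ⟨L, hL, h1⟩ := P.cont.finite_level
    exact isCont_of_finite_level ⟨L, hL, fun σ hσ => by simp [h1 σ hσ]⟩
  obtain ⟨ρbar', b', hb'⟩ := exists_residualRep _ hc₁
  have hb'' : ∀ σ, LinearMap.toMatrix b' b' (ρbar'.ρ σ) = (D.rbar σ).map ψ₁ := hb'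
  have hρ1 : ∀ σ, D.rbar σ = 1 → ρbar'.ρ σ = 1 := fun σ h =>
    (LinearMap.toMatrix b' b').injective (by
      rw [hb'' σ, h, LinearMap.toMatrix_one, Matrix.map_one ψ₁ (map_zero _) (map_one _)])
  have hρne : ∀ σ, D.rbar σ ≠ 1 → ρbar'.ρ σ ≠ 1 := fun σ h h' => h
    (Matrix.map_injective ψ₁.injective (by
      show (D.rbar σ).map ψ₁ = (1 : Matrix (Fin 2) (Fin 2) (ResidueField O)).map ψ₁
      rw [← hb'' σ, h', LinearMap.toMatrix_one, Matrix.map_one ψ₁ (map_zero _) (map_one _)]))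
  obtain ⟨O₂, i₁, i₂, i₃, i₄, i₅, i₆, i₇, i₈, i₉, h2', hinj, ρ', α', hdet', hfrob', hres', hcomm',
      hunr', huni', hα', hαeq', hαne', hord'⟩ :=
    exists_pointRep T H φ' h2 h2V h2S ρbar' b'
      (by
        obtain ⟨g, h, hgh⟩ := IsDihedralResidual.exists_commutator_det_ne_zero P.dihedral hD0
        refine ⟨g, h, ?_⟩
        rw [hb'', hb'', show (D.rbar g).map ψ₁ * (D.rbar h).map ψ₁ -
          (D.rbar h).map ψ₁ * (D.rbar g).map ψ₁ =
            ψ₁.mapMatrix (D.rbar g * D.rbar h - D.rbar h * D.rbar g) by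
          simp only [map_sub, map_mul]; rfl, ← RingHom.map_det]
        exact (map_ne_zero ψ₁).mpr hgh)
      (fun A hA => ⟨fun τ hτ => hρ1 τ (P.dihedral.unramified 2 Nat.prime_two
          (by have := E.mod_eight; omega) A hA τ hτ),
        fun f hf => hρne f (Pair.rbar_frobenius_two P.dihedral E.mod_eight hA hf).2.1⟩)
      (fun ℓ hℓ hℓS A hA σ hσ => by
        rw [Finset.mem_insert, not_or] at hℓS
        let l : AwayIndex T.S := ⟨⟨ℓ, hℓ⟩, hlT ℓ hℓS.2⟩
        rw [show (⟨ℓ, hℓ⟩ : Nat.Primes) = l.1 from rfl, hres_sys l, htr l hℓS.1 A hA σ hσ,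
          LinearMap.trace_eq_matrix_trace _ b', hb'' σ]
        exact AddMonoidHom.map_trace ψ₁.toAddMonoidHom _)
      ((hres_sys ⟨twoPrime, hlT 2 h2S⟩).trans (ha2 _))
  -- the algebra structure over the base
  let : Algebra O O₂ := ((algebraMap O' O₂).comp (algebraMap O O')).toAlgebra
  have : IsScalarTower O O' O₂ := IsScalarTower.of_algebraMap_eq fun _ => rfl
  have : Module.Finite O O₂ := Module.Finite.trans O' O₂
  have hloc : IsLocalHom (algebraMap O O₂) :=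
    inferInstanceAs (IsLocalHom ((algebraMap O' O₂).comp (algebraMap O O')))
  let ι : O' →ₐ[O] O₂ := IsScalarTower.toAlgHom O O' O₂
  have h22 : (2 : O₂) ∈ maximalIdeal O₂ := by simpa using h2'
  let φ₂ : NewRing T H.subset B →+* O₂ := (algebraMap O' O₂).comp φ'
  set θ₂ := ptBase T H.subset φ₂ with hθ₂
  have hQ₂ : ptSupport T H.subset φ₂ ψ Q = Q' := ptSupport_comp T hinj H.subset φ' ψ Q
  have hθ : ∀ x, θ₂ x = ι (φ (algebraMap R (NewRing T H.subset B) x)) := fun x => rfl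
  -- residual matrices
  let ψ₂ : ResidueField O →+* ResidueField O₂ := ResidueField.map (algebraMap O O₂)
  have hψ₂ : ∀ x, ψ₂ x = ResidueField.map (algebraMap O' O₂) (ψ₁ x) := fun x => by
    obtain ⟨x, rfl⟩ := residue_surjective x
    rfl
  -- the character of square one
  let ψu : ∀ q : ℕ, (ZMod q)ˣ →* O₂ˣ := fun q => (θ₂.toMonoidHom.comp (ψ q)).toHomUnits
  obtain ⟨η, hη, hηin, hηfr, hηsq⟩ := exists_galChar (Q \ Q')
    (fun q hq => (H.aux q (Finset.mem_sdiff.mp hq).1).1) ψu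
  have hsq : ∀ σ, η σ ^ 2 = 1 := hηsq fun q hq u => Units.ext (by
    rw [Finset.mem_sdiff] at hq
    exact sq_eq_one_of_notMem_ptSupport T H.subset φ₂ ψ hq.1 (hQ₂.symm ▸ hq.2) u)
  have hηval : ∀ n : ℕ, ((charProd ψu (Q \ Q') n : O₂ˣ) : O₂) = θ₂ (charProd ψ (Q \ Q') n) :=
    fun n => (charProd_map ψu (Units.coeHom O₂) (Q \ Q') n).symm.trans
      (charProd_map ψ θ₂.toMonoidHom (Q \ Q') n)
  have hsplit : ∀ n : ℕ, θ₂ (charProd ψ Q n) =
      θ₂ (charProd ψ Q' n) * θ₂ (charProd ψ (Q \ Q') n) := fun n => by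
    rw [← map_mul, charProd, charProd, charProd, mul_comm, Finset.prod_sdiff hQ'sub]
  have hval2 : ∀ {ℓ : ℕ}, ℓ.Prime → ℓ ∉ Q \ Q' → θ₂ (charProd ψ (Q \ Q') ℓ) ^ 2 = 1 :=
    fun {ℓ} hℓ hℓQ => by
      obtain ⟨A, σ, hA, hσ⟩ := Frobenius.exists_liesOverPrime_and_isFrobeniusAt_qbar hℓ
      rw [← hηval, ← hηfr ℓ hℓ hℓQ A hA σ hσ, ← Units.val_pow_eq_pow_val, hsq, Units.val_one]
  let ρ := galTwist ρ' hη
  have hdet : ∀ σ, LinearMap.det (ρ.ρ σ) = padicHom 2 h2' (epsilonPadic 2 σ : ℤ_[2]) := fun σ => by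
    rw [det_galTwist_of_sq ρ' hη hsq, hdet']
  have hresη : ∀ σ, residue O₂ (η σ : O₂) = 1 := fun σ => residue_eq_one_of_sq h22 (hsq σ)
  have hres : ρ.residual.IsEquiv
      (ρbar'.baseChangeAlong (ResidueField.map (algebraMap O' O₂))) :=
    residual_isEquiv_galTwist ρ' hη hresη hres'
  obtain ⟨ρbar, b, hb⟩ := exists_residualRep D.rbar P.cont
  have hconj : ∀ {ρ₀ : GaloisRepAdic O₂},
      ρ₀.residual.IsEquiv (ρbar'.baseChangeAlong (ResidueField.map (algebraMap O' O₂))) →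
      ∃ g : (Matrix (Fin 2) (Fin 2) (ResidueField O₂))ˣ, ∀ σ,
        (g : Matrix (Fin 2) (Fin 2) (ResidueField O₂)) *
          (matrixRep ρ₀ (repBasis ρ₀) σ).map (residue O₂) = (D.rbar σ).map ψ₂ * g := by
    intro ρ₀ h0
    obtain ⟨g, hg⟩ := (residual_isEquiv_baseChangeAlong_iff ρ₀ (repBasis ρ₀) ρbar' b' _).mp h0
    refine ⟨g, fun σ => ?_⟩
    rw [hg σ, hb'' σ, Matrix.map_map]
    exact congrArg (fun f => (D.rbar σ).map f * (g : Matrix (Fin 2) (Fin 2) (ResidueField O₂)))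
      (funext fun x => (hψ₂ x).symm)
  obtain ⟨g₀, hg₀⟩ := hconj hres
  obtain ⟨g₁, hg₁⟩ := hconj hres'
  have hres0 : ρ.residual.IsEquiv (ρbar.baseChangeAlong ψ₂) :=
    (residual_isEquiv_baseChangeAlong_iff ρ (repBasis ρ) ρbar b ψ₂).mpr
      ⟨g₀, fun σ => by rw [hb σ]; exact hg₀ σ⟩
  -- the root
  have h2Q : (2 : ℕ) ∉ Q := fun h => h2S (hQS 2 h)
  have h2QQ : (2 : ℕ) ∉ Q \ Q' := fun h => h2Q (Finset.mem_sdiff.mp h).1
  set e₂ : O₂ := θ₂ (charProd ψ (Q \ Q') 2) with he₂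
  have he₂sq : e₂ ^ 2 = 1 := hval2 Nat.prime_two h2QQ
  let α : O₂ := e₂ * α'
  have hord : Pair.IsOrdinary ρ α := isOrdinary_galTwist ρ' hη hord'
    (hηin 2 Nat.prime_two h2QQ) fun A hA f hf => by
      rw [hηfr 2 Nat.prime_two h2QQ A hA f hf, hηval]
  have hαres : residue O₂ α = 1 := by
    obtain ⟨A, σ, hA, hσ⟩ :=
      Frobenius.exists_liesOverPrime_and_isFrobeniusAt_qbar Nat.prime_two
    rw [map_mul, hα', mul_one, he₂, ← hηval, ← hηfr 2 Nat.prime_two h2QQ A hA σ hσ, hresη]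
  have hαne : α ^ 2 ≠ 1 := by rw [mul_pow, he₂sq, one_mul]; exact hαne'
  -- the traces
  have htrace : ∀ (l : AwayIndex T.S), ((l : Nat.Primes) : ℕ) ≠ 2 → ∀ A : ValuationSubring Ω,
      A.LiesOverPrime ((l : Nat.Primes) : ℕ) → ∀ σ : GQ,
        A.IsFrobeniusAt σ ((l : Nat.Primes) : ℕ) →
          ι (φ (algebraMap R (NewRing T H.subset B)
            (charProd ψ Q ((l : Nat.Primes) : ℕ)))) * ρ.trace σ =
            ι (φ (Ideal.Quotient.mk _ (MvPolynomial.X l))) := by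
    intro l hl2 A hA σ hσ
    have hlS : ((l : Nat.Primes) : ℕ) ∉ S := fun h => l.2 (H.S_eq.ge h)
    have hlQ : ((l : Nat.Primes) : ℕ) ∉ Q \ Q' := fun h => hlS (hQS _ (Finset.mem_sdiff.mp h).1)
    rw [← hθ, hsplit, trace_galTwist, hηfr _ l.1.2 hlQ A hA σ hσ, hηval,
      hfrob' _ l.1.2 (by simp [hl2, hlS]) A hA σ hσ]
    have h := congrArg (algebraMap O' O₂)
      (charProd_mul_sysVal T H.subset φ' (ψ := ψ) (Q := Q) l)
    rw [map_mul] at h
    change θ₂ (charProd ψ Q' _) * _ = _ at h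
    rw [mul_assoc, ← mul_assoc (θ₂ (charProd ψ (Q \ Q') _)), ← pow_two, hval2 l.1.2 hlQ, one_mul]
    exact h
  -- the matrices
  have hdetc : ρ.DetIsCyclotomic 2 := detIsCyclotomic_of_det_eq h2' ρ hdet
  let N₀ := matrixRep ρ (repBasis ρ)
  have hN₀c : IsCont N₀ := isCont_matrixRep ρ (repBasis ρ)
  have hN₀det : (toAdic N₀ hN₀c).DetIsCyclotomic 2 := by
    refine detIsCyclotomic_of_det_eq h2' _ fun σ => ?_
    rw [det_toAdic_eq, ← hdet σ]
    exact LinearMap.det_toMatrix _ _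
  have hαu : IsUnit α := notMem_maximalIdeal.mp fun hm => by
    rw [← residue_eq_zero_iff, hαres] at hm
    exact one_ne_zero hm
  have hcris : Pair.IsCrystalline ρ C := fun x hx => by
    obtain ⟨K, rfl⟩ := P.kummer x hx
    obtain ⟨f, hf⟩ := Frobenius.exists_isFrobeniusAt_qbar Nat.prime_two K.over_two
    have h := K.crystalline_of_isDomain hN₀c hN₀det hαu
      ((Pair.isOrdinary_iff ρ (repBasis ρ) α).mp hord)
      ⟨f, hf, Pair.exists_isUnit_of_residual (residue O₂)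
        (fun y hy => notMem_maximalIdeal.mp fun hm => hy ((residue_eq_zero_iff y).mpr hm)) hαres
        (by rw [residue_det_of_conj (repBasis ρ) hg₀ f, P.dihedral.det_one, map_one])
        (fun h => (Pair.rbar_frobenius_two P.dihedral E.mod_eight K.over_two hf).2.1
          ((map_eq_one_iff_of_conj (repBasis ρ) hg₀ f).mp h))⟩ hαne
    refine (LinearMap.toMatrixAlgEquiv (repBasis ρ)).injective ?_
    rw [map_add, map_smul, map_smul, map_one]
    exact h
  -- inertia away from the support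
  have hηQ : ∀ q : ℕ, q.Prime → q ∉ Q → ∀ A : ValuationSubring Ω, A.LiesOverPrime q →
      ∀ τ ∈ A.inertiaSubgroupIn ℚ, η τ = 1 := fun q hq hqQ =>
    hηin q hq fun h => hqQ (Finset.mem_sdiff.mp h).1
  have hdvd : ∀ q : ℕ, q.Prime → q ∉ Q → q ∣ T.level V * ∏ x ∈ Q', x → q ∣ T.level V :=
    fun q hq hqQ h => (hq.dvd_mul.mp h).resolve_right fun h' => by
      obtain ⟨x, hx, hqx⟩ := (Prime.dvd_finsetProd_iff hq.prime _).mp h'
      exact hqQ (((Nat.prime_dvd_prime_iff_eq hq (H.aux x (hQ'sub hx)).1).mp hqx) ▸ hQ'sub hx)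
  have hunip : ∀ q : ℕ, q.Prime → q ≠ 2 → q ∉ Q → ¬ q * q ∣ T.level V →
      ρ.IsUnipotentOnInertiaAt q := fun q hq hq2 hqQ hq1 => by
    refine isUnipotentOnInertiaAt_galTwist ρ' hη ?_ (hηQ q hq hqQ)
    by_cases hN : q ∣ T.level V * ∏ x ∈ Q', x
    · obtain ⟨M, hM⟩ := hN
      refine huni' M q (by rw [hM, mul_comm]) hq (fun hqM => hq1 ?_) hq2
      obtain ⟨m, rfl⟩ := hqM
      refine Nat.Coprime.dvd_of_dvd_mul_right ?_ (Dvd.intro m (by rw [hM, mul_assoc]) :
        q * q ∣ T.level V * ∏ x ∈ Q', x)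
      exact Nat.Coprime.mul_left
        (Nat.Coprime.prod_right fun x hx => (Nat.coprime_primes hq (H.aux x (hQ'sub hx)).1).mpr
          fun h => hqQ (h ▸ hQ'sub hx))
        (Nat.Coprime.prod_right fun x hx => (Nat.coprime_primes hq (H.aux x (hQ'sub hx)).1).mpr
          fun h => hqQ (h ▸ hQ'sub hx))
    · intro A hA σ hσ
      rw [hunr' q hq hN hq2 A hA σ hσ, LinearMap.charpoly_one, ρ'.finrank_eq]
  have hℓ2 : E.ℓ₀ ≠ 2 := fun h => by
    have := E.mod_eight; have := E.dvd_ℓ₀; rw [h] at this; omega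
  have hcond : E.pairCond Q C O ρ := by
    refine ⟨hdetc, hcris, hunip E.ℓ₀ E.prime_ℓ₀ hℓ2 P.ell_notMem P.ell_exact,
      fun q hq hqN => ?_, fun q hq hq2 hqD hqa hqQ => ?_⟩
    · have hqV := P.new_mem q hq hqN
      have hq2 : q ≠ 2 := fun h => h2V ((h ▸ Finset.dvd_prod_of_mem id hqV).mul_left T.core)
      have hqQ : q ∉ Q := fun h => T.notDvd q (H.subset hqV) (H.aux q h).2.1
      obtain ⟨e, hee, he, hnew⟩ := exists_sign_isSignedNewAt T H φ₂ h2' P.dvd_M ρ' hdet'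
        (fun ℓ hℓ hℓS A hA σ hσ =>
          (hfrob' ℓ hℓ hℓS A hA σ hσ).trans (sysVal_comp T hinj H.subset φ' ψ Q _).symm)
        hcomm' hq hq2 hqV (E.sgn q) (E.sgn_spec q) (P.sign q hq hqN) (by
          rcases hqN with hd | ha
          · refine Or.inr ?_
            obtain ⟨A, hA⟩ := Frobenius.exists_liesOverPrime Ω hq
            obtain ⟨τ, hτ, hne⟩ := exists_inertia_ne_one P.dihedral E.squarefree hq hd.1 hA
            exact ⟨A, hA, τ, hτ, fun h => hne ((map_eq_one_iff_of_conj (repBasis ρ') hg₁ τ).mp h)⟩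
          · exact Or.inl (P.aux_mem q ha))
      have hqQQ : q ∉ Q \ Q' := fun h => hqQ (Finset.mem_sdiff.mp h).1
      have h := isSignedNewAt_galTwist ρ' hη hnew (e := e) (hηQ q hq hqQ) fun A hA f hf => by
        rw [hηfr q hq hqQQ A hA f hf, hηval, hee, hQ₂]
      have hs : e * (E.sgn q * e) = E.sgn q := by rcases he with rfl | rfl <;> ring
      rwa [hs] at h
    · by_cases hN : q ∣ T.level V * ∏ x ∈ Q', x
      · obtain ⟨hq1, htr0⟩ := P.core q hq (hdvd q hq hqQ hN) hqD hqa hqQ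
        refine isUnramifiedAt_of_unipotent ρ hq hq2 h22 hdetc (hunip q hq hq2 hqQ hq1)
          fun A hA f hf => ?_
        rw [residue_trace_of_conj (repBasis ρ) hg₀ f]
        exact (map_ne_zero ψ₂).mpr (htr0 A hA f hf)
      · exact isUnramifiedAt_galTwist ρ' hη (hunr' q hq hN hq2) (hηQ q hq hqQ)
  obtain ⟨N, α₀, hα₀, hpair, htrN⟩ :=
    exists_pair_of_point b (fun σ => (hb σ).symm) h2O ρ α hres0 hαres hcond hord
  refine ⟨O₂, i₁, i₂, i₃, i₄, i₅, i₆, inferInstance, inferInstance, hloc, h2', ι, hinj,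
    ρ, α, hdet, htrace, fun h => ?_, hcond, hord, N, α₀, hα₀, hpair, htrN⟩
  have h1 := congrArg (algebraMap O' O₂)
    (charProd_mul_sysVal T H.subset φ' (ψ := ψ) (Q := Q) ⟨twoPrime, h⟩)
  rw [map_mul] at h1
  change θ₂ (charProd ψ Q' 2) * _ = _ at h1
  change _ = ι (φ (Ideal.Quotient.mk _ (MvPolynomial.X _))) at h1
  rw [← hθ, hsplit, ← h1]
  linear_combination (θ₂ (charProd ψ Q' 2) * e₂) * hαeq' +
    (θ₂ (charProd ψ Q' 2) * e₂ * (α' * α')) * he₂sq

end Fermat.Agent.TwoAdic.TSide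

end
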