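import Fermat.Agent.TwoAdic.TSide.PointSystem
import Fermat.Agent.TwoAdic.TSide.EigenBound
import Fermat.Agent.TwoAdic.TSide.Attached
import Fermat.Agent.TwoAdic.TSide.OrdinaryTwo
import Fermat.Agent.TwoAdic.TSide.FieldLattice

/-!
# The representation of a point, before the twist

A point of the ring of a new quotient has an attached representation with the given residual
representation, ordinary at `2` with a root `α` whose square is not `1`.
-/

set_option autoImplicit false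

noncomputable section

open IsLocalRing Module

namespace Fermat.Agent.TwoAdic.TSide

open HeckeModule EigenSystems Engine.TRep HeckeJ0 LevelRaising Fermat.Agent.EigenRep
  Fermat.Agent.DefRing

attribute [local instance] ALSetup.isPrime

local notation "Ω" => AlgebraicClosure ℚ
local notation "GQ" => (AlgebraicClosure ℚ) ≃ₐ[ℚ] (AlgebraicClosure ℚ)

variable {R : Type} [CommRing R] [IsLocalRing R] [IsNoetherianRing R]
  [IsAdicComplete (maximalIdeal R) R] [IsReduced R] [Module.IsTorsionFree ℤ R] (T : ALSetup R)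
  {S : Finset ℕ} {ψ : ∀ q : ℕ, (ZMod q)ˣ →* R} {Q V B : Finset ℕ}
  {O' : Type} [CommRing O'] [IsDomain O'] [CharZero O']

omit [IsLocalRing R] [IsNoetherianRing R] [IsAdicComplete (maximalIdeal R) R] [IsReduced R]
  [IsTorsionFree ℤ R] in
/-- The values of the characters at `1` modulo the primes. -/
theorem charProd_eq_one_of_cast {Q : Finset ℕ} {n N : ℕ} (hn : (n : ZMod N) = 1)
    (hQ : ∀ q ∈ Q, q ∣ N) : charProd ψ Q n = 1 :=
  charProd_eq_one ψ fun q hq => by
    have := congrArg (ZMod.castHom (hQ q hq) (ZMod q)) hn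
    rwa [map_natCast, map_one] at this

variable [IsDiscreteValuationRing O'] [IsAdicComplete (maximalIdeal O') O']
  [Finite (ResidueField O')]

omit [IsDiscreteValuationRing O'] [IsAdicComplete (maximalIdeal O') O']
  [Finite (ResidueField O')] in
omit [IsNoetherianRing R] [IsAdicComplete (maximalIdeal R) R] [IsReduced R] [IsTorsionFree ℤ R]
  [CharZero O'] in
/-- A point separates an Eisenstein operator outside the prime of the setup. -/
theorem exists_eisenstein_sysVal (H : PointHyp T S ψ Q V)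
    [Module.Finite R (T.NewQuot R H.subset B)]
    (φ : NewRing T H.subset B →+* O') :
    ∃ (r : ℕ) (hr : r.Prime), r ∉ S ∧ (r : ZMod (T.level V * ∏ q ∈ Q, q)) = 1 ∧
      IsUnit (sysVal T H.subset φ ψ Q ⟨r, hr⟩ - ((r : O') + 1)) := by
  obtain ⟨r, hr, hrS, hr1, hre⟩ := H.eisenstein
  refine ⟨r, hr, fun h => hrS (H.S_eq ▸ h), hr1, ?_⟩
  have h1 := (isUnit_mk_newRing T H.subset (B := B) hre).map φ
  simp only [map_sub, map_add, map_natCast, map_one] at h1
  unfold sysVal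
  rw [dif_neg (show ¬ ((⟨r, hr⟩ : Nat.Primes) : ℕ) ∈ T.S from hrS),
    show charProd (fun q => (ψ q).comp invMonoidHom) (ptSupport T H.subset φ ψ Q)
      ((⟨r, hr⟩ : Nat.Primes) : ℕ) = 1 from charProd_eq_one_of_cast hr1 fun q hq =>
        (H.exact_dvd q (sqSupport_subset _ Q hq)).2.1.mul_right _, map_one, one_mul]
  exact h1

variable [Fact (Nat.Prime 2)]

/-- **The representation of a point.** -/
theorem exists_pointRep (H : PointHyp T S ψ Q V)
    [Module.Finite R (T.NewQuot R H.subset B)]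
    (φ : NewRing T H.subset B →+* O') (h2 : ((2 : ℕ) : O') ∈ maximalIdeal O')
    (h2V : ¬ 2 ∣ T.level V) (h2S : 2 ∉ S)
    (ρbar : ResidualGaloisRep (ResidueField O'))
    (b : Module.Basis (Fin 2) (ResidueField O') ρbar.V)
    (hbar : ∃ g h, (LinearMap.toMatrix b b (ρbar.ρ g) * LinearMap.toMatrix b b (ρbar.ρ h) -
      LinearMap.toMatrix b b (ρbar.ρ h) * LinearMap.toMatrix b b (ρbar.ρ g)).det ≠ 0)
    (htwo : ∀ A : ValuationSubring Ω, A.LiesOverPrime 2 →
      (∀ τ ∈ A.inertiaSubgroupIn ℚ, ρbar.ρ τ = 1) ∧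
        ∀ f : GQ, A.IsFrobeniusAt f 2 → ρbar.ρ f ≠ 1)
    (htr : ∀ (ℓ : ℕ) (hℓ : ℓ.Prime), ℓ ∉ insert 2 S → ∀ A : ValuationSubring Ω,
      A.LiesOverPrime ℓ → ∀ σ : GQ, A.IsFrobeniusAt σ ℓ →
        residue O' (sysVal T H.subset φ ψ Q ⟨ℓ, hℓ⟩) =
          LinearMap.trace (ResidueField O') ρbar.V (ρbar.ρ σ))
    (ha2 : residue O' (sysVal T H.subset φ ψ Q twoPrime) = 1) :
    ∃ (O₂ : Type) (_ : CommRing O₂) (_ : IsDomain O₂) (_ : IsDiscreteValuationRing O₂)
      (_ : IsAdicComplete (maximalIdeal O₂) O₂)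
      (_ : Finite (ResidueField O₂)) (_ : CharZero O₂)
      (_ : Algebra O' O₂) (_ : Module.Finite O' O₂) (_ : IsLocalHom (algebraMap O' O₂))
      (h2' : ((2 : ℕ) : O₂) ∈ maximalIdeal O₂),
      Function.Injective (algebraMap O' O₂) ∧
      ∃ (ρ : GaloisRepAdic O₂) (α : O₂),
        (∀ σ, LinearMap.det (ρ.ρ σ) = padicHom 2 h2' (epsilonPadic 2 σ : ℤ_[2])) ∧
        (∀ (ℓ : ℕ) (hℓ : ℓ.Prime), ℓ ∉ insert 2 S → ∀ A : ValuationSubring Ω,
          A.LiesOverPrime ℓ → ∀ σ : GQ, A.IsFrobeniusAt σ ℓ →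
            ρ.trace σ = algebraMap O' O₂ (sysVal T H.subset φ ψ Q ⟨ℓ, hℓ⟩)) ∧
        ρ.residual.IsEquiv (ρbar.baseChangeAlong (ResidueField.map (algebraMap O' O₂))) ∧
        (∃ g h, IsUnit (matrixRep ρ (repBasis ρ) g * matrixRep ρ (repBasis ρ) h -
          matrixRep ρ (repBasis ρ) h * matrixRep ρ (repBasis ρ) g).det) ∧
        (∀ q : ℕ, q.Prime → ¬ q ∣ T.level V * ∏ x ∈ ptSupport T H.subset φ ψ Q, x → q ≠ 2 →
          ρ.IsUnramifiedAt q) ∧
        (∀ M q : ℕ, T.level V * ∏ x ∈ ptSupport T H.subset φ ψ Q, x = M * q → q.Prime →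
          ¬ q ∣ M → q ≠ 2 → ρ.IsUnipotentOnInertiaAt q) ∧
        residue O₂ α = 1 ∧
        α * α + 2 = algebraMap O' O₂ (sysVal T H.subset φ ψ Q twoPrime) * α ∧
        α ^ 2 ≠ 1 ∧ Pair.IsOrdinary ρ α := by
  classical
  set Q' := ptSupport T H.subset φ ψ Q
  set N := T.level V * ∏ x ∈ Q', x
  set a : Nat.Primes → O' := sysVal T H.subset φ ψ Q
  let K := FractionRing O'
  have : CharZero K := charZero_of_injective_algebraMap (IsFractionRing.injective O' K)
  have hQ'0 : ∀ x ∈ Q', x.Prime ∧ x ∣ T.level V := fun x hx =>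
    ⟨(H.exact_dvd x (sqSupport_subset _ Q hx)).1, (H.exact_dvd x (sqSupport_subset _ Q hx)).2.1⟩
  have : NeZero N := ⟨mul_ne_zero (T.level_ne_zero H.subset)
    (Finset.prod_ne_zero_iff.mpr fun x hx => (hQ'0 x hx).1.ne_zero)⟩
  have hNV : ∀ q : ℕ, q.Prime → q ∣ N → q ∣ T.level V := fun q hq h => by
    rcases hq.dvd_mul.mp h with h | h
    · exact h
    · obtain ⟨x, hx, hqx⟩ := (Prime.dvd_finsetProd_iff hq.prime _).mp h
      exact (Nat.prime_dvd_prime_iff_eq hq (hQ'0 x hx).1).mp hqx ▸ (hQ'0 x hx).2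
  have h2N : ¬ 2 ∣ N := fun h => h2V (hNV 2 Nat.prime_two h)
  let hes := SemistableRed.allRelations N 2
  obtain ⟨c, hc0, hc⟩ := exists_system T K H φ (B := B)
  obtain ⟨r, hr, hrS, hr1, hre⟩ := exists_eisenstein_sysVal T H φ
  have := Fact.mk hr
  have hr1' : (r : ZMod N) = 1 := by
    have h := congrArg (ZMod.castHom (mul_dvd_mul_left (T.level V)
      (Finset.prod_dvd_prod_of_subset _ _ _ (sqSupport_subset _ Q))) (ZMod N)) hr1
    rwa [map_natCast, map_one] at h
  have hane : a ⟨r, hr⟩ ≠ (r : O') + 1 := fun h => hre.ne_zero (sub_eq_zero.mpr h)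
  obtain ⟨-, v, -, hv0, -, hv⟩ := exists_eigenSub_of_class (L := K) hes hr1' hrS hane hc0 hc
  have hv' : v ∈ eigenSub (stdInputs hes).model (↑(insert 2 S) : Set ℕ) a :=
    (mem_eigenSub _).mpr fun l hl => (mem_eigenSub _).mp hv l fun h =>
      hl (Finset.mem_coe.mpr (Finset.mem_insert_of_mem (Finset.mem_coe.mp h)))
  obtain ⟨O₂, i₁, i₂, i₃, i₄, i₅, i₆, i₇, i₈, i₉, h2', hinj, ρ, hdet, hfrob, hres, hcomm, hunr,
      huni, -⟩ := exists_attached h2 hes (insert 2 S) (Finset.mem_insert_self 2 S)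
    (fun q hq h => Finset.mem_insert_of_mem (H.mem_S q hq (hNV q hq h))) a ⟨v, hv0, hv'⟩ ρbar b
    hbar htr
  let a₂ : Nat.Primes → O₂ := fun l => algebraMap O' O₂ (a l)
  have ha2' : residue O₂ (a₂ twoPrime) = 1 := by
    show residue O₂ (algebraMap O' O₂ (a twoPrime)) = 1
    rw [← ResidueField.map_residue, ha2, map_one]
  obtain ⟨α, hα, hαq, hord⟩ := ordinaryAtTwo O₂ h2' N h2N hes S h2S a₂ ha2'
    ⟨algebraMap O' O₂ ∘ v, fun h0 => hv0 (funext fun i => hinj
      ((congrFun h0 i).trans (map_zero _).symm)), map_mem_eigenSub _ _ hv⟩ ρ hdet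
    (fun ℓ hℓ hℓS hℓ2 A hA σ hσ => hfrob ℓ hℓ
      (fun h => (Finset.mem_insert.mp h).elim hℓ2 hℓS) A hA σ hσ)
    (fun A hA => ⟨fun τ hτ => (map_matrixRep_eq_one_iff hres _ τ).mpr ((htwo A hA).1 τ hτ),
      fun f hf h => (htwo A hA).2 f hf ((map_matrixRep_eq_one_iff hres _ f).mp h)⟩)
    hcomm
  have hαeq : α * α + 2 = algebraMap O' O₂ (a twoPrime) * α := by
    linear_combination hαq
  refine ⟨O₂, i₁, i₂, i₃, i₄, i₅, i₆, i₇, i₈, i₉, h2', hinj, ρ, α, hdet, hfrob, hres, hcomm, hunr,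
    fun M q hN hq hqM hq2 A hA σ hσ => huni M q hN hq hqM hq2 A hA σ hσ, ?_, hαeq, ?_, hord⟩
  · have h := congrArg (residue O₂) hαeq
    rw [map_add, map_mul, map_mul, show residue O₂ (2 : O₂) = 0 from
      (residue_eq_zero_iff _).mpr (by simpa using h2'), add_zero, show algebraMap O' O₂ (a twoPrime)
        = a₂ twoPrime from rfl, ha2', one_mul] at h
    exact mul_left_cancel₀ (hα.map (residue O₂)).ne_zero (h.trans (mul_one _).symm)
  · intro hsq
    have h3 : algebraMap O' O₂ (a twoPrime) ^ 2 = 9 := by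
      linear_combination (-(algebraMap O' O₂ (a twoPrime)) * α - α * α - 2) * hαeq +
        (α * α + 5 - algebraMap O' O₂ (a twoPrime) ^ 2) * hsq
    have h4 : a twoPrime ^ 2 = 9 := hinj (by rw [map_pow, h3, map_ofNat])
    have : Fact (Nat.Prime ((twoPrime : Nat.Primes) : ℕ)) := ⟨Nat.prime_two⟩
    refine sq_ne_of_eigen (b := 2) (r := r) h2N hr1' hc0 (hc twoPrime h2S) (hc ⟨r, hr⟩ hrS)
      (fun h => hane (IsFractionRing.injective O' K (by rw [h, map_add, map_natCast, map_one]))) ?_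
    rw [← map_pow, h4, map_ofNat]
    norm_num

end Fermat.Agent.TwoAdic.TSide
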