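import Fermat.Agent.TwoAdic.TSide.SignedNew
import Fermat.Agent.TwoAdic.TSide.PointRep
import Fermat.Agent.TwoAdic.TSide.GalTwist
import Fermat.Agent.TwoAdic.TSide.PointBasics

/-!
# The signed new condition of the representation of a point

At a prime `b` of `V` where the class of a point is killed by the trace or where the residual
representation ramifies, the untwisted representation is signed new, with sign the product of the
given sign and the value of the characters of square one.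
-/

set_option autoImplicit false

noncomputable section

open IsLocalRing Module

namespace Fermat.Agent.TwoAdic.TSide

open HeckeModule EigenSystems Engine.TRep HeckeJ0 LevelRaising Fermat.Agent.EigenRep
  Fermat.Agent.DefRing

attribute [local instance] ALSetup.isPrime

local notation "Ω" => AlgebraicClosure ℚ
local notation "GQ" => (AlgebraicClosure ℚ) ≃ₐ[ℚ] (AlgebraicClosure ℚ)

variable [Fact (Nat.Prime 2)] {R : Type} [CommRing R] [IsLocalRing R] [IsNoetherianRing R]
  [IsAdicComplete (maximalIdeal R) R] [IsReduced R] [Module.IsTorsionFree ℤ R] (T : ALSetup R)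
  {S : Finset ℕ} {ψ : ∀ q : ℕ, (ZMod q)ˣ →* R} {Q V B : Finset ℕ}
  {O₂ : Type} [CommRing O₂] [IsDomain O₂] [IsDiscreteValuationRing O₂]
  [IsAdicComplete (maximalIdeal O₂) O₂] [Finite (ResidueField O₂)] [CharZero O₂]

omit [Finite (ResidueField O₂)] in
/-- **Signed new at a prime of `V`.** -/
theorem exists_sign_isSignedNewAt (H : PointHyp T S ψ Q V)
    [Module.Finite R (T.NewQuot R H.subset B)]
    (φ : NewRing T H.subset B →+* O₂) (h2 : ((2 : ℕ) : O₂) ∈ maximalIdeal O₂)
    (hQM : ∀ q ∈ Q, q ∣ T.M) (ρ : GaloisRepAdic O₂)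
    (hdet : ∀ σ, LinearMap.det (ρ.ρ σ) = padicHom 2 h2 (epsilonPadic 2 σ : ℤ_[2]))
    (hfrob : ∀ (ℓ : ℕ) (hℓ : ℓ.Prime), ℓ ∉ insert 2 S → ∀ A : ValuationSubring Ω,
      A.LiesOverPrime ℓ → ∀ σ : GQ, A.IsFrobeniusAt σ ℓ →
        ρ.trace σ = sysVal T H.subset φ ψ Q ⟨ℓ, hℓ⟩)
    (hirr : ∃ g h, IsUnit (matrixRep ρ (repBasis ρ) g * matrixRep ρ (repBasis ρ) h -
      matrixRep ρ (repBasis ρ) h * matrixRep ρ (repBasis ρ) g).det)
    {b : ℕ} (hb : b.Prime) (hb2 : b ≠ 2) (hbV : b ∈ V) (sg : ℤ) (hsg : sg = 1 ∨ sg = -1)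
    (hcb : T.c b = -(sg : R) * charProd ψ Q b)
    (hnew : b ∈ B ∨ ∃ A : ValuationSubring Ω, A.LiesOverPrime b ∧ ∃ τ ∈ A.inertiaSubgroupIn ℚ,
      (matrixRep ρ (repBasis ρ) τ).map (residue O₂) ≠ 1) :
    ∃ e : ℤ, (e : O₂) = ptBase T H.subset φ (charProd ψ (Q \ ptSupport T H.subset φ ψ Q) b) ∧
      (e = 1 ∨ e = -1) ∧ IsSignedNewAt ρ b (sg * e) := by
  classical
  have := Fact.mk hb
  let K := FractionRing O₂
  have : CharZero K := charZero_of_injective_algebraMap (IsFractionRing.injective O₂ K)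
  set θ := ptBase T H.subset φ with hθ
  set Q' := ptSupport T H.subset φ ψ Q with hQ'
  have hQ'sub : Q' ⊆ Q := sqSupport_subset _ Q
  have hbQ : b ∉ Q := fun h => T.notDvd b (H.subset hbV) ((H.aux b h).2.1)
  -- the value of the characters of square one
  have he2 : θ (charProd ψ (Q \ Q') b) ^ 2 = 1 := by
    rw [← map_pow, charProd, ← Finset.prod_pow, map_prod]
    refine Finset.prod_eq_one fun x hx => ?_
    rw [Finset.mem_sdiff] at hx
    rw [map_pow, charAt]
    split
    · exact sq_eq_one_of_notMem_ptSupport T H.subset φ ψ hx.1 hx.2 _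
    · rw [map_one, one_pow]
  obtain ⟨e, hee, he⟩ : ∃ e : ℤ, (e : O₂) = θ (charProd ψ (Q \ Q') b) ∧ (e = 1 ∨ e = -1) := by
    rcases sq_eq_one_iff.mp he2 with h | h
    · exact ⟨1, by rw [Int.cast_one, h], Or.inl rfl⟩
    · exact ⟨-1, by rw [Int.cast_neg, Int.cast_one, h], Or.inr rfl⟩
  refine ⟨e, hee, he, ?_⟩
  obtain ⟨M', hM, hbM, hlev, c, hc0, hc, hw, htr⟩ :=
    exists_signed_class T K H φ hQM b hbV
  have hW : IsALPrimes (b * M') {b} := fun x hx => by
    obtain rfl := Finset.mem_singleton.mp hx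
    exact ⟨hb, dvd_mul_right x M', fun h => hbM ((Nat.mul_dvd_mul_iff_left hb.pos).mp h)⟩
  have : NeZero M' := ⟨fun h => hbM (h ▸ dvd_zero b)⟩
  have hbT : b.Coprime T.M := hb.coprime_iff_not_dvd.mpr fun h =>
    T.notDvd b (H.subset hbV) (h.trans T.dvd_core)
  obtain ⟨r, hr, hrS, hr1, hre⟩ := exists_eisenstein_sysVal T H φ
  have := Fact.mk hr
  have hbd : b * M' ∣ T.level V * ∏ q ∈ Q, q :=
    hlev ▸ mul_dvd_mul_left _ (Finset.prod_dvd_prod_of_subset _ _ _ hQ'sub)
  have hr1' : (r : ZMod (b * M')) = 1 := by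
    have h := congrArg (ZMod.castHom hbd (ZMod (b * M'))) hr1
    rwa [map_natCast, map_one] at h
  have hr2 : r ≠ 2 := fun h => hb2 (by
    have h1 := congrArg (ZMod.castHom (dvd_mul_right b M') (ZMod b)) hr1'
    rw [map_natCast, map_one, h, ← Nat.cast_one, ZMod.natCast_eq_natCast_iff] at h1
    exact absurd ((Nat.modEq_iff_dvd' one_le_two).mp h1.symm) (by
      simpa using fun hd => hb.one_lt.ne' hd))
  have hS : ∀ ℓ : ℕ, ℓ.Prime → ℓ ∣ b * M' → ℓ ∈ insert 2 S := fun ℓ hℓ h => by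
    refine Finset.mem_insert_of_mem ?_
    rcases hℓ.dvd_mul.mp (h.trans hbd) with h | h
    · exact H.mem_S ℓ hℓ h
    · obtain ⟨q, hq, hlq⟩ := (Prime.dvd_finsetProd_iff hℓ.prime _).mp h
      obtain rfl := (Nat.prime_dvd_prime_iff_eq hℓ (H.aux q hq).1).mp hlq
      exact H.mem_S ℓ hℓ (H.exact_dvd ℓ hq).2.1
  refine isSignedNewAt_of_class (K := K) (insert 2 S) (sysVal T H.subset φ ψ Q) ρ h2 hdet hfrob
    ?_ hbM hb2 (Finset.mem_insert_self 2 S) hS hr1' (by simp [hr2, hrS])
    (fun h => hre.ne_zero (sub_eq_zero.mpr h)) hM c hc0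
    (fun l hl => hc l fun h => hl (Finset.mem_insert_of_mem h)) hW (Finset.mem_singleton_self b)
    hbT (sg * e) (by rcases hsg with rfl | rfl <;> rcases he with rfl | rfl <;> simp) ?_ ?_
  · obtain ⟨g, h, hu⟩ := hirr
    exact ⟨g, h, hu.ne_zero⟩
  · -- the sign
    have h := hw {b} hW b (Finset.mem_singleton_self b) hbV hbT
    have hsplit : θ (charProd ψ Q b) = θ (charProd ψ Q' b) * (e : O₂) := by
      rw [hee, ← map_mul, charProd, charProd, charProd, mul_comm, Finset.prod_sdiff hQ'sub]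
    rw [hcb, map_mul, map_neg, map_intCast, hsplit, map_mul, map_neg, map_intCast, map_mul,
      map_intCast, mul_left_comm, mul_smul] at h
    have hne : algebraMap O₂ K (θ (charProd ψ Q' b)) ≠ 0 :=
      ((IsUnit.of_mul_eq_one_right _ (charProd_inv_mul ψ _ _)).map θ).map
        (algebraMap O₂ K) |>.ne_zero
    have h' := (smul_right_inj (M := Coh1 (scalarRep (levelChar (hM.mul_left b)
      (1 : (ZMod T.M)ˣ →* K)) K)) hne).mp (h.trans rfl)
    have hu : ((sg * e : ℤ) : K) * ((sg * e : ℤ) : K) = 1 := by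
      rcases hsg with rfl | rfl <;> rcases he with rfl | rfl <;> norm_num
    rw [neg_mul, ← Int.cast_mul] at h'
    have h'' := congrArg (fun x => -((sg * e : ℤ) : K) • x) h'
    simp only [smul_smul, neg_mul_neg, hu, one_smul] at h''
    rw [h'', neg_smul]
  · rcases hnew with hB | h
    · exact Or.inl (htr hB)
    · exact Or.inr h

end Fermat.Agent.TwoAdic.TSide

end
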