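import Fermat.Agent.TwoAdic.Modules.AtkinLevel
import Fermat.Agent.EigenSystems.Twist

/-!
# Atkin–Lehner operators and twists

Atkin–Lehner operators commute with the twist at another prime up to the value of the character.
-/

set_option autoImplicit false

open Matrix CongruenceSubgroup
open scoped MatrixGroups

universe uO uA

namespace Fermat.Agent.TwoAdic.TSide

open HeckeJ0 LevelRaising HeckeModule EigenSystems

variable {M M' q : ℕ} [hqp : Fact q.Prime] {W W' : Finset ℕ} (hW : IsALPrimes M W)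
  (hW' : IsALPrimes M' W') {e : ℕ} (he : e ∈ W) (he' : e ∈ W') (heq : e ≠ q)

include hW he in
/-- `e` as a unit modulo the twisting prime. -/
lemma alPrime_coprime (heq : e ≠ q) : e.Coprime q :=
  (Nat.coprime_primes (hW e he).1 hqp.out).mpr heq

/-- A translation times the upper Atkin–Lehner matrix is the lower one times a translation. -/
theorem exists_twist_alMat (hq : q ∣ M) (hM : M * q ∣ M') (x : (ZMod q)ˣ) :
    ∃ g : Gamma0 M,
      twistMat q (twistVal x) * matGL (alMat M' e) (alMat_det_ne_zero hW' he')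
        = toGL M g * (matGL (alMat M e) (alMat_det_ne_zero hW he) *
            twistMat q (twistVal (x * (ZMod.unitOfCoprime e (alPrime_coprime hW he heq))⁻¹))) ∧
      ∀ M₀ : ℕ, e.Coprime M₀ → ∀ h : M₀ ∣ M, ZMod.unitsMap h (dUnit M g) = 1 := by
  have hqM' : q ∣ M' := hq.trans (dvd_of_mul_right_dvd hM)
  set w := ZMod.unitOfCoprime e (alPrime_coprime hW he heq) with hw
  set y := x * w⁻¹ with hy
  have hA' := alMat_mem hW' he'
  obtain ⟨k, hk⟩ : ((M * q : ℕ) : ℤ) ∣ (alMat M' e) 1 0 :=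
    (Int.natCast_dvd_natCast.mpr hM).trans hA'.2.2.2
  obtain ⟨r, hr⟩ : (q : ℤ) ∣ (M : ℤ) := Int.natCast_dvd_natCast.mpr hq
  obtain ⟨ha, hd⟩ := alMat_cast hW' he' hqM' (alPrime_coprime hW he heq)
  obtain ⟨t, ht⟩ : (q : ℤ) ∣ twistVal x * (alMat M' e) 1 1 - twistVal y * (alMat M' e) 0 0 := by
    rw [← ZMod.intCast_zmod_eq_zero_iff_dvd]
    push_cast [twistVal_cast]
    rw [ha, hd, hy, Units.val_mul, mul_one, show (e : ZMod q) = (w : ZMod q) from
      (ZMod.coe_unitOfCoprime e (alPrime_coprime hW he heq)).symm, mul_assoc, Units.inv_mul,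
      mul_one, sub_self]
  push_cast at hk
  have hdet := hA'.1
  rw [Matrix.det_fin_two] at hdet
  have heM : (e : ℤ) ∣ (M : ℤ) := Int.natCast_dvd_natCast.mpr (hW e he).2.1
  have hX : mm ((alMat M' e) 0 0 + twistVal x * ((M : ℤ) * k))
      ((alMat M' e) 0 1 + t - twistVal x * twistVal y * (r * k)) ((alMat M' e) 1 0)
      ((alMat M' e) 1 1 - twistVal y * ((M : ℤ) * k)) ∈ alSet M e := by
    refine ⟨?_, ?_, ?_, ?_⟩
    · rw [mm_det, hk]
      rw [hk] at hdet
      linear_combination hdet + ((M : ℤ) * k) * ht +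
        (-(twistVal x * twistVal y * (M : ℤ) * k * k)) * hr
    · simpa using dvd_add hA'.2.1 ((heM.mul_right k).mul_left _)
    · simpa using dvd_sub hA'.2.2.1 ((heM.mul_right k).mul_left _)
    · simpa using (Int.natCast_dvd_natCast.mpr (dvd_of_mul_right_dvd hM)).trans hA'.2.2.2
  obtain ⟨g, hg⟩ := exists_eq_mul_alSet (hW e he).2.1 (hW e he).1.ne_zero hX (alMat_mem hW he)
  refine ⟨g, ?_, fun M₀ he₀ h => ?_⟩
  · rw [← mul_assoc]
    refine Units.ext ?_
    rw [Units.val_mul, Units.val_mul, Units.val_mul, val_twistMat, val_twistMat, val_matGL,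
      val_matGL, val_toGL, ← Matrix.map_mul_intCast, ← hg]
    have hq' : (q : ℝ) ≠ 0 := Nat.cast_ne_zero.mpr hqp.out.ne_zero
    have hk' : (((alMat M' e) 1 0 : ℤ) : ℝ) = (M : ℝ) * q * k := by exact_mod_cast hk
    have hr' : (M : ℝ) = q * r := by exact_mod_cast hr
    have ht' : (twistVal x : ℝ) * ((alMat M' e) 1 1 : ℤ) - (twistVal y : ℝ) * ((alMat M' e) 0 0 : ℤ) = q * (t : ℝ) := by
      exact_mod_cast ht
    rw [hy] at ht' ⊢
    ext i j
    simp only [Matrix.mul_apply, Fin.sum_univ_two, Matrix.map_apply]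
    fin_cases i <;> fin_cases j <;> simp [hk'] <;> field_simp
    all_goals first
      | ring1
      | linear_combination ht' - (twistVal x : ℝ) * (twistVal (x * w⁻¹) : ℝ) * k * hr'
  · have hM₀' : M₀ ∣ M' := h.trans (dvd_of_mul_right_dvd hM)
    have h11 := cast_lowerRight h g hg
    rw [(alMat_cast hW he h he₀).2, mul_one] at h11
    refine Units.ext ?_
    rw [← h11, Units.val_one]
    simp only [mm_one_one, Int.cast_sub, Int.cast_mul, Int.cast_natCast,
      (ZMod.natCast_eq_zero_iff _ _).mpr h, zero_mul, mul_zero, sub_zero]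
    exact (alMat_cast hW' he' hM₀' he₀).2

variable {O : Type uO} [CommRing O] {A : Type uA} [AddCommGroup A] [Module O A]
  {M₀ M₀' : ℕ} (hM₀ : M₀ ∣ M) (hM₀' : M₀' ∣ M') (χ : (ZMod M₀)ˣ →* O) (χ' : (ZMod M₀')ˣ →* O)
  (ψ : (ZMod q)ˣ →* O) {hq : q ∣ M} {hM : M * q ∣ M'}
  (hχ : TwistChar (levelChar hM₀ χ) (levelChar hM₀' χ') ψ hq hM)
  (heM : e.Coprime M₀) (heM' : e.Coprime M₀') (c : O)

/-- **The twist commutes with the Atkin–Lehner operators up to `ψ(e)`.** -/
theorem alOp_twist (u : Coh1 (scalarRep (levelChar hM₀ χ) A)) :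
    alOp A hW' he' hM₀' χ' heM' c (twist A hχ u)
      = ψ (ZMod.unitOfCoprime e (alPrime_coprime hW he heq)) •
          twist A hχ (alOp A hW he hM₀ χ heM c u) := by
  classical
  choose g hg hgd using exists_twist_alMat hW hW' he he' heq hq hM
  set w := ZMod.unitOfCoprime e (alPrime_coprime hW he heq)
  refine (Data.comp_eq_comp toGL_injective toGL_injective toGL_injective
    (twistData A hχ) (alData A hW' he' hM₀' χ' heM' c) (alData A hW he hM₀ χ heM c)
    (smulData (ψ w) (twistData A hχ))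
    ((Equiv.prodComm _ _).trans ((Equiv.refl Unit).prodCongr (Equiv.mulRight w⁻¹)))
    (fun p => g p.1) (fun p => hg p.1) (fun p => ?_) u).trans (smulData_onH1 _ _ _ _)
  refine LinearMap.ext fun a => ?_
  show c • (ψ p.1 • gammaRep (scalarRep (levelChar hM₀ χ) A) (g p.1) a)
    = ψ w • (ψ (p.1 * w⁻¹) • (c • a))
  rw [gammaRep_scalar, show levelChar hM₀ χ (dUnit M (g p.1))
    = χ (ZMod.unitsMap hM₀ (dUnit M (g p.1))) from rfl, hgd p.1 M₀ heM hM₀, map_one, one_smul,
    smul_smul (ψ w), ← map_mul, mul_comm p.1 w⁻¹, mul_inv_cancel_left, smul_comm]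

end Fermat.Agent.TwoAdic.TSide
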