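import Fermat.Agent.TwoAdic.TSide.TwistChain
import Fermat.Agent.TwoAdic.TSide.SignTwist
import Fermat.Agent.TwoAdic.Modules.AtkinLevel
import Fermat.Agent.Engine.Lifting.TwistPair

/-!
# Removing the characters at a level with a distinguished prime

The chain of twists from the character `∏ ψ_q²` to the trivial character at a level `v M`: it
multiplies eigenvalues and signs by `∏ ψ_q` and keeps the kernel of the trace at `v`.
-/

set_option autoImplicit false

noncomputable section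

open CongruenceSubgroup
open scoped MatrixGroups

namespace Fermat.Agent.TwoAdic.TSide

open HeckeJ0 LevelRaising HeckeModule EigenSystems Engine.TRep Engine.Lifting

variable {K : Type} [Field K] [CharZero K]

omit [CharZero K] in
/-- The twist does not see how the characters are written. -/
theorem twist_congr {M M' s : ℕ} [Fact s.Prime] {hq : s ∣ M} {hM : M * s ∣ M'}
    {ψ : (ZMod s)ˣ →* K} {a a' : (ZMod M)ˣ →* K} {b b' : (ZMod M')ˣ →* K} (ha : a = a')
    (hb : b = b') (h : TwistChar a b ψ hq hM) (h' : TwistChar a' b' ψ hq hM)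
    (ea : scalarRep a' K = scalarRep a K) (eb : scalarRep b' K = scalarRep b K)
    (u : Coh1 (scalarRep a' K)) :
    twist K h (castCoh ea u) = castCoh eb (twist K h' u) := by
  subst ha hb
  rfl

/-- Intermediate levels keep exact divisibility. -/
theorem isALPrimes_between {N N₁ N' : ℕ} {W : Finset ℕ} (h : IsALPrimes N W)
    (h' : IsALPrimes N' W) (h₁ : N ∣ N₁) (h₁' : N₁ ∣ N') : IsALPrimes N₁ W :=
  fun e he => ⟨(h e he).1, (h e he).2.1.trans h₁, fun hh => (h' e he).2.2 (hh.trans h₁')⟩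

section Step

variable {v q P M M' : ℕ} [hv : Fact v.Prime] [hq : Fact q.Prime] {χ χ' : (ZMod P)ˣ →* K}
  {ψq : (ZMod q)ˣ →* K}

omit [CharZero K] in
/-- The twist relation at every level above `P`. -/
theorem twistChar_levelChar (hqP : q ∣ P)
    (hχ : ∀ u, χ u = χ' u * ψq (ZMod.unitsMap hqP u) ^ 2) {N N' : ℕ} (hN : P ∣ N) (hN' : P ∣ N')
    (hq : q ∣ N) (hM : N * q ∣ N') :
    TwistChar (levelChar hN χ) (levelChar hN' χ') ψq hq hM := fun u => by
  show χ (ZMod.unitsMap hN (ZMod.unitsMap _ u)) =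
    χ' (ZMod.unitsMap hN' u) * ψq (ZMod.unitsMap _ u) ^ 2
  rw [← MonoidHom.comp_apply (ZMod.unitsMap hN), ZMod.unitsMap_comp, hχ,
    ← MonoidHom.comp_apply (ZMod.unitsMap hqP), ZMod.unitsMap_comp]

/-- The twist keeps the kernel of the trace at `v`. -/
theorem charTrace_twist_eq_zero (hvM : ¬ v ∣ M) (hvM' : ¬ v ∣ M') (hPM : P ∣ M) (hPM' : P ∣ M')
    (hqM : q ∣ M) (hM : M * q ∣ M') (hPv : P ∣ v * M) (hPv' : P ∣ v * M')
    (h₀ : TwistChar (levelChar hPM χ) (levelChar hPM' χ') ψq hqM hM)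
    (h₁ : TwistChar (levelChar hPv χ) (levelChar hPv' χ') ψq (hqM.trans (dvd_mul_left M v))
      (show v * M * q ∣ v * M' by rw [mul_assoc]; exact mul_dvd_mul_left v hM))
    (u : Coh1 (scalarRep (levelChar hPv χ) K)) (hu : charTrace K hPM χ hvM hPv u = 0) :
    charTrace K hPM' χ' hvM' hPv' (twist K h₁ u) = 0 := by
  have ea : upChar v (levelChar hPM χ) = levelChar hPv χ := MonoidHom.ext fun x =>
    congrArg χ (DFunLike.congr_fun (ZMod.unitsMap_comp hPM (dvd_mul_left M v)) x)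
  have eb : upChar v (levelChar hPM' χ') = levelChar hPv' χ' := MonoidHom.ext fun x =>
    congrArg χ' (DFunLike.congr_fun (ZMod.unitsMap_comp hPM' (dvd_mul_left M' v)) x)
  rw [charTrace_eq] at hu ⊢
  obtain ⟨w, rfl⟩ := (castCoh (pullRep_scalarRep K hPM χ (dvd_mul_left M v))).surjective u
  rw [LinearEquiv.symm_apply_apply] at hu
  have h2 := twist_congr (h := h₁) (h' := twistChar_up (v := v) h₀) ea.symm eb.symm
    (pullRep_scalarRep K hPM χ (dvd_mul_left M v)) (pullRep_scalarRep K hPM' χ' (dvd_mul_left M' v)) w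
  refine (congrArg (fun z => trace _ hvM'
    ((castCoh (pullRep_scalarRep K hPM' χ' (dvd_mul_left M' v))).symm z)) h2).trans ?_
  refine (congrArg (trace (scalarRep (levelChar hPM' χ') K) hvM')
    ((castCoh (pullRep_scalarRep K hPM' χ' (dvd_mul_left M' v))).symm_apply_apply _)).trans ?_
  refine (trace_twist h₀ hvM hvM' w).trans ?_
  rw [hu, map_zero]

end Step

variable (ψ : ∀ q : ℕ, (ZMod q)ˣ →* K) {v : ℕ} [hv : Fact v.Prime] {P : ℕ}

/-- **All the characters removed, with signs and the trace at `v`.** -/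
theorem exists_twistTrivial_al (Q : Finset ℕ) : ∀ (M M' : ℕ) [NeZero M], M' = M * ∏ q ∈ Q, q →
    (∀ q ∈ Q, q.Prime ∧ q ∣ P ∧ q ∣ M ∧ ¬ q * q ∣ M) → (∀ q ∈ Q, ψ q ^ 2 ≠ 1) →
    ∀ (hvM : ¬ v ∣ M) (hvM' : ¬ v ∣ M') (hPM : P ∣ M) (hPM' : P ∣ M'),
    ∃ Φ : Coh1 (scalarRep (levelChar (hPM.mul_left v) (charSq ψ Q P)) K) →ₗ[K]
        Coh1 (scalarRep (levelChar (hPM'.mul_left v) (1 : (ZMod P)ˣ →* K)) K),
      Function.Injective Φ ∧
      (∀ (ℓ : ℕ) [Fact ℓ.Prime], ¬ ℓ ∣ v * M' → ∀ u,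
        Φ (heckeOp _ ℓ u) = charProd ψ Q ℓ • heckeOp _ ℓ (Φ u)) ∧
      (∀ (W : Finset ℕ) (hW : IsALPrimes (v * M) W) (hW' : IsALPrimes (v * M') W) (e : ℕ)
        (he : e ∈ W) (heP : e.Coprime P) (c : K) u,
        alOp K hW' he (hPM'.mul_left v) 1 heP c (Φ u) =
          charProd ψ Q e • Φ (alOp K hW he (hPM.mul_left v) (charSq ψ Q P) heP c u)) ∧
      ∀ u, charTrace K hPM (charSq ψ Q P) hvM (hPM.mul_left v) u = 0 →
        charTrace K hPM' 1 hvM' (hPM'.mul_left v) (Φ u) = 0 := by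
  classical
  induction Q using Finset.induction_on with
  | empty =>
    intro M M' _ hM' _ _ hvM hvM' hPM hPM'
    obtain rfl : M' = M := by rw [hM', Finset.prod_empty, mul_one]
    rw [Engine.Lifting.charSq_empty]
    exact ⟨LinearMap.id, fun _ _ h => h,
      fun ℓ _ _ u => by rw [charProd, Finset.prod_empty, one_smul]; rfl,
      fun W hW hW' e he heP c u => by rw [charProd, Finset.prod_empty, one_smul]; rfl,
      fun u h => h⟩
  | insert q Q hqQ ih =>
    intro M M' _ hM' hQ hne hvM hvM' hPM hPM'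
    obtain ⟨hqp, hqP, ⟨N, hMN⟩, hq2⟩ := hQ q (Finset.mem_insert_self q Q)
    have := Fact.mk hqp
    have : NeZero q := ⟨hqp.ne_zero⟩
    have : NeZero N := ⟨fun h => NeZero.ne M (by rw [hMN, h, mul_zero])⟩
    have hqN : ¬ q ∣ N := fun h => hq2 (hMN ▸ mul_dvd_mul_left q h)
    have hqM : q ∣ M := ⟨N, hMN⟩
    have : NeZero (M * q) := ⟨mul_ne_zero (NeZero.ne M) hqp.ne_zero⟩
    have hprod : M' = M * q * ∏ x ∈ Q, x := by rw [hM', Finset.prod_insert hqQ]; ring
    have hvq : ¬ v ∣ M * q := fun h => hvM' (h.trans ⟨_, hprod⟩)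
    have hqv : q ≠ v := fun h => hvM (h ▸ hqM)
    have hdvd : ∀ q' ∈ Q, q'.Prime ∧ q' ∣ P ∧ q' ∣ N ∧ ¬ q' * q' ∣ M * q := fun q' hq' => by
      obtain ⟨hp', hP', hd', hd2⟩ := hQ q' (Finset.mem_insert_of_mem hq')
      have hne' : ¬ q' ∣ q := fun h => hqQ ((Nat.prime_dvd_prime_iff_eq hp' hqp).mp h ▸ hq')
      have hcop : Nat.Coprime q' q := (Nat.Prime.coprime_iff_not_dvd hp').mpr hne'
      exact ⟨hp', hP', hcop.dvd_of_dvd_mul_left (hMN ▸ hd'),
        fun h => hd2 ((hcop.mul_left hcop).dvd_of_dvd_mul_right h)⟩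
    obtain ⟨Φ₂, hi₂, hΦ₂, hW₂, ht₂⟩ := ih (M * q) M' hprod
      (fun q' h => ⟨(hdvd q' h).1, (hdvd q' h).2.1,
        (hQ q' (Finset.mem_insert_of_mem h)).2.2.1.mul_right q, (hdvd q' h).2.2.2⟩)
      (fun q' h => hne q' (Finset.mem_insert_of_mem h)) hvq hvM' (hPM.mul_right q) hPM'
    have hu : ∀ u : (ZMod P)ˣ, charSq ψ (insert q Q) P u =
        charSq ψ Q P u * ψ q (ZMod.unitsMap hqP u) ^ 2 := fun u => by
      rw [charSq_apply, charSq_apply, Finset.prod_insert hqQ, charOn, dif_pos hqP, mul_comm]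
      rfl
    have h₀ := twistChar_levelChar hqP hu hPM (hPM.mul_right q) hqM dvd_rfl
    have h₁ := twistChar_levelChar hqP hu (hPM.mul_left v) ((hPM.mul_right q).mul_left v)
      (hqM.trans (dvd_mul_left M v)) (show v * M * q ∣ v * (M * q) by rw [mul_assoc])
    have hψ := hne q (Finset.mem_insert_self q Q)
    have hinj : Function.Injective (twist K h₁) := by
      have : NeZero (v * N) := ⟨mul_ne_zero hv.out.ne_zero (NeZero.ne N)⟩
      have hqvN : ¬ q ∣ v * N := fun h => (hqp.dvd_mul.mp h).elim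
        (fun h => hqv ((Nat.prime_dvd_prime_iff_eq hqp hv.out).mp h)) hqN
      have key : ∀ (A B : ℕ) (a : (ZMod A)ˣ →* K) (b : (ZMod B)ˣ →* K) (h1 : q ∣ A)
          (h2 : A * q ∣ B) (h : TwistChar a b (ψ q) h1 h2), A = v * N * q → B = v * N * q * q →
          (∀ u, (∀ hd : v * N ∣ B, ZMod.unitsMap hd u = 1) → b u = 1) →
          Function.Injective (twist K h) := by
        rintro A B a b h1 h2 h rfl rfl hb
        refine twist_injective h hqvN hψ fun u hu' => ?_
        exact hb u fun _ => hu'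
      refine key _ _ _ _ _ _ _ (by rw [hMN]; ring) (by rw [hMN]; ring) fun u hu' => ?_
      have hd : v * N ∣ v * (M * q) := mul_dvd_mul_left v (Dvd.intro_left q hMN.symm |>.mul_right q)
      show charSq ψ Q P (ZMod.unitsMap _ u) = 1
      rw [charSq_unitsMap ψ (fun x hx => (hdvd x hx).2.1),
        ← charSq_unitsMap ψ (fun x hx => (hdvd x hx).2.2.1.mul_left v) hd u, hu' hd, map_one]
    refine ⟨Φ₂.comp (twist K h₁), hi₂.comp hinj, fun ℓ _ hℓ u => ?_,
      fun W hW hW' e he heP c u => ?_, fun u h => ?_⟩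
    · have hℓ' : ¬ ℓ ∣ v * (M * q) := fun h =>
        hℓ (h.trans (mul_dvd_mul_left v ⟨_, hprod⟩))
      have hne' : ℓ ≠ q := fun h => hℓ' (by rw [h]; exact (dvd_mul_left q M).mul_left v)
      rw [LinearMap.comp_apply, LinearMap.comp_apply, twist_heckeOp h₁ hne'
        (fun h => absurd h hℓ'), map_smul, hΦ₂ ℓ hℓ, smul_smul, charProd, charProd,
        Finset.prod_insert hqQ, Engine.Lifting.charAt_of_coprime ψ hne']
    · have hW₁ : IsALPrimes (v * (M * q)) W := isALPrimes_between hW hW'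
        (mul_dvd_mul_left v (dvd_mul_right M q)) (mul_dvd_mul_left v ⟨_, hprod⟩)
      have heq : e ≠ q := fun h => hqp.coprime_iff_not_dvd.mp
        ((h ▸ heP : q.Coprime P)) hqP
      rw [LinearMap.comp_apply, LinearMap.comp_apply, hW₂ W hW₁ hW' e he heP c,
        alOp_twist hW hW₁ he he heq (hPM.mul_left v) _ _ _ (ψ q) h₁ heP heP c u, map_smul,
        smul_smul, charProd, charProd, Finset.prod_insert hqQ, mul_comm (∏ x ∈ Q, charAt ψ x e)]
      congr 2
      rw [charAt, dif_pos ((Nat.coprime_primes (hW e he).1 hqp).mpr heq)]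
    · exact ht₂ _ (charTrace_twist_eq_zero hvM hvq hPM (hPM.mul_right q) hqM dvd_rfl _ _ h₀ h₁ u h)

end Fermat.Agent.TwoAdic.TSide
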