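import Fermat.Agent.TwoAdic.TSide.EigenClass
import Fermat.Agent.TwoAdic.TSide.TwistAL
import Fermat.Agent.TwoAdic.Modules.CubeSquares

/-!
# The systems of points at trivial character

A point of the ring of a new quotient gives, after removing the characters with non-trivial
square, an eigen class with trivial character, with the signs and the vanishing trace at a prime
of `B`.
-/

set_option autoImplicit false

noncomputable section

open IsLocalRing

namespace Fermat.Agent.TwoAdic.TSide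

open HeckeModule EigenSystems Engine.TRep HeckeJ0 LevelRaising

attribute [local instance] ALSetup.isPrime

section Chars

variable {R : Type} [CommRing R] {O' : Type} [CommRing O'] {K : Type} [Field K] [Algebra O' K]
  (ψ : ∀ q : ℕ, (ZMod q)ˣ →* R) (θ : R →+* O')

/-- The characters at a point. -/
def ptChar : ∀ q : ℕ, (ZMod q)ˣ →* K :=
  fun q => ((algebraMap O' K).comp θ).toMonoidHom.comp (ψ q)

theorem charProd_ptChar (Q : Finset ℕ) (a : ℕ) :
    charProd (ptChar (K := K) ψ θ) Q a = algebraMap O' K (θ (charProd ψ Q a)) :=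
  charProd_map ψ ((algebraMap O' K).comp θ).toMonoidHom Q a

theorem charProd_inv_mul (Q : Finset ℕ) (a : ℕ) :
    charProd (fun q => (ψ q).comp invMonoidHom) Q a * charProd ψ Q a = 1 := by
  rw [charProd, charProd, ← Finset.prod_mul_distrib]
  refine Finset.prod_eq_one fun x _ => ?_
  unfold charAt
  split
  · rw [MonoidHom.comp_apply, ← map_mul]
    simp
  · rw [one_mul]

end Chars

variable {R : Type} [CommRing R] [IsLocalRing R] [IsNoetherianRing R]
  [IsAdicComplete (maximalIdeal R) R] [IsReduced R] [Module.IsTorsionFree ℤ R] (T : ALSetup R)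
  {S : Finset ℕ} {ψ : ∀ q : ℕ, (ZMod q)ˣ →* R} {Q V B : Finset ℕ}
  {O' : Type} [CommRing O'] [IsDomain O'] [CharZero O'] (K : Type) [Field K] [CharZero K]
  [Algebra O' K] [IsFractionRing O' K]

/-- The ring map on coefficients of a point. -/
def ptBase (hV : V ⊆ T.W) (φ : NewRing T hV B →+* O') : R →+* O' :=
  φ.comp (algebraMap R (NewRing T hV B))

/-- The primes twisted away at a point. -/
def ptSupport (hV : V ⊆ T.W) (φ : NewRing T hV B →+* O') (ψ : ∀ q : ℕ, (ZMod q)ˣ →* R)
    (Q : Finset ℕ) : Finset ℕ :=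
  sqSupport (ptChar (K := FractionRing O') ψ (ptBase T hV φ)) Q

open scoped Classical in
/-- The eigenvalues of a point after the twist. -/
def sysVal (hV : V ⊆ T.W) (φ : NewRing T hV B →+* O') (ψ : ∀ q : ℕ, (ZMod q)ˣ →* R)
    (Q : Finset ℕ) (l : Nat.Primes) : O' :=
  if h : (l : ℕ) ∈ T.S then 0 else
    ptBase T hV φ (charProd (fun q => (ψ q).comp invMonoidHom) (ptSupport T hV φ ψ Q) l) *
      φ (Ideal.Quotient.mk _ (MvPolynomial.X ⟨l, h⟩))

omit [IsNoetherianRing R] [IsAdicComplete (maximalIdeal R) R] [IsReduced R]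
  [Module.IsTorsionFree ℤ R] [CharZero O'] in
theorem charProd_mul_sysVal (hV : V ⊆ T.W) (φ : NewRing T hV B →+* O') (l : AwayIndex T.S) :
    ptBase T hV φ (charProd ψ (ptSupport T hV φ ψ Q) ((l : Nat.Primes) : ℕ)) *
        sysVal T hV φ ψ Q l.1 = φ (Ideal.Quotient.mk _ (MvPolynomial.X l)) := by
  rw [sysVal, dif_neg l.2, ← mul_assoc, ← map_mul, mul_comm (charProd ψ _ _), charProd_inv_mul,
    map_one, one_mul]

section FractionField

variable (hV : V ⊆ T.W) (φ : NewRing T hV B →+* O')

omit [IsNoetherianRing R] [IsAdicComplete (maximalIdeal R) R] [IsReduced R]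
  [Module.IsTorsionFree ℤ R] [CharZero O'] [CharZero K] in
theorem sqSupport_ptChar :
    sqSupport (ptChar (K := K) ψ (ptBase T hV φ)) Q = ptSupport T hV φ ψ Q := by
  classical
  unfold ptSupport sqSupport
  refine Finset.filter_congr fun q _ => not_congr ?_
  have hiff : ∀ (L : Type) [Field L] [Algebra O' L] [IsFractionRing O' L],
      ptChar (K := L) ψ (ptBase T hV φ) q ^ 2 = 1 ↔ ∀ u, ptBase T hV φ (ψ q u) ^ 2 = 1 :=
    fun L _ _ _ => by
      rw [MonoidHom.ext_iff]
      refine forall_congr' fun u => ?_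
      show (algebraMap O' L (ptBase T hV φ (ψ q u))) ^ 2 = 1 ↔ _
      rw [← map_pow, ← map_one (algebraMap O' L), (IsFractionRing.injective O' L).eq_iff]
  rw [hiff K, hiff (FractionRing O')]

end FractionField

omit [CharZero O'] in
/-- The trivial level of a point. -/
theorem exists_system (H : PointHyp T S ψ Q V) [Module.Finite R (T.NewQuot R H.subset B)] (φ : NewRing T H.subset B →+* O') :
    ∃ c : Coh1 (trivRep (T.level V * ∏ q ∈ ptSupport T H.subset φ ψ Q, q) K K), c ≠ 0 ∧
      ∀ l : Nat.Primes, (l : ℕ) ∉ S →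
        heckeGen _ l c = algebraMap O' K (sysVal T H.subset φ ψ Q l) • c := by
  classical
  have : NeZero (T.level V) := ⟨T.level_ne_zero H.subset⟩
  obtain ⟨p, hpV, hp⟩ := Nat.exists_infinite_primes (V.sup id + 1)
  have := Fact.mk hp
  set θ := ptBase T H.subset φ
  set ψK := ptChar (K := K) ψ θ
  obtain ⟨c, hc0, hc, -, -⟩ := exists_eigen_class T H ((algebraMap O' K).comp φ)
    ((algebraMap O' K).comp θ) rfl p
  have hchar : levelChar (T.dvd_level V) (((algebraMap O' K).comp θ : R →* K).comp T.χ) =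
      charSq ψK Q (T.level V) := by
    rw [show ψK = fun q => ((algebraMap O' K).comp θ).toMonoidHom.comp (ψ q) from rfl,
      charSq_map ψ ((algebraMap O' K).comp θ).toMonoidHom Q (T.level V), ← H.char_eq]
    rfl
  have hex := exists_twistTrivial (N := T.level V) (S := S) ψK Q H.exact_dvd H.mem_S
  rw [sqSupport_ptChar T K H.subset φ] at hex
  obtain ⟨Φ, hinj, hΦ⟩ := hex
  have e := congrArg (fun χ => scalarRep χ K) hchar
  refine ⟨Φ (castCoh e c), fun h0 => hc0 ((castCoh e).injective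
    ((hinj (h0.trans (map_zero Φ).symm)).trans (map_zero _).symm)), fun l hl => ?_⟩
  have hlS : (l : ℕ) ∉ T.S := by rw [H.S_eq]; simpa using hl
  let l' : AwayIndex (↑S : Set ℕ) := ⟨l, by simpa using hl⟩
  have h1 := hΦ (MvPolynomial.X l') (castCoh e c)
  rw [twistPoly_X, map_mul, ← MvPolynomial.algebraMap_eq, AlgHom.commutes, awayIncl_X, mul_smul,
    algebraMap_smul] at h1
  have h2 : heckeGen _ l (castCoh e c) =
      algebraMap O' K (φ (Ideal.Quotient.mk _ (MvPolynomial.X ⟨l, hlS⟩))) • castCoh e c := by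
    have : Fact (l : ℕ).Prime := ⟨l.2⟩
    show heckeOp _ (l : ℕ) _ = _
    rw [← castCoh_heckeOp e (l : ℕ) c]
    exact (congrArg (castCoh e) (hc ⟨l, hlS⟩)).trans (map_smul _ _ _)
  rw [heckePoly_smul_def, heckeHom_X, heckePoly_smul_def, heckeHom_X, h2, map_smul,
    charProd_ptChar, ← charProd_mul_sysVal T H.subset φ (ψ := ψ) (Q := Q) ⟨l, hlS⟩,
    map_mul, mul_smul] at h1
  refine ((smul_right_inj (M := Coh1 (trivRep _ K K)) ?_).mp h1).symm
  exact ((IsUnit.of_mul_eq_one_right _ (charProd_inv_mul ψ _ _)).map θ).map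
    (algebraMap O' K) |>.ne_zero

omit [CharZero O'] in
/-- **The signed classes of a point at trivial character.** -/
theorem exists_signed_class (H : PointHyp T S ψ Q V) [Module.Finite R (T.NewQuot R H.subset B)] (φ : NewRing T H.subset B →+* O')
    (hQM : ∀ q ∈ Q, q ∣ T.M) (b : ℕ) [hb : Fact b.Prime] (hbV : b ∈ V) :
    ∃ (M' : ℕ) (hM : T.M ∣ M') (hbM : ¬ b ∣ M'),
      b * M' = T.level V * ∏ q ∈ ptSupport T H.subset φ ψ Q, q ∧
      ∃ c : Coh1 (scalarRep (levelChar (hM.mul_left b) (1 : (ZMod T.M)ˣ →* K)) K), c ≠ 0 ∧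
        (∀ l : Nat.Primes, (l : ℕ) ∉ S →
          heckeGen _ l c = algebraMap O' K (sysVal T H.subset φ ψ Q l) • c) ∧
        (∀ (W : Finset ℕ) (hW : IsALPrimes (b * M') W) (e : ℕ) (he : e ∈ W), e ∈ V →
          ∀ heM : e.Coprime T.M,
            algebraMap O' K (ptBase T H.subset φ (T.c e)) •
                alOp K hW he (hM.mul_left b) 1 heM 1 c =
              algebraMap O' K (ptBase T H.subset φ (charProd ψ (ptSupport T H.subset φ ψ Q) e)) •
                c) ∧
        (b ∈ B → charTrace K hM 1 hbM (hM.mul_left b) c = 0) := by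
  classical
  set θ := ptBase T H.subset φ
  set θK := (algebraMap O' K).comp θ
  set ψK := ptChar (K := K) ψ θ
  set Q' := ptSupport T H.subset φ ψ Q
  set U := V.erase b
  have hbU := Finset.notMem_erase b V
  have hUV : insert b U = V := Finset.insert_erase hbV
  have hU : U ⊆ T.W := (V.erase_subset b).trans H.subset
  have : NeZero (T.level U) := ⟨T.level_ne_zero hU⟩
  have hlev : T.level V = b * T.level U := by rw [← hUV, T.level_insert hbU]
  have hQ'sub : Q' ⊆ Q := sqSupport_subset _ Q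
  have hbN : ¬ b ∣ T.level U := T.not_dvd_face H.subset hbU hUV
  have hQU : ∀ q ∈ Q', q.Prime ∧ q ∣ T.M ∧ q ∣ T.level U ∧ ¬ q * q ∣ T.level U := fun q hq =>
    ⟨(H.aux q (hQ'sub hq)).1, hQM q (hQ'sub hq), (H.aux q (hQ'sub hq)).2.1.mul_right _,
      fun h => (H.aux q (hQ'sub hq)).2.2 (h.trans (T.level_dvd (V.erase_subset b)))⟩
  have hbM' : ¬ b ∣ T.level U * ∏ q ∈ Q', q := fun h => by
    rcases hb.out.dvd_mul.mp h with h | h
    · exact hbN h
    · obtain ⟨q, hq, hbq⟩ := (Prime.dvd_finsetProd_iff hb.out.prime _).mp h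
      exact hbN (((Nat.prime_dvd_prime_iff_eq hb.out (hQU q hq).1).mp hbq) ▸ (hQU q hq).2.2.1)
  have hMM' : T.M ∣ T.level U * ∏ q ∈ Q', q := (T.dvd_level U).mul_right _
  set χK : (ZMod T.M)ˣ →* K := (θK : R →* K).comp T.χ with hχKdef
  have hcl := exists_eigen_class T H ((algebraMap O' K).comp φ) θK rfl b
  rw [← hχKdef] at hcl
  obtain ⟨c, hc0, hc, hcw, hct⟩ := hcl
  have hbig : T.M ∣ b * T.level U := (T.dvd_level U).mul_left b
  set c₁ := charDegen K (T.dvd_level V) χK hbig one_ne_zero (T.insert_dvd_mul hbU hUV) c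
  have hχ : χK = charSq ψK Q' T.M := by
    rw [show Q' = sqSupport ψK Q from (sqSupport_ptChar T K H.subset φ).symm,
      charSq_sqSupport]
    have : NeZero (T.level V) := ⟨T.level_ne_zero H.subset⟩
    refine MonoidHom.ext fun u => ?_
    obtain ⟨w, rfl⟩ := ZMod.unitsMap_surjective (T.dvd_level V) u
    show θK (T.char V w) = _
    rw [H.char_eq, charSq_unitsMap ψK hQM,
      show ψK = fun q => θK.toMonoidHom.comp (ψ q) from rfl, charSq_map]
    rfl
  have hex := exists_twistTrivial_al ψK (v := b) (P := T.M) Q' (T.level U)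
    (T.level U * ∏ q ∈ Q', q) rfl hQU
    (fun q hq => sq_ne_one_of_mem_sqSupport ψK (Q := Q) (by
      rw [sqSupport_ptChar T K H.subset φ]; exact hq))
    hbN hbM' (T.dvd_level U) hMM'
  rw [← hχ] at hex
  obtain ⟨Φ, hinj, hΦ, hΦw, hΦt⟩ := hex
  have hbc : b * (T.level U * ∏ q ∈ Q', q) = T.level V * ∏ q ∈ Q', q := by rw [hlev]; ring
  have hc₁ : c₁ ≠ 0 := fun h0 => hc0 (by
    have h := congrArg (charDegen K hbig χK (T.dvd_level V) one_ne_zero
      (T.mul_dvd_insert hbU hUV)) h0
    rwa [map_zero, charDegen_one_comp, charDegen_one_self] at h)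
  refine ⟨_, hMM', hbM', hbc, Φ c₁, fun h0 => hc₁ (hinj (h0.trans (map_zero Φ).symm)),
    fun l hl => ?_, fun W hW e he heV heM => ?_, fun hbB => hΦt c₁ (hct hbV hbB)⟩
  · have : Fact (l : ℕ).Prime := ⟨l.2⟩
    have hlS : (l : ℕ) ∉ T.S := by rw [H.S_eq]; simpa using hl
    have hlV : ¬ (l : ℕ) ∣ T.level V := fun h => hl (H.mem_S _ l.2 h)
    have hld : ¬ (l : ℕ) ∣ b * (T.level U * ∏ q ∈ Q', q) := fun h => by
      rw [hbc] at h
      rcases l.2.dvd_mul.mp h with h | h
      · exact hlV h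
      · obtain ⟨q, hq, hlq⟩ := (Prime.dvd_finsetProd_iff l.2.prime _).mp h
        exact hlV (((Nat.prime_dvd_prime_iff_eq l.2 (hQU q hq).1).mp hlq) ▸
          (H.exact_dvd q (hQ'sub hq)).2.1)
    have h1 : heckeOp _ (l : ℕ) c₁ =
        algebraMap O' K (φ (Ideal.Quotient.mk _ (MvPolynomial.X ⟨l, hlS⟩))) • c₁ := by
      rw [← charDegen_heckeOp (T.dvd_level V) χK hbig one_ne_zero _
        (Fact.out : (l : ℕ).Prime).not_dvd_one (fun h => absurd (hlev.symm ▸ h) hlV) c]
      exact (congrArg _ (hc ⟨l, hlS⟩)).trans (map_smul _ _ _)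
    have h2 := hΦ (l : ℕ) hld c₁
    rw [h1, map_smul, charProd_ptChar, ← charProd_mul_sysVal T H.subset φ (ψ := ψ) (Q := Q)
      ⟨l, hlS⟩, map_mul, mul_smul] at h2
    refine ((smul_right_inj (M := Coh1 (scalarRep _ K)) ?_).mp h2).symm
    exact ((IsUnit.of_mul_eq_one_right _ (charProd_inv_mul ψ _ _)).map θ).map
      (algebraMap O' K) |>.ne_zero
  · have hW₀ : IsALPrimes (b * T.level U) ({e} : Finset ℕ) := fun x hx => by
      obtain rfl := Finset.mem_singleton.mp hx
      rw [← hlev]
      exact T.isAL H.subset x heV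
    have hWV : IsALPrimes (T.level V) ({e} : Finset ℕ) := fun x hx => by
      obtain rfl := Finset.mem_singleton.mp hx
      exact T.isAL H.subset x heV
    have hW' : IsALPrimes (b * (T.level U * ∏ q ∈ Q', q)) ({e} : Finset ℕ) :=
      fun x hx => by obtain rfl := Finset.mem_singleton.mp hx; exact hW x he
    have hsc : ∀ (N : ℕ) (h : T.M ∣ N) (χ : (ZMod T.M)ˣ →* K) (W' : Finset ℕ)
        (hW' : IsALPrimes N W') (he' : e ∈ W') (a : K) (u : Coh1 (scalarRep (levelChar h χ) K)),
        alOp K hW' he' h χ heM a u = a • alOp K hW' he' h χ heM 1 u := fun N h χ W' hW' he' a u => by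
      have hD : alData K hW' he' h χ heM a = smulData a (alData K hW' he' h χ heM 1) := by
        unfold alData smulData
        simp
      show (alData K hW' he' h χ heM a).onH1 toGL_injective u = _
      rw [hD]
      exact smulData_onH1 _ a (alData K hW' he' h χ heM 1) u
    have hfix : alOp K hW₀ (Finset.mem_singleton_self e) hbig χK heM (θK (T.c e)) c₁ = c₁ := by
      refine (alOp_charDegen_one (T.dvd_level V) χK hbig hWV hW₀
        (Finset.mem_singleton_self e) (Finset.mem_singleton_self e) heM (θK (T.c e))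
        (T.insert_dvd_mul hbU hUV) c).trans (congrArg _ ?_)
      refine Eq.trans ?_ (hcw e heV)
      rfl
    have h3 := hΦw {e} hW₀ hW' e (Finset.mem_singleton_self e) heM (θK (T.c e)) c₁
    rw [hfix, hsc, charProd_ptChar] at h3
    refine Eq.trans (congrArg _ ?_) h3
    rfl

end Fermat.Agent.TwoAdic.TSide
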