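import Fermat.Agent.TwoAdic.TSide.TwistChain
import Fermat.Agent.HeckeSemisimple.Elementwise
import Fermat.Agent.TwoAdic.Modules.QuotAction

/-!
# Operators away from the level act semisimply with characters

`ker a^k = ker a` on localised classes with values in a reduced ring without torsion and a character
`∏ ψ_q²`; hence a nilpotent operator vanishes on signed parts and on torsion free quotients of them.
-/

set_option autoImplicit false

noncomputable section

namespace Fermat.Agent.TwoAdic.TSide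

open HeckeModule EigenSystems Engine.TRep HeckeJ0 LevelRaising

variable {N : ℕ} [NeZero N] {S : Finset ℕ} {r : ℕ} [hr : Fact r.Prime]

/-- Over a field: `ker (a^k) ⊆ ker (E a)` with squares of characters. -/
theorem eisen_mul_smul_eq_zero_field {K : Type} [Field K] [CharZero K]
    (ψ : ∀ q : ℕ, (ZMod q)ˣ →* K) (Q : Finset ℕ)
    (hQ : ∀ q ∈ Q, q.Prime ∧ q ∣ N ∧ ¬ q * q ∣ N) (hS : ∀ ℓ : ℕ, ℓ.Prime → ℓ ∣ N → ℓ ∈ S)
    (hr1 : (r : ZMod (N * ∏ q ∈ Q, q)) = 1) (hrS : r ∉ S) (a : AwayPoly K (↑S : Set ℕ)) {k : ℕ}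
    {u : Coh1 (scalarRep (charSq ψ Q N) K)} (hu : awayIncl K (↑S : Set ℕ) a ^ k • u = 0) :
    (eisen K r * awayIncl K (↑S : Set ℕ) a) • u = 0 := by
  obtain ⟨Φ, hinj, hΦ⟩ := exists_twistTrivial ψ (S := S) Q hQ hS
  let Q' := sqSupport ψ Q
  let M' := N * ∏ q ∈ Q', q
  have hM'0 : M' ≠ 0 := mul_ne_zero (NeZero.ne N)
    (Finset.prod_ne_zero_iff.mpr fun q hq => (hQ q (sqSupport_subset ψ Q hq)).1.ne_zero)
  have : NeZero M' := ⟨hM'0⟩
  have hdvd : M' ∣ N * ∏ q ∈ Q, q :=
    mul_dvd_mul_left N (Finset.prod_dvd_prod_of_subset _ _ _ (sqSupport_subset ψ Q))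
  have hr1' : (r : ZMod M') = 1 := by
    have h := congrArg (ZMod.castHom hdvd (ZMod M')) hr1
    rwa [map_natCast, map_one] at h
  have hS' : ∀ ℓ : ℕ, ℓ.Prime → ℓ ∣ M' → ℓ ∈ (↑S : Set ℕ) := fun ℓ hℓ h => by
    rcases hℓ.dvd_mul.mp h with h | h
    · exact hS ℓ hℓ h
    · obtain ⟨q, hq, hlq⟩ := (Prime.dvd_finsetProd_iff hℓ.prime _).mp h
      have hqQ := sqSupport_subset ψ Q hq
      exact hS ℓ hℓ (((Nat.prime_dvd_prime_iff_eq hℓ (hQ q hqQ).1).mp hlq) ▸ (hQ q hqQ).2.1)
  let tw := twistPoly (fun l : AwayIndex (↑S : Set ℕ) => charProd ψ Q' ((l : Nat.Primes) : ℕ))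
  have h0 : awayIncl K (↑S : Set ℕ) (tw a) ^ k • Φ u = 0 := by
    rw [← map_pow, ← map_pow tw]
    refine (hΦ (a ^ k) u).symm.trans ?_
    rw [map_pow, hu, map_zero]
  have h1 := HeckeSemisimple.eisen_mul_awayIncl_smul_eq_zero (O := K) (A := K)
    (ρ := trivRep M' K K) (fun _ => rfl) hS' hr1' (tw a) h0
  refine hinj ?_
  have hE : ∀ v, Φ (eisen K r • v) = eisen K r • Φ v := fun v => by
    have : NeZero r := ⟨hr.out.ne_zero⟩
    have hx : ∀ v, Φ (heckeOp _ r v) = heckeOp _ r (Φ v) := by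
      intro v
      have h := hΦ (MvPolynomial.X ⟨⟨r, hr.out⟩, hrS⟩) v
      rw [twistPoly_X, charProd_eq_one, map_one, one_mul, awayIncl_X, X_smul, X_smul] at h
      · exact h
      · intro q hq
        have := congrArg (ZMod.castHom ((hQ q (sqSupport_subset ψ Q hq)).2.1.mul_right _)
          (ZMod q)) hr1
        rwa [map_natCast, map_one] at this
    rw [eisen_smul, eisen_smul, map_sub, map_smul, hx]
  rw [map_zero, mul_smul, hE, hΦ, ← mul_smul]
  exact h1

section Ring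

variable {Λ : Type} [CommRing Λ] [IsReduced Λ] [Module.IsTorsionFree ℤ Λ]
  (ψ : ∀ q : ℕ, (ZMod q)ˣ →* Λ) (Q : Finset ℕ)

/-- Over a reduced ring without torsion: `ker (a^k) ⊆ ker (E² a)`. -/
theorem eisen_sq_mul_smul_eq_zero (hQ : ∀ q ∈ Q, q.Prime ∧ q ∣ N ∧ ¬ q * q ∣ N)
    (hS : ∀ ℓ : ℕ, ℓ.Prime → ℓ ∣ N → ℓ ∈ S) (hr1 : (r : ZMod (N * ∏ q ∈ Q, q)) = 1) (hrS : r ∉ S)
    (a : AwayPoly Λ (↑S : Set ℕ)) {k : ℕ} {u : Coh1 (scalarRep (charSq ψ Q N) Λ)}
    (hu : awayIncl Λ (↑S : Set ℕ) a ^ k • u = 0) :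
    (eisen Λ r * (eisen Λ r * awayIncl Λ (↑S : Set ℕ) a)) • u = 0 := by
  rw [mul_smul]
  obtain ⟨c₀, rfl⟩ := toCoh_surjective _ u
  obtain ⟨c', hc'⟩ := toCoh_surjective _
    ((eisen Λ r * awayIncl Λ (↑S : Set ℕ) a) • toCoh (scalarRep (charSq ψ Q N) Λ) c₀)
  have hr1' : (r : ZMod N) = 1 := by
    have h := congrArg (ZMod.castHom (dvd_mul_right N (∏ q ∈ Q, q)) (ZMod N)) hr1
    rwa [map_natCast, map_one] at h
  rw [← hc']
  refine eisen_smul_eq_zero_of_fields _ hr1' c' fun K _ _ θ => ?_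
  have key : ∀ χ : (ZMod N)ˣ →* K, χ = charSq (fun q => θ.toMonoidHom.comp (ψ q)) Q N →
      ∀ v : Coh1 (scalarRep χ K), MvPolynomial.map θ (awayIncl Λ (↑S : Set ℕ) a) ^ k • v = 0 →
        MvPolynomial.map θ (eisen Λ r * awayIncl Λ (↑S : Set ℕ) a) • v = 0 := by
    rintro χ rfl v hv
    rw [awayIncl_map] at hv
    rw [map_mul, eisen_map, awayIncl_map]
    exact eisen_mul_smul_eq_zero_field _ Q hQ hS hr1 hrS _ hv
  have h0 : MvPolynomial.map θ (awayIncl Λ (↑S : Set ℕ) a) ^ k •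
      toCoh _ (pushCocycle (charSq ψ Q N) θ c₀) = 0 := by
    have h := push_smul (charSq ψ Q N) θ (awayIncl Λ (↑S : Set ℕ) a ^ k) c₀ 0
      (hu.trans (map_zero _).symm)
    rw [map_pow] at h
    rw [← h, show pushCocycle (charSq ψ Q N) θ 0 = 0 from
      Subtype.ext (funext fun γ => map_zero θ), map_zero]
  have hz := (push_smul (charSq ψ Q N) θ _ c₀ c' hc'.symm).trans
    (key _ (charSq_map ψ θ.toMonoidHom Q N).symm _ h0)
  obtain ⟨b, hb⟩ := (toCoh_eq_zero_iff _).mp hz
  exact ⟨b, hb⟩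

/-- **`ker a^k = ker a` on localised classes with squares of characters.** -/
theorem smul_eq_zero_of_pow (hQ : ∀ q ∈ Q, q.Prime ∧ q ∣ N ∧ ¬ q * q ∣ N)
    (hS : ∀ ℓ : ℕ, ℓ.Prime → ℓ ∣ N → ℓ ∈ S) (hr1 : (r : ZMod (N * ∏ q ∈ Q, q)) = 1) (hrS : r ∉ S)
    {χ : (ZMod N)ˣ →* Λ} (hχ : χ = charSq ψ Q N) {P : Submonoid (HeckePoly Λ)}
    (hP : eisen Λ r ∈ P) (a : AwayPoly Λ (↑S : Set ℕ)) {k : ℕ} {x : CohLoc P (scalarRep χ Λ)}
    (hx : awayIncl Λ (↑S : Set ℕ) a ^ k • x = 0) : awayIncl Λ (↑S : Set ℕ) a • x = 0 := by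
  subst hχ
  induction x using LocalizedModule.induction_on with
  | _ u s =>
    rw [LocalizedModule.smul'_mk, ← LocalizedModule.zero_mk s, LocalizedModule.mk_eq] at hx
    obtain ⟨t, ht⟩ := hx
    simp only [Submonoid.smul_def, smul_zero] at ht
    rw [smul_comm (s : HeckePoly Λ), smul_comm (t : HeckePoly Λ), smul_smul (t : HeckePoly Λ)] at ht
    have h := eisen_sq_mul_smul_eq_zero ψ Q hQ hS hr1 hrS a ht
    rw [LocalizedModule.smul'_mk, ← LocalizedModule.zero_mk s, LocalizedModule.mk_eq]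
    refine ⟨⟨_, P.mul_mem (P.mul_mem hP hP) t.2⟩, ?_⟩
    simp only [Submonoid.smul_def, smul_zero]
    rw [← h]
    simp only [smul_smul]
    congr 1
    ring

end Ring

/-- Squares vanish only at zero in quotients without torsion of semisimple actions. -/
theorem isReduced_quot_action {O : Type} [CommRing O] [IsDomain O] {R : Type} [CommRing R]
    [Algebra O R] [Module.Finite O R] [IsNoetherianRing R] {P : Type} [CommRing P] [Algebra R P]
    {M M' : Type} [AddCommGroup M] [Module R M] [Module.Finite R M] [AddCommGroup M'] [Module R M']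
    (f : P →ₐ[R] Module.End R M) (g : P →ₐ[R] Module.End R M') (π : M →ₗ[R] M')
    (hπ : Function.Surjective π) (hfg : ∀ a x, g a (π x) = π (f a x))
    (hker : ∀ a, f a ^ 2 = 0 → f a = 0)
    (htf : ∀ o : O, o ≠ 0 → ∀ y : M', algebraMap O R o • y = 0 → y = 0) :
    ∀ (a : P) (k : ℕ), g a ^ k = 0 → g a = 0 := by
  have key : ∀ a : P, g a ^ 2 = 0 → g a = 0 := by
    intro a ha
    let A := P ⧸ RingHom.ker f
    let F : A →ₐ[R] Module.End R M := Ideal.kerLiftAlg f
    have hF : Function.Injective F := Ideal.kerLiftAlg_injective f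
    have : IsReduced A := (isReduced_iff_pow_one_lt 2 one_lt_two).mpr fun x hx => by
      obtain ⟨y, rfl⟩ := Ideal.Quotient.mk_surjective x
      rw [← map_pow, Ideal.Quotient.eq_zero_iff_mem, RingHom.mem_ker, map_pow] at hx
      rw [Ideal.Quotient.eq_zero_iff_mem, RingHom.mem_ker]
      exact hker y hx
    have : Module.Finite R A := Module.Finite.of_injective F.toLinearMap hF
    let : Algebra O A := ((algebraMap R A).comp (algebraMap O R)).toAlgebra
    have : IsScalarTower O R A := IsScalarTower.of_algebraMap_eq fun _ => rfl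
    have : Module.Finite O A := Module.Finite.trans R A
    let b : A := Ideal.Quotient.mk _ a
    obtain ⟨g₀, h, hg₀, hb⟩ : ∃ (g₀ : O) (h : A), g₀ ≠ 0 ∧ g₀ • b = -(h * b ^ 2) := by
      obtain ⟨q, hm, hqb⟩ := Algebra.IsIntegral.isIntegral (R := O) b
      obtain ⟨u, hu, hndvd⟩ :=
        Polynomial.exists_eq_pow_rootMultiplicity_mul_and_not_dvd q hm.ne_zero 0
      rw [map_zero, sub_zero] at hu hndvd
      refine ⟨u.coeff 0, Polynomial.aeval b u.divX, fun h0 => hndvd (Polynomial.X_dvd_iff.mpr h0),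
        ?_⟩
      have h0 : b * Polynomial.aeval b u = 0 := by
        refine IsReduced.eq_zero _ ⟨q.rootMultiplicity 0 + 1, ?_⟩
        have hq0 : b ^ q.rootMultiplicity 0 * Polynomial.aeval b u = 0 := by
          have : Polynomial.aeval b q = 0 := hqb
          rwa [hu, map_mul, map_pow, Polynomial.aeval_X] at this
        linear_combination (b * (Polynomial.aeval b u) ^ q.rootMultiplicity 0) * hq0
      have key := congrArg (Polynomial.aeval b) (Polynomial.X_mul_divX_add u)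
      rw [map_add, map_mul, Polynomial.aeval_X, Polynomial.aeval_C] at key
      rw [Algebra.smul_def]
      linear_combination h0 + b * key
    obtain ⟨c, rfl⟩ := Ideal.Quotient.mk_surjective h
    have hf : f (algebraMap R P (algebraMap O R g₀) * a + c * a ^ 2) = 0 := by
      rw [← RingHom.mem_ker, ← Ideal.Quotient.eq_zero_iff_mem, map_add, map_mul, map_mul, map_pow]
      rw [Algebra.smul_def] at hb
      show algebraMap O A g₀ * b + Ideal.Quotient.mk _ c * b ^ 2 = 0
      rw [hb, neg_add_cancel]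
    have hg : g (algebraMap R P (algebraMap O R g₀) * a + c * a ^ 2) = 0 :=
      LinearMap.ext fun y => by
        obtain ⟨x, rfl⟩ := hπ y
        rw [hfg, hf, LinearMap.zero_apply, map_zero, LinearMap.zero_apply]
    rw [map_add, map_mul g c, map_pow, ha, mul_zero, add_zero, map_mul, AlgHom.commutes] at hg
    refine LinearMap.ext fun y => htf g₀ hg₀ (g a y) ?_
    exact LinearMap.congr_fun hg y
  intro a k hk
  induction k using Nat.strong_induction_on with
  | _ k ih =>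
    rcases lt_or_ge k 2 with hk2 | hk2
    · interval_cases k
      · rw [pow_zero] at hk
        rw [← mul_one (g a), hk, mul_zero]
      · rwa [pow_one] at hk
    · refine ih (k - 1) (by omega) ?_
      rw [← map_pow]
      refine key (a ^ (k - 1)) ?_
      rw [map_pow, ← pow_mul, show (k - 1) * 2 = k + (k - 2) by omega, pow_add, hk, zero_mul]

end Fermat.Agent.TwoAdic.TSide
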