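import Fermat.Agent.TwoAdic.Geometry.Bridge.Pullback
import Fermat.Agent.Engine.TRep.Compare
import Fermat.Agent.SemistableRed.Signed

/-!
# Atkin–Lehner matrices on the lattice

Atkin–Lehner operators on the lattice of `Γ₀(N)`: an integral matrix, equal to the matrix of the
automorphism `w_q` on the torsion of `J₀(M q)`.
-/

set_option autoImplicit false

noncomputable section

open Matrix CongruenceSubgroup
open scoped MatrixGroups

namespace Fermat.Agent.TwoAdic.TSide

open HeckeJ0 HeckeModule LevelRaising Engine.TRep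

section Lattice

variable {N : ℕ} {W : Finset ℕ} (hW : IsALPrimes N W) {e : ℕ} (he : e ∈ W)

/-- Conjugation by the Atkin–Lehner matrix is multiplicative. -/
lemma alConj_mul (γ δ : Gamma0 N) :
    alConj hW he (γ * δ) = alConj hW he γ * alConj hW he δ := by
  refine Subtype.ext (Subtype.ext (mat_cancel_right (alMat_det_ne_zero hW he) ?_))
  rw [← alConj_spec, Subgroup.coe_mul, Matrix.SpecialLinearGroup.coe_mul, ← mul_assoc, alConj_spec,
    mul_assoc, alConj_spec, ← mul_assoc, Subgroup.coe_mul, Matrix.SpecialLinearGroup.coe_mul]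

/-- Conjugation by the Atkin–Lehner matrix keeps the trace. -/
lemma trace_alConj (γ : Gamma0 N) :
    ((alConj hW he γ : SL(2, ℤ)) : Mat).trace = ((γ : SL(2, ℤ)) : Mat).trace := by
  refine mul_left_cancel₀ (alMat_det_ne_zero hW he) ?_
  have h := congrArg (fun X => (X * (alMat N e).adjugate).trace) (alConj_spec hW he γ)
  simp only [mul_assoc, Matrix.mul_adjugate] at h
  rw [Matrix.trace_mul_comm, mul_assoc, Matrix.adjugate_mul] at h
  simp only [Matrix.mul_smul, mul_one, Matrix.trace_smul, smul_eq_mul] at h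
  exact h.symm

/-- A homomorphism composed with conjugation by the Atkin–Lehner matrix. -/
def alPull {A : Type*} [AddCommGroup A] (ψ : Additive (Gamma0 N) →+ A) :
    Additive (Gamma0 N) →+ A :=
  AddMonoidHom.mk' (fun g => ψ (Additive.ofMul (alConj hW he (Additive.toMul g))))
    fun g h => by
      show ψ (Additive.ofMul (alConj hW he (Additive.toMul g * Additive.toMul h))) = _
      rw [alConj_mul, ofMul_mul, map_add]

lemma alPull_apply {A : Type*} [AddCommGroup A] (ψ : Additive (Gamma0 N) →+ A) (γ : Gamma0 N) :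
    alPull hW he ψ (Additive.ofMul γ) = ψ (Additive.ofMul (alConj hW he γ)) := rfl

lemma isGoodHom_alPull {A : Type*} [AddCommGroup A] {ψ : Additive (Gamma0 N) →+ A}
    (hψ : IsGoodHom N ψ) : IsGoodHom N (alPull hW he ψ) := fun g hg => by
  rw [alPull_apply]
  refine hψ _ ?_
  show ((alConj hW he g : SL(2, ℤ)) : Mat).trace ^ 2 ≤ 4
  rw [trace_alConj]
  exact hg

variable [NeZero N]

/-- The Atkin–Lehner matrix on the lattice. -/
def alMatZ : Matrix (Fin (rk N)) (Fin (rk N)) ℤ :=
  fun i k => HeckeJ0.coords N (alPull hW he (HeckeJ0.ofCoords N (Pi.single k (1 : ℤ)))) i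

/-- On lattice homomorphisms conjugation is the matrix. -/
theorem alPull_ofCoords {A : Type*} [AddCommGroup A] (a : Fin (rk N) → A) :
    alPull hW he (HeckeJ0.ofCoords N a)
      = HeckeJ0.ofCoords N (fun i => ∑ k, alMatZ hW he i k • a k) := by
  classical
  have hk : ∀ k, HeckeJ0.ofCoords N (fun i => alMatZ hW he i k) =
      alPull hW he (HeckeJ0.ofCoords N (Pi.single k (1 : ℤ))) := fun k =>
    ofCoords_coords_int N (isGoodHom_alPull hW he (isGoodHom_ofCoords N _))
  refine AddMonoidHom.ext fun g => ?_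
  obtain ⟨γ, rfl⟩ := Additive.ofMul.surjective g
  rw [alPull_apply, HeckeJ0.ofCoords_apply, HeckeJ0.ofCoords_apply]
  simp only [Finset.smul_sum, smul_smul]
  rw [Finset.sum_comm]
  refine Finset.sum_congr rfl fun k _ => ?_
  rw [← Finset.sum_smul]
  congr 1
  have h := DFunLike.congr_fun (hk k) (Additive.ofMul γ)
  rw [alPull_apply, HeckeJ0.ofCoords_apply, HeckeJ0.ofCoords_apply] at h
  refine Eq.trans ?_ h.symm
  simp [Pi.single_apply]

/-- On lattice homomorphisms conjugation is the matrix. -/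
theorem coords_alPull_ofCoords {A : Type} [AddCommGroup A] (a : Fin (rk N) → A) :
    HeckeJ0.coords N (alPull hW he (HeckeJ0.ofCoords N a)) = intAct (alMatZ hW he) a := by
  rw [alPull_ofCoords, HeckeJ0.coords_ofCoords]
  rfl

end Lattice

section Torsion

open ModularCurve AlgebraicCurve EigenRep SemistableRed

variable {M q p : ℕ} [NeZero M] [NeZero q] [Fact p.Prime] [hq : Fact q.Prime] (hqM : ¬ q ∣ M)
  {W : Finset ℕ} (hW : IsALPrimes (M * q) W) (he : q ∈ W)

/-- Monodromy of `w_q • x`: conjugation by the Atkin–Lehner matrix. -/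
theorem monodromy_wq_smul {n : ℕ} [NeZero n] (φ : AlgebraicClosure ℚ →+* ℂ)
    {x : JZero (M * q)}
    (hx : x ∈ Pic0.torsion (AlgebraicClosure ℚ) (modularFunctionFieldBar (M * q)) n)
    {ψ ψ' : Additive (Gamma0 (M * q)) →+ ZMod n} (h : IsMonodromy φ n x ψ)
    (h' : IsMonodromy φ n (SemilinearAut.ofAlgAut (wq (Fact.out : q.Prime) hqM) • x) ψ')
    (γ : Gamma0 (M * q)) :
    ψ' (Additive.ofMul γ) = ψ (Additive.ofMul (alConj hW he γ)) := by
  set s := SemilinearAut.ofAlgAut (wq (Fact.out : q.Prime) hqM) with hs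
  refine Bridge.monodromy_transfer φ (Bridge.alMat_det_pos hW he) (alConj hW he)
    (fun γ => (matGL_mul_toGL_iff _ _ _ _).mpr (alConj_spec hW he γ))
    (wq hq.out hqM).toRingEquiv.toRingHom (fun f => Bridge.toMer_wq φ hq.out hqM hW he f) hx
    (fun D f hD _ hf => ⟨SemilinearAut.degZeroSMulHom s D, by rw [← hD]; rfl, fun w => ?_⟩) h h' γ
  rw [SemilinearAut.coe_degZeroSMulHom, SemilinearAut.divisor_smul_apply, hf]
  have e := SemilinearAut.ord_smul s (s⁻¹ • w) f
  rw [smul_inv_smul] at e
  exact e.symm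

/-- **The matrix of `w_q` on the Tate module is the Atkin–Lehner matrix on the lattice.** -/
theorem wMatPadic_eq :
    wMatPadic hqM (HeckeJ0.torsionHeckeModel (M * q) p)
      = (alMatZ hW he).map (Int.cast : ℤ → ℤ_[p]) := by
  refine matMod_ext fun n => mat_ext (HeckeJ0.torsionHeckeModel (M * q) p) fun x => ?_
  rw [matMod_wMatPadic_mulVec]
  set s := SemilinearAut.ofAlgAut (wq (Fact.out : q.Prime) hqM)
  set θ := fun y => (J0Torsion.torsionEquiv (M * q) (p ^ n) y : Additive (Gamma0 (M * q)) →+ ZMod (p ^ n))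
  have hpull : ∀ γ, θ (s • x) (Additive.ofMul γ)
      = θ x (Additive.ofMul (alConj hW he γ)) := fun γ => by
    refine monodromy_wq_smul hqM hW he J0Torsion.jEmb x.2
      (HeckeJ0.isMonodromy_torsionEquiv _ _ x) ?_ γ
    have h := HeckeJ0.isMonodromy_torsionEquiv (M * q) (p ^ n) (s • x)
    rwa [SemilinearAut.coe_torsion_smul] at h
  obtain ⟨g₀, hg₀⟩ := Bridge.exists_alConj_frickeConj hW he
  have htw : frickeTwist (θ (s • x)) = alPull hW he (frickeTwist (θ x)) := by
    refine AddMonoidHom.ext fun g => ?_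
    obtain ⟨γ, rfl⟩ := Additive.ofMul.surjective g
    show θ (s • x) (Additive.ofMul (frickeConj γ))
      = θ x (Additive.ofMul (frickeConj (alConj hW he γ)))
    rw [hpull, hg₀, frickeConj_mul, frickeConj_mul, ofMul_mul, ofMul_mul, map_add, map_add,
      add_right_comm, ← map_add, ← ofMul_mul, ← frickeConj_mul, mul_inv_cancel]
    rw [show frickeConj (1 : Gamma0 (M * q)) = 1 from
      (MonoidHom.mk' frickeConj frickeConj_mul).map_one, ofMul_one, map_zero, zero_add]
  show HeckeJ0.coords _ (frickeTwist (θ (s • x))) =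
    matMod p _ n ((alMatZ hW he).map (Int.cast : ℤ → ℤ_[p])) *ᵥ
      HeckeJ0.coords _ (frickeTwist (θ x))
  conv_lhs => rw [htw, ← ofCoords_coords_zmod _ (HeckeJ0.parabolicFull (M * q)) (p ^ n)
    (HeckeJ0.isGoodHom_frickeTwist (J0Torsion.torsionEquiv (M * q) (p ^ n) x).2),
    coords_alPull_ofCoords]
  funext i
  show ∑ k, alMatZ hW he i k • HeckeJ0.coords _ (frickeTwist (θ x)) k
    = ∑ k, matMod p _ n ((alMatZ hW he).map (Int.cast : ℤ → ℤ_[p])) i k *
      HeckeJ0.coords _ (frickeTwist (θ x)) k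
  refine Finset.sum_congr rfl fun k _ => ?_
  rw [matMod_apply, Matrix.map_apply, map_intCast, zsmul_eq_mul]

variable (hes : EichlerShimuraRelations (M * q) p)

/-- The same for the inputs of the lattice. -/
theorem wMatPadic_stdInputs :
    wMatPadic hqM (stdInputs hes).model = (alMatZ hW he).map (Int.cast : ℤ → ℤ_[p]) :=
  wMatPadic_eq hqM hW he

end Torsion

end Fermat.Agent.TwoAdic.TSide
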