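import Fermat.Agent.Engine.Lifting.TrivialKernel
import Fermat.Agent.TwoAdic.TSide.FieldLattice

/-!
# The common kernel of the two traces at trivial character, at any prime

`Engine/Lifting/TrivialKernel` without hypotheses on `p`: in characteristic zero Eisenstein
multiples lie on the lattice.
-/

set_option autoImplicit false

noncomputable section

open CongruenceSubgroup Matrix
open scoped MatrixGroups

namespace Fermat.Agent.TwoAdic.TSide

open EigenRep HeckeModule EigenSystems Engine.TRep Engine.Lifting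

local notation "Qbar" => AlgebraicClosure ℚ

variable {p : ℕ} [Fact p.Prime]

section Poly

variable {K : Type} [Field K] [CharZero K] (ι : ℤ_[p] →+* K) (S : Finset ℕ)
variable {L : ℕ} [NeZero L] (h : EichlerShimuraRelations L p) {φ : Qbar ≃ₐ[ℚ] Qbar}
  {P₀ : AwayPoly ℤ_[p] (↑S : Set ℕ)} {v : ℕ} {r : ℕ} [Fact r.Prime]

/-- An Eisenstein multiple with coordinates killed by a polynomial. -/
theorem smul_eq_zero_of_coords_field (hr1 : (r : ZMod L) = 1)
    (G : AwayPoly K (↑S : Set ℕ)) (x : Coh1 (trivRep L K K))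
    (hx : (latHom (stdInputs h) ι S G : Module.End K (Lat (stdInputs h) K))
        (classCoords (eisen K r • x)) = 0) :
    (awayIncl K (↑S : Set ℕ) G * eisen K r) • x = 0 := by
  rw [mul_comm, mul_smul]
  refine eisen_smul_eq_zero_field hr1 ?_
  rw [smul_comm, classCoords_smul_field h ι S hr1]
  exact hx

/-- At a prime not dividing the level, `T_v² = (v + 1)²` forces death. -/
theorem smul_eq_zero_of_sq_field [hv : Fact v.Prime] (hvL : ¬ v ∣ L) (hvp : v ≠ p)
    (hr1 : (r : ZMod L) = 1) {A : ValuationSubring Qbar}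
    (hA : A.LiesOverPrime v) (hφ : A.IsFrobeniusAt φ v)
    (hL : (latHom (stdInputs h) (RingHom.id ℤ_[p]) S P₀ :
        Module.End ℤ_[p] (Lat (stdInputs h) ℤ_[p])) =
          matEnd (stdInputs h) (RingHom.id ℤ_[p]) (tMat (stdInputs h) φ))
    (a : Coh1 (trivRep L K K))
    (hsq : heckeOp _ v (heckeOp _ v a) = ((v : K) + 1) ^ 2 • a) :
    (awayIncl K (↑S : Set ℕ) (sqPoly S v (MvPolynomial.map ι P₀)) * eisen K r) • a = 0 := by
  have : NeZero v := ⟨hv.out.ne_zero⟩
  have hvLp : ¬ (v : ℕ) ∣ L * p := fun h => (hv.out.dvd_mul.mp h).elim hvL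
    fun h => hvp ((Nat.prime_dvd_prime_iff_eq hv.out Fact.out).mp h)
  refine smul_eq_zero_of_coords_field ι S h hr1 _ a ?_
  have hT : ∀ y : Coh1 (trivRep L K K), matEnd (stdInputs h) ι (tMat (stdInputs h) φ)
      (classCoords (eisen K r • y)) = classCoords (eisen K r • heckeOp _ v y) := fun y => by
    rw [tMat_frobenius (stdInputs h) hv.out hvLp hA hφ]
    refine (matEnd_heckeMat ι h _ _).trans ?_
    rw [← classCoords_heckeOp ⟨v, hv.out⟩ (onLattice_eisen_torsionFree hr1 y)]
    refine congrArg classCoords (((X_smul (trivRep L K K) v _).symm.trans ?_))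
    rw [smul_comm]
    exact congrArg _ (X_smul _ v y)
  refine (latHom_sqPoly ι S h hL (classCoords (eisen K r • a))).trans ?_
  have h3 : ∀ x : Lat (stdInputs h) K,
      matEnd (stdInputs h) ι (tMat (stdInputs h) φ)
        (matEnd (stdInputs h) ι (tMat (stdInputs h) φ) x) = ((v : K) + 1) ^ 2 • x →
      matEnd (stdInputs h) ι (tMat (stdInputs h) φ * tMat (stdInputs h) φ -
        ((v : ℤ_[p]) + 1) ^ 2 • 1) x = 0 := fun x hx => by
    rw [map_sub, LinearMap.sub_apply, map_mul, Module.End.mul_apply, hx, matEnd_smul, map_one,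
      LinearMap.smul_apply, Module.End.one_apply, map_pow, map_add, map_one, map_natCast,
      sub_self]
  refine h3 _ ?_
  refine (congrArg _ (hT a)).trans ((hT _).trans ?_)
  rw [hsq, smul_comm (eisen K r), map_smul]
  rfl

end Poly

section Main

variable {K : Type} [Field K] [CharZero K] (ι : ℤ_[p] →+* K) (S : Finset ℕ)
variable {M v : ℕ} [NeZero M] [hv : Fact v.Prime]

/-- **The common kernel of the two traces.** -/
theorem pow_smul_eq_zero_trivial_field (hfacts : SemistableRed.GoodReductionFacts)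
    (hvM : ¬ v ∣ M) (hvp : v ≠ p) [NeZero (v * M)]
    (hes : EichlerShimuraRelations M p) (hes' : EichlerShimuraRelations (v * M) p)
    (hS : ∀ ℓ : ℕ, ℓ.Prime → ℓ ∉ S → ¬ ℓ ∣ v * M * p) {r : ℕ} [Fact r.Prime] (hrS : r ∉ S)
    (hr1 : (r : ZMod (v * M)) = 1) {A : ValuationSubring Qbar}
    (hA : A.LiesOverPrime v) {φ : Qbar ≃ₐ[ℚ] Qbar} (hφ : A.IsFrobeniusAt φ v)
    {P₀ : AwayPoly ℤ_[p] (↑S : Set ℕ)}
    (hP : (latHom (stdInputs hes) (RingHom.id ℤ_[p]) S P₀ :
        Module.End ℤ_[p] (Lat (stdInputs hes) ℤ_[p])) =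
      matEnd (stdInputs hes) (RingHom.id ℤ_[p]) (tMat (stdInputs hes) φ))
    (hP' : (latHom (stdInputs hes') (RingHom.id ℤ_[p]) S P₀ :
        Module.End ℤ_[p] (Lat (stdInputs hes') ℤ_[p])) =
      matEnd (stdInputs hes') (RingHom.id ℤ_[p]) (tMat (stdInputs hes') φ))
    (ρ : Representation K (ZMod M)ˣ K) (hρ : ρ = trivRep M K K) {n : ℕ}
    (hn : Module.finrank K (Coh1 (trivRep (v * M) K K)) +
      2 * Module.finrank K (Coh1 (trivRep M K K)) ≤ n)
    (u : Coh1 (pullRep ρ (dvd_mul_left M v))) (hu : trace ρ hvM u = 0)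
    (hu' : traceTwist ρ hvM u = 0) :
    (awayIncl K (↑S : Set ℕ) (sqPoly S v (MvPolynomial.map ι P₀)) * eisen K r) ^ n • u = 0 := by
  classical
  subst hρ
  have : FiniteDimensional K (Coh1 (trivRep M K K)) := finite_coh1 _
  have : FiniteDimensional K (Coh1 (trivRep (v * M) K K)) := finite_coh1 _
  set G : AwayPoly K (↑S : Set ℕ) := sqPoly S v (MvPolynomial.map ι P₀) with hGdef
  have : NeZero v := ⟨hv.out.ne_zero⟩
  have hr1' : (r : ZMod M) = 1 := by
    have := congrArg (ZMod.castHom (dvd_mul_left M v) (ZMod M)) hr1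
    rwa [map_natCast, map_one] at this
  set e : AwayPoly K (↑S : Set ℕ) :=
    awayX K Fact.out (show r ∉ (↑S : Set ℕ) from hrS) - MvPolynomial.C ((r : K) + 1) with hedef
  have hGe := awayIncl_mul_eisen S G hrS
  rw [← hedef] at hGe
  obtain ⟨B, hB, hBker⟩ := exists_normMat hfacts (mul_comm v M) (stdInputs hes') (stdInputs hes)
    hvM hvp hA hφ
  let W₀ := Coh1 (trivRep M K K)
  let V := Coh1 (trivRep (v * M) K K)
  let toV : Coh1 (pullRep (trivRep M K K) (dvd_mul_left M v)) →ₗ[K] V := LinearMap.id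
  let ofV : V →ₗ[K] Coh1 (pullRep (trivRep M K K) (dvd_mul_left M v)) := LinearMap.id
  let ev : V →ₗ[K] (Fin (HeckeJ0.rk (v * M)) → K) :=
    classCoords.comp (Algebra.lsmul K K V (eisen K r))
  let Pm : Bool → V →ₗ[K] W₀ := fun b =>
    toClass.comp ((Matrix.toLin' ((B b).map ι)).comp ev)
  let Ad : W₀ × W₀ →ₗ[K] V := toV.comp (LinearMap.coprod
    (degen (trivRep M K K) one_ne_zero (by rw [one_mul]; exact dvd_mul_left M v))
    (degen (trivRep M K K) hv.out.ne_zero dvd_rfl))
  let gV : Module.End K V := Algebra.lsmul K K V (awayIncl K (↑S : Set ℕ) (G * e))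
  let gW : Module.End K (W₀ × W₀) :=
    Algebra.lsmul K K (W₀ × W₀) (awayIncl K (↑S : Set ℕ) (G * e))
  have hSv : ∀ ℓ : ℕ, ℓ.Prime → ℓ ∉ (↑S : Set ℕ) → ¬ ℓ ∣ v * M := fun ℓ hℓ h hd =>
    hS ℓ hℓ (by simpa using h) (hd.mul_right p)
  have hdeg : ∀ (d : ℕ) (hd : d ≠ 0) (h : d * M ∣ v * M), d ∣ v →
      ∀ (P : AwayPoly K (↑S : Set ℕ)) (a : W₀),
      degen (trivRep M K K) hd h (awayIncl K _ P • a) =
        awayIncl K _ P • degen (trivRep M K K) hd h a := fun d hd h hdv =>
    map_awayIncl_smul _ fun ℓ hℓ hℓS a => degen_heckeOp _ hd h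
      (fun hl => hSv ℓ hℓ.out hℓS (dvd_mul_of_dvd_left (hl.trans hdv) M))
      (fun hl => absurd hl (hSv ℓ hℓ.out hℓS)) a
  have hcnt := pow_apply_eq_zero_of_counting gV gW Ad
    (((trace (trivRep M K K) hvM).comp ofV).prod ((traceTwist (trivRep M K K) hvM).comp ofV))
    ((Pm true).prod (Pm false)) (fun w => ?_) (fun x => ?_) (fun x => ?_) (fun x hx => ?_)
    (fun w hw => ?_) (v := toV u) (Prod.ext hu hu')
  · rw [Module.finrank_prod, ← two_mul, ← map_pow] at hcnt
    rw [← hGe, ← Nat.sub_add_cancel hn, pow_add, mul_smul]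
    exact (congrArg (HSMul.hSMul
      (awayIncl K (↑S : Set ℕ) (G * e) ^ _ : HeckePoly K) : V → V) hcnt).trans
      (smul_zero (A := V) _)
  · show degen _ one_ne_zero _ (awayIncl K _ (G * e) • w.1) +
      degen _ hv.out.ne_zero _ (awayIncl K _ (G * e) • w.2) = _
    rw [hdeg 1 _ _ (one_dvd v), hdeg v _ _ dvd_rfl]
    exact (smul_add (awayIncl K (↑S : Set ℕ) (G * e)) _ _).symm
  · refine Prod.ext ?_ ?_
    · exact map_awayIncl_smul (trace (trivRep M K K) hvM)
        (fun ℓ hℓ hℓS a => trace_heckeOp _ hvM (hSv ℓ hℓ.out hℓS) a) _ _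
    · exact map_awayIncl_smul (traceTwist (trivRep M K K) hvM)
        (fun ℓ hℓ hℓS a => traceTwist_heckeOp _ hvM (hSv ℓ hℓ.out hℓS) a) _ _
  · have key : ∀ b, Pm b (gV x) = awayIncl K (↑S : Set ℕ) (G * e) • Pm b x := fun b => by
      show toClass ((B b).map ι *ᵥ classCoords (eisen K r • awayIncl K _ (G * e) • x)) =
        awayIncl K _ (G * e) • toClass ((B b).map ι *ᵥ classCoords (eisen K r • x))
      rw [smul_comm, classCoords_smul_field hes' ι S hr1, smul_toClass hes ι S]
      exact congrArg _ (mulVec_latHom ι S (stdInputs hes') (stdInputs hes) (B b)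
        (fun l => hB b _ (hS _ l.1.2 (by simpa using l.2))) _ _)
    exact Prod.ext (key true) (key false)
  · refine ⟨1, ?_⟩
    rw [pow_one]
    refine (congrArg (· • x) hGe).trans (smul_eq_zero_of_coords_field ι S hes' hr1 G x ?_)
    refine (latHom_sqPoly ι S hes' hP' (classCoords (eisen K r • x))).trans
      (hBker K ι _ fun b => ?_)
    have h0 : Pm b x = 0 := by
      cases b
      · exact congrArg Prod.snd hx
      · exact congrArg Prod.fst hx
    have h1 := congrArg classCoords h0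
    rwa [show classCoords (Pm b x) = classCoords (toClass ((B b).map ι *ᵥ ev x)) from rfl,
      classCoords_toClass, map_zero] at h1
  · refine ⟨1, ?_⟩
    rw [pow_one]
    have hd : ∀ a : W₀, trace (trivRep M K K) hvM (degen _ hv.out.ne_zero dvd_rfl a) =
        heckeOp _ v a := fun a => by
      rw [trace_degen]
      obtain ⟨c, hc⟩ := toCoh_surjective _ (heckeOp (trivRep M K K) v a)
      rw [← hc, cohMapO_toCoh]
      exact congrArg _ (Subtype.ext (funext fun _ => rfl))
    have h1 := congrArg Prod.fst hw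
    have h2 := congrArg Prod.snd hw
    change trace (trivRep M K K) hvM (degen _ one_ne_zero _ w.1 +
      degen _ hv.out.ne_zero dvd_rfl w.2) = 0 at h1
    change traceTwist (trivRep M K K) hvM (degen _ one_ne_zero _ w.1 +
      degen _ hv.out.ne_zero dvd_rfl w.2) = 0 at h2
    rw [map_add, trace_degen_one, hd] at h1
    rw [map_add, traceTwist_degen_one, traceTwist_degen] at h2
    have hvv : ∀ a b : W₀, ((v : K) + 1) • a + heckeOp _ v b = 0 →
        heckeOp _ v a + ((v : K) + 1) • b = 0 →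
        awayIncl K (↑S : Set ℕ) (G * e) • a = 0 := by
      intro a b ha hb
      refine (congrArg (· • a) hGe).trans
        (smul_eq_zero_of_sq_field ι S hes hvM hvp hr1' hA hφ hP a ?_)
      rw [eq_neg_of_add_eq_zero_left hb, map_neg, map_smul, eq_neg_of_add_eq_zero_right ha,
        smul_neg, neg_neg, smul_smul, sq]
    exact Prod.ext (hvv w.1 w.2 h1 h2) (hvv w.2 w.1 (by rw [add_comm]; exact h2)
      (by rw [add_comm]; exact h1))

end Main

end Fermat.Agent.TwoAdic.TSide
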