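import Fermat.Agent.Engine.TRep.Twist
import Fermat.Agent.Engine.Lifting.TwistPair

/-!
# Removing characters whose squares are not trivial

For characters of any order: only those with non-trivial square matter for `∏ ψ_q²`, and these are
removed by twisting.
-/

set_option autoImplicit false

noncomputable section

namespace Fermat.Agent.TwoAdic.TSide

open HeckeModule EigenSystems Engine.TRep

/-- Scaling by `c` then by its inverse changes nothing. -/
theorem twistPoly_twistPoly {O : Type} [CommRing O] {S : Finset ℕ}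
    (d c : AwayIndex (↑S : Set ℕ) → O) (hdc : ∀ l, d l * c l = 1) (a : AwayPoly O (↑S : Set ℕ)) :
    twistPoly d (twistPoly c a) = a := by
  induction a using MvPolynomial.induction_on with
  | C r => rw [← MvPolynomial.algebraMap_eq, AlgHom.commutes, AlgHom.commutes]
  | add P Q hP hQ => rw [map_add, map_add, hP, hQ]
  | mul_X P l hP =>
    rw [map_mul, map_mul, hP, twistPoly_X, map_mul, twistPoly_X, ← MvPolynomial.algebraMap_eq,
      AlgHom.commutes, MvPolynomial.algebraMap_eq, ← mul_assoc (MvPolynomial.C (c l)), ← map_mul,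
      mul_comm (c l), hdc, map_one, one_mul]

variable {K : Type} [Field K] [CharZero K] (ψ : ∀ q : ℕ, (ZMod q)ˣ →* K)

/-- The primes whose character has non-trivial square. -/
def sqSupport (Q : Finset ℕ) : Finset ℕ :=
  open scoped Classical in Q.filter fun q => ψ q ^ 2 ≠ 1

omit [CharZero K] in
theorem sqSupport_subset (Q : Finset ℕ) : sqSupport ψ Q ⊆ Q := by
  classical
  exact Finset.filter_subset _ _

omit [CharZero K] in
theorem sq_ne_one_of_mem_sqSupport {Q : Finset ℕ} {q : ℕ} (h : q ∈ sqSupport ψ Q) :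
    ψ q ^ 2 ≠ 1 := by
  classical
  exact (Finset.mem_filter.mp h).2

omit [CharZero K] in
theorem sq_eq_one_of_notMem_sqSupport {Q : Finset ℕ} {q : ℕ} (hq : q ∈ Q)
    (h : q ∉ sqSupport ψ Q) : ψ q ^ 2 = 1 := by
  classical
  by_contra hne
  exact h (Finset.mem_filter.mpr ⟨hq, hne⟩)

omit [CharZero K] in
/-- Only characters with non-trivial square contribute. -/
theorem charSq_sqSupport (Q : Finset ℕ) (M : ℕ) :
    charSq ψ (sqSupport ψ Q) M = charSq ψ Q M := by
  refine Finset.prod_subset (sqSupport_subset ψ Q) fun q hq h => ?_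
  have h2 := sq_eq_one_of_notMem_sqSupport ψ hq h
  refine MonoidHom.ext fun u => ?_
  rw [charOn]
  split
  · exact DFunLike.congr_fun h2 (ZMod.unitsMap (by assumption) u)
  · rw [one_pow]

/-- **All the characters removed.** -/
theorem exists_twistChain_ne (Q : Finset ℕ) : ∀ (M M' : ℕ) [NeZero M], M' = M * ∏ q ∈ Q, q →
    (∀ q ∈ Q, q.Prime ∧ q ∣ M ∧ ¬ q * q ∣ M) → (∀ q ∈ Q, ψ q ^ 2 ≠ 1) →
    ∃ Φ : Coh1 (scalarRep (charSq ψ Q M) K) →ₗ[K] Coh1 (trivRep M' K K),
      Function.Injective Φ ∧ ∀ (ℓ : ℕ) [Fact ℓ.Prime], ¬ ℓ ∣ M' → ∀ u,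
        Φ (heckeOp _ ℓ u) = charProd ψ Q ℓ • heckeOp _ ℓ (Φ u) := by
  classical
  induction Q using Finset.induction_on with
  | empty =>
    intro M M' _ hM' _ _
    obtain rfl : M' = M := by rw [hM', Finset.prod_empty, mul_one]
    have e : scalarRep (charSq ψ ∅ M') K = trivRep M' K K :=
      MonoidHom.ext fun u => LinearMap.ext fun a => by
        rw [scalarRep_apply, charSq_apply, Finset.prod_empty, one_smul]; rfl
    rw [e]
    exact ⟨LinearMap.id, fun _ _ h => h, fun ℓ _ _ u => by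
      rw [charProd, Finset.prod_empty, one_smul]; rfl⟩
  | insert q Q hqQ ih =>
    intro M M' _ hM' hQ hne
    obtain ⟨hqp, ⟨N, rfl⟩, hq2⟩ := hQ q (Finset.mem_insert_self q Q)
    revert hq2 hM'
    rw [mul_comm q N]
    intro hM' hq2
    have := Fact.mk hqp
    have : NeZero q := ⟨hqp.ne_zero⟩
    have : NeZero N := ⟨fun h => NeZero.ne (q * N) (by rw [h, mul_zero])⟩
    have hqN : ¬ q ∣ N := fun h => hq2 (mul_dvd_mul_right h q)
    have hdvd : ∀ q' ∈ Q, q'.Prime ∧ q' ∣ N ∧ ¬ q' * q' ∣ N * q * q := fun q' hq' => by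
      obtain ⟨hp', hd', hd2⟩ := hQ q' (Finset.mem_insert_of_mem hq')
      have hne' : ¬ q' ∣ q := fun h => hqQ ((Nat.prime_dvd_prime_iff_eq hp' hqp).mp h ▸ hq')
      have hcop : Nat.Coprime q' q := (Nat.Prime.coprime_iff_not_dvd hp').mpr hne'
      rw [mul_comm q N] at hd' hd2
      refine ⟨hp', hcop.dvd_of_dvd_mul_right hd', fun h => hd2 (dvd_mul_of_dvd_left ?_ q)⟩
      exact (hcop.mul_left hcop).dvd_of_dvd_mul_right ((hcop.mul_left hcop).dvd_of_dvd_mul_right h)
    have hins : ∀ q' ∈ insert q Q, q' ∣ N * q := fun q' h => by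
      rcases Finset.mem_insert.mp h with rfl | h
      · exact dvd_mul_left _ _
      · exact (hdvd q' h).2.1.mul_right q
    have hprod : M' = N * q * q * ∏ x ∈ Q, x := by rw [hM', Finset.prod_insert hqQ]; ring
    have hχ : TwistChar (charSq ψ (insert q Q) (N * q)) (charSq ψ Q (N * q * q)) (ψ q)
        (dvd_mul_left q N) (dvd_refl (N * q * q)) := fun u => by
      rw [charSq_unitsMap ψ hins, charSq_apply, charSq_apply, Finset.prod_insert hqQ, mul_comm]
      congr 2
      rw [charOn, dif_pos (dvd_mul_left q _)]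
      rfl
    obtain ⟨Φ, hi, hΦ⟩ := ih (N * q * q) M' hprod
      (fun q' h => ⟨(hdvd q' h).1, ((hdvd q' h).2.1.mul_right q).mul_right q, (hdvd q' h).2.2⟩)
      (fun q' h => hne q' (Finset.mem_insert_of_mem h))
    have hinj : Function.Injective (twist K hχ) :=
      twist_injective hχ hqN (hne q (Finset.mem_insert_self q Q)) fun u hu => by
        rw [← charSq_unitsMap ψ (fun q' h => (hdvd q' h).2.1)
          ((dvd_mul_right N q).trans (dvd_mul_right (N * q) q)), hu, map_one]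
    refine ⟨Φ.comp (twist K hχ), hi.comp hinj, fun ℓ _ hℓ u => ?_⟩
    have hℓ' : ¬ ℓ ∣ N * q * q := fun h => hℓ (h.trans ⟨_, hprod⟩)
    have hne' : ℓ ≠ q := fun h => hℓ' (by rw [h]; exact dvd_mul_left q _)
    rw [LinearMap.comp_apply, LinearMap.comp_apply, twist_heckeOp hχ hne' (fun h => absurd h hℓ'),
      map_smul, hΦ ℓ hℓ, smul_smul, charProd, charProd, Finset.prod_insert hqQ,
      Engine.Lifting.charAt_of_coprime ψ hne']

/-- Classes with the squares of arbitrary characters embed in classes with trivial character,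
compatibly with the scaled Hecke polynomials. -/
theorem exists_twistTrivial {N : ℕ} [NeZero N] {S : Finset ℕ} (Q : Finset ℕ)
    (hQ : ∀ q ∈ Q, q.Prime ∧ q ∣ N ∧ ¬ q * q ∣ N)
    (hS : ∀ ℓ : ℕ, ℓ.Prime → ℓ ∣ N → ℓ ∈ S) :
    ∃ Φ : Coh1 (scalarRep (charSq ψ Q N) K) →ₗ[K]
        Coh1 (trivRep (N * ∏ q ∈ sqSupport ψ Q, q) K K),
      Function.Injective Φ ∧ ∀ (a : AwayPoly K (↑S : Set ℕ)) u,
        Φ (awayIncl K (↑S : Set ℕ) a • u) = awayIncl K (↑S : Set ℕ)
          (twistPoly (fun l => charProd ψ (sqSupport ψ Q) ((l : Nat.Primes) : ℕ)) a) • Φ u := by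
  set Q' := sqSupport ψ Q
  have hQ' : ∀ q ∈ Q', q.Prime ∧ q ∣ N ∧ ¬ q * q ∣ N := fun q h => hQ q (sqSupport_subset ψ Q h)
  have hS' : ∀ ℓ : ℕ, ℓ.Prime → ℓ ∣ N * ∏ q ∈ Q', q → ℓ ∈ S := fun ℓ hℓ h => by
    rcases hℓ.dvd_mul.mp h with h | h
    · exact hS ℓ hℓ h
    · obtain ⟨q, hq, hlq⟩ := (Prime.dvd_finsetProd_iff hℓ.prime _).mp h
      exact hS ℓ hℓ (((Nat.prime_dvd_prime_iff_eq hℓ (hQ' q hq).1).mp hlq) ▸ (hQ' q hq).2.1)
  have hex := exists_twistChain_ne ψ Q' N _ rfl hQ' fun q hq => sq_ne_one_of_mem_sqSupport ψ hq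
  rw [charSq_sqSupport] at hex
  obtain ⟨Φ, hinj, hΦ⟩ := hex
  refine ⟨Φ, hinj, fun a u => ?_⟩
  have hl : ∀ (l : AwayIndex (↑S : Set ℕ)) v, Φ (heckeGen _ (l : Nat.Primes) v) =
      charProd ψ Q' ((l : Nat.Primes) : ℕ) • heckeGen _ (l : Nat.Primes) (Φ v) := fun l v => by
    have : Fact (((l : Nat.Primes) : ℕ)).Prime := ⟨(l : Nat.Primes).2⟩
    exact hΦ _ (fun h => l.2 (hS' _ (l : Nat.Primes).2 h)) v
  conv_lhs => rw [← twistPoly_twistPoly (invChar ψ Q' S)
    (fun l => charProd ψ Q' ((l : Nat.Primes) : ℕ)) (invChar_mul ψ Q' S) a]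
  exact twisted_smul Φ _ _ hl (invChar_mul ψ Q' S) _ u

end Fermat.Agent.TwoAdic.TSide
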