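import Fermat.Agent.TwoAdic.TSide.SignClass
import Fermat.Agent.TwoAdic.TSide.NormTrace
import Fermat.Agent.TwoAdic.TSide.FieldLattice
import Fermat.Agent.HeckeSemisimple.AtkinPoly

/-!
# Eigenvectors with `U_q² = 1` are new

Eigenvectors at level `q M` with `U_q² = 1` come from no class of level `M`: `w_q = - U_q` on them
and their norm to level `M` vanishes.
-/

set_option autoImplicit false

noncomputable section

open Matrix CongruenceSubgroup Polynomial
open scoped MatrixGroups

namespace Fermat.Agent.TwoAdic.TSide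

open HeckeJ0 HeckeModule EigenSystems Engine.TRep Engine.Lifting

variable {K : Type} [Field K] [CharZero K]

/-- A vector killed by a polynomial in an operator not vanishing at `± c`, on which the square of
the operator is `c²`, vanishes. -/
theorem eq_zero_of_sq_eq {V : Type*} [AddCommGroup V] [Module K V] (T : Module.End K V) {y : V}
    {c : ℤ} {g : ℤ[X]} (hg : g.eval c ≠ 0) (hg' : g.eval (-c) ≠ 0)
    (hT : T (T y) = ((c : K) ^ 2) • y) (h0 : aeval T g y = 0) : y = 0 := by
  set D : ℤ[X] := X ^ 2 - C (c ^ 2) with hD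
  have hDm : D.Monic := monic_X_pow_sub_C _ two_ne_zero
  obtain ⟨α, β, hr⟩ : ∃ α β : ℤ, g %ₘ D = C α * X + C β := by
    refine ⟨(g %ₘ D).coeff 1, (g %ₘ D).coeff 0, eq_X_add_C_of_natDegree_le_one ?_⟩
    have h2 : D.natDegree = 2 := natDegree_X_pow_sub_C
    have hD1 : D ≠ 1 := fun h => by rw [h, natDegree_one] at h2; exact absurd h2 (by norm_num)
    have := natDegree_modByMonic_lt g hDm hD1
    omega
  have hDy : aeval T D y = 0 := by
    rw [hD, map_sub, aeval_C, LinearMap.sub_apply, Module.algebraMap_end_apply, aeval_X_pow, pow_two,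
      Module.End.mul_apply, hT, ← Int.cast_smul_eq_zsmul K, Int.cast_pow, sub_self]
  have hval : ∀ e : ℤ, D.eval e = 0 → g.eval e = α * e + β := fun e he => by
    conv_lhs => rw [← modByMonic_add_div g D, hr]
    simp [he]
  have hlin : (α : K) • T y + (β : K) • y = 0 := by
    have h1 := congrArg (fun P => aeval T P y) (modByMonic_add_div g D)
    simp only [map_add, LinearMap.add_apply] at h1
    rw [mul_comm D, map_mul (aeval T) _ D, Module.End.mul_apply, hDy, map_zero, add_zero, h0, hr] at h1
    simpa [map_add, map_mul, Int.cast_smul_eq_zsmul] using h1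
  have hlin' : (α : K) • (((c : K) ^ 2) • y) + (β : K) • T y = 0 := by
    have := congrArg T hlin
    rwa [map_add, map_smul, map_smul, map_zero, hT] at this
  have hz : ((α * c + β) * (α * -c + β) : ℤ) ≠ 0 :=
    mul_ne_zero (hval c (by simp [hD]) ▸ hg) (hval (-c) (by simp [hD]) ▸ hg')
  refine (smul_eq_zero.mp
    (show (((α * c + β) * (α * -c + β) : ℤ) : K) • y = 0 from ?_)).resolve_left
    (Int.cast_ne_zero.mpr hz)
  push_cast
  linear_combination (norm := module) (β : K) • hlin - (α : K) • hlin'

variable {M q : ℕ} [NeZero M] [hq : Fact q.Prime] (hqM : ¬ q ∣ M) {r : ℕ} [hr : Fact r.Prime]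

/-- The version at the level `q M`. -/
theorem twoNew_vectors_aux {W : Finset ℕ} (hW : IsALPrimes (q * M) W) (he : q ∈ W)
    (v : Fin (rk (q * M)) → K) {a : K} (ha : a * a = 1)
    (hU : intAct (heckeMatAt (q * M) ⟨q, hq.out⟩) v = a • v) {e : K} (he0 : e ≠ (r : K) + 1)
    (hr1 : (r : ZMod (q * M)) = 1) (hTr : intAct (heckeMatAt (q * M) ⟨r, hr.out⟩) v = e • v) :
    intAct (alMatZ hW he) v = -(a • v) ∧
      ∀ i, ∑ k, normMatZ hqM rfl i k • v k = 0 := by
  classical
  have : NeZero q := ⟨hq.out.ne_zero⟩
  have hM1 : 1 ∣ M := one_dvd M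
  have hML : 1 ∣ q * M := one_dvd (q * M)
  set χ : (ZMod 1)ˣ →* K := 1 with hχ
  have hcast : scalarRep (levelChar hML χ) K = trivRep (q * M) K K := levelRep_eq hML χ hχ
  set u : Coh1 (scalarRep (levelChar hML χ) K) := (castCoh hcast).symm (toClass (N := q * M) v) with hu
  have hucast : castCoh hcast u = toClass (N := q * M) v := by rw [hu, LinearEquiv.apply_symm_apply]
  have hop : ∀ (l : Nat.Primes) (d : K), intAct (heckeMatAt (q * M) l) v = d • v →
      haveI : Fact (l : ℕ).Prime := ⟨l.2⟩
      heckeOp _ (l : ℕ) u = d • u := fun l d hd => by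
    have : Fact (l : ℕ).Prime := ⟨l.2⟩
    have h1 : heckeOp (trivRep (q * M) K K) (l : ℕ) (toClass (N := q * M) v) =
        d • toClass (N := q * M) v := by
      rw [show heckeOp (trivRep (q * M) K K) (l : ℕ) (toClass v) = heckeGen _ l (toClass v) from rfl,
        heckeGen_toClass, hd, map_smul]
    rw [hu, ← castCoh_symm_heckeOp, h1, map_smul]
  have hUu : heckeOp _ q u = a • u := hop ⟨q, hq.out⟩ a hU
  have hTu : heckeOp _ r u = e • u := hop ⟨r, hr.out⟩ e hTr
  set b := charTraceTwist K hM1 χ hqM hML u with hb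
  set c := charTrace K hM1 χ hqM hML u with hc
  set T := heckeOp (scalarRep (levelChar hM1 χ) K) q with hTdef
  set res := resSelf K hM1 hML χ with hres
  set w := wSelf K hqM hM1 hML χ with hw
  -- `U (res b) = res c`
  have hsq : heckeOp _ q (res b) = res c := by
    have h := heckeOp_sq_sub hqM hM1 hML χ hχ u
    rwa [hUu, map_smul, hUu, smul_smul, ha, one_smul, sub_self, eq_comm, sub_eq_zero] at h
  have hold : res (T b - c) + w (res (-b)) = 0 := by
    rw [map_sub, map_neg, map_neg, ← sub_eq_add_neg, sub_right_comm, hres, hw, hTdef,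
      ← heckeOp_resSelf hqM hM1 hML χ hχ b, ← hres, hsq, sub_self]
  obtain ⟨h1, h2⟩ := traces_old hqM hM1 hML χ hχ (T b - c) (-b)
  rw [← hres, ← hw, hold, map_zero] at h1 h2
  rw [← hTdef] at h1 h2
  simp only [map_neg, map_sub, smul_neg] at h1 h2
  have hTT : T (T b) = (((q : K) + 1) ^ 2) • b := by
    have h3 : ((q : K) + 1) • c = (q : K) • T b := by
      linear_combination (norm := module) h1
    have h4 : ((q : K) + 1) • T c = (q : K) • T (T b) := by
      rw [← map_smul, h3, map_smul]
    linear_combination (norm := module) -((q : K) + 1) • h2 + h4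
  -- `b` is killed by a polynomial in `T`
  obtain ⟨f, -, -, he1, he2, -, hf⟩ := HeckeSemisimple.exists_annihilator (N := M) hq.out hqM
  have hrq : ¬ r ∣ q * M := fun hd => by
    have h1 := congrArg (ZMod.castHom hd (ZMod r)) hr1
    rw [map_natCast, map_one, ZMod.natCast_self] at h1
    exact zero_ne_one h1
  have hr' : (r : ZMod M) = 1 := by
    have := congrArg (ZMod.castHom (dvd_mul_left M q) (ZMod M)) hr1
    rwa [map_natCast, map_one] at this
  have hTb : heckeOp (scalarRep (levelChar hM1 χ) K) r b = e • b := by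
    rw [hb, ← charTraceTwist_heckeOp hM1 χ hqM hML hrq, hTu, map_smul]
  have he' : e - ((r : K) + 1) ≠ 0 := sub_ne_zero.mpr he0
  have hb0 : b = 0 := by
    refine (smul_eq_zero.mp (show (e - ((r : K) + 1)) • b = 0 from ?_)).resolve_left he'
    have hkill := HeckeSemisimple.aeval_eisen_smul_eq_zero (A := K) (O := K)
      (ρ := scalarRep (levelChar hM1 χ) K)
      (fun z => LinearMap.ext fun x => by
        rw [scalarRep_apply, levelChar_eq_one hM1 χ hχ, MonoidHom.one_apply, one_smul]; rfl)
      hqM hf hr' b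
    rw [eisen_smul, hTb, ← sub_smul] at hkill
    refine eq_zero_of_sq_eq T (c := (q : ℤ) + 1) ?_ ?_ ?_ hkill
    · rw [eval_mul]
      refine mul_ne_zero he1 ?_
      have := hq.out.two_le
      simp
      nlinarith
    · rw [eval_mul]
      refine mul_ne_zero he2 ?_
      have := hq.out.two_le
      simp
      nlinarith
    · rw [map_smul, map_smul, hTT, smul_comm]
      push_cast
      rfl
  have hres0 : res b = 0 := by rw [hb0, map_zero]
  have hwu : w u = -(a • u) := by
    have h := heckeOp_add_wSelf hqM hM1 hML χ hχ u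
    rw [hUu, ← hres, ← hw, ← hb, hres0] at h
    exact eq_neg_of_add_eq_zero_right h
  constructor
  · have hlat : OnLattice (castCoh hcast u) := by
      rw [hucast]
      show HeckeJ0.ofCoords (q * M) (classCoords (toClass (N := q * M) v)) = _
      rw [classCoords_toClass, classHom_toClass]
    have hal := classCoords_alOp hML (isALPrimes_self hqM) (Finset.mem_singleton_self q)
      (coprime_self hqM hM1) χ hχ (1 : K) hlat
    rw [show alOp K (isALPrimes_self hqM) (Finset.mem_singleton_self q) hML χ
      (coprime_self hqM hM1) 1 u = w u from rfl, hwu, map_neg, map_smul, hucast, map_neg, map_smul,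
      classCoords_toClass, one_smul] at hal
    exact hal.symm
  · intro i
    rw [← normTransfer_ofCoords]
    obtain ⟨z, hz⟩ := toCoh_surjective (scalarRep (levelChar hML χ) K) u
    have hzv : ∀ g, z.1 g = HeckeJ0.ofCoords (q * M) v (Additive.ofMul g) := fun g => by
      have h := congrArg classHom (hucast.symm.trans (congrArg (castCoh hcast) hz.symm))
      rw [classHom_toClass, classHom_castCoh hcast (fun y => by rw [hcast]; rfl)] at h
      exact (DFunLike.congr_fun h (Additive.ofMul g)).symm
    have h0 := hb0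
    rw [hb, ← hz] at h0
    change toCoh _ ((charTraceTwistData K hM1 χ hqM hML).onCocycles toGL_injective z) = 0 at h0
    rw [toCoh_eq_zero_iff_of_trivial (fun y => LinearMap.ext fun x => by
        rw [scalarRep_apply, levelChar_eq_one hM1 χ hχ, MonoidHom.one_apply, one_smul]; rfl)] at h0
    have h1 := congrFun (congrArg Subtype.val h0) (cyc M i)
    refine Eq.trans ?_ h1
    show ∑ x, HeckeJ0.ofCoords (q * M) v
        (Additive.ofMul (castLevel rfl ((degenData hqM).tr x (cyc M i)))) =
      ∑ x, z.1 ((charTraceTwistData K hM1 χ hqM hML).tr x (cyc M i))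
    refine Finset.sum_congr rfl fun x _ => ?_
    show HeckeJ0.ofCoords (q * M) v (Additive.ofMul (castLevel rfl ((degenData hqM).tr x (cyc M i))))
      = z.1 _
    rw [hzv]
    rfl

/-- **Vectors new at `q`**: at a level `L = q M`, an eigenvector with `U_q² = 1` and a non
Eisenstein eigenvalue at `r ≡ 1` has `w_q = - U_q` and norm zero. -/
theorem twoNew_vectors {L : ℕ} [NeZero L] (hL : L = q * M) {W : Finset ℕ} (hW : IsALPrimes L W)
    (he : q ∈ W) (v : Fin (rk L) → K) {a : K} (ha : a * a = 1)
    (hU : intAct (heckeMatAt L ⟨q, hq.out⟩) v = a • v) {e : K} (he0 : e ≠ (r : K) + 1)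
    (hr1 : (r : ZMod L) = 1) (hTr : intAct (heckeMatAt L ⟨r, hr.out⟩) v = e • v) :
    intAct (alMatZ hW he) v = -(a • v) ∧ ∀ i, ∑ k, normMatZ hqM hL i k • v k = 0 := by
  subst hL
  exact twoNew_vectors_aux hqM hW he v ha hU he0 hr1 hTr

end Fermat.Agent.TwoAdic.TSide
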